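import Mathlib
import Fermat.Prelude.Def_ModularCurve_X0ModL

/-!
# S28 (M5), assembler, part 1: the concrete objects of the characteristic-`ℓ` crux

Mathlib + Prelude only.

* `transcendental_jqModC` : `j` is transcendental over any field; `Rj k = k[j]` is integrally
  closed and its units are constants.
* `isIntegral_of_ev` : the integrality criterion used along the prime tower.
-/

set_option autoImplicit false

noncomputable section

open ModularCurve HahnSeries

namespace Fermat.Agent.S28.CruxL

section trans

variable (k : Type*) [Field k]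

theorem algebraMap_mul_coeff (c : k) (x : LaurentSeries k) (n : ℤ) :
    (algebraMap k (LaurentSeries k) c * x).coeff n = c * x.coeff n := by
  rw [algebraMap_laurentSeries_eq_single, ← HahnSeries.C_apply,
    HahnSeries.C_mul_eq_smul, HahnSeries.coeff_smul, smul_eq_mul]

theorem coeff_aeval_jqModC (P : Polynomial k) :
    (Polynomial.aeval (jqModC k) P).coeff (-(P.natDegree : ℤ)) = P.leadingCoeff := by
  rw [Polynomial.aeval_def, Polynomial.eval₂_eq_sum_range, Finset.sum_range_succ,
    HahnSeries.coeff_add, HahnSeries.coeff_sum, Finset.sum_eq_zero, zero_add,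
    algebraMap_mul_coeff, coeff_jqModC_pow_self, mul_one, Polynomial.leadingCoeff]
  intro i hi
  rw [algebraMap_mul_coeff, coeff_jqModC_pow_of_lt k (by
    have := Finset.mem_range.mp hi
    omega), mul_zero]

/-- `j` is transcendental over any field of constants. -/
theorem transcendental_jqModC : Transcendental k (jqModC k) := by
  rw [transcendental_iff]
  intro P hP
  by_contra hne
  have h := coeff_aeval_jqModC k P
  rw [hP] at h
  exact (Polynomial.leadingCoeff_ne_zero.mpr hne) (by rw [← h]; rfl)

theorem aeval_jqModC_injective :
    Function.Injective (Polynomial.aeval (R := k) (jqModC k)) :=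
  transcendental_iff_injective.mp (transcendental_jqModC k)

/-- `k[j] ⊆ k((q))`. -/
abbrev Rj : Subalgebra k (LaurentSeries k) := Algebra.adjoin k {jqModC k}

instance isIntegrallyClosed_Rj : IsIntegrallyClosed (Rj k) :=
  IsIntegrallyClosed.of_equiv
    (Polynomial.algEquivOfTranscendental k (jqModC k) (transcendental_jqModC k)).toRingEquiv

/-- the units of `k[j]` are the nonzero constants. -/
theorem unit_Rj (r : (Rj k)ˣ) : ∃ c : k, c ≠ 0 ∧ ((r : Rj k) : LaurentSeries k) = HahnSeries.C c := by
  let e := Polynomial.algEquivOfTranscendental k (jqModC k) (transcendental_jqModC k)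
  have hu : IsUnit (e.symm (r : Rj k)) := (r.isUnit).map e.symm
  obtain ⟨c, hc, hceq⟩ := Polynomial.isUnit_iff.mp hu
  refine ⟨c, hc.ne_zero, ?_⟩
  have h1 : (r : Rj k) = e (Polynomial.C c) := by
    rw [hceq, AlgEquiv.apply_symm_apply]
  rw [h1, Polynomial.algEquivOfTranscendental_apply, Polynomial.aeval_C,
    Subalgebra.coe_algebraMap, algebraMap_laurentSeries_eq_single, ← HahnSeries.C_apply]

end trans

end Fermat.Agent.S28.CruxL
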