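import Mathlib
import Fermat.Prelude.Def_ModularCurve_X0ModL

/-!
# S28: shared definitions (single source of truth for the monomial families)

* `jd R d`   : `j(q^d)` with coefficients in `R`, total in `d` (`0` for `d = 0`);
* `mono R m` : the monomial `∏_d jd R d ^ m d` for an exponent vector `m : ℕ →₀ ℕ`;
* `jqInv R`  : the inverse of `jqModC R` (it has integral coefficients);
* compatibility with `coeffMap` (change of coefficient ring), so that the characteristic `0`
  monomial `mono ℚ m` has integral coefficients and reduces to `mono (ZMod ℓ) m`.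
-/

namespace Fermat.Agent.S28.Defs

open ModularCurve

noncomputable section

variable (R : Type*) [CommRing R]

/-- `j(q^d)` with coefficients in `R`; total in `d`. -/
def jd (d : ℕ) : LaurentSeries R :=
  if h : d = 0 then 0 else (haveI : NeZero d := ⟨h⟩; qExpand R d (jqModC R))

theorem jd_zero : jd R 0 = 0 := by simp [jd]

theorem jd_of_neZero (d : ℕ) [NeZero d] : jd R d = qExpand R d (jqModC R) := by
  simp [jd, NeZero.ne d]

theorem jd_eq_jqNModC (d : ℕ) [NeZero d] : jd R d = jqNModC R d := jd_of_neZero R d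

theorem jd_one : jd R 1 = jqModC R := by
  rw [jd_of_neZero, qExpand_one_apply]

theorem jd_rat (d : ℕ) [NeZero d] : jd ℚ d = qExpand ℚ d jq := jd_of_neZero ℚ d

/-- the monomial `∏_d (j(q^d))^(m d)`. -/
def mono (m : ℕ →₀ ℕ) : LaurentSeries R := m.prod fun d e => jd R d ^ e

theorem mono_zero : mono R 0 = 1 := by simp [mono]

theorem mono_single (d e : ℕ) : mono R (Finsupp.single d e) = jd R d ^ e := by
  simp [mono]

theorem mono_add (m m' : ℕ →₀ ℕ) : mono R (m + m') = mono R m * mono R m' := by
  rw [mono, mono, mono, Finsupp.prod_add_index' (fun _ => pow_zero _) (fun _ _ _ => pow_add _ _ _)]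

variable {R}

theorem coeffMap_jd {S : Type*} [CommRing S] (f : R →+* S) (d : ℕ) :
    coeffMap f (jd R d) = jd S d := by
  rcases eq_or_ne d 0 with rfl | hd
  · simp [jd_zero]
  · haveI : NeZero d := ⟨hd⟩
    rw [jd_of_neZero, jd_of_neZero, coeffMap_qExpand, coeffMap_jqModC]

theorem coeffMap_mono {S : Type*} [CommRing S] (f : R →+* S) (m : ℕ →₀ ℕ) :
    coeffMap f (mono R m) = mono S m := by
  rw [mono, mono, Finsupp.prod, map_prod, Finsupp.prod]
  exact Finset.prod_congr rfl fun d _ => by rw [map_pow, coeffMap_jd]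

variable (R)

/-- the inverse of `jqModC R`: `q * (jNum)⁻¹`. -/
def jqInv : LaurentSeries R :=
  HahnSeries.single (1 : ℤ) 1 *
    HahnSeries.ofPowerSeries ℤ R (PowerSeries.invOfUnit (jNum.map (Int.castRingHom R)) 1)

theorem jqModC_mul_jqInv : jqModC R * jqInv R = 1 := by
  have h1 : PowerSeries.constantCoeff (jNum.map (Int.castRingHom R)) = ((1 : Rˣ) : R) := by
    rw [← PowerSeries.coeff_zero_eq_constantCoeff, PowerSeries.coeff_map,
      PowerSeries.coeff_zero_eq_constantCoeff, constantCoeff_jNum]
    simp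
  have h2 := PowerSeries.mul_invOfUnit (jNum.map (Int.castRingHom R)) 1 h1
  rw [jqModC, jqInv]
  calc HahnSeries.single (-1 : ℤ) (1 : R) * HahnSeries.ofPowerSeries ℤ R (jNum.map (Int.castRingHom R)) *
        (HahnSeries.single (1 : ℤ) 1 *
          HahnSeries.ofPowerSeries ℤ R (PowerSeries.invOfUnit (jNum.map (Int.castRingHom R)) 1))
      = (HahnSeries.single (-1 : ℤ) (1 : R) * HahnSeries.single (1 : ℤ) 1) *
          (HahnSeries.ofPowerSeries ℤ R (jNum.map (Int.castRingHom R)) *
            HahnSeries.ofPowerSeries ℤ R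
              (PowerSeries.invOfUnit (jNum.map (Int.castRingHom R)) 1)) := by ring
    _ = 1 := by
        rw [← map_mul, h2, HahnSeries.single_mul_single, (HahnSeries.ofPowerSeries ℤ R).map_one,
          mul_one, mul_one]
        rfl

theorem jqInv_mul_jqModC : jqInv R * jqModC R = 1 := by
  rw [mul_comm, jqModC_mul_jqInv]

theorem isUnit_jqModC : IsUnit (jqModC R) :=
  ⟨⟨jqModC R, jqInv R, jqModC_mul_jqInv R, jqInv_mul_jqModC R⟩, rfl⟩

variable {R}

theorem coeffMap_jqInv {S : Type*} [CommRing S] (f : R →+* S) :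
    coeffMap f (jqInv R) = jqInv S := by
  have h : coeffMap f (jqModC R) * coeffMap f (jqInv R) = 1 := by
    rw [← map_mul, jqModC_mul_jqInv, map_one]
  rw [coeffMap_jqModC] at h
  calc coeffMap f (jqInv R) = (jqInv S * jqModC S) * coeffMap f (jqInv R) := by
        rw [jqInv_mul_jqModC, one_mul]
    _ = jqInv S * (jqModC S * coeffMap f (jqInv R)) := by ring
    _ = jqInv S := by rw [h, mul_one]

/-- over a field `jqInv` is the inverse. -/
theorem jqInv_eq_inv (k : Type*) [Field k] : jqInv k = (jqModC k)⁻¹ :=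
  eq_inv_of_mul_eq_one_right (jqModC_mul_jqInv k)

theorem jqInv_rat : jqInv ℚ = jq⁻¹ := jqInv_eq_inv ℚ

end

end Fermat.Agent.S28.Defs
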