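import Mathlib

/-!
# S28 (M5), global half: counting embeddings

Abstract, Mathlib-only field theory used for the count of embeddings of the function field of
the special fibre:

* `card_fibre`, `exists_comp_eq`, `sum_comp_eq`: the restriction map
  `(L' →ₐ[K₀] Ω) → (L →ₐ[K₀] Ω)` is surjective with fibres of constant size;
* `sum_v_eq_zero`: for `u`, `u⁻¹` integral over an integrally closed `R` with fraction field
  `K₀`, the sum over all embeddings of the order of the conjugates of `u` vanishes (no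
  separability hypothesis);
* `sum_ord_eq_zero`, `sum_ord_eq_zero_of_mem`: the same with the order function living on a
  subfield `Ω₀` of the algebraically closed field `Ω`;
* `card_algHom_le_finrank`, `sum_eq_card_of_step`, `pairing`,
  `exists_monomials_linearIndependent`.
-/

open Polynomial IntermediateField

namespace Fermat.Agent.S28.EmbCount

section Fibre

variable {K₀ L L' Ω : Type*} [Field K₀] [Field L] [Field L'] [Field Ω]
  [Algebra K₀ L] [Algebra K₀ L'] [Algebra K₀ Ω]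

/-- The fibres of the restriction map `(L' →ₐ[K₀] Ω) → (L →ₐ[K₀] Ω)` all have the same
cardinality `[L' : L]_s` when `Ω` is algebraically closed and `L'/L` is algebraic. -/
theorem card_fibre [Algebra L L'] [IsScalarTower K₀ L L'] [Algebra.IsAlgebraic L L']
    [IsAlgClosed Ω] (τ : L →ₐ[K₀] Ω) :
    Nat.card {τ' : L' →ₐ[K₀] Ω // τ'.comp (IsScalarTower.toAlgHom K₀ L L') = τ} =
      Field.finSepDegree L L' := by
  let _ : Algebra L Ω := τ.toRingHom.toAlgebra
  have : IsScalarTower K₀ L Ω := IsScalarTower.of_algebraMap_eq (fun x => (τ.commutes x).symm)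
  rw [Field.finSepDegree_eq_of_isAlgClosed L L' Ω]
  refine Nat.card_congr ⟨fun τ' => { τ'.1.toRingHom with commutes' := fun x => ?_ },
    fun σ => ⟨σ.restrictScalars K₀, ?_⟩, fun τ' => ?_, fun σ => ?_⟩
  · have := congrArg (fun h => h x) τ'.2
    exact this
  · ext x
    exact σ.commutes x
  · ext x
    rfl
  · ext x
    rfl

/-- Every embedding of the small field extends to the big one. -/
theorem exists_comp_eq [FiniteDimensional K₀ L'] [IsAlgClosed Ω] (f : L →ₐ[K₀] L')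
    (τ : L →ₐ[K₀] Ω) : ∃ τ' : L' →ₐ[K₀] Ω, τ'.comp f = τ := by
  let _ : Algebra L L' := f.toRingHom.toAlgebra
  have hst : IsScalarTower K₀ L L' := IsScalarTower.of_algebraMap_eq (fun x => (f.commutes x).symm)
  have hfd : FiniteDimensional L L' := FiniteDimensional.right K₀ L L'
  have hf : IsScalarTower.toAlgHom K₀ L L' = f := by
    ext x; rfl
  have h := card_fibre (K₀ := K₀) (L := L) (L' := L') (Ω := Ω) τ
  rw [hf] at h
  have hne : Nat.card {τ' : L' →ₐ[K₀] Ω // τ'.comp f = τ} ≠ 0 := by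
    rw [h]; exact NeZero.ne _
  obtain ⟨τ', hτ'⟩ := (Nat.card_ne_zero.mp hne).1
  exact ⟨τ', hτ'⟩

/-- Summing a function of the restriction over all embeddings of the big field is a positive
multiple of the sum over the embeddings of the small field. -/
theorem sum_comp_eq [FiniteDimensional K₀ L'] [IsAlgClosed Ω] (f : L →ₐ[K₀] L')
    [Fintype (L →ₐ[K₀] Ω)] [Fintype (L' →ₐ[K₀] Ω)] (g : (L →ₐ[K₀] Ω) → ℚ) :
    ∃ c : ℕ, 0 < c ∧
      ∑ τ' : L' →ₐ[K₀] Ω, g (τ'.comp f) = c * ∑ τ : L →ₐ[K₀] Ω, g τ := by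
  classical
  let _ : Algebra L L' := f.toRingHom.toAlgebra
  have hst : IsScalarTower K₀ L L' := IsScalarTower.of_algebraMap_eq (fun x => (f.commutes x).symm)
  have hfd : FiniteDimensional L L' := FiniteDimensional.right K₀ L L'
  have hf : IsScalarTower.toAlgHom K₀ L L' = f := by
    ext x; rfl
  refine ⟨Field.finSepDegree L L', Nat.pos_of_ne_zero (NeZero.ne _), ?_⟩
  rw [← Finset.sum_fiberwise (s := Finset.univ) (g := fun τ' : L' →ₐ[K₀] Ω => τ'.comp f)
    (f := fun τ' => g (τ'.comp f)), Finset.mul_sum]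
  refine Finset.sum_congr rfl fun τ _ => ?_
  have h1 : ∀ τ' ∈ Finset.univ.filter (fun τ' : L' →ₐ[K₀] Ω => τ'.comp f = τ),
      g (τ'.comp f) = g τ := by
    intro τ' hτ'
    rw [(Finset.mem_filter.mp hτ').2]
  rw [Finset.sum_congr rfl h1, Finset.sum_const, nsmul_eq_mul]
  congr 2
  have := card_fibre (K₀ := K₀) (L := L) (L' := L') (Ω := Ω) τ
  rw [hf] at this
  rw [← this, Nat.card_eq_fintype_card, Fintype.card_subtype]

end Fibre

section Ord

variable {Ω : Type*} [Field Ω]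

/-- An abstract order function `v`, additive on a multiplicatively closed class `P`. -/
structure IsOrd (P : Ω → Prop) (v : Ω → ℚ) : Prop where
  one : P 1
  mul : ∀ x y, P x → P y → P (x * y)
  v_one : v 1 = 0
  v_mul : ∀ x y, P x → P y → v (x * y) = v x + v y

theorem IsOrd.pow {P : Ω → Prop} {v : Ω → ℚ} (h : IsOrd P v) {x : Ω} (hx : P x) (n : ℕ) :
    P (x ^ n) ∧ v (x ^ n) = n * v x := by
  induction n with
  | zero => simpa using ⟨h.one, h.v_one⟩
  | succ n ih =>
    rw [pow_succ]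
    refine ⟨h.mul _ _ ih.1 hx, ?_⟩
    rw [h.v_mul _ _ ih.1 hx, ih.2]
    push_cast; ring

theorem IsOrd.prod {P : Ω → Prop} {v : Ω → ℚ} (h : IsOrd P v) {ι : Type*} (s : Finset ι)
    (x : ι → Ω) (hx : ∀ i ∈ s, P (x i)) :
    P (∏ i ∈ s, x i) ∧ v (∏ i ∈ s, x i) = ∑ i ∈ s, v (x i) := by
  classical
  induction s using Finset.induction_on with
  | empty => simpa using ⟨h.one, h.v_one⟩
  | insert a s ha ih =>
    have ih' := ih (fun i hi => hx i (Finset.mem_insert_of_mem hi))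
    have hxa := hx a (Finset.mem_insert_self a s)
    rw [Finset.prod_insert ha, Finset.sum_insert ha]
    exact ⟨h.mul _ _ hxa ih'.1, by rw [h.v_mul _ _ hxa ih'.1, ih'.2]⟩

end Ord

section Core

variable {R K₀ L' Ω : Type*} [CommRing R] [IsIntegrallyClosed R]
  [Field K₀] [Algebra R K₀] [IsFractionRing R K₀]
  [Field L'] [Algebra K₀ L'] [Algebra R L'] [IsScalarTower R K₀ L'] [FiniteDimensional K₀ L']
  [Field Ω] [Algebra K₀ Ω] [IsAlgClosed Ω]

omit [FiniteDimensional K₀ L'] in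
/-- The norm of an element which is integral together with its inverse is a unit of `R`. -/
theorem norm_unit (u : L') (hu : IsIntegral R u) (hu' : IsIntegral R u⁻¹) (hu0 : u ≠ 0) :
    ∃ r : Rˣ, Algebra.norm K₀ u = algebraMap R K₀ r := by
  obtain ⟨r, hr⟩ := IsIntegrallyClosed.isIntegral_iff.mp (Algebra.isIntegral_norm K₀ hu)
  obtain ⟨r', hr'⟩ := IsIntegrallyClosed.isIntegral_iff.mp (Algebra.isIntegral_norm K₀ hu')
  have h1 : r * r' = 1 := by
    apply IsFractionRing.injective R K₀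
    rw [map_mul, hr, hr', ← map_mul, mul_inv_cancel₀ hu0, map_one, map_one]
  exact ⟨Units.mkOfMulEqOne r r' h1, hr.symm⟩

theorem sum_v_eq_zero_of_isSeparable {P : Ω → Prop} {v : Ω → ℚ} (hPv : IsOrd P v)
    (hunit : ∀ r : Rˣ, v (algebraMap K₀ Ω (algebraMap R K₀ r)) = 0)
    (u : L') (hu : IsIntegral R u) (hu' : IsIntegral R u⁻¹) (hu0 : u ≠ 0)
    (hsep : IsSeparable K₀ u) (hP : ∀ τ' : L' →ₐ[K₀] Ω, P (τ' u))
    [Fintype (L' →ₐ[K₀] Ω)] :
    ∑ τ' : L' →ₐ[K₀] Ω, v (τ' u) = 0 := by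
  classical
  have hsepM : Algebra.IsSeparable K₀ K₀⟮u⟯ :=
    (isSeparable_adjoin_simple_iff_isSeparable K₀ L').mpr hsep
  obtain ⟨c, hc, hsum⟩ := sum_comp_eq (Ω := Ω) (K₀⟮u⟯.val)
    (fun σ => v (σ (AdjoinSimple.gen K₀ u)))
  have hcomp : ∀ τ' : L' →ₐ[K₀] Ω, (τ'.comp K₀⟮u⟯.val) (AdjoinSimple.gen K₀ u) = τ' u :=
    fun τ' => rfl
  simp only [hcomp] at hsum
  rw [hsum]
  have hPσ : ∀ σ : K₀⟮u⟯ →ₐ[K₀] Ω, P (σ (AdjoinSimple.gen K₀ u)) := by
    intro σ
    obtain ⟨τ', rfl⟩ := exists_comp_eq (Ω := Ω) (K₀⟮u⟯.val) σ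
    exact hP τ'
  have hprod := hPv.prod Finset.univ (fun σ : K₀⟮u⟯ →ₐ[K₀] Ω => σ (AdjoinSimple.gen K₀ u))
    (fun σ _ => hPσ σ)
  rw [← hprod.2]
  have hnorm : algebraMap K₀ Ω (Algebra.norm K₀ (AdjoinSimple.gen K₀ u)) =
      ∏ σ : K₀⟮u⟯ →ₐ[K₀] Ω, σ (AdjoinSimple.gen K₀ u) :=
    Algebra.norm_eq_prod_embeddings K₀ Ω _
  rw [← hnorm] at hprod ⊢
  obtain ⟨r, hr⟩ := norm_unit (R := R) (K₀ := K₀) u hu hu' hu0
  have h2 := Algebra.norm_eq_norm_adjoin K₀ u
  have h3 := hPv.pow hprod.1 (Module.finrank K₀⟮u⟯ L')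
  rw [← map_pow, ← h2, hr, hunit r] at h3
  have hfr : (Module.finrank K₀⟮u⟯ L' : ℚ) ≠ 0 := by
    have : 0 < Module.finrank K₀⟮u⟯ L' := Module.finrank_pos
    exact_mod_cast this.ne'
  have h4 : v (algebraMap K₀ Ω (Algebra.norm K₀ (AdjoinSimple.gen K₀ u))) = 0 := by
    have := h3.2
    rcases mul_eq_zero.mp this.symm with h | h
    · exact absurd h hfr
    · exact h
  rw [h4, mul_zero]

theorem sum_v_eq_zero {P : Ω → Prop} {v : Ω → ℚ} (hPv : IsOrd P v)
    (hunit : ∀ r : Rˣ, v (algebraMap K₀ Ω (algebraMap R K₀ r)) = 0)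
    (u : L') (hu : IsIntegral R u) (hu' : IsIntegral R u⁻¹) (hu0 : u ≠ 0)
    (hP : ∀ τ' : L' →ₐ[K₀] Ω, P (τ' u))
    [Fintype (L' →ₐ[K₀] Ω)] :
    ∑ τ' : L' →ₐ[K₀] Ω, v (τ' u) = 0 := by
  have halg : IsIntegral K₀ u := Algebra.IsIntegral.isIntegral u
  obtain ⟨g, hg, n, hgn⟩ := (minpoly.irreducible halg).hasSeparableContraction (ringExpChar K₀)
  have hsep : IsSeparable K₀ (u ^ ringExpChar K₀ ^ n) :=
    hg.of_dvd (minpoly.dvd K₀ _ (by
      simpa only [expand_aeval, minpoly.aeval] using congrArg (aeval u) hgn))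
  have hq : 0 < ringExpChar K₀ ^ n := Nat.pow_pos (expChar_pos K₀ (ringExpChar K₀))
  have key := sum_v_eq_zero_of_isSeparable (R := R) hPv hunit (u ^ ringExpChar K₀ ^ n)
    (hu.pow _) (by rw [← inv_pow]; exact hu'.pow _) (pow_ne_zero _ hu0) hsep
    (fun τ' => by rw [map_pow]; exact (hPv.pow (hP τ') _).1)
  have h2 : ∀ τ' : L' →ₐ[K₀] Ω, v (τ' (u ^ ringExpChar K₀ ^ n)) =
      ((ringExpChar K₀ ^ n : ℕ) : ℚ) * v (τ' u) := by
    intro τ'
    rw [map_pow]; exact (hPv.pow (hP τ') _).2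
  simp only [h2] at key
  rw [← Finset.mul_sum] at key
  rcases mul_eq_zero.mp key with h | h
  · exact absurd (by exact_mod_cast h) hq.ne'
  · exact h

end Core

section Main

variable {R K₀ E Ω₀ Ω : Type*} [CommRing R] [IsIntegrallyClosed R]
  [Field K₀] [Algebra R K₀] [IsFractionRing R K₀]
  [Field E] [Algebra K₀ E] [Algebra R E] [IsScalarTower R K₀ E]
  [Field Ω₀] [Field Ω] [Algebra Ω₀ Ω] [Algebra K₀ Ω] [IsAlgClosed Ω]

omit [IsIntegrallyClosed R] [IsFractionRing R K₀] in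
theorem isIntegral_mk (L' : IntermediateField K₀ E) {u : E} (huL : u ∈ L')
    (hu : IsIntegral R u) : IsIntegral R (⟨u, huL⟩ : L') := by
  obtain ⟨p, hp, hpu⟩ := hu
  refine ⟨p, hp, (algebraMap L' E).injective ?_⟩
  rw [Polynomial.hom_eval₂, map_zero]
  have hcomp : (algebraMap L' E).comp (algebraMap R L') = algebraMap R E := by
    ext r
    rw [RingHom.comp_apply, IsScalarTower.algebraMap_apply R K₀ L',
      IsScalarTower.algebraMap_apply R K₀ E]
    rfl
  rw [hcomp]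
  exact hpu

/-- **Sum of orders of the conjugates of a unit is zero**, in the shape used for the count of
embeddings: `u` is an element of the ambient field `E`, integral over `R` together with its
inverse; if for every intermediate field `L' ∋ u` containing `L` and every embedding `τ'` of `L'`
the conjugate `τ' u` lies in `Ω₀` and has order `g (τ'|_L)`, then `∑ τ, g τ = 0`. -/
theorem sum_ord_eq_zero
    (ord : Ω₀ → ℚ) (hord : ∀ x y : Ω₀, x ≠ 0 → y ≠ 0 → ord (x * y) = ord x + ord y)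
    (hunit : ∀ r : Rˣ, ∃ z : Ω₀,
      algebraMap K₀ Ω (algebraMap R K₀ r) = algebraMap Ω₀ Ω z ∧ ord z = 0)
    (L : IntermediateField K₀ E) [FiniteDimensional K₀ L] (u : E)
    (hu : IsIntegral R u) (hu' : IsIntegral R u⁻¹) (hu0 : u ≠ 0)
    (g : (L →ₐ[K₀] Ω) → ℚ)
    (hpair : ∀ (L' : IntermediateField K₀ E) (hLL' : L ≤ L') (huL : u ∈ L')
      (τ' : L' →ₐ[K₀] Ω), ∃ z : Ω₀, τ' ⟨u, huL⟩ = algebraMap Ω₀ Ω z ∧
        ord z = g (τ'.comp (IntermediateField.inclusion hLL'))) :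
    ∑ τ : L →ₐ[K₀] Ω, g τ = 0 := by
  classical
  have hinj : Function.Injective (algebraMap Ω₀ Ω) := (algebraMap Ω₀ Ω).injective
  have hord1 : ord 1 = 0 := by
    have := hord 1 1 one_ne_zero one_ne_zero
    rw [mul_one] at this
    linarith
  set v : Ω → ℚ := fun x => if h : ∃ z : Ω₀, algebraMap Ω₀ Ω z = x then ord h.choose else 0
    with hvdef
  have hv : ∀ z : Ω₀, v (algebraMap Ω₀ Ω z) = ord z := by
    intro z
    have h : ∃ z' : Ω₀, algebraMap Ω₀ Ω z' = algebraMap Ω₀ Ω z := ⟨z, rfl⟩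
    simp only [hvdef, dif_pos h]
    rw [hinj h.choose_spec]
  set P : Ω → Prop := fun x => x ≠ 0 ∧ ∃ z : Ω₀, algebraMap Ω₀ Ω z = x with hPdef
  have hPv : IsOrd P v := by
    refine ⟨⟨one_ne_zero, 1, map_one _⟩, ?_, ?_, ?_⟩
    · rintro x y ⟨hx0, a, rfl⟩ ⟨hy0, b, rfl⟩
      exact ⟨mul_ne_zero hx0 hy0, a * b, map_mul _ _ _⟩
    · rw [← map_one (algebraMap Ω₀ Ω), hv, hord1]
    · rintro x y ⟨hx0, a, rfl⟩ ⟨hy0, b, rfl⟩
      have ha : a ≠ 0 := fun h => hx0 (by rw [h, map_zero])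
      have hb : b ≠ 0 := fun h => hy0 (by rw [h, map_zero])
      rw [← map_mul, hv, hv, hv, hord a b ha hb]
  have hunit' : ∀ r : Rˣ, v (algebraMap K₀ Ω (algebraMap R K₀ r)) = 0 := by
    intro r
    obtain ⟨z, hz, hz0⟩ := hunit r
    rw [hz, hv, hz0]
  have huK : IsIntegral K₀ u := hu.tower_top
  have hfdu : FiniteDimensional K₀ K₀⟮u⟯ := adjoin.finiteDimensional huK
  set L' : IntermediateField K₀ E := L ⊔ K₀⟮u⟯ with hL'
  have hfd : FiniteDimensional K₀ L' := by rw [hL']; infer_instance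
  have hLL' : L ≤ L' := le_sup_left
  have huL : u ∈ L' := (le_sup_right : K₀⟮u⟯ ≤ L') (mem_adjoin_simple_self K₀ u)
  have huL' : u⁻¹ ∈ L' := L'.inv_mem huL
  obtain ⟨c, hc, hsum⟩ := sum_comp_eq (Ω := Ω) (IntermediateField.inclusion hLL') g
  have hg : ∀ τ' : L' →ₐ[K₀] Ω, g (τ'.comp (IntermediateField.inclusion hLL')) =
      v (τ' ⟨u, huL⟩) := by
    intro τ'
    obtain ⟨z, hz, hz0⟩ := hpair L' hLL' huL τ'
    rw [hz, hv, hz0]
  have hPu : ∀ τ' : L' →ₐ[K₀] Ω, P (τ' ⟨u, huL⟩) := by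
    intro τ'
    obtain ⟨z, hz, -⟩ := hpair L' hLL' huL τ'
    refine ⟨?_, z, hz.symm⟩
    rw [Ne, map_eq_zero]
    exact fun h => hu0 (congrArg Subtype.val h)
  have hinv : (⟨u, huL⟩ : L')⁻¹ = ⟨u⁻¹, huL'⟩ := rfl
  have key := sum_v_eq_zero (R := R) hPv hunit' (⟨u, huL⟩ : L') (isIntegral_mk L' huL hu)
    (by rw [hinv]; exact isIntegral_mk L' huL' hu')
    (fun h => hu0 (congrArg Subtype.val h)) hPu
  simp only [hg] at hsum
  rw [key] at hsum
  have hc' : (c : ℚ) ≠ 0 := by exact_mod_cast hc.ne'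
  rcases mul_eq_zero.mp hsum.symm with h | h
  · exact absurd h hc'
  · exact h

end Main

section MainAbstract

variable {R K₀ L Ω₀ Ω : Type*} [CommRing R] [IsIntegrallyClosed R]
  [Field K₀] [Algebra R K₀] [IsFractionRing R K₀]
  [Field L] [Algebra K₀ L] [Algebra R L] [IsScalarTower R K₀ L] [FiniteDimensional K₀ L]
  [Field Ω₀] [Field Ω] [Algebra Ω₀ Ω] [Algebra K₀ Ω] [IsAlgClosed Ω]

/-- The same statement when the unit `u` already lies in the field `L` whose embeddings are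
counted (`L` an abstract finite extension of `K₀`). -/
theorem sum_ord_eq_zero_of_mem
    (ord : Ω₀ → ℚ) (hord : ∀ x y : Ω₀, x ≠ 0 → y ≠ 0 → ord (x * y) = ord x + ord y)
    (hunit : ∀ r : Rˣ, ∃ z : Ω₀,
      algebraMap K₀ Ω (algebraMap R K₀ r) = algebraMap Ω₀ Ω z ∧ ord z = 0)
    (u : L) (hu : IsIntegral R u) (hu' : IsIntegral R u⁻¹) (hu0 : u ≠ 0)
    (g : (L →ₐ[K₀] Ω) → ℚ) [Fintype (L →ₐ[K₀] Ω)]
    (hpair : ∀ τ : L →ₐ[K₀] Ω, ∃ z : Ω₀, τ u = algebraMap Ω₀ Ω z ∧ ord z = g τ) :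
    ∑ τ : L →ₐ[K₀] Ω, g τ = 0 := by
  classical
  have hinj : Function.Injective (algebraMap Ω₀ Ω) := (algebraMap Ω₀ Ω).injective
  have hord1 : ord 1 = 0 := by
    have := hord 1 1 one_ne_zero one_ne_zero
    rw [mul_one] at this
    linarith
  set v : Ω → ℚ := fun x => if h : ∃ z : Ω₀, algebraMap Ω₀ Ω z = x then ord h.choose else 0
    with hvdef
  have hv : ∀ z : Ω₀, v (algebraMap Ω₀ Ω z) = ord z := by
    intro z
    have h : ∃ z' : Ω₀, algebraMap Ω₀ Ω z' = algebraMap Ω₀ Ω z := ⟨z, rfl⟩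
    simp only [hvdef, dif_pos h]
    rw [hinj h.choose_spec]
  set P : Ω → Prop := fun x => x ≠ 0 ∧ ∃ z : Ω₀, algebraMap Ω₀ Ω z = x with hPdef
  have hPv : IsOrd P v := by
    refine ⟨⟨one_ne_zero, 1, map_one _⟩, ?_, ?_, ?_⟩
    · rintro x y ⟨hx0, a, rfl⟩ ⟨hy0, b, rfl⟩
      exact ⟨mul_ne_zero hx0 hy0, a * b, map_mul _ _ _⟩
    · rw [← map_one (algebraMap Ω₀ Ω), hv, hord1]
    · rintro x y ⟨hx0, a, rfl⟩ ⟨hy0, b, rfl⟩
      have ha : a ≠ 0 := fun h => hx0 (by rw [h, map_zero])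
      have hb : b ≠ 0 := fun h => hy0 (by rw [h, map_zero])
      rw [← map_mul, hv, hv, hv, hord a b ha hb]
  have hunit' : ∀ r : Rˣ, v (algebraMap K₀ Ω (algebraMap R K₀ r)) = 0 := by
    intro r
    obtain ⟨z, hz, hz0⟩ := hunit r
    rw [hz, hv, hz0]
  have hg : ∀ τ : L →ₐ[K₀] Ω, g τ = v (τ u) := by
    intro τ
    obtain ⟨z, hz, hz0⟩ := hpair τ
    rw [hz, hv, hz0]
  have hPu : ∀ τ : L →ₐ[K₀] Ω, P (τ u) := by
    intro τ
    obtain ⟨z, hz, -⟩ := hpair τ
    refine ⟨?_, z, hz.symm⟩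
    rw [Ne, map_eq_zero]
    exact hu0
  simp only [hg]
  exact sum_v_eq_zero (R := R) hPv hunit' u hu hu' hu0 hPu

omit [IsIntegrallyClosed R] [IsFractionRing R K₀] [Algebra R L] [IsScalarTower R K₀ L] in
/-- The number of embeddings is at most the degree. -/
theorem card_algHom_le_finrank [Fintype (L →ₐ[K₀] Ω)] :
    Fintype.card (L →ₐ[K₀] Ω) ≤ Module.finrank K₀ L := by
  rw [← Nat.card_eq_fintype_card, ← Field.finSepDegree_eq_of_isAlgClosed K₀ L Ω]
  exact Field.finSepDegree_le_finrank K₀ L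

end MainAbstract

section Combinatorics

/-- From the vanishing of the step sums to helper6's `hsum` hypothesis. -/
theorem sum_eq_card_of_step (N : ℕ) (hN : 0 < N) {T : Type*} [Fintype T] (s : T → ℕ → ℚ)
    (h1 : ∀ τ, s τ 1 = 1)
    (hst : ∀ p d : ℕ, p.Prime → d * p ∣ N → ∑ τ, (s τ (d * p) - s τ d) = 0) :
    ∀ d, d ∣ N → ∑ τ, s τ d = Fintype.card T := by
  intro d
  induction d using Nat.strong_induction_on with
  | _ d ih =>
    intro hd
    have hd0 : d ≠ 0 := by
      rintro rfl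
      exact hN.ne' (Nat.eq_zero_of_zero_dvd hd)
    by_cases hd1 : d = 1
    · subst hd1
      simp [h1]
    · have hp : d.minFac.Prime := Nat.minFac_prime hd1
      have hdvd : d.minFac ∣ d := Nat.minFac_dvd d
      have hmul : d / d.minFac * d.minFac = d := Nat.div_mul_cancel hdvd
      have hlt : d / d.minFac < d := Nat.div_lt_self (Nat.pos_of_ne_zero hd0) hp.one_lt
      have h2 := hst d.minFac (d / d.minFac) hp (by rw [hmul]; exact hd)
      rw [hmul, Finset.sum_sub_distrib, sub_eq_zero] at h2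
      rw [h2]
      exact ih _ hlt ((Nat.div_dvd_of_dvd hdvd).trans hd)

/-- The pairing lemma: a root `α + Y β` of `∏ (T - (a w + Y b w))` is one of the `a w + Y b w`
(with the SAME `w` for both components). -/
theorem pairing {Ω : Type*} [Field Ω] {W : Type*} (t : Finset W) (a b : W → Ω) (α β : Ω)
    (h : ∏ w ∈ t, ((C α + X * C β : Polynomial Ω) - (C (a w) + X * C (b w))) = 0) :
    ∃ w ∈ t, α = a w ∧ β = b w := by
  obtain ⟨w, hw, h0⟩ := Finset.prod_eq_zero_iff.mp h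
  refine ⟨w, hw, ?_, ?_⟩
  · have := congrArg (fun f : Polynomial Ω => f.coeff 0) h0
    simp only [coeff_sub, coeff_add, coeff_C_zero, mul_coeff_zero, coeff_X_zero, zero_mul,
      add_zero, coeff_zero] at this
    exact sub_eq_zero.mp this
  · have := congrArg (fun f : Polynomial Ω => f.coeff 1) h0
    simp only [coeff_sub, coeff_add, coeff_zero, coeff_C, one_ne_zero, if_false, zero_add,
      coeff_X_mul, if_true] at this
    exact sub_eq_zero.mp this

end Combinatorics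

section Monomials

/-- A finite extension generated by algebraic elements `x i` has a `K₀`-basis consisting of
monomials in the `x i`; in particular there are `n` linearly independent monomials for every
`n` up to the degree. -/
theorem exists_monomials_linearIndependent {K₀ E : Type*} [Field K₀] [Field E] [Algebra K₀ E]
    {ι : Type*} (x : ι → E) (hx : ∀ i, IsIntegral K₀ (x i)) (n : ℕ)
    (hn : n ≤ Module.finrank K₀ (IntermediateField.adjoin K₀ (Set.range x))) :
    ∃ m : Fin n → (ι →₀ ℕ), LinearIndependent K₀ (fun k => (m k).prod fun i e => x i ^ e) := by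
  classical
  set Mon : Set E := Set.range (fun m : ι →₀ ℕ => m.prod fun i e => x i ^ e) with hMon
  have hspan : Submodule.span K₀ Mon =
      Subalgebra.toSubmodule (IntermediateField.adjoin K₀ (Set.range x)).toSubalgebra := by
    rw [IntermediateField.adjoin_toSubalgebra_of_isAlgebraic
      (by rintro _ ⟨i, rfl⟩; exact (hx i).isAlgebraic), Algebra.adjoin_range_eq_range_aeval]
    have h1 : Subalgebra.toSubmodule (MvPolynomial.aeval x : MvPolynomial ι K₀ →ₐ[K₀] E).range =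
        Submodule.map (MvPolynomial.aeval x : MvPolynomial ι K₀ →ₐ[K₀] E).toLinearMap ⊤ := by
      ext y
      simp
    rw [h1, ← (MvPolynomial.basisMonomials ι K₀).span_eq, Submodule.map_span]
    congr 1
    ext y
    simp only [hMon, Set.mem_range, Set.mem_image, MvPolynomial.coe_basisMonomials,
      exists_exists_eq_and, AlgHom.toLinearMap_apply, MvPolynomial.aeval_monomial, map_one,
      one_mul]
  have hfin : Module.finrank K₀ (Submodule.span K₀ Mon) =
      Module.finrank K₀ (IntermediateField.adjoin K₀ (Set.range x)) := by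
    rw [hspan]
    rfl
  have hn' : n ≤ Module.finrank K₀ (Submodule.span K₀ Mon) := hfin ▸ hn
  by_cases hfd : Module.Finite K₀ (Submodule.span K₀ Mon)
  swap
  · rw [Module.finrank_of_not_finite hfd, Nat.le_zero] at hn'
    subst hn'
    exact ⟨fun k => 0, linearIndependent_empty_type⟩
  obtain ⟨f, hf, -, hli⟩ := Submodule.exists_fun_fin_finrank_span_eq K₀ Mon
  choose m hm using hf
  refine ⟨fun k => m (Fin.castLE hn' k), ?_⟩
  have := hli.comp (Fin.castLE hn') (Fin.castLE_injective hn')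
  have h3 : (fun k => (m (Fin.castLE hn' k)).prod fun i e => x i ^ e) = f ∘ Fin.castLE hn' := by
    ext k
    exact hm _
  rw [h3]
  exact this

end Monomials

end Fermat.Agent.S28.EmbCount
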