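import Mathlib
import Fermat.Prelude.Def_ModularCurve_X0

/-!
# S28 (Igusa), combinatorial core of (M5): the slope count

`T` is a finite set (the embeddings), `s τ d ∈ ℚ` the slope of `τ` at the divisor `d` of `N`.
If `s τ 1 = 1`, every prime step multiplies the slope by `p` or `p⁻¹`, the slopes sum to `#T`
for every `d ∣ N`, and one `τ₀` has `s τ₀ d = d`, then `ψ(N) ≤ #T`.
-/

set_option autoImplicit false

namespace Fermat.Agent.S28.SlopeCount

open Finset

/-- induction over the divisors of `N`, multiplying by one prime at a time -/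
theorem dvd_induction {N : ℕ} (hN : 0 < N) (P : ℕ → Prop) (h1 : P 1)
    (hstep : ∀ p d : ℕ, p.Prime → d * p ∣ N → P d → P (d * p)) : ∀ d, d ∣ N → P d := by
  intro d
  induction d using Nat.strong_induction_on with
  | _ d ih =>
    intro hd
    rcases eq_or_ne d 1 with rfl | hd1
    · exact h1
    · have hd0 : 0 < d := Nat.pos_of_dvd_of_pos hd hN
      have hp := Nat.minFac_prime hd1
      have hdvd : d.minFac ∣ d := Nat.minFac_dvd d
      have heq : d / d.minFac * d.minFac = d := Nat.div_mul_cancel hdvd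
      have hlt : d / d.minFac < d := Nat.div_lt_self hd0 hp.one_lt
      have h2 : d / d.minFac ∣ N := (Nat.div_dvd_of_dvd hdvd).trans hd
      have h3 := hstep d.minFac (d / d.minFac) hp (by rw [heq]; exact hd) (ih _ hlt h2)
      rwa [heq] at h3

/-- the hypotheses on one slope function -/
structure IsSlope (N : ℕ) (σ : ℕ → ℚ) : Prop where
  one : σ 1 = 1
  step : ∀ p d : ℕ, p.Prime → d * p ∣ N → σ (d * p) = p * σ d ∨ σ (d * p) = σ d / p

section single

variable {N : ℕ} {σ : ℕ → ℚ}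

theorem IsSlope.ne_zero (h : IsSlope N σ) (hN : 0 < N) : ∀ d, d ∣ N → σ d ≠ 0 := by
  apply dvd_induction hN
  · rw [h.one]; exact one_ne_zero
  · intro p d hp hdp hd
    have hp0 : (p : ℚ) ≠ 0 := by exact_mod_cast hp.ne_zero
    rcases h.step p d hp hdp with h' | h' <;> rw [h']
    · exact mul_ne_zero hp0 hd
    · exact div_ne_zero hd hp0

theorem padicValRat_prime_ne {r p : ℕ} (hr : r.Prime) (hp : p.Prime) (hne : p ≠ r) :
    padicValRat r (p : ℚ) = 0 := by
  have : Fact r.Prime := ⟨hr⟩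
  have : Fact p.Prime := ⟨hp⟩
  rw [padicValRat.of_nat, padicValNat_primes (Ne.symm hne)]
  rfl

theorem IsSlope.padic_step_ne (h : IsSlope N σ) (hN : 0 < N) {r p d : ℕ} (hr : r.Prime)
    (hp : p.Prime) (hne : p ≠ r) (hdp : d * p ∣ N) :
    padicValRat r (σ (d * p)) = padicValRat r (σ d) := by
  have : Fact r.Prime := ⟨hr⟩
  have hd : σ d ≠ 0 := h.ne_zero hN d ((Nat.dvd_mul_right d p).trans hdp)
  have hp0 : (p : ℚ) ≠ 0 := by exact_mod_cast hp.ne_zero
  have hv := padicValRat_prime_ne hr hp hne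
  rcases h.step p d hp hdp with h' | h' <;> rw [h']
  · rw [padicValRat.mul hp0 hd, hv, zero_add]
  · rw [padicValRat.div hd hp0, hv, sub_zero]

theorem IsSlope.padic_step_self (h : IsSlope N σ) (hN : 0 < N) {r d : ℕ} (hr : r.Prime)
    (hdp : d * r ∣ N) :
    padicValRat r (σ (d * r)) = padicValRat r (σ d) + 1 ∨
      padicValRat r (σ (d * r)) = padicValRat r (σ d) - 1 := by
  have : Fact r.Prime := ⟨hr⟩
  have hd : σ d ≠ 0 := h.ne_zero hN d ((Nat.dvd_mul_right d r).trans hdp)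
  have hp0 : (r : ℚ) ≠ 0 := by exact_mod_cast hr.ne_zero
  rcases h.step r d hr hdp with h' | h' <;> rw [h']
  · left
    rw [padicValRat.mul hp0 hd, padicValRat.self hr.one_lt, add_comm]
  · right
    rw [padicValRat.div hd hp0, padicValRat.self hr.one_lt]

/-- multiplying by primes different from `r` does not change the `r`-adic valuation of the
slope -/
theorem IsSlope.padic_const (h : IsSlope N σ) (hN : 0 < N) {r : ℕ} (hr : r.Prime) (a : ℕ) :
    ∀ m : ℕ, 0 < m → ¬ r ∣ m → r ^ a * m ∣ N →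
      padicValRat r (σ (r ^ a * m)) = padicValRat r (σ (r ^ a)) := by
  intro m
  induction m using Nat.strong_induction_on with
  | _ m ih =>
    intro hm hrm hdvd
    rcases eq_or_ne m 1 with rfl | hm1
    · rw [mul_one]
    · have hp := Nat.minFac_prime hm1
      have hpm : m.minFac ∣ m := Nat.minFac_dvd m
      have heq : m / m.minFac * m.minFac = m := Nat.div_mul_cancel hpm
      have hlt : m / m.minFac < m := Nat.div_lt_self hm hp.one_lt
      have hpos : 0 < m / m.minFac := Nat.div_pos (Nat.le_of_dvd hm hpm) hp.pos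
      have hne : m.minFac ≠ r := fun e => hrm (e ▸ hpm)
      have hr' : ¬ r ∣ m / m.minFac := fun hh => hrm (hh.trans (Nat.div_dvd_of_dvd hpm))
      have hd1 : r ^ a * (m / m.minFac) * m.minFac ∣ N := by rw [mul_assoc, heq]; exact hdvd
      have hd2 : r ^ a * (m / m.minFac) ∣ N := (Nat.dvd_mul_right _ _).trans hd1
      have e1 := h.padic_step_ne hN hr hp hne hd1
      rw [mul_assoc, heq] at e1
      rw [e1]
      exact ih _ hlt hpos hr' hd2

/-- the `r`-adic valuation of the slope at `d` only depends on `v_r(d)` -/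
theorem IsSlope.padic_eq (h : IsSlope N σ) (hN : 0 < N) {r : ℕ} (hr : r.Prime) {d : ℕ}
    (hd : d ∣ N) :
    padicValRat r (σ d) = padicValRat r (σ (r ^ d.factorization r)) := by
  have hd0 : d ≠ 0 := (Nat.pos_of_dvd_of_pos hd hN).ne'
  have h1 := Nat.ordProj_mul_ordCompl_eq_self d r
  have h2 := h.padic_const hN hr (d.factorization r) (d / r ^ d.factorization r)
    (Nat.ordCompl_pos r hd0) (Nat.not_dvd_ordCompl hr hd0) (by rw [h1]; exact hd)
  rw [h1] at h2
  exact h2

/-- the exponent function `y_r(a) = v_r(σ(r^a))` -/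
noncomputable def yv (σ : ℕ → ℚ) (r a : ℕ) : ℤ := padicValRat r (σ (r ^ a))

theorem IsSlope.yv_zero (h : IsSlope N σ) (r : ℕ) : yv σ r 0 = 0 := by
  rw [yv, pow_zero, h.one, padicValRat.one]

theorem IsSlope.yv_succ (h : IsSlope N σ) (hN : 0 < N) {r : ℕ} (hr : r.Prime) (a : ℕ)
    (hdvd : r ^ (a + 1) ∣ N) : yv σ r (a + 1) = yv σ r a + 1 ∨ yv σ r (a + 1) = yv σ r a - 1 := by
  have := h.padic_step_self hN (d := r ^ a) hr (by rw [← pow_succ]; exact hdvd)
  rw [← pow_succ] at this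
  exact this

/-- the slope is the product of its prime-power parts -/
theorem IsSlope.eq_prod_padic (h : IsSlope N σ) (hN : 0 < N) : ∀ d, d ∣ N →
    σ d = ∏ r ∈ N.primeFactors, (r : ℚ) ^ padicValRat r (σ d) := by
  apply dvd_induction hN
  · rw [h.one]
    simp
  · intro p d hp hdp ih
    have hpN : p ∈ N.primeFactors :=
      Nat.mem_primeFactors.mpr ⟨hp, (Nat.dvd_mul_left p d).trans hdp, hN.ne'⟩
    have hp0 : (p : ℚ) ≠ 0 := by exact_mod_cast hp.ne_zero
    have hd : σ d ≠ 0 := h.ne_zero hN d ((Nat.dvd_mul_right d p).trans hdp)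
    have : Fact p.Prime := ⟨hp⟩
    have key : ∀ ε : ℤ, σ (d * p) = (p : ℚ) ^ ε * σ d →
        σ (d * p) = ∏ r ∈ N.primeFactors, (r : ℚ) ^ padicValRat r (σ (d * p)) := by
      intro ε hε
      have hval : ∀ r ∈ N.primeFactors, (r : ℚ) ^ padicValRat r (σ (d * p)) =
          (r : ℚ) ^ padicValRat r (σ d) * (if r = p then (p : ℚ) ^ ε else 1) := by
        intro r hr
        have hrp := Nat.prime_of_mem_primeFactors hr
        by_cases hrp' : r = p
        · subst hrp'
          rw [if_pos rfl, hε, padicValRat.mul (zpow_ne_zero _ hp0) hd, padicValRat.zpow,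
            padicValRat.self hp.one_lt, mul_one, zpow_add₀ hp0, mul_comm]
        · rw [if_neg hrp', mul_one, h.padic_step_ne hN hrp hp (Ne.symm hrp') hdp]
      rw [Finset.prod_congr rfl hval, Finset.prod_mul_distrib, ← ih, Finset.prod_ite_eq',
        if_pos hpN, hε, mul_comm]
    rcases h.step p d hp hdp with h' | h'
    · exact key 1 (by rw [zpow_one]; exact h')
    · refine key (-1) ?_
      rw [zpow_neg, zpow_one, h']
      field_simp

/-- structure of a slope function: `σ d = ∏_{r ∣ N} r ^ y_r(v_r d)` -/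
theorem IsSlope.eq_prod (h : IsSlope N σ) (hN : 0 < N) {d : ℕ} (hd : d ∣ N) :
    σ d = ∏ r ∈ N.primeFactors, (r : ℚ) ^ yv σ r (d.factorization r) := by
  rw [h.eq_prod_padic hN d hd]
  refine Finset.prod_congr rfl fun r hr => ?_
  rw [h.padic_eq hN (Nat.prime_of_mem_primeFactors hr) hd]
  rfl

end single

/-! ### the divisors `N / ∏ P` -/

/-- the divisor `N / ∏_{p ∈ P} p` -/
def dP (N : ℕ) (P : Finset ℕ) : ℕ := N / ∏ p ∈ P, p

theorem prod_dvd {N : ℕ} {P : Finset ℕ} (hP : P ⊆ N.primeFactors) : ∏ p ∈ P, p ∣ N :=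
  Finset.prod_primes_dvd N (fun _ hp => (Nat.prime_of_mem_primeFactors (hP hp)).prime)
    (fun _ hp => Nat.dvd_of_mem_primeFactors (hP hp))

theorem dP_dvd {N : ℕ} {P : Finset ℕ} (hP : P ⊆ N.primeFactors) : dP N P ∣ N :=
  Nat.div_dvd_of_dvd (prod_dvd hP)

theorem prod_ne_zero' {N : ℕ} {P : Finset ℕ} (hP : P ⊆ N.primeFactors) : ∏ p ∈ P, p ≠ 0 :=
  Finset.prod_ne_zero_iff.mpr fun _ hp => (Nat.prime_of_mem_primeFactors (hP hp)).ne_zero

theorem factorization_dP {N : ℕ} {P : Finset ℕ} (hP : P ⊆ N.primeFactors)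
    (r : ℕ) : (dP N P).factorization r = N.factorization r - (if r ∈ P then 1 else 0) := by
  rw [dP, Nat.factorization_div (prod_dvd hP), Finsupp.tsub_apply]
  congr 1
  rw [Nat.factorization_prod (fun _ hp => (Nat.prime_of_mem_primeFactors (hP hp)).ne_zero),
    Finsupp.finsetSum_apply]
  have h1 : ∀ p ∈ P, (p.factorization) r = if p = r then 1 else 0 := by
    intro p hp
    rw [(Nat.prime_of_mem_primeFactors (hP hp)).factorization, Finsupp.single_apply]
  rw [Finset.sum_congr rfl h1, Finset.sum_ite_eq']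

/-- the inclusion-exclusion weight -/
noncomputable def U (N : ℕ) (σ : ℕ → ℚ) : ℚ :=
  ∑ P ∈ N.primeFactors.powerset,
    (-1 : ℚ) ^ P.card * (∏ p ∈ N.primeFactors \ P, (p : ℚ)) * σ (dP N P)

section single'

variable {N : ℕ} {σ : ℕ → ℚ}

theorem IsSlope.U_eq_prod (h : IsSlope N σ) (hN : 0 < N) :
    U N σ = ∏ r ∈ N.primeFactors,
      (-(r : ℚ) ^ yv σ r (N.factorization r - 1)
        + (r : ℚ) * (r : ℚ) ^ yv σ r (N.factorization r)) := by
  rw [Finset.prod_add, U]
  refine Finset.sum_congr rfl fun P hP => ?_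
  have hP' := Finset.mem_powerset.mp hP
  have e1 : σ (dP N P) = ∏ r ∈ N.primeFactors,
      (r : ℚ) ^ yv σ r (N.factorization r - if r ∈ P then 1 else 0) := by
    rw [h.eq_prod hN (dP_dvd hP')]
    refine Finset.prod_congr rfl fun r _ => ?_
    rw [factorization_dP hP']
  rw [e1, ← Finset.prod_sdiff hP']
  have eP : ∏ r ∈ P, (r : ℚ) ^ yv σ r (N.factorization r - if r ∈ P then 1 else 0)
      = ∏ r ∈ P, (r : ℚ) ^ yv σ r (N.factorization r - 1) :=
    Finset.prod_congr rfl fun r hr => by rw [if_pos hr]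
  have eQ : ∏ r ∈ N.primeFactors \ P,
      (r : ℚ) ^ yv σ r (N.factorization r - if r ∈ P then 1 else 0)
      = ∏ r ∈ N.primeFactors \ P, (r : ℚ) ^ yv σ r (N.factorization r) :=
    Finset.prod_congr rfl fun r hr => by
      rw [if_neg (Finset.mem_sdiff.mp hr).2, Nat.sub_zero]
  rw [eP, eQ, Finset.prod_neg, Finset.prod_mul_distrib]
  ring

theorem IsSlope.factor_nonneg (h : IsSlope N σ) (hN : 0 < N) {r : ℕ}
    (hr : r ∈ N.primeFactors) :
    0 ≤ -(r : ℚ) ^ yv σ r (N.factorization r - 1)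
        + (r : ℚ) * (r : ℚ) ^ yv σ r (N.factorization r) := by
  have hrp := Nat.prime_of_mem_primeFactors hr
  have he : 0 < N.factorization r :=
    hrp.factorization_pos_of_dvd hN.ne' (Nat.dvd_of_mem_primeFactors hr)
  obtain ⟨e, he'⟩ : ∃ e, N.factorization r = e + 1 := ⟨_, (Nat.succ_pred_eq_of_pos he).symm⟩
  have hdvd : r ^ (e + 1) ∣ N := by rw [← he']; exact Nat.ordProj_dvd N r
  rw [he', Nat.add_sub_cancel]
  have hr0 : (0 : ℚ) < r := by exact_mod_cast hrp.pos
  have hr1 : (1 : ℚ) ≤ r := by exact_mod_cast hrp.one_le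
  have hpos : (0 : ℚ) < (r : ℚ) ^ yv σ r e := zpow_pos hr0 _
  rcases h.yv_succ hN hrp e hdvd with h' | h' <;> rw [h']
  · rw [zpow_add₀ hr0.ne', zpow_one]
    have h2 : (1 : ℚ) ≤ r * r := by nlinarith
    nlinarith
  · rw [zpow_sub₀ hr0.ne', zpow_one]
    have : (r : ℚ) * ((r : ℚ) ^ yv σ r e / r) = (r : ℚ) ^ yv σ r e := by
      field_simp
    rw [this]
    simp

theorem IsSlope.U_nonneg (h : IsSlope N σ) (hN : 0 < N) : 0 ≤ U N σ := by
  rw [h.U_eq_prod hN]
  exact Finset.prod_nonneg fun r hr => h.factor_nonneg hN hr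

end single'

/-! ### the numerical identities -/

theorem sum_sign_prod (N : ℕ) :
    ∑ P ∈ N.primeFactors.powerset, (-1 : ℚ) ^ P.card * (∏ p ∈ N.primeFactors \ P, (p : ℚ))
      = ∏ r ∈ N.primeFactors, ((r : ℚ) - 1) := by
  have : ∀ r ∈ N.primeFactors, ((r : ℚ) - 1) = (-1 : ℚ) + r := fun r _ => by ring
  rw [Finset.prod_congr rfl this, Finset.prod_add]
  refine Finset.sum_congr rfl fun P _ => ?_
  rw [Finset.prod_const]

theorem U_id {N : ℕ} (σ : ℕ → ℚ) (h₀ : ∀ d, d ∣ N → σ d = d) :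
    U N σ = (N : ℚ) * ∏ r ∈ N.primeFactors, (-(r : ℚ)⁻¹ + r) := by
  rw [Finset.prod_add, Finset.mul_sum, U]
  refine Finset.sum_congr rfl fun P hP => ?_
  have hP' := Finset.mem_powerset.mp hP
  rw [h₀ _ (dP_dvd hP'), dP, Nat.cast_div (prod_dvd hP') (by exact_mod_cast prod_ne_zero' hP'),
    Nat.cast_prod, Finset.prod_neg, Finset.prod_inv_distrib]
  ring

theorem dedekindPsi_cast {N : ℕ} (hN : 0 < N) :
    (ModularCurve.dedekindPsi N : ℚ) = (N : ℚ) * ∏ r ∈ N.primeFactors, ((r : ℚ)⁻¹ + 1) := by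
  rw [ModularCurve.dedekindPsi, Nat.sum_divisors_filter_squarefree hN.ne']
  have hfin : (UniqueFactorizationMonoid.normalizedFactors N).toFinset = N.primeFactors := by
    ext p
    simp [Nat.factors_eq]
  rw [hfin, Finset.prod_add, Finset.mul_sum, Nat.cast_sum]
  refine Finset.sum_congr rfl fun P hP => ?_
  have hP' := Finset.mem_powerset.mp hP
  have hval : P.val.prod = ∏ p ∈ P, p := by
    rw [Finset.prod_eq_multiset_prod, Multiset.map_id']
  rw [hval, Nat.cast_div (prod_dvd hP') (by exact_mod_cast prod_ne_zero' hP'), Nat.cast_prod,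
    Finset.prod_const_one, mul_one, Finset.prod_inv_distrib]
  rfl

/-- **Slope count.** -/
theorem dedekindPsi_le_card (N : ℕ) (hN : 0 < N) {T : Type*} [Fintype T] (s : T → ℕ → ℚ)
    (h1 : ∀ τ, s τ 1 = 1)
    (hstep : ∀ τ (p d : ℕ), p.Prime → d * p ∣ N →
      s τ (d * p) = p * s τ d ∨ s τ (d * p) = s τ d / p)
    (hsum : ∀ d, d ∣ N → ∑ τ, s τ d = Fintype.card T)
    (τ₀ : T) (h₀ : ∀ d, d ∣ N → s τ₀ d = d) :
    ModularCurve.dedekindPsi N ≤ Fintype.card T := by
  have hsl : ∀ τ, IsSlope N (s τ) := fun τ => ⟨h1 τ, hstep τ⟩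
  -- sum of the weights
  have hC : ∑ τ, U N (s τ) = (Fintype.card T : ℚ) * ∏ r ∈ N.primeFactors, ((r : ℚ) - 1) := by
    simp only [U]
    rw [Finset.sum_comm, ← sum_sign_prod, Finset.mul_sum]
    refine Finset.sum_congr rfl fun P hP => ?_
    rw [← Finset.mul_sum, hsum _ (dP_dvd (Finset.mem_powerset.mp hP))]
    ring
  -- the weight of `τ₀`
  have hD : U N (s τ₀) = (ModularCurve.dedekindPsi N : ℚ) * ∏ r ∈ N.primeFactors, ((r : ℚ) - 1) := by
    rw [U_id (s τ₀) h₀, dedekindPsi_cast hN, mul_assoc, ← Finset.prod_mul_distrib]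
    congr 1
    refine Finset.prod_congr rfl fun r hr => ?_
    have hr0 : (r : ℚ) ≠ 0 := by
      exact_mod_cast (Nat.prime_of_mem_primeFactors hr).ne_zero
    field_simp
    ring
  have hle : U N (s τ₀) ≤ ∑ τ, U N (s τ) :=
    Finset.single_le_sum (fun τ _ => (hsl τ).U_nonneg hN) (Finset.mem_univ τ₀)
  rw [hC, hD] at hle
  have hpos : (0 : ℚ) < ∏ r ∈ N.primeFactors, ((r : ℚ) - 1) := by
    refine Finset.prod_pos fun r hr => ?_
    have : (1 : ℚ) < r := by exact_mod_cast (Nat.prime_of_mem_primeFactors hr).one_lt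
    linarith
  have := le_of_mul_le_mul_right hle hpos
  exact_mod_cast this

end Fermat.Agent.S28.SlopeCount
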