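import Mathlib
import Fermat.Agent.S28.EmbCount
import Fermat.Agent.S28.SlopeCount

/-!
# S28 (M5): the degree bound from slope data (glue of `EmbCount` and `SlopeCount`)

`dedekindPsi_le_finrank`: if the embeddings `τ : L →ₐ[K₀] Ω` carry slopes `s τ d` with
`s τ 1 = 1`, prime steps multiplying by `p^{±1}`, one embedding with `s τ₀ d = d`, and for each
prime step a unit `u p d` (integral over `R` together with its inverse) all of whose conjugates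
have order `s τ (d * p) - s τ d`, then `ψ(N) ≤ [L : K₀]`.
-/

namespace Fermat.Agent.S28.EmbGlue

open Fermat.Agent.S28

section General

variable {K₀ L Ω : Type*} [Field K₀] [Field L] [Algebra K₀ L] [FiniteDimensional K₀ L]
  [Field Ω] [Algebra K₀ Ω] [IsAlgClosed Ω]

/-- The degree bound from slope data when the sums of the slopes are known. -/
theorem dedekindPsi_le_finrank_of_hsum (N : ℕ) (hN : 0 < N)
    (s : (L →ₐ[K₀] Ω) → ℕ → ℚ)
    (h1 : ∀ τ, s τ 1 = 1)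
    (hstep : ∀ τ (p d : ℕ), p.Prime → d * p ∣ N →
      s τ (d * p) = p * s τ d ∨ s τ (d * p) = s τ d / p)
    (hsum : ∀ d, d ∣ N → ∑ τ, s τ d = Fintype.card (L →ₐ[K₀] Ω))
    (τ₀ : L →ₐ[K₀] Ω) (h₀ : ∀ d, d ∣ N → s τ₀ d = d) :
    ModularCurve.dedekindPsi N ≤ Module.finrank K₀ L :=
  (SlopeCount.dedekindPsi_le_card N hN s h1 hstep hsum τ₀ h₀).trans
    (EmbCount.card_algHom_le_finrank (K₀ := K₀) (L := L) (Ω := Ω))

/-- The degree bound from slope data when the step sums vanish. -/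
theorem dedekindPsi_le_finrank_of_step_sums (N : ℕ) (hN : 0 < N)
    (s : (L →ₐ[K₀] Ω) → ℕ → ℚ)
    (h1 : ∀ τ, s τ 1 = 1)
    (hstep : ∀ τ (p d : ℕ), p.Prime → d * p ∣ N →
      s τ (d * p) = p * s τ d ∨ s τ (d * p) = s τ d / p)
    (hst : ∀ p d : ℕ, p.Prime → d * p ∣ N → ∑ τ, (s τ (d * p) - s τ d) = 0)
    (τ₀ : L →ₐ[K₀] Ω) (h₀ : ∀ d, d ∣ N → s τ₀ d = d) :
    ModularCurve.dedekindPsi N ≤ Module.finrank K₀ L :=
  dedekindPsi_le_finrank_of_hsum N hN s h1 hstep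
    (EmbCount.sum_eq_card_of_step N hN s h1 hst) τ₀ h₀

end General

section Units

variable {R K₀ E Ω₀ Ω : Type*} [CommRing R] [IsIntegrallyClosed R]
  [Field K₀] [Algebra R K₀] [IsFractionRing R K₀]
  [Field E] [Algebra K₀ E] [Algebra R E] [IsScalarTower R K₀ E]
  [Field Ω₀] [Field Ω] [Algebra Ω₀ Ω] [Algebra K₀ Ω] [IsAlgClosed Ω]

/-- **The degree bound** `ψ(N) ≤ [L : K₀]`, the step units `u p d` being elements of the ambient
field `E` (not necessarily of `L`); the pairing hypothesis is required for every intermediate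
field `L' ⊇ L` containing the unit. -/
theorem dedekindPsi_le_finrank (N : ℕ) (hN : 0 < N)
    (ord : Ω₀ → ℚ) (hord : ∀ x y : Ω₀, x ≠ 0 → y ≠ 0 → ord (x * y) = ord x + ord y)
    (hunit : ∀ r : Rˣ, ∃ z : Ω₀,
      algebraMap K₀ Ω (algebraMap R K₀ r) = algebraMap Ω₀ Ω z ∧ ord z = 0)
    (L : IntermediateField K₀ E) [FiniteDimensional K₀ L]
    (s : (L →ₐ[K₀] Ω) → ℕ → ℚ)
    (h1 : ∀ τ, s τ 1 = 1)
    (hstep : ∀ τ (p d : ℕ), p.Prime → d * p ∣ N →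
      s τ (d * p) = p * s τ d ∨ s τ (d * p) = s τ d / p)
    (u : ℕ → ℕ → E)
    (hu : ∀ p d : ℕ, p.Prime → d * p ∣ N →
      IsIntegral R (u p d) ∧ IsIntegral R (u p d)⁻¹ ∧ u p d ≠ 0)
    (hpair : ∀ p d : ℕ, p.Prime → d * p ∣ N →
      ∀ (L' : IntermediateField K₀ E) (hLL' : L ≤ L') (huL : u p d ∈ L') (τ' : L' →ₐ[K₀] Ω),
        ∃ z : Ω₀, τ' ⟨u p d, huL⟩ = algebraMap Ω₀ Ω z ∧
          ord z = s (τ'.comp (IntermediateField.inclusion hLL')) (d * p) -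
            s (τ'.comp (IntermediateField.inclusion hLL')) d)
    (τ₀ : L →ₐ[K₀] Ω) (h₀ : ∀ d, d ∣ N → s τ₀ d = d) :
    ModularCurve.dedekindPsi N ≤ Module.finrank K₀ L := by
  refine dedekindPsi_le_finrank_of_step_sums N hN s h1 hstep ?_ τ₀ h₀
  intro p d hp hdp
  obtain ⟨hu1, hu2, hu3⟩ := hu p d hp hdp
  exact EmbCount.sum_ord_eq_zero (R := R) ord hord hunit L (u p d) hu1 hu2 hu3
    (fun τ => s τ (d * p) - s τ d) (hpair p d hp hdp)

/-- **The degree bound** `ψ(N) ≤ [L : K₀]`, the step units `u p d` being elements of `L`. -/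
theorem dedekindPsi_le_finrank_of_mem (N : ℕ) (hN : 0 < N)
    (ord : Ω₀ → ℚ) (hord : ∀ x y : Ω₀, x ≠ 0 → y ≠ 0 → ord (x * y) = ord x + ord y)
    (hunit : ∀ r : Rˣ, ∃ z : Ω₀,
      algebraMap K₀ Ω (algebraMap R K₀ r) = algebraMap Ω₀ Ω z ∧ ord z = 0)
    (L : IntermediateField K₀ E) [FiniteDimensional K₀ L]
    (s : (L →ₐ[K₀] Ω) → ℕ → ℚ)
    (h1 : ∀ τ, s τ 1 = 1)
    (hstep : ∀ τ (p d : ℕ), p.Prime → d * p ∣ N →
      s τ (d * p) = p * s τ d ∨ s τ (d * p) = s τ d / p)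
    (u : ℕ → ℕ → L)
    (hu : ∀ p d : ℕ, p.Prime → d * p ∣ N →
      IsIntegral R (u p d) ∧ IsIntegral R (u p d)⁻¹ ∧ u p d ≠ 0)
    (hpair : ∀ p d : ℕ, p.Prime → d * p ∣ N → ∀ τ : L →ₐ[K₀] Ω,
        ∃ z : Ω₀, τ (u p d) = algebraMap Ω₀ Ω z ∧ ord z = s τ (d * p) - s τ d)
    (τ₀ : L →ₐ[K₀] Ω) (h₀ : ∀ d, d ∣ N → s τ₀ d = d) :
    ModularCurve.dedekindPsi N ≤ Module.finrank K₀ L := by
  refine dedekindPsi_le_finrank_of_step_sums N hN s h1 hstep ?_ τ₀ h₀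
  intro p d hp hdp
  obtain ⟨hu1, hu2, hu3⟩ := hu p d hp hdp
  exact EmbCount.sum_ord_eq_zero_of_mem (R := R) ord hord hunit (u p d) hu1 hu2 hu3
    (fun τ => s τ (d * p) - s τ d) (hpair p d hp hdp)

end Units

end Fermat.Agent.S28.EmbGlue
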