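import Mathlib
import Fermat.Prelude.Def_ModularCurve_X0

/-!
# S28 (M5), local heart, part 1: substitution of Puiseux monomials into Laurent series

For a field `k`, a unit `c : kˣ` and a positive rational `s` we construct the ring homomorphism
`evalMono c s hs : LaurentSeries k →+* HahnSeries ℚ k`, `f(q) ↦ f(c q^s) = ∑ f_n c^n q^{s n}`,
and prove its basic properties (coefficients, constants, order, compatibility with the
substitution `q ↦ q^p` of the Prelude, `ModularCurve.qExpand`).

OWNER: helper18.  Imports: Mathlib + Prelude `Def_ModularCurve_X0` only.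
-/

set_option autoImplicit false

noncomputable section

open HahnSeries

namespace Fermat.Agent.S28.HahnSubst

variable {k : Type*} [Field k]

/-! ### The twist `f(q) ↦ f(c q)` -/

/-- The underlying function of the twist. -/
def twistFun (c : kˣ) (f : LaurentSeries k) : LaurentSeries k where
  coeff n := ((c ^ n : kˣ) : k) * f.coeff n
  isPWO_support' := f.isPWO_support.mono (fun n hn => by
    simp only [Function.mem_support, ne_eq] at hn
    exact fun h => hn (by rw [h, mul_zero]))

@[simp] theorem twistFun_coeff (c : kˣ) (f : LaurentSeries k) (n : ℤ) :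
    (twistFun c f).coeff n = ((c ^ n : kˣ) : k) * f.coeff n := rfl

theorem support_twistFun (c : kˣ) (f : LaurentSeries k) :
    (twistFun c f).support = f.support := by
  ext n
  rw [HahnSeries.mem_support, HahnSeries.mem_support, twistFun_coeff]
  exact ⟨fun h hn => h (by rw [hn, mul_zero]), fun h hn => h
    ((mul_eq_zero.mp hn).resolve_left (Units.ne_zero _))⟩

/-- The ring automorphism `f(q) ↦ f(c q)` of `k((q))`, as a ring homomorphism. -/
def twist (c : kˣ) : LaurentSeries k →+* LaurentSeries k where
  toFun := twistFun c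
  map_one' := by
    ext n
    rw [twistFun_coeff, HahnSeries.coeff_one]
    split_ifs with h
    · subst h; simp
    · simp
  map_mul' x y := by
    ext n
    rw [twistFun_coeff, HahnSeries.coeff_mul, HahnSeries.coeff_mul, Finset.mul_sum]
    have hset : Finset.antidiagonal (twistFun c x).isPWO_support (twistFun c y).isPWO_support n
        = Finset.antidiagonal x.isPWO_support y.isPWO_support n := by
      ext ij
      simp only [Finset.mem_antidiagonal, support_twistFun]
    rw [hset]
    refine Finset.sum_congr rfl fun ij hij => ?_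
    have hn : ij.1 + ij.2 = n := (Finset.mem_antidiagonal.mp hij).2.2
    rw [twistFun_coeff, twistFun_coeff, ← hn, zpow_add, Units.val_mul]
    ring
  map_zero' := by
    ext n
    simp
  map_add' x y := by
    ext n
    simp [mul_add]

@[simp] theorem twist_coeff (c : kˣ) (f : LaurentSeries k) (n : ℤ) :
    (twist c f).coeff n = ((c ^ n : kˣ) : k) * f.coeff n := rfl

theorem support_twist (c : kˣ) (f : LaurentSeries k) : (twist c f).support = f.support :=
  support_twistFun c f

theorem twist_eq_zero_iff (c : kˣ) (f : LaurentSeries k) : twist c f = 0 ↔ f = 0 := by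
  rw [← HahnSeries.support_eq_empty_iff, support_twist, HahnSeries.support_eq_empty_iff]

theorem orderTop_twist (c : kˣ) (f : LaurentSeries k) : (twist c f).orderTop = f.orderTop := by
  rcases eq_or_ne f 0 with rfl | hf
  · simp
  · have hf' : twist c f ≠ 0 := fun h => hf ((twist_eq_zero_iff c f).mp h)
    rw [HahnSeries.orderTop_of_ne_zero hf, HahnSeries.orderTop_of_ne_zero hf']
    congr 1
    simp only [support_twist]

/-! ### The scaling `q ↦ q^s` -/

/-- The additive map `n ↦ s * n`, `ℤ → ℚ`. -/
def scaleHom (s : ℚ) : ℤ →+ ℚ := (AddMonoidHom.mulLeft s).comp (Int.castAddHom ℚ)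

@[simp] theorem scaleHom_apply (s : ℚ) (n : ℤ) : scaleHom s n = s * n := rfl

theorem scaleHom_injective {s : ℚ} (hs : 0 < s) : Function.Injective (scaleHom s) := by
  intro a b h
  simp only [scaleHom_apply] at h
  exact_mod_cast mul_left_cancel₀ hs.ne' h

theorem scaleHom_le_iff {s : ℚ} (hs : 0 < s) (a b : ℤ) : scaleHom s a ≤ scaleHom s b ↔ a ≤ b := by
  simp only [scaleHom_apply]
  rw [mul_le_mul_iff_of_pos_left hs]
  exact_mod_cast Iff.rfl

/-- The substitution `f(q) ↦ f(c q^s)`, for `c ≠ 0` and `s > 0`. -/
def evalMono (c : kˣ) (s : ℚ) (hs : 0 < s) : LaurentSeries k →+* HahnSeries ℚ k :=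
  (HahnSeries.embDomainRingHom (scaleHom s) (scaleHom_injective hs) (scaleHom_le_iff hs)).comp
    (twist c)

theorem evalMono_coeff (c : kˣ) (s : ℚ) (hs : 0 < s) (f : LaurentSeries k) (n : ℤ) :
    (evalMono c s hs f).coeff (s * n) = ((c ^ n : kˣ) : k) * f.coeff n := by
  have h := HahnSeries.embDomain_mk_coeff (f := scaleHom s) (scaleHom_injective hs)
    (scaleHom_le_iff hs) (x := twist c f) (a := n)
  rw [twist_coeff] at h
  exact h

theorem evalMono_coeff_of_notMem (c : kˣ) (s : ℚ) (hs : 0 < s) (f : LaurentSeries k) {r : ℚ}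
    (hr : ∀ n : ℤ, s * n ≠ r) : (evalMono c s hs f).coeff r = 0 := by
  refine HahnSeries.embDomain_of_notMem_range ?_
  rintro ⟨n, hn⟩
  exact hr n hn

theorem evalMono_injective (c : kˣ) (s : ℚ) (hs : 0 < s) :
    Function.Injective (evalMono c s hs : LaurentSeries k → HahnSeries ℚ k) :=
  (evalMono c s hs).injective

theorem evalMono_C (c : kˣ) (s : ℚ) (hs : 0 < s) (a : k) :
    evalMono c s hs (HahnSeries.C a) = HahnSeries.C a := by
  have h1 : twist c (HahnSeries.C a) = HahnSeries.C a := by
    ext n
    rw [twist_coeff, HahnSeries.C_apply, HahnSeries.coeff_single]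
    split_ifs with h
    · subst h; simp
    · simp
  rw [evalMono, RingHom.comp_apply, h1, HahnSeries.embDomainRingHom_C]

theorem orderTop_evalMono (c : kˣ) (s : ℚ) (hs : 0 < s) (f : LaurentSeries k) :
    (evalMono c s hs f).orderTop = WithTop.map (fun n : ℤ => s * n) f.orderTop := by
  rw [evalMono, RingHom.comp_apply, HahnSeries.embDomainRingHom_apply,
    HahnSeries.orderTop_embDomain, orderTop_twist]
  rfl

theorem order_evalMono (c : kˣ) (s : ℚ) (hs : 0 < s) (f : LaurentSeries k) :
    (evalMono c s hs f).order = s * f.order := by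
  rcases eq_or_ne f 0 with rfl | hf
  · simp
  · have hf' : evalMono c s hs f ≠ 0 := fun h =>
      hf (evalMono_injective c s hs (h.trans (map_zero _).symm))
    have h := orderTop_evalMono c s hs f
    rw [← HahnSeries.order_eq_orderTop_of_ne_zero hf,
      ← HahnSeries.order_eq_orderTop_of_ne_zero hf', WithTop.map_coe] at h
    exact_mod_cast h

open ModularCurve in
theorem evalMono_qExpand (c : kˣ) (s : ℚ) (hs : 0 < s) (p : ℕ) [NeZero p]
    (hsp : 0 < s * p) (f : LaurentSeries k) :
    evalMono c s hs (qExpand k p f) = evalMono (c ^ p) (s * p) hsp f := by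
  ext r
  by_cases hr : ∃ n : ℤ, s * p * n = r
  · obtain ⟨n, rfl⟩ := hr
    rw [evalMono_coeff]
    have h1 : s * (p : ℚ) * (n : ℚ) = s * (((p : ℤ) * n : ℤ) : ℚ) := by push_cast; ring
    rw [h1, evalMono_coeff, qExpand_coeff_mul]
    congr 2
    rw [← zpow_natCast, ← zpow_mul]
  · rw [evalMono_coeff_of_notMem _ _ hsp f (fun n hn => hr ⟨n, hn⟩)]
    by_cases hr' : ∃ m : ℤ, s * m = r
    · obtain ⟨m, rfl⟩ := hr'
      rw [evalMono_coeff, qExpand_coeff_of_not_dvd, mul_zero]
      rintro ⟨n, rfl⟩
      exact hr ⟨n, by push_cast; ring⟩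
    · exact evalMono_coeff_of_notMem _ _ hs _ (fun n hn => hr' ⟨n, hn⟩)

end Fermat.Agent.S28.HahnSubst
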