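import Mathlib
import Fermat.Prelude.Def_ModularCurve_X0
import Fermat.Prelude.Def_ModularCurve_LaurentCoeff
import Fermat.Agent.S28.HahnSubst

/-!
# S28 (M5), local heart, part 2: the slope step at one prime

`k` is an algebraically closed field, `p` a prime with `(p : k) ≠ 0`, `j : k((q))` a Laurent
series with a simple pole with leading coefficient `1` (in the application `j = jqModC k`),
`Φ, T ∈ k[Y][X]` with `Φ` monic of degree `p + 1` in `X` and

* `(h2)  Φ(j(q^p), j(q)) = 0`,        `(h3)  Φ(j(q), j(q^p)) = 0`,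
* `(h4)  a · Φ'(j(q^p), j(q)) = T(j(q^p), j(q))`,   `(h5)  b · Φ'(j(q), j(q^p)) = T(j(q), j(q^p))`.

Then for every Puiseux monomial `w = c q^s` the polynomial `Φ(X, j(w))` has exactly the `p + 1`
simple roots `j(w^p)` and `j(v)`, `v^p = w`, in any field containing `k((q^ℚ))`; and if
`y · Φ'(x, j(w)) = T(x, j(w))` at a root `x`, then `y = a(w)` resp. `y = b(v)`.

OWNER: helper18.
-/

set_option autoImplicit false

noncomputable section

open HahnSeries Polynomial ModularCurve

namespace Fermat.Agent.S28.SlopeStep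

open Fermat.Agent.S28.HahnSubst

variable {k : Type*} [Field k]

/-! ### Transport of two-variable evaluations along ring homomorphisms -/

theorem map_ev {B : Type*} [CommRing B] (g : LaurentSeries k →+* B) (a b : LaurentSeries k)
    (P : Polynomial (Polynomial k)) :
    g ((P.map (Polynomial.aeval b).toRingHom).eval a) =
      (P.map (g.comp (Polynomial.aeval b).toRingHom)).eval (g a) := by
  rw [Polynomial.eval_map, Polynomial.eval_map, Polynomial.hom_eval₂]

theorem comp_aeval_eq {B : Type*} [CommRing B] (g g' : LaurentSeries k →+* B)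
    (b b' : LaurentSeries k) (hC : ∀ a : k, g (HahnSeries.C a) = g' (HahnSeries.C a))
    (hb : g b = g' b') :
    g.comp (Polynomial.aeval (R := k) b).toRingHom =
      g'.comp (Polynomial.aeval (R := k) b').toRingHom := by
  refine Polynomial.ringHom_ext (fun a => ?_) ?_
  · show g (Polynomial.aeval b (Polynomial.C a)) = g' (Polynomial.aeval b' (Polynomial.C a))
    rw [Polynomial.aeval_C, Polynomial.aeval_C, ModularCurve.algebraMap_laurentSeries_eq_single]
    exact hC a
  · show g (Polynomial.aeval b (Polynomial.X : Polynomial k)) =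
      g' (Polynomial.aeval b' (Polynomial.X : Polynomial k))
    rw [Polynomial.aeval_X, Polynomial.aeval_X]
    exact hb

theorem evalMono_congr {c c' : kˣ} {s s' : ℚ} (hs : 0 < s) (hs' : 0 < s') (hc : c = c')
    (hss : s = s') : evalMono c s hs = evalMono c' s' hs' := by
  subst hc; subst hss; rfl

/-! ### Values of `j` at monomials -/

section JVal

variable (j : LaurentSeries k) (hj1 : j.coeff (-1) = 1) (hj0 : ∀ n : ℤ, n < -1 → j.coeff n = 0)

include hj1 in
theorem j_ne_zero : j ≠ 0 := fun h => by simp [h] at hj1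

include hj1 hj0 in
theorem order_j : j.order = -1 := by
  have h0 := j_ne_zero j hj1
  refine le_antisymm (HahnSeries.order_le_of_coeff_ne_zero (by rw [hj1]; exact one_ne_zero)) ?_
  by_contra hlt
  exact h0 (HahnSeries.coeff_order_eq_zero.mp (hj0 _ (not_le.mp hlt)))

include hj1 in
theorem coeff_J_neg (c : kˣ) (s : ℚ) (hs : 0 < s) :
    (evalMono c s hs j).coeff (-s) = ((c⁻¹ : kˣ) : k) := by
  have h := evalMono_coeff c s hs j (-1)
  rw [hj1, mul_one, zpow_neg_one] at h
  rw [← h]
  congr 1
  push_cast; ring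

include hj0 in
theorem coeff_J_of_lt (c : kˣ) (s : ℚ) (hs : 0 < s) {r : ℚ} (hr : r < -s) :
    (evalMono c s hs j).coeff r = 0 := by
  by_cases h : ∃ n : ℤ, s * n = r
  · obtain ⟨n, rfl⟩ := h
    rw [evalMono_coeff, hj0 n, mul_zero]
    have h1 : (n : ℚ) < -1 := by
      by_contra hcon
      rw [not_lt] at hcon
      have := mul_le_mul_of_nonneg_left hcon hs.le
      linarith
    exact_mod_cast h1
  · exact evalMono_coeff_of_notMem c s hs j (fun n hn => h ⟨n, hn⟩)

include hj1 hj0 in
theorem order_J (c : kˣ) (s : ℚ) (hs : 0 < s) : (evalMono c s hs j).order = -s := by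
  rw [order_evalMono, order_j j hj1 hj0]
  push_cast; ring

include hj1 in
theorem J_ne_of_ne (c c' : kˣ) (s : ℚ) (hs hs' : 0 < s) (h : c ≠ c') :
    evalMono c s hs j ≠ evalMono c' s hs' j := by
  intro heq
  have h1 := coeff_J_neg j hj1 c s hs
  rw [heq, coeff_J_neg j hj1 c' s hs'] at h1
  exact h (inv_injective (Units.ext h1.symm))

include hj1 hj0 in
theorem J_ne_of_lt (c c' : kˣ) (s s' : ℚ) (hs : 0 < s) (hs' : 0 < s') (h : s < s') :
    evalMono c s hs j ≠ evalMono c' s' hs' j := by
  intro heq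
  have h1 := coeff_J_of_lt j hj0 c s hs (r := -s') (by linarith)
  rw [heq, coeff_J_neg j hj1 c' s' hs'] at h1
  exact Units.ne_zero _ h1

end JVal

/-! ### The step -/

section Step

variable [IsAlgClosed k] (p : ℕ) [NeZero p] (hp : p.Prime) (hpk : (p : k) ≠ 0)
  (j : LaurentSeries k) (hj1 : j.coeff (-1) = 1) (hj0 : ∀ n : ℤ, n < -1 → j.coeff n = 0)
  (Φ : Polynomial (Polynomial k)) (hΦ : Φ.Monic) (hdeg : Φ.natDegree = p + 1)
  (h2 : (Φ.map (Polynomial.aeval j).toRingHom).eval (qExpand k p j) = 0)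
  (h3 : (Φ.map (Polynomial.aeval (qExpand k p j)).toRingHom).eval j = 0)
  {Ω : Type*} [Field Ω] (ι : HahnSeries ℚ k →+* Ω)
  (c : kˣ) (s : ℚ) (hs : 0 < s)

omit [NeZero p] in
include hp in
theorem pos_mul : 0 < s → 0 < s * p := fun hs => mul_pos hs (Nat.cast_pos.mpr hp.pos)

omit [NeZero p] in
include hp in
theorem pos_div : 0 < s → 0 < s / p := fun hs => div_pos hs (Nat.cast_pos.mpr hp.pos)

/-- The specialised polynomial `Φ(X, j(w))`, `w = c q^s`, over `Ω`. -/
def specPoly (P : Polynomial (Polynomial k)) : Polynomial Ω :=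
  P.map ((ι.comp (evalMono c s hs)).comp (Polynomial.aeval j).toRingHom)

omit [IsAlgClosed k] in
include hΦ in
theorem specPoly_monic : (specPoly j ι c s hs Φ).Monic := hΦ.map _

omit [IsAlgClosed k] [NeZero p] in
include hΦ hdeg in
theorem specPoly_natDegree : (specPoly j ι c s hs Φ).natDegree = p + 1 := by
  rw [specPoly, hΦ.natDegree_map, hdeg]

omit [IsAlgClosed k] in
include hp h2 in
/-- `j(w^p)` is a root of `Φ(X, j(w))`. -/
theorem root_infty :
    (specPoly j ι c s hs Φ).eval (ι (evalMono (c ^ p) (s * p) (pos_mul p hp s hs) j)) = 0 := by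
  have h := congrArg (ι.comp (evalMono c s hs)) h2
  rw [map_zero, map_ev, RingHom.comp_apply, evalMono_qExpand c s hs p (pos_mul p hp s hs)] at h
  exact h

omit [IsAlgClosed k] in
include hp h3 in
/-- `j(v)` is a root of `Φ(X, j(w))` when `v^p = w`. -/
theorem root_fin (c' : kˣ) (hc' : c' ^ p = c) :
    (specPoly j ι c s hs Φ).eval (ι (evalMono c' (s / p) (pos_div p hp s hs) j)) = 0 := by
  have hp0 : (p : ℚ) ≠ 0 := Nat.cast_ne_zero.mpr hp.ne_zero
  have h := congrArg (ι.comp (evalMono c' (s / p) (pos_div p hp s hs))) h3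
  rw [map_zero, map_ev] at h
  have hcomp : (ι.comp (evalMono c' (s / p) (pos_div p hp s hs))).comp
      (Polynomial.aeval (R := k) (qExpand k p j)).toRingHom =
      (ι.comp (evalMono c s hs)).comp (Polynomial.aeval (R := k) j).toRingHom := by
    refine comp_aeval_eq _ _ _ _ (fun a => ?_) ?_
    · simp only [RingHom.comp_apply, evalMono_C]
    · simp only [RingHom.comp_apply]
      rw [evalMono_qExpand c' (s / p) (pos_div p hp s hs) p
        (pos_mul p hp _ (pos_div p hp s hs)),
        evalMono_congr (pos_mul p hp _ (pos_div p hp s hs)) hs hc' (div_mul_cancel₀ s hp0)]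
  rw [hcomp] at h
  exact h

include hp hpk hj1 hj0 hΦ hdeg h2 h3 in
/-- All roots of `Φ(X, j(w))` in `Ω`, and their simplicity. -/
theorem roots_spec (x : Ω) (hx : (specPoly j ι c s hs Φ).eval x = 0) :
    (x = ι (evalMono (c ^ p) (s * p) (pos_mul p hp s hs) j) ∨
      ∃ c' : kˣ, c' ^ p = c ∧ x = ι (evalMono c' (s / p) (pos_div p hp s hs) j)) ∧
    (Polynomial.derivative (specPoly j ι c s hs Φ)).eval x ≠ 0 := by
  classical
  have hp0 : (p : ℚ) ≠ 0 := Nat.cast_ne_zero.mpr hp.ne_zero
  have hp1 : (1 : ℚ) < p := by exact_mod_cast hp.one_lt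
  -- the `p`-th roots of `c`
  obtain ⟨ζ, hζ⟩ : ∃ ζ : k, IsPrimitiveRoot ζ p := by
    have : NeZero (p : k) := ⟨hpk⟩
    exact HasEnoughRootsOfUnity.exists_primitiveRoot k p
  obtain ⟨c₀, hc₀⟩ := IsAlgClosed.exists_pow_nat_eq (c : k) hp.pos
  have hc₀0 : c₀ ≠ 0 := by
    rintro rfl
    rw [zero_pow hp.ne_zero] at hc₀
    exact c.ne_zero hc₀.symm
  have hζ0 : ζ ≠ 0 := hζ.ne_zero hp.ne_zero
  let u : ℕ → kˣ := fun i => Units.mk0 (ζ ^ i * c₀) (mul_ne_zero (pow_ne_zero _ hζ0) hc₀0)
  have hu : ∀ i, u i ^ p = c := by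
    intro i
    ext
    simp only [u, Units.val_pow_eq_pow_val, Units.val_mk0]
    rw [mul_pow, ← pow_mul, mul_comm i p, pow_mul, hζ.pow_eq_one, one_pow, one_mul, hc₀]
  have hu_inj : ∀ i j : ℕ, i < p → j < p → u i = u j → i = j := by
    intro i j hi hj hij
    have h1 : ζ ^ i * c₀ = ζ ^ j * c₀ := congrArg Units.val hij
    exact hζ.pow_inj hi hj (mul_right_cancel₀ hc₀0 h1)
  -- the roots
  let r : Option (Fin p) → Ω := fun o => match o with
    | none => ι (evalMono (c ^ p) (s * p) (pos_mul p hp s hs) j)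
    | some i => ι (evalMono (u i) (s / p) (pos_div p hp s hs) j)
  have hlt : s / p < s * p := by
    rw [div_lt_iff₀ (by linarith)]
    have h1 : (1 : ℚ) < p * p := by nlinarith
    have h2' := mul_lt_mul_of_pos_left h1 hs
    linarith
  have hr_inj : Function.Injective r := by
    intro o o' h
    rcases o with _ | i <;> rcases o' with _ | i'
    · rfl
    · exact absurd (ι.injective h).symm (J_ne_of_lt j hj1 hj0 _ _ _ _ _ _ hlt)
    · exact absurd (ι.injective h) (J_ne_of_lt j hj1 hj0 _ _ _ _ _ _ hlt)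
    · have h1 : u i = u i' := by
        by_contra hne
        exact J_ne_of_ne j hj1 _ _ _ _ _ hne (ι.injective h)
      exact congrArg some (Fin.ext (hu_inj _ _ i.2 i'.2 h1))
  set Q := specPoly j ι c s hs Φ with hQ
  have hQm : Q.Monic := specPoly_monic j Φ hΦ ι c s hs
  have hQ0 : Q ≠ 0 := hQm.ne_zero
  have hQd : Q.natDegree = p + 1 := specPoly_natDegree p j Φ hΦ hdeg ι c s hs
  have hr_root : ∀ o, Q.eval (r o) = 0 := by
    intro o
    rcases o with _ | i
    · exact root_infty p hp j Φ h2 ι c s hs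
    · exact root_fin p hp j Φ h3 ι c s hs (u i) (hu i)
  have hsub : Finset.univ.image r ⊆ Q.roots.toFinset := by
    intro y hy
    obtain ⟨o, -, rfl⟩ := Finset.mem_image.mp hy
    rw [Multiset.mem_toFinset, Polynomial.mem_roots hQ0]
    exact hr_root o
  have hcard : (Finset.univ.image r).card = p + 1 := by
    rw [Finset.card_image_of_injective _ hr_inj, Finset.card_univ, Fintype.card_option,
      Fintype.card_fin]
  have hle : Q.roots.toFinset.card ≤ p + 1 :=
    (Multiset.toFinset_card_le _).trans ((Polynomial.card_roots' Q).trans hQd.le)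
  have heq : Finset.univ.image r = Q.roots.toFinset :=
    Finset.eq_of_subset_of_card_le hsub (hle.trans hcard.ge)
  have hnodup : Q.roots.Nodup := by
    rw [← Multiset.toFinset_card_eq_card_iff_nodup]
    refine le_antisymm (Multiset.toFinset_card_le _) ?_
    rw [← heq, hcard]
    exact (Polynomial.card_roots' Q).trans hQd.le
  refine ⟨?_, ?_⟩
  · have hxmem : x ∈ Finset.univ.image r := by
      rw [heq, Multiset.mem_toFinset, Polynomial.mem_roots hQ0]
      exact hx
    obtain ⟨o, -, rfl⟩ := Finset.mem_image.mp hxmem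
    rcases o with _ | i
    · exact Or.inl rfl
    · exact Or.inr ⟨u i, hu i, rfl⟩
  · intro hder
    have h1 : 1 < Q.rootMultiplicity x :=
      (Polynomial.one_lt_rootMultiplicity_iff_isRoot hQ0).mpr ⟨hx, hder⟩
    have h2' := Multiset.nodup_iff_count_le_one.mp hnodup x
    rw [Polynomial.count_roots] at h2'
    omega

variable (T : Polynomial (Polynomial k)) (a b : LaurentSeries k)
  (h4 : a * ((Polynomial.derivative Φ).map (Polynomial.aeval j).toRingHom).eval (qExpand k p j) =
    (T.map (Polynomial.aeval j).toRingHom).eval (qExpand k p j))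
  (h5 : b * ((Polynomial.derivative Φ).map (Polynomial.aeval (qExpand k p j)).toRingHom).eval j =
    (T.map (Polynomial.aeval (qExpand k p j)).toRingHom).eval j)

include hp hpk hj1 hj0 hΦ hdeg h2 h3 h4 h5 in
/-- **The slope step with pairing.** -/
theorem step (x y : Ω) (hx : (specPoly j ι c s hs Φ).eval x = 0)
    (hy : y * (specPoly j ι c s hs (Polynomial.derivative Φ)).eval x =
      (specPoly j ι c s hs T).eval x) :
    (x = ι (evalMono (c ^ p) (s * p) (pos_mul p hp s hs) j) ∧ y = ι (evalMono c s hs a)) ∨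
      ∃ c' : kˣ, c' ^ p = c ∧ x = ι (evalMono c' (s / p) (pos_div p hp s hs) j) ∧
        y = ι (evalMono c' (s / p) (pos_div p hp s hs) b) := by
  have hp0 : (p : ℚ) ≠ 0 := Nat.cast_ne_zero.mpr hp.ne_zero
  obtain ⟨hroot, hder⟩ := roots_spec p hp hpk j hj1 hj0 Φ hΦ hdeg h2 h3 ι c s hs x hx
  have hder' : (specPoly j ι c s hs (Polynomial.derivative Φ)).eval x ≠ 0 := by
    rw [specPoly, ← Polynomial.derivative_map]
    exact hder
  rcases hroot with rfl | ⟨c', hc', rfl⟩
  · refine Or.inl ⟨rfl, ?_⟩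
    have h := congrArg (ι.comp (evalMono c s hs)) h4
    rw [map_mul, map_ev, map_ev, RingHom.comp_apply, RingHom.comp_apply,
      evalMono_qExpand c s hs p (pos_mul p hp s hs)] at h
    exact mul_right_cancel₀ hder' (hy.trans h.symm)
  · refine Or.inr ⟨c', hc', rfl, ?_⟩
    have h := congrArg (ι.comp (evalMono c' (s / p) (pos_div p hp s hs))) h5
    have hcomp : (ι.comp (evalMono c' (s / p) (pos_div p hp s hs))).comp
        (Polynomial.aeval (R := k) (qExpand k p j)).toRingHom =
        (ι.comp (evalMono c s hs)).comp (Polynomial.aeval (R := k) j).toRingHom := by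
      refine comp_aeval_eq _ _ _ _ (fun a => ?_) ?_
      · simp only [RingHom.comp_apply, evalMono_C]
      · simp only [RingHom.comp_apply]
        rw [evalMono_qExpand c' (s / p) (pos_div p hp s hs) p
          (pos_mul p hp _ (pos_div p hp s hs)),
          evalMono_congr (pos_mul p hp _ (pos_div p hp s hs)) hs hc' (div_mul_cancel₀ s hp0)]
    rw [map_mul, map_ev, map_ev, hcomp] at h
    exact mul_right_cancel₀ hder' (hy.trans h.symm)

include hp hpk hj1 hj0 hΦ hdeg h2 h3 in
/-- `Φ'(j(q^p), j(q)) ≠ 0` in `k((q))`: so `a = T(j(q^p), j(q)) / Φ'(j(q^p), j(q))`. -/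
theorem deriv_ne_zero :
    ((Polynomial.derivative Φ).map (Polynomial.aeval j).toRingHom).eval (qExpand k p j) ≠ 0 := by
  intro h0
  have hroot := root_infty p hp j Φ h2 (RingHom.id (HahnSeries ℚ k)) 1 1 one_pos
  have hder := (roots_spec p hp hpk j hj1 hj0 Φ hΦ hdeg h2 h3 (RingHom.id (HahnSeries ℚ k))
    1 1 one_pos _ hroot).2
  apply hder
  have h := congrArg ((RingHom.id (HahnSeries ℚ k)).comp (evalMono 1 1 one_pos)) h0
  rw [map_zero, map_ev, RingHom.comp_apply, evalMono_qExpand 1 1 one_pos p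
    (pos_mul p hp 1 one_pos)] at h
  rw [specPoly, Polynomial.derivative_map]
  exact h

end Step

end Fermat.Agent.S28.SlopeStep
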