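import Mathlib
import Fermat.Prelude.Def_ModularCurve_X0
import Fermat.Prelude.Def_ModularCurve_LaurentCoeff
import Fermat.Agent.S28.HahnSubst
import Fermat.Agent.S28.SlopeStep

/-!
# S28 (M5), local heart, part 3: the slope tower

`k` algebraically closed, `N ≥ 1` with every prime divisor invertible in `k`, `j : k((q))` with a
simple pole of leading coefficient `1`.  For every prime `p ∣ N` we are given the modular
equation data of `SlopeStep` (`Φ_p`, `T_p`, `a p`, `b p`).

`L` is ANY commutative ring with an injective ring hom `inc : L →+* k((q))`, containing the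
constants (`cL : k →+* L`) and the functions `jL d = j(q^d)` (`d ∣ N`); `u` denotes any element
of `L` with expansion `(a p)(q^d)` (`d p ∣ N`).  `Ω` is any field with a ring hom `ι : k((q^ℚ)) →+* Ω`, and `τ : L →+* Ω` is any ring
hom which is the standard one on the constants and on `j = jL 1`.

Then every `τ (jL d)` is of the form `ι (j(c q^s))`; with `σ d := slope ι (τ (jL d)) = s`:

* `σ 1 = 1`;
* `σ (d * p) = p * σ d ∨ σ (d * p) = σ d / p`;
* `τ u = ι z` with `z ≠ 0` and `ord z = σ (d * p) - σ d`  (when `ord (a p) = p - 1`,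
  `ord (b p) = 1 - p`);
* for the standard embedding `τ = ι ∘ evalMono 1 1 ∘ inc`: `σ d = d`.

OWNER: helper18.
-/

set_option autoImplicit false

noncomputable section

open HahnSeries Polynomial ModularCurve

namespace Fermat.Agent.S28.SlopeTower

open Fermat.Agent.S28.HahnSubst Fermat.Agent.S28.SlopeStep

variable {k : Type*} [Field k]

/-- The slope of an element of `Ω` of the form `ι z`: minus the order of `z`. -/
def slope {Ω : Type*} [Field Ω] (ι : HahnSeries ℚ k →+* Ω) (x : Ω) : ℚ :=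
  -(Function.invFun ι x).order

theorem slope_apply {Ω : Type*} [Field Ω] (ι : HahnSeries ℚ k →+* Ω) (z : HahnSeries ℚ k) :
    slope ι (ι z) = -z.order := by
  rw [slope, Function.leftInverse_invFun ι.injective z]

theorem slope_J {Ω : Type*} [Field Ω] (ι : HahnSeries ℚ k →+* Ω) (j : LaurentSeries k)
    (hj1 : j.coeff (-1) = 1) (hj0 : ∀ n : ℤ, n < -1 → j.coeff n = 0) (c : kˣ) (s : ℚ)
    (hs : 0 < s) : slope ι (ι (evalMono c s hs j)) = s := by
  rw [slope_apply, order_J j hj1 hj0, neg_neg]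

/-- The hypotheses on the modular equation data at the primes dividing `N`. -/
def PkgHyp (N : ℕ) (j : LaurentSeries k) (a b : ℕ → LaurentSeries k) : Prop :=
  ∀ (p : ℕ) [NeZero p], p.Prime → p ∣ N → (p : k) ≠ 0 ∧
    ∃ Φ T : Polynomial (Polynomial k), Φ.Monic ∧ Φ.natDegree = p + 1 ∧
      (Φ.map (Polynomial.aeval j).toRingHom).eval (qExpand k p j) = 0 ∧
      (Φ.map (Polynomial.aeval (qExpand k p j)).toRingHom).eval j = 0 ∧
      a p * ((Polynomial.derivative Φ).map (Polynomial.aeval j).toRingHom).eval (qExpand k p j) =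
        (T.map (Polynomial.aeval j).toRingHom).eval (qExpand k p j) ∧
      b p * ((Polynomial.derivative Φ).map (Polynomial.aeval (qExpand k p j)).toRingHom).eval j =
        (T.map (Polynomial.aeval (qExpand k p j)).toRingHom).eval j

section Tower

variable {N : ℕ} {j : LaurentSeries k} (hj1 : j.coeff (-1) = 1)
  (hj0 : ∀ n : ℤ, n < -1 → j.coeff n = 0)
  {a b : ℕ → LaurentSeries k}
  {Ω : Type*} [Field Ω] (ι : HahnSeries ℚ k →+* Ω)
  {L : Type*} [CommRing L] (inc : L →+* LaurentSeries k) (hinc : Function.Injective inc)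
  (cL : k →+* L) (hcL : ∀ x : k, inc (cL x) = HahnSeries.C x)
  (jL : ℕ → L) (hjL : ∀ (d : ℕ) [NeZero d], d ∣ N → inc (jL d) = qExpand k d j)
  (τ : L →+* Ω) (hτC : ∀ x : k, τ (cL x) = ι (HahnSeries.C x))
  (hτj : τ (jL 1) = ι (evalMono 1 1 one_pos j))

/-- Two-variable evaluation inside `L`. -/
def evL (y x : L) (P : Polynomial (Polynomial k)) : L :=
  (P.map (Polynomial.eval₂RingHom cL y)).eval x

include hcL hjL in
theorem inc_evL (d p : ℕ) [NeZero d] [NeZero p] (hd : d * p ∣ N)
    (P : Polynomial (Polynomial k)) :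
    inc (evL cL (jL d) (jL (d * p)) P) =
      qExpand k d ((P.map (Polynomial.aeval j).toRingHom).eval (qExpand k p j)) := by
  have : NeZero (d * p) := ⟨Nat.mul_ne_zero (NeZero.ne d) (NeZero.ne p)⟩
  have hcomp : inc.comp (Polynomial.eval₂RingHom cL (jL d)) =
      (qExpand k d).comp (Polynomial.aeval (R := k) j).toRingHom := by
    refine Polynomial.ringHom_ext (fun x => ?_) ?_
    · show inc (Polynomial.eval₂ cL (jL d) (Polynomial.C x)) =
        qExpand k d (Polynomial.aeval j (Polynomial.C x))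
      rw [Polynomial.eval₂_C, Polynomial.aeval_C, ModularCurve.algebraMap_laurentSeries_eq_single,
        hcL, HahnSeries.C_apply, qExpand_single, mul_zero]
    · show inc (Polynomial.eval₂ cL (jL d) Polynomial.X) =
        qExpand k d (Polynomial.aeval j (Polynomial.X : Polynomial k))
      rw [Polynomial.eval₂_X, Polynomial.aeval_X, hjL d (Dvd.intro _ rfl |>.trans hd)]
  rw [map_ev, evL, Polynomial.eval_map, Polynomial.hom_eval₂, Polynomial.eval_map, hcomp,
    hjL (d * p) hd, qExpand_qExpand]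

include hτC in
theorem tau_evL (y x : L) (c : kˣ) (s : ℚ) (hs : 0 < s)
    (hy : τ y = ι (evalMono c s hs j)) (P : Polynomial (Polynomial k)) :
    τ (evL cL y x P) = (specPoly j ι c s hs P).eval (τ x) := by
  have hcomp : τ.comp (Polynomial.eval₂RingHom cL y) =
      (ι.comp (evalMono c s hs)).comp (Polynomial.aeval (R := k) j).toRingHom := by
    refine Polynomial.ringHom_ext (fun x => ?_) ?_
    · show τ (Polynomial.eval₂ cL y (Polynomial.C x)) =
        ι (evalMono c s hs (Polynomial.aeval j (Polynomial.C x)))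
      rw [Polynomial.eval₂_C, Polynomial.aeval_C, ModularCurve.algebraMap_laurentSeries_eq_single,
        hτC, ← HahnSeries.C_apply, evalMono_C]
    · show τ (Polynomial.eval₂ cL y Polynomial.X) =
        ι (evalMono c s hs (Polynomial.aeval j (Polynomial.X : Polynomial k)))
      rw [Polynomial.eval₂_X, Polynomial.aeval_X, hy]
  rw [evL, specPoly, Polynomial.eval_map, Polynomial.hom_eval₂, Polynomial.eval_map, hcomp]

variable [IsAlgClosed k] (hpkg : PkgHyp N j a b)

include hj1 hj0 hinc hcL hjL hτC hpkg in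
/-- One step: from a point for `d` to a point for `d * p`, with the value of the unit. -/
theorem step_tower (d p : ℕ) [NeZero d] (hp : p.Prime) (hd : d * p ∣ N)
    (u : L) (hu : inc u = qExpand k d (a p))
    (c : kˣ) (s : ℚ) (hs : 0 < s) (hy : τ (jL d) = ι (evalMono c s hs j)) :
    (τ (jL (d * p)) = ι (evalMono (c ^ p) (s * p) (pos_mul p hp s hs) j) ∧
        τ u = ι (evalMono c s hs (a p))) ∨
      ∃ c' : kˣ, c' ^ p = c ∧
        τ (jL (d * p)) = ι (evalMono c' (s / p) (pos_div p hp s hs) j) ∧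
        τ u = ι (evalMono c' (s / p) (pos_div p hp s hs) (b p)) := by
  have : NeZero p := ⟨hp.ne_zero⟩
  obtain ⟨hpk, Φ, T, hΦ, hdeg, h2, h3, h4, h5⟩ := hpkg p hp ((Dvd.intro_left d rfl).trans hd)
  have e1 : evL cL (jL d) (jL (d * p)) Φ = 0 := by
    apply hinc
    rw [inc_evL inc cL hcL jL hjL d p hd, h2, map_zero, map_zero]
  have e2 : u * evL cL (jL d) (jL (d * p)) (Polynomial.derivative Φ) =
      evL cL (jL d) (jL (d * p)) T := by
    apply hinc
    rw [map_mul, inc_evL inc cL hcL jL hjL d p hd, inc_evL inc cL hcL jL hjL d p hd, hu,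
      ← map_mul, h4]
  have hx : (specPoly j ι c s hs Φ).eval (τ (jL (d * p))) = 0 := by
    rw [← tau_evL ι cL τ hτC (jL d) (jL (d * p)) c s hs hy, e1, map_zero]
  have hyy : τ u * (specPoly j ι c s hs (Polynomial.derivative Φ)).eval (τ (jL (d * p))) =
      (specPoly j ι c s hs T).eval (τ (jL (d * p))) := by
    rw [← tau_evL ι cL τ hτC (jL d) (jL (d * p)) c s hs hy,
      ← tau_evL ι cL τ hτC (jL d) (jL (d * p)) c s hs hy, ← map_mul, e2]
  exact step p hp hpk j hj1 hj0 Φ hΦ hdeg h2 h3 ι c s hs T (a p) (b p) h4 h5 _ _ hx hyy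

include hj1 hj0 hinc hcL hjL hτC hτj hpkg in
/-- Every `τ (jL d)` is the value of `j` at a Puiseux monomial. -/
theorem exists_point (d : ℕ) (hd : d ∣ N) (hd0 : d ≠ 0) :
    ∃ (c : kˣ) (s : ℚ) (hs : 0 < s), τ (jL d) = ι (evalMono c s hs j) := by
  induction d using Nat.strong_induction_on with
  | _ d ih =>
    rcases eq_or_ne d 1 with rfl | hd1
    · exact ⟨1, 1, one_pos, hτj⟩
    · have hp : d.minFac.Prime := Nat.minFac_prime hd1
      obtain ⟨d', hd'⟩ := Nat.minFac_dvd d
      have hd'0 : d' ≠ 0 := by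
        rintro rfl
        exact hd0 (by rw [hd', mul_zero])
      have hlt : d' < d := by
        calc d' = 1 * d' := (one_mul _).symm
          _ < d.minFac * d' := Nat.mul_lt_mul_of_pos_right hp.one_lt (Nat.pos_of_ne_zero hd'0)
          _ = d := hd'.symm
      have hdN : d' * d.minFac ∣ N := by rw [mul_comm, ← hd']; exact hd
      have : NeZero d' := ⟨hd'0⟩
      obtain ⟨c, s, hs, hy⟩ := ih d' hlt ((Dvd.intro _ rfl).trans hdN) hd'0
      obtain ⟨hpk, Φ, T, hΦ, hdeg, h2, h3, h4, h5⟩ :=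
        @hpkg d.minFac ⟨hp.ne_zero⟩ hp ((Nat.minFac_dvd d).trans hd)
      have : NeZero d.minFac := ⟨hp.ne_zero⟩
      have e1 : evL cL (jL d') (jL (d' * d.minFac)) Φ = 0 := by
        apply hinc
        rw [inc_evL inc cL hcL jL hjL d' d.minFac hdN, h2, map_zero, map_zero]
      have hx : (specPoly j ι c s hs Φ).eval (τ (jL (d' * d.minFac))) = 0 := by
        rw [← tau_evL ι cL τ hτC (jL d') (jL (d' * d.minFac)) c s hs hy, e1, map_zero]
      have hdd : d' * d.minFac = d := by rw [mul_comm, ← hd']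
      rw [hdd] at hx
      rcases (roots_spec d.minFac hp hpk j hj1 hj0 Φ hΦ hdeg h2 h3 ι c s hs _ hx).1 with
        h | ⟨c', -, h⟩
      · exact ⟨_, _, _, h⟩
      · exact ⟨_, _, _, h⟩

include hj1 hj0 hτj in
omit [IsAlgClosed k] in
theorem slope_one : slope ι (τ (jL 1)) = 1 := by
  rw [hτj, slope_J ι j hj1 hj0]

include hj1 hj0 hinc hcL hjL hτC hτj hpkg in
theorem slope_pos (d : ℕ) (hd : d ∣ N) (hd0 : d ≠ 0) : 0 < slope ι (τ (jL d)) := by
  obtain ⟨c, s, hs, hy⟩ := exists_point hj1 hj0 ι inc hinc cL hcL jL hjL τ hτC hτj hpkg d hd hd0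
  rw [hy, slope_J ι j hj1 hj0]
  exact hs

include hj1 hj0 hinc hcL hjL hτC hτj hpkg in
/-- **The slope step** (the hypothesis `hstep` of the counting argument). -/
theorem slope_step (hN : N ≠ 0) (p d : ℕ) (hp : p.Prime) (hd : d * p ∣ N) :
    slope ι (τ (jL (d * p))) = p * slope ι (τ (jL d)) ∨
      slope ι (τ (jL (d * p))) = slope ι (τ (jL d)) / p := by
  have hd0 : d ≠ 0 := by
    rintro rfl
    rw [zero_mul, zero_dvd_iff] at hd
    exact hN hd
  have : NeZero d := ⟨hd0⟩
  have : NeZero p := ⟨hp.ne_zero⟩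
  obtain ⟨c, s, hs, hy⟩ := exists_point hj1 hj0 ι inc hinc cL hcL jL hjL τ hτC hτj hpkg d
    ((Dvd.intro _ rfl).trans hd) hd0
  obtain ⟨hpk, Φ, T, hΦ, hdeg, h2, h3, h4, h5⟩ := hpkg p hp ((Dvd.intro_left d rfl).trans hd)
  have e1 : evL cL (jL d) (jL (d * p)) Φ = 0 := by
    apply hinc
    rw [inc_evL inc cL hcL jL hjL d p hd, h2, map_zero, map_zero]
  have hx : (specPoly j ι c s hs Φ).eval (τ (jL (d * p))) = 0 := by
    rw [← tau_evL ι cL τ hτC (jL d) (jL (d * p)) c s hs hy, e1, map_zero]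
  rcases (roots_spec p hp hpk j hj1 hj0 Φ hΦ hdeg h2 h3 ι c s hs _ hx).1 with h1 | ⟨c', -, h1⟩
  · rw [h1, hy, slope_J ι j hj1 hj0, slope_J ι j hj1 hj0]
    exact Or.inl (mul_comm _ _)
  · rw [h1, hy, slope_J ι j hj1 hj0, slope_J ι j hj1 hj0]
    exact Or.inr rfl

include hj1 hj0 hinc hcL hjL hτC hτj hpkg in
/-- **The order of the unit** (the pairing hypothesis `hpair` of the counting argument): for
EVERY element `u` of `L` with expansion `(a p)(q^d)`, `τ u` comes from a nonzero Hahn series of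
order `σ (d p) - σ d`. -/
theorem unit_order (p d : ℕ) [NeZero d] (hp : p.Prime) (hd : d * p ∣ N)
    (ha : a p ≠ 0) (hao : ((a p).order : ℚ) = p - 1)
    (hb : b p ≠ 0) (hbo : ((b p).order : ℚ) = 1 - p)
    (u : L) (hu : inc u = qExpand k d (a p)) :
    ∃ z : HahnSeries ℚ k, z ≠ 0 ∧ τ u = ι z ∧
      z.order = slope ι (τ (jL (d * p))) - slope ι (τ (jL d)) := by
  have hp0 : (p : ℚ) ≠ 0 := Nat.cast_ne_zero.mpr hp.ne_zero
  obtain ⟨c, s, hs, hy⟩ := exists_point hj1 hj0 ι inc hinc cL hcL jL hjL τ hτC hτj hpkg d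
    ((Dvd.intro _ rfl).trans hd) (NeZero.ne d)
  rcases step_tower hj1 hj0 ι inc hinc cL hcL jL hjL τ hτC hpkg d p hp hd u hu
    c s hs hy with ⟨h1, h2⟩ | ⟨c', -, h1, h2⟩
  · rw [h1, hy, slope_J ι j hj1 hj0, slope_J ι j hj1 hj0]
    refine ⟨evalMono c s hs (a p), ?_, h2, ?_⟩
    · exact fun h => ha (evalMono_injective c s hs (h.trans (map_zero _).symm))
    · rw [order_evalMono, hao]; ring
  · rw [h1, hy, slope_J ι j hj1 hj0, slope_J ι j hj1 hj0]
    refine ⟨evalMono c' (s / p) (pos_div p hp s hs) (b p), ?_, h2, ?_⟩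
    · exact fun h => hb (evalMono_injective c' _ _ (h.trans (map_zero _).symm))
    · rw [order_evalMono, hbo]
      field_simp

include hj1 hj0 hjL in
omit [IsAlgClosed k] in
/-- For the standard embedding the slope of `j(q^d)` is `d`. -/
theorem slope_incl (hτ : ∀ x : L, τ x = ι (evalMono 1 1 one_pos (inc x)))
    (d : ℕ) [NeZero d] (hd : d ∣ N) : slope ι (τ (jL d)) = d := by
  have hd0 : (0 : ℚ) < 1 * d := by
    rw [one_mul]; exact Nat.cast_pos.mpr (Nat.pos_of_ne_zero (NeZero.ne d))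
  rw [hτ, hjL d hd, evalMono_qExpand 1 1 one_pos d hd0, slope_J ι j hj1 hj0, one_mul]

end Tower

end Fermat.Agent.S28.SlopeTower
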