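import Mathlib
import Fermat.Prelude.Def_ModularCurve_X0ModL
import Fermat.Agent.S28.Defs
import Fermat.Agent.S28.SlopeTower
import Fermat.Agent.S28.EmbGlue
import Fermat.Agent.S28.CruxLBase

/-!
# S28 (M5), assembler, part 2: the degree bound over an algebraically closed field

`k` algebraically closed, `K₀ = k(j) ⊆ k((q))`, `L = K₀(j(q^d) : d ∣ N)`.  From the modular
equation data at the primes dividing `N` (`SlopeTower.PkgHyp`), the orders of the units and their
integrality over `k[j]` we get `ψ(N) ≤ [L : K₀]`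
(`EmbGlue.dedekindPsi_le_finrank` fed with the slope tower of `SlopeTower`).
-/

set_option autoImplicit false

noncomputable section

open ModularCurve HahnSeries
open scoped IntermediateField.algebraAdjoinAdjoin

namespace Fermat.Agent.S28.CruxL

open Fermat.Agent.S28.HahnSubst Fermat.Agent.S28.SlopeTower

variable (k : Type*) [Field k]

/-- `K₀ = k(j) ⊆ k((q))`. -/
abbrev K0 : IntermediateField k (LaurentSeries k) := IntermediateField.adjoin k {jqModC k}

/-- `L = K₀(j(q^d) : d ∣ N)`. -/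
def LN (N : ℕ) : IntermediateField (K0 k) (LaurentSeries k) :=
  IntermediateField.adjoin (K0 k) ((fun d => Defs.jd k d) '' {d | d ∣ N})

theorem jd_mem_LN {N d : ℕ} (hd : d ∣ N) : Defs.jd k d ∈ LN k N :=
  IntermediateField.subset_adjoin _ _ ⟨d, hd, rfl⟩

/-- the big field: an algebraic closure of `k((q^ℚ))`. -/
abbrev Om : Type _ := AlgebraicClosure (HahnSeries ℚ k)

/-- the standard embedding `k((q)) → Ω`. -/
def stdE : LaurentSeries k →+* Om k :=
  (algebraMap (HahnSeries ℚ k) (Om k)).comp (evalMono 1 1 one_pos)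

/-- `Ω` as a `K₀`-algebra through the standard embedding. -/
@[reducible] def algK0Om : Algebra (K0 k) (Om k) :=
  ((stdE k).comp (algebraMap (K0 k) (LaurentSeries k))).toAlgebra

attribute [local instance] algK0Om

theorem algebraMap_K0_Om (x : K0 k) :
    algebraMap (K0 k) (Om k) x =
      algebraMap (HahnSeries ℚ k) (Om k) (evalMono 1 1 one_pos (x : LaurentSeries k)) := rfl

/-- the standard embedding of an intermediate field. -/
def tau0 (L : IntermediateField (K0 k) (LaurentSeries k)) : L →ₐ[K0 k] Om k where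
  toRingHom := (stdE k).comp (algebraMap L (LaurentSeries k))
  commutes' _ := rfl

theorem tau0_apply (L : IntermediateField (K0 k) (LaurentSeries k)) (x : L) :
    tau0 k L x =
      algebraMap (HahnSeries ℚ k) (Om k) (evalMono 1 1 one_pos (x : LaurentSeries k)) := rfl

/-- the functions `j(q^d)`, `d ∣ N`, as elements of an intermediate field containing `L`. -/
def jL (N : ℕ) (L' : IntermediateField (K0 k) (LaurentSeries k)) (h : LN k N ≤ L') (d : ℕ) : L' :=
  if hd : d ∣ N then ⟨Defs.jd k d, h (jd_mem_LN k hd)⟩ else 0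

theorem coe_jL (N : ℕ) (L' : IntermediateField (K0 k) (LaurentSeries k)) (h : LN k N ≤ L')
    {d : ℕ} (hd : d ∣ N) : ((jL k N L' h d : L') : LaurentSeries k) = Defs.jd k d := by
  rw [jL, dif_pos hd]

theorem inclusion_jL (N : ℕ) (L' : IntermediateField (K0 k) (LaurentSeries k)) (h : LN k N ≤ L')
    (d : ℕ) : IntermediateField.inclusion h (jL k N (LN k N) le_rfl d) = jL k N L' h d := by
  by_cases hd : d ∣ N
  · apply Subtype.ext
    rw [coe_jL k N L' h hd]
    exact coe_jL k N (LN k N) le_rfl hd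
  · rw [jL, jL, dif_neg hd, dif_neg hd, map_zero]

/-- the step units, total in `d`. -/
def uu (a : ℕ → LaurentSeries k) (p d : ℕ) : LaurentSeries k :=
  if h : d = 0 then 1 else (have : NeZero d := ⟨h⟩; qExpand k d (a p))

theorem uu_eq (a : ℕ → LaurentSeries k) (p d : ℕ) [NeZero d] : uu k a p d = qExpand k d (a p) := by
  rw [uu, dif_neg (NeZero.ne d)]


theorem coe_algebraMap_k_K0 (x : k) :
    ((algebraMap k (K0 k) x : K0 k) : LaurentSeries k) = HahnSeries.C x := by
  rw [IntermediateField.coe_algebraMap_apply, algebraMap_laurentSeries_eq_single,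
    HahnSeries.C_apply]

/-- the constants inside an intermediate field. -/
def cL (L' : IntermediateField (K0 k) (LaurentSeries k)) : k →+* L' :=
  (algebraMap (K0 k) L').comp (algebraMap k (K0 k))

theorem coe_cL (L' : IntermediateField (K0 k) (LaurentSeries k)) (x : k) :
    ((cL k L' x : L') : LaurentSeries k) = HahnSeries.C x :=
  coe_algebraMap_k_K0 k x

theorem tau_cL (L' : IntermediateField (K0 k) (LaurentSeries k)) (τ : L' →ₐ[K0 k] Om k) (x : k) :
    τ (cL k L' x) = algebraMap (HahnSeries ℚ k) (Om k) (HahnSeries.C x) := by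
  rw [cL, RingHom.comp_apply, AlgHom.commutes, algebraMap_K0_Om, coe_algebraMap_k_K0, evalMono_C]

theorem jL_one (N : ℕ) (L' : IntermediateField (K0 k) (LaurentSeries k)) (h : LN k N ≤ L') :
    jL k N L' h 1 = algebraMap (K0 k) L'
      ⟨jqModC k, IntermediateField.subset_adjoin k _ (Set.mem_singleton _)⟩ := by
  apply Subtype.ext
  rw [coe_jL k N L' h (one_dvd N), Defs.jd_one]
  rfl

theorem tau_jL_one (N : ℕ) (L' : IntermediateField (K0 k) (LaurentSeries k)) (h : LN k N ≤ L')
    (τ : L' →ₐ[K0 k] Om k) :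
    τ (jL k N L' h 1) =
      algebraMap (HahnSeries ℚ k) (Om k) (evalMono 1 1 one_pos (jqModC k)) := by
  rw [jL_one, AlgHom.commutes, algebraMap_K0_Om]

theorem hjL (N : ℕ) (L' : IntermediateField (K0 k) (LaurentSeries k)) (h : LN k N ≤ L')
    (d : ℕ) [NeZero d] (hd : d ∣ N) :
    (algebraMap L' (LaurentSeries k)) (jL k N L' h d) = qExpand k d (jqModC k) := by
  rw [← Defs.jd_of_neZero]
  exact coe_jL k N L' h hd


theorem finite_divisors_image (N : ℕ) (hN : 0 < N) :
    ((fun d => Defs.jd k d) '' {d | d ∣ N}).Finite :=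
  ((Set.finite_Iic N).subset fun _ hd => Nat.le_of_dvd hN hd).image _

theorem isIntegral_K0_of_Rj {x : LaurentSeries k} (hx : IsIntegral (Rj k) x) :
    IsIntegral (K0 k) x :=
  hx.tower_top

theorem finiteDimensional_LN (N : ℕ) (hN : 0 < N)
    (hint : ∀ d : ℕ, d ∣ N → IsIntegral (Rj k) (Defs.jd k d)) :
    FiniteDimensional (K0 k) (LN k N) := by
  have : Finite ((fun d => Defs.jd k d) '' {d | d ∣ N}) :=
    (finite_divisors_image k N hN).to_subtype
  refine IntermediateField.finiteDimensional_adjoin ?_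
  rintro x ⟨d, hd, rfl⟩
  exact isIntegral_K0_of_Rj k (hint d hd)

variable [IsAlgClosed k]

/-- **The characteristic-`ℓ` crux over an algebraically closed field**: `ψ(N) ≤ [L : K₀]`. -/
theorem dedekindPsi_le_finrank (N : ℕ) (hN : 0 < N) (a b : ℕ → LaurentSeries k)
    (hpkg : PkgHyp N (jqModC k) a b)
    (ha : ∀ p : ℕ, p.Prime → p ∣ N → a p ≠ 0 ∧ ((a p).order : ℚ) = p - 1)
    (hb : ∀ p : ℕ, p.Prime → p ∣ N → b p ≠ 0 ∧ ((b p).order : ℚ) = 1 - p)
    (hint : ∀ d : ℕ, d ∣ N → IsIntegral (Rj k) (Defs.jd k d))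
    (hu : ∀ (p d : ℕ) [NeZero d], p.Prime → d * p ∣ N →
      IsIntegral (Rj k) (qExpand k d (a p)) ∧ IsIntegral (Rj k) (qExpand k d (a p))⁻¹) :
    dedekindPsi N ≤ Module.finrank (K0 k) (LN k N) := by
  have : FiniteDimensional (K0 k) (LN k N) := finiteDimensional_LN k N hN hint
  have hj1 := coeff_jqModC_neg_one k
  have hj0 : ∀ n : ℤ, n < -1 → (jqModC k).coeff n = 0 := fun _ h => coeff_jqModC_of_lt k h
  have hd0 : ∀ {p d : ℕ}, d * p ∣ N → d ≠ 0 := by
    rintro p d h rfl
    rw [zero_mul, zero_dvd_iff] at h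
    exact hN.ne' h
  refine EmbGlue.dedekindPsi_le_finrank (R := Rj k) (Ω₀ := HahnSeries ℚ k) N hN
    (fun z => z.order) ?_ ?_ (LN k N)
    (fun τ d => slope (algebraMap (HahnSeries ℚ k) (Om k)) (τ (jL k N (LN k N) le_rfl d)))
    ?_ ?_ (fun p d => uu k a p d) ?_ ?_ (tau0 k (LN k N)) ?_
  · -- hord
    intro x y hx hy
    exact HahnSeries.order_mul_of_ne_zero
      (mul_ne_zero (leadingCoeff_ne_zero.mpr hx) (leadingCoeff_ne_zero.mpr hy))
  · -- hunit
    intro r
    obtain ⟨c, -, hc⟩ := unit_Rj k r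
    refine ⟨HahnSeries.C c, ?_, HahnSeries.order_C⟩
    rw [algebraMap_K0_Om]
    congr 1
    rw [← evalMono_C (1 : kˣ) 1 one_pos c, ← hc]
    rfl
  · -- h1
    intro τ
    exact slope_one hj1 hj0 _ _ _ (tau_jL_one k N (LN k N) le_rfl τ)
  · -- hstep
    intro τ p d hp hdp
    exact slope_step hj1 hj0 (algebraMap (HahnSeries ℚ k) (Om k))
      (algebraMap (LN k N) (LaurentSeries k)) (algebraMap (LN k N) (LaurentSeries k)).injective
      (cL k (LN k N)) (coe_cL k (LN k N)) (jL k N (LN k N) le_rfl)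
      (fun d _ hd => hjL k N (LN k N) le_rfl d hd) (τ : LN k N →+* Om k)
      (tau_cL k (LN k N) τ) (tau_jL_one k N (LN k N) le_rfl τ) hpkg hN.ne' p d hp hdp
  · -- hu
    intro p d hp hdp
    have : NeZero d := ⟨hd0 hdp⟩
    rw [uu_eq]
    obtain ⟨h1, h2⟩ := hu p d hp hdp
    refine ⟨h1, h2, ?_⟩
    have hpN : p ∣ N := (Dvd.intro_left d rfl).trans hdp
    exact fun h => (ha p hp hpN).1 (qExpand_injective d (h.trans (map_zero _).symm))
  · -- hpair
    intro p d hp hdp L' hLL' huL τ'
    have : NeZero d := ⟨hd0 hdp⟩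
    have hpN : p ∣ N := (Dvd.intro_left d rfl).trans hdp
    obtain ⟨z, -, hz1, hz2⟩ := unit_order hj1 hj0 (algebraMap (HahnSeries ℚ k) (Om k))
      (algebraMap L' (LaurentSeries k)) (algebraMap L' (LaurentSeries k)).injective
      (cL k L') (coe_cL k L') (jL k N L' hLL')
      (fun d _ hd => hjL k N L' hLL' d hd) (τ' : L' →+* Om k)
      (tau_cL k L' τ') (tau_jL_one k N L' hLL' τ') hpkg p d hp hdp
      (ha p hp hpN).1 (ha p hp hpN).2 (hb p hp hpN).1 (hb p hp hpN).2
      ⟨uu k a p d, huL⟩ (uu_eq k a p d)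
    refine ⟨z, hz1, ?_⟩
    rw [hz2]
    simp only [AlgHom.comp_apply, inclusion_jL]
    rfl
  · -- h0
    intro d hd
    have : NeZero d := ⟨fun h => hN.ne' (by rw [h, zero_dvd_iff] at hd; exact hd)⟩
    exact slope_incl hj1 hj0 (algebraMap (HahnSeries ℚ k) (Om k))
      (algebraMap (LN k N) (LaurentSeries k)) (jL k N (LN k N) le_rfl)
      (fun d _ hd => hjL k N (LN k N) le_rfl d hd) (tau0 k (LN k N) : LN k N →+* Om k)
      (fun x => rfl) d hd

end Fermat.Agent.S28.CruxL
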