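import Mathlib
import Fermat.Prelude.Def_ModularCurve_X0ModL
import Fermat.Agent.S28.Defs
import Fermat.Agent.S28.EmbCount
import Fermat.Agent.S28.CruxL

/-!
# S28 (M5), assembler, part 3: monomials and descent of the constants

* `exists_monomials_of_le` : from `n ≤ [L : K₀]` (`K₀ = k(j)`, `L = K₀(j(q^d) : d ∣ N)`) we get
  `n` monomials in the `j(q^d)` (`d ∣ N`), linearly independent over `k(j)`.
* `poly_indep_of_linearIndependent` : descent along a field embedding `f : F₀ →+* k`: the same
  monomials with coefficients in `F₀` are independent over `F₀[j]` (polynomial form).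
-/

set_option autoImplicit false

noncomputable section

open ModularCurve HahnSeries

namespace Fermat.Agent.S28.CruxL

variable (k : Type*) [Field k]

theorem range_jd_subtype (N : ℕ) :
    Set.range (fun d : {d : ℕ // d ∣ N} => Defs.jd k (d : ℕ)) =
      (fun d => Defs.jd k d) '' {d | d ∣ N} := by
  ext x
  constructor
  · rintro ⟨⟨d, hd⟩, rfl⟩
    exact ⟨d, hd, rfl⟩
  · rintro ⟨d, hd, rfl⟩
    exact ⟨⟨d, hd⟩, rfl⟩

theorem mono_mapDomain (N : ℕ) (m : {d : ℕ // d ∣ N} →₀ ℕ) :
    Defs.mono k (m.mapDomain Subtype.val) = m.prod fun d e => Defs.jd k (d : ℕ) ^ e := by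
  rw [Defs.mono, Finsupp.prod_mapDomain_index_inj Subtype.val_injective]

/-- `n` monomials in the `j(q^d)`, `d ∣ N`, linearly independent over `k(j)`. -/
theorem exists_monomials_of_le (N : ℕ)
    (hint : ∀ d : ℕ, d ∣ N → IsIntegral (K0 k) (Defs.jd k d)) (n : ℕ)
    (hn : n ≤ Module.finrank (K0 k) (LN k N)) :
    ∃ m : Fin n → (ℕ →₀ ℕ), (∀ i, ∀ d ∈ (m i).support, d ∣ N) ∧
      LinearIndependent (K0 k) (fun i => Defs.mono k (m i)) := by
  classical
  have hn' : n ≤ Module.finrank (K0 k) (IntermediateField.adjoin (K0 k)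
      (Set.range (fun d : {d : ℕ // d ∣ N} => Defs.jd k (d : ℕ)))) := by
    rw [range_jd_subtype]
    exact hn
  obtain ⟨m, hm⟩ := EmbCount.exists_monomials_linearIndependent
    (fun d : {d : ℕ // d ∣ N} => Defs.jd k (d : ℕ)) (fun d => hint d d.2) n hn'
  refine ⟨fun i => (m i).mapDomain Subtype.val, ?_, ?_⟩
  · intro i d hd
    have h1 := Finsupp.mapDomain_support hd
    rw [Finset.mem_image] at h1
    obtain ⟨d', -, rfl⟩ := h1
    exact d'.2
  · simp only [mono_mapDomain]
    exact hm

variable {k}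

theorem coeffMap_aeval_jqModC {F₀ : Type*} [Field F₀] (f : F₀ →+* k) (P : Polynomial F₀) :
    coeffMap f (Polynomial.aeval (jqModC F₀) P) = Polynomial.aeval (jqModC k) (P.map f) := by
  induction P using Polynomial.induction_on' with
  | add p q hp hq => rw [map_add, map_add, hp, hq, Polynomial.map_add, map_add]
  | monomial n a =>
    rw [Polynomial.aeval_monomial, Polynomial.map_monomial, Polynomial.aeval_monomial, map_mul,
      map_pow, coeffMap_jqModC, algebraMap_laurentSeries_eq_single,
      algebraMap_laurentSeries_eq_single, coeffMap_single]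

theorem coeffMap_injective {F₀ : Type*} [Field F₀] (f : F₀ →+* k) :
    Function.Injective (coeffMap f) := by
  intro x y h
  ext n
  have := congrArg (fun z => z.coeff n) h
  simp only [coeffMap_coeff] at this
  exact f.injective this

/-- **Descent of the constants**: independence over `k(j)` of the monomials with coefficients in
`k` gives independence over `F₀[j]` of the monomials with coefficients in a subfield `F₀`. -/
theorem poly_indep_of_linearIndependent {F₀ : Type*} [Field F₀] (f : F₀ →+* k) {n : ℕ}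
    (m : Fin n → (ℕ →₀ ℕ)) (h : LinearIndependent (K0 k) (fun i => Defs.mono k (m i)))
    (c : Fin n → Polynomial F₀)
    (hc : ∑ i, Polynomial.aeval (jqModC F₀) (c i) * Defs.mono F₀ (m i) = 0) : ∀ i, c i = 0 := by
  have h1 := congrArg (coeffMap f) hc
  rw [map_sum, map_zero] at h1
  have hmem : ∀ i, Polynomial.aeval (jqModC k) ((c i).map f) ∈ K0 k := fun i =>
    IntermediateField.algebra_adjoin_le_adjoin k _
      (Polynomial.aeval_mem_adjoin_singleton k (jqModC k))
  have h2 : ∑ i, (⟨Polynomial.aeval (jqModC k) ((c i).map f), hmem i⟩ : K0 k) •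
      Defs.mono k (m i) = 0 := by
    rw [← h1]
    refine Finset.sum_congr rfl fun i _ => ?_
    rw [map_mul, coeffMap_aeval_jqModC, Defs.coeffMap_mono]
    rfl
  have h3 := Fintype.linearIndependent_iff.mp h _ h2
  intro i
  have h4 : Polynomial.aeval (jqModC k) ((c i).map f) = 0 := congrArg Subtype.val (h3 i)
  have h5 := aeval_jqModC_injective k (h4.trans (map_zero _).symm)
  exact Polynomial.map_injective f f.injective (h5.trans (Polynomial.map_zero f).symm)


open Fermat.Agent.S28.SlopeTower in
/-- **The characteristic-`ℓ` crux in the shape consumed by the charts**, from the modular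
equation data over an algebraically closed field `k ⊇ F₀`: there are `ψ(N)` monomials in the
`j(q^d)`, `d ∣ N`, which are independent over `F₀[j]` inside `F₀((q))`. -/
theorem exists_monomials_of_pkg (k : Type*) [Field k] [IsAlgClosed k] {F₀ : Type*} [Field F₀]
    (f : F₀ →+* k) (N : ℕ) (hN : 0 < N) (a b : ℕ → LaurentSeries k)
    (hpkg : PkgHyp N (jqModC k) a b)
    (ha : ∀ p : ℕ, p.Prime → p ∣ N → a p ≠ 0 ∧ ((a p).order : ℚ) = p - 1)
    (hb : ∀ p : ℕ, p.Prime → p ∣ N → b p ≠ 0 ∧ ((b p).order : ℚ) = 1 - p)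
    (hint : ∀ d : ℕ, d ∣ N → IsIntegral (Rj k) (Defs.jd k d))
    (hu : ∀ (p d : ℕ) [NeZero d], p.Prime → d * p ∣ N →
      IsIntegral (Rj k) (qExpand k d (a p)) ∧ IsIntegral (Rj k) (qExpand k d (a p))⁻¹) :
    ∃ m : Fin (dedekindPsi N) → (ℕ →₀ ℕ), (∀ i, ∀ d ∈ (m i).support, d ∣ N) ∧
      ∀ c : Fin (dedekindPsi N) → Polynomial F₀,
        ∑ i, Polynomial.aeval (jqModC F₀) (c i) * Defs.mono F₀ (m i) = 0 → ∀ i, c i = 0 := by
  obtain ⟨m, hm1, hm2⟩ := exists_monomials_of_le k N
    (fun d hd => isIntegral_K0_of_Rj k (hint d hd)) (dedekindPsi N)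
    (dedekindPsi_le_finrank k N hN a b hpkg ha hb hint hu)
  exact ⟨m, hm1, poly_indep_of_linearIndependent f m hm2⟩

end Fermat.Agent.S28.CruxL
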