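import Mathlib
import Fermat.Prelude.Def_ModularCurve_X0ModL
import Fermat.Agent.S28.Defs

/-!
# S28: the composite-`d` tower for `j(q^d)`

If `j(q^p)` is integral over `B[j]` for every prime `p ∣ d`, then `j(q^d)` is integral over `B[j]`
(`isIntegral_jd`).  Everything takes place inside `LaurentSeries A` for a `B`-algebra `A`
(`B = ℤ`, `A = ℚ` for the charts of the Igusa scheme; `B = A = k` in characteristic `ℓ`).
-/

namespace Fermat.Agent.S28.JTower

open ModularCurve Fermat.Agent.S28.Defs

noncomputable section

variable {B : Type*} [CommRing B]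

/-- Transitivity of integrality along `S ⊆ S[y]`, in the form: `y` integral over `S` and `x`
integral over `B[y]` imply `x` integral over `S`. -/
theorem isIntegral_of_isIntegral_adjoin {E : Type*} [CommRing E] [Algebra B E]
    (S : Subalgebra B E) (y x : E) (hy : IsIntegral S y)
    (hx : IsIntegral (Algebra.adjoin B {y}) x) : IsIntegral S x := by
  have hmem : ∀ s ∈ Algebra.adjoin B {y}, IsIntegral S s := by
    intro s hs
    induction hs using Algebra.adjoin_induction with
    | mem z hz =>
      rw [Set.mem_singleton_iff] at hz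
      subst hz
      exact hy
    | algebraMap b =>
      rw [IsScalarTower.algebraMap_apply B S E]
      exact isIntegral_algebraMap
    | add a b _ _ ha hb => exact ha.add hb
    | mul a b _ _ ha hb => exact ha.mul hb
  let φ : Algebra.adjoin B {y} →+* integralClosure S E :=
    { toFun := fun s => ⟨s.1, hmem s.1 s.2⟩
      map_one' := rfl
      map_mul' := fun _ _ => rfl
      map_zero' := rfl
      map_add' := fun _ _ => rfl }
  have h3 : IsIntegral (integralClosure S E) x :=
    IsIntegral.map_of_comp_eq φ (RingHom.id E) (by ext; rfl) hx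
  exact isIntegral_trans x h3

variable {A : Type*} [CommRing A] [Algebra B A]

/-- The structure map `B → A((q))` takes values in the constants. -/
theorem algebraMap_eq_C (b : B) :
    algebraMap B (LaurentSeries A) b = HahnSeries.C (algebraMap B A b) := by
  show (HahnSeries.ofPowerSeries ℤ A) (algebraMap B (PowerSeries A) b) = _
  rw [PowerSeries.algebraMap_apply, HahnSeries.ofPowerSeries_C]

/-- `q ↦ q^d` transports integrality over `B[y]` to integrality over `B[y(q^d)]`. -/
theorem isIntegral_qExpand (d : ℕ) [NeZero d] (y x : LaurentSeries A)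
    (hx : IsIntegral (Algebra.adjoin B {y}) x) :
    IsIntegral (Algebra.adjoin B {qExpand A d y}) (qExpand A d x) := by
  have hmem : ∀ s ∈ Algebra.adjoin B {y}, qExpand A d s ∈ Algebra.adjoin B {qExpand A d y} := by
    intro s hs
    induction hs using Algebra.adjoin_induction with
    | mem z hz =>
      rw [Set.mem_singleton_iff] at hz
      subst hz
      exact Algebra.subset_adjoin rfl
    | algebraMap b =>
      rw [algebraMap_eq_C, qExpand_C, ← algebraMap_eq_C]
      exact Subalgebra.algebraMap_mem _ b
    | add a b _ _ ha hb =>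
      rw [map_add]
      exact add_mem ha hb
    | mul a b _ _ ha hb =>
      rw [map_mul]
      exact mul_mem ha hb
  let φ : Algebra.adjoin B {y} →+* Algebra.adjoin B {qExpand A d y} :=
    { toFun := fun s => ⟨qExpand A d s.1, hmem s.1 s.2⟩
      map_one' := Subtype.ext (map_one _)
      map_mul' := fun _ _ => Subtype.ext (map_mul _ _ _)
      map_zero' := Subtype.ext (map_zero _)
      map_add' := fun _ _ => Subtype.ext (map_add _ _ _) }
  exact IsIntegral.map_of_comp_eq φ (qExpand A d) (by ext; rfl) hx

theorem jd_mul (d p : ℕ) (hd : d ≠ 0) (hp : p ≠ 0) :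
    haveI : NeZero d := ⟨hd⟩
    jd A (d * p) = qExpand A d (jd A p) := by
  have : NeZero d := ⟨hd⟩
  have : NeZero p := ⟨hp⟩
  have : NeZero (d * p) := ⟨Nat.mul_ne_zero hd hp⟩
  rw [jd_of_neZero, jd_of_neZero, qExpand_qExpand]

/-- **Composite tower**: if `j(q^p)` is integral over `B[j]` for all primes `p ∣ d`, then so is
`j(q^d)`. -/
theorem isIntegral_jd (d : ℕ) (hd : d ≠ 0)
    (hprime : ∀ p : ℕ, p.Prime → p ∣ d →
      IsIntegral (Algebra.adjoin B {ModularCurve.jqModC A}) (Fermat.Agent.S28.Defs.jd A p)) :
    IsIntegral (Algebra.adjoin B {ModularCurve.jqModC A}) (Fermat.Agent.S28.Defs.jd A d) := by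
  induction d using Nat.strong_induction_on with
  | _ d ih =>
    rcases eq_or_ne d 1 with rfl | hd1
    · rw [jd_one]
      exact isIntegral_algebraMap
        (x := (⟨jqModC A, Algebra.subset_adjoin rfl⟩ : Algebra.adjoin B {jqModC A}))
    · obtain ⟨p, hp, hpd⟩ := Nat.exists_prime_and_dvd hd1
      obtain ⟨d', rfl⟩ := hpd
      have hd'0 : d' ≠ 0 := by
        rintro rfl
        exact hd (mul_zero p)
      have hlt : d' < p * d' := lt_mul_of_one_lt_left (Nat.pos_of_ne_zero hd'0) hp.one_lt
      have ih' : IsIntegral (Algebra.adjoin B {jqModC A}) (jd A d') :=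
        ih d' hlt hd'0 fun r hr hrd => hprime r hr (hrd.trans (Dvd.intro_left p rfl))
      have : NeZero d' := ⟨hd'0⟩
      have h1 : IsIntegral (Algebra.adjoin B {qExpand A d' (jqModC A)})
          (qExpand A d' (jd A p)) :=
        isIntegral_qExpand d' _ _ (hprime p hp (Dvd.intro d' rfl))
      have h2 : jd A (p * d') = qExpand A d' (jd A p) := by
        rw [mul_comm]
        exact jd_mul d' p hd'0 hp.ne_zero
      rw [← jd_of_neZero, ← h2] at h1
      exact isIntegral_of_isIntegral_adjoin _ _ _ ih' h1

end

end Fermat.Agent.S28.JTower
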