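import Mathlib
import Fermat.Prelude.Def_ModularCurve_X0ModL

/-!
# S28 (ModPkg): the formal discriminant and the two modular units at a prime `p`

Over any commutative ring `R`:
* `DlS R = q ∏ (1 - qⁿ)²⁴` and its inverse `DlSInv R`;
* `phiInf R p = p¹² Δ(q^p)/Δ(q)` and `phiZero R p = Δ(q)/Δ(q^p)`, written without division.
-/

namespace Fermat.Agent.S28.ModPkg

open ModularCurve

variable (R : Type*) [CommRing R]

/-- the formal discriminant `Δ(q) = q ∏ (1 - qⁿ)²⁴` -/
noncomputable def DlS : LaurentSeries R :=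
  HahnSeries.single (1 : ℤ) (1 : R) *
    HahnSeries.ofPowerSeries ℤ R (dedekindEtaUnit.map (Int.castRingHom R))

/-- the inverse of the formal discriminant -/
noncomputable def DlSInv : LaurentSeries R :=
  HahnSeries.single (-1 : ℤ) (1 : R) *
    HahnSeries.ofPowerSeries ℤ R (dedekindEtaUnitInv.map (Int.castRingHom R))

theorem DlS_mul_DlSInv : DlS R * DlSInv R = 1 := by
  have h1 : HahnSeries.single (1 : ℤ) (1 : R) * HahnSeries.single (-1 : ℤ) (1 : R) = 1 := by
    rw [HahnSeries.single_mul_single]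
    simp
  have h2 : HahnSeries.ofPowerSeries ℤ R (dedekindEtaUnit.map (Int.castRingHom R)) *
      HahnSeries.ofPowerSeries ℤ R (dedekindEtaUnitInv.map (Int.castRingHom R)) = 1 := by
    rw [← map_mul, ← map_mul, dedekindEtaUnit_mul_inv, map_one, map_one]
  calc DlS R * DlSInv R
      = (HahnSeries.single (1 : ℤ) (1 : R) * HahnSeries.single (-1 : ℤ) (1 : R)) *
        (HahnSeries.ofPowerSeries ℤ R (dedekindEtaUnit.map (Int.castRingHom R)) *
          HahnSeries.ofPowerSeries ℤ R (dedekindEtaUnitInv.map (Int.castRingHom R))) := by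
        rw [DlS, DlSInv]; ring
    _ = 1 := by rw [h1, h2, one_mul]

theorem DlSInv_mul_DlS : DlSInv R * DlS R = 1 := by rw [mul_comm, DlS_mul_DlSInv]

variable (p : ℕ) [NeZero p]

/-- the unit `φ∞ = p¹² Δ(q^p)/Δ(q)` -/
noncomputable def phiInf : LaurentSeries R :=
  HahnSeries.C ((p : R) ^ 12) * (qExpand R p (DlS R) * DlSInv R)

/-- the unit `φ₀ = Δ(q)/Δ(q^p)` -/
noncomputable def phiZero : LaurentSeries R := DlS R * qExpand R p (DlSInv R)

theorem phiInf_mul_DlS :
    phiInf R p * DlS R = HahnSeries.C ((p : R) ^ 12) * qExpand R p (DlS R) := by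
  rw [phiInf, mul_assoc, mul_assoc, DlSInv_mul_DlS, mul_one]

theorem phiZero_mul_qExpand : phiZero R p * qExpand R p (DlS R) = DlS R := by
  rw [phiZero, mul_assoc, ← map_mul, DlSInv_mul_DlS, map_one, mul_one]

/-- `φ∞(q) · φ₀(q) = p¹²` -/
theorem phiInf_mul_phiZero : phiInf R p * phiZero R p = HahnSeries.C ((p : R) ^ 12) := by
  rw [phiInf, phiZero]
  calc HahnSeries.C ((p : R) ^ 12) * (qExpand R p (DlS R) * DlSInv R) *
        (DlS R * qExpand R p (DlSInv R))
      = HahnSeries.C ((p : R) ^ 12) * ((DlSInv R * DlS R) *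
          (qExpand R p (DlS R) * qExpand R p (DlSInv R))) := by ring
    _ = HahnSeries.C ((p : R) ^ 12) := by
        rw [DlSInv_mul_DlS, ← map_mul, DlS_mul_DlSInv, map_one, mul_one, mul_one]

section Naturality

variable {R} {S : Type*} [CommRing S] (f : R →+* S)

theorem coeffMap_map_intCast (u : PowerSeries ℤ) :
    coeffMap f (HahnSeries.ofPowerSeries ℤ R (u.map (Int.castRingHom R))) =
      HahnSeries.ofPowerSeries ℤ S (u.map (Int.castRingHom S)) := by
  rw [coeffMap_ofPowerSeries]
  congr 1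
  ext n
  simp

theorem coeffMap_DlS : coeffMap f (DlS R) = DlS S := by
  rw [DlS, DlS, map_mul, coeffMap_single, map_one, coeffMap_map_intCast]

theorem coeffMap_DlSInv : coeffMap f (DlSInv R) = DlSInv S := by
  rw [DlSInv, DlSInv, map_mul, coeffMap_single, map_one, coeffMap_map_intCast]

theorem coeffMap_C (r : R) : coeffMap f (HahnSeries.C r) = HahnSeries.C (f r) :=
  coeffMap_single f 0 r

theorem coeffMap_phiInf : coeffMap f (phiInf R p) = phiInf S p := by
  rw [phiInf, phiInf, map_mul, map_mul, coeffMap_C, coeffMap_qExpand, coeffMap_DlS,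
    coeffMap_DlSInv, map_pow, map_natCast]

theorem coeffMap_phiZero : coeffMap f (phiZero R p) = phiZero S p := by
  rw [phiZero, phiZero, map_mul, coeffMap_qExpand, coeffMap_DlS, coeffMap_DlSInv]

end Naturality

end Fermat.Agent.S28.ModPkg
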