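import Mathlib
import Fermat.Prelude.Def_ModularCurve_X0ModL
import Fermat.Agent.S28.Defs
import Fermat.Agent.S28.JTower
import Fermat.Agent.S28.ModPkgDefs
import Fermat.Agent.S28.CruxLMono

/-!
# S28 (M5), assembler, part 4: discharge of the hypotheses from the modular equation package

`ModData k p` is the statement of `ModPkg.exists_modPkg` at one prime (unfolded form, without
degree information that is not needed).  From `ModData k p` at all primes `p ∣ N` (invertible
in the algebraically closed field `k`) we get the `ψ(N)` independent monomials.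
-/

set_option autoImplicit false

noncomputable section

open ModularCurve HahnSeries

namespace Fermat.Agent.S28.CruxL

open Fermat.Agent.S28.ModPkg Fermat.Agent.S28.SlopeTower

variable (k : Type*) [Field k]

/-! ### orders of the formal units -/

theorem order_eq_of_coeff' {x : LaurentSeries k} {n : ℤ}
    (hn : x.coeff n ≠ 0) (hlt : ∀ m < n, x.coeff m = 0) : x.order = n := by
  have hx : x ≠ 0 := fun h0 => hn (by rw [h0]; rfl)
  refine le_antisymm (order_le_of_coeff_ne_zero hn) ?_
  by_contra hcon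
  rw [not_le] at hcon
  exact (coeff_order_eq_zero.not.mpr hx) (hlt _ hcon)

theorem coeff_DlS (m : ℤ) :
    (DlS k).coeff m = (HahnSeries.ofPowerSeries ℤ k
      (dedekindEtaUnit.map (Int.castRingHom k))).coeff (m - 1) := by
  have h := HahnSeries.coeff_single_mul_add (r := (1 : k))
    (x := HahnSeries.ofPowerSeries ℤ k (dedekindEtaUnit.map (Int.castRingHom k)))
    (a := m - 1) (b := (1 : ℤ))
  rw [one_mul, sub_add_cancel] at h
  exact h

theorem order_DlS : (DlS k).order = 1 := by
  apply order_eq_of_coeff'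
  · rw [coeff_DlS, sub_self]
    have h := HahnSeries.ofPowerSeries_apply_coeff (Γ := ℤ)
      (dedekindEtaUnit.map (Int.castRingHom k)) 0
    rw [Nat.cast_zero] at h
    rw [h, PowerSeries.coeff_map, PowerSeries.coeff_zero_eq_constantCoeff,
      constantCoeff_dedekindEtaUnit]
    simp
  · intro m hm
    rw [coeff_DlS]
    exact ofPowerSeries_coeff_of_neg _ (by omega)

theorem DlS_ne_zero : DlS k ≠ 0 := fun h => by
  have := order_DlS k
  rw [h, HahnSeries.order_zero] at this
  exact zero_ne_one this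

theorem order_mul' {x y : LaurentSeries k} (hx : x ≠ 0) (hy : y ≠ 0) :
    (x * y).order = x.order + y.order :=
  HahnSeries.order_mul_of_ne_zero
    (mul_ne_zero (leadingCoeff_ne_zero.mpr hx) (leadingCoeff_ne_zero.mpr hy))

theorem order_qExpand' (d : ℕ) [NeZero d] {x : LaurentSeries k} (hx : x ≠ 0) :
    (qExpand k d x).order = (d : ℤ) * x.order := by
  have hN : (0 : ℤ) < (d : ℤ) := by exact_mod_cast Nat.pos_of_ne_zero (NeZero.ne d)
  apply order_eq_of_coeff'
  · rw [qExpand_coeff_mul]
    exact coeff_order_eq_zero.not.mpr hx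
  · intro m hm
    by_cases hdvd : (d : ℤ) ∣ m
    · obtain ⟨c, rfl⟩ := hdvd
      rw [qExpand_coeff_mul]
      by_contra h
      exact absurd (order_le_of_coeff_ne_zero h) (not_le.mpr (lt_of_mul_lt_mul_left hm hN.le))
    · exact qExpand_coeff_of_not_dvd d x hdvd

variable (p : ℕ) [NeZero p]

theorem qExpand_DlS_ne_zero : qExpand k p (DlS k) ≠ 0 := fun h =>
  DlS_ne_zero k (qExpand_injective p (h.trans (map_zero _).symm))

theorem phiZero_ne_zero : phiZero k p ≠ 0 := fun h => by
  have := phiZero_mul_qExpand k p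
  rw [h, zero_mul] at this
  exact DlS_ne_zero k this.symm

theorem order_phiZero : ((phiZero k p).order : ℚ) = 1 - p := by
  have h := congrArg HahnSeries.order (phiZero_mul_qExpand k p)
  rw [order_mul' k (phiZero_ne_zero k p) (qExpand_DlS_ne_zero k p),
    order_qExpand' k p (DlS_ne_zero k), order_DlS, mul_one] at h
  have h' : (phiZero k p).order = 1 - (p : ℤ) := by omega
  rw [h']
  push_cast
  ring

theorem phiInf_ne_zero (hp : (p : k) ≠ 0) : phiInf k p ≠ 0 := fun h => by
  have := phiInf_mul_phiZero k p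
  rw [h, zero_mul] at this
  have h2 : (HahnSeries.C ((p : k) ^ 12) : LaurentSeries k) ≠ 0 := by
    rw [Ne, ← map_zero (HahnSeries.C (Γ := ℤ) (R := k))]
    exact fun h3 => pow_ne_zero 12 hp (HahnSeries.C_injective h3)
  exact h2 this.symm

theorem order_phiInf (hp : (p : k) ≠ 0) : ((phiInf k p).order : ℚ) = p - 1 := by
  have h := congrArg HahnSeries.order (phiInf_mul_phiZero k p)
  rw [order_mul' k (phiInf_ne_zero k p hp) (phiZero_ne_zero k p), HahnSeries.order_C] at h
  have h2 := order_phiZero k p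
  have h3 : ((phiInf k p).order : ℚ) + ((phiZero k p).order : ℚ) = 0 := by exact_mod_cast h
  linarith


/-! ### integrality -/

omit [NeZero p] in
/-- a root of a monic polynomial with coefficients in `k[y]` is integral over `k[y]`. -/
theorem isIntegral_adjoin_of_ev {y x : LaurentSeries k} (P : Polynomial (Polynomial k))
    (hP : P.Monic) (h : (P.map (Polynomial.aeval y).toRingHom).eval x = 0) :
    IsIntegral (Algebra.adjoin k {y}) x := by
  let g : Polynomial k →ₐ[k] Algebra.adjoin k {y} :=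
    (Polynomial.aeval (R := k) y).codRestrict (Algebra.adjoin k {y})
      (fun _ => Polynomial.aeval_mem_adjoin_singleton k y)
  refine ⟨P.map (g : Polynomial k →+* Algebra.adjoin k {y}), hP.map _, ?_⟩
  rw [Polynomial.eval₂_map]
  have hcomp : (algebraMap (Algebra.adjoin k {y}) (LaurentSeries k)).comp
      (g : Polynomial k →+* Algebra.adjoin k {y}) = (Polynomial.aeval (R := k) y).toRingHom := by
    ext c <;> rfl
  rw [hcomp, ← Polynomial.eval_map]
  exact h

omit [NeZero p] in
theorem isIntegral_C (c : k) : IsIntegral (Rj k) (HahnSeries.C c : LaurentSeries k) := by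
  have h : (HahnSeries.C c : LaurentSeries k) =
      algebraMap (Rj k) (LaurentSeries k) (algebraMap k (Rj k) c) := by
    rw [← IsScalarTower.algebraMap_apply, algebraMap_laurentSeries_eq_single, HahnSeries.C_apply]
  rw [h]
  exact isIntegral_algebraMap

/-- the modular equation data at one prime (the statement of `ModPkg.exists_modPkg`, unfolded,
without the degree information that is not used). -/
def ModData : Prop :=
  ∃ Φ T Ψ : Polynomial (Polynomial k), Φ.Monic ∧ Φ.natDegree = p + 1 ∧ Ψ.Monic ∧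
    (Φ.map (Polynomial.aeval (jqModC k)).toRingHom).eval (qExpand k p (jqModC k)) = 0 ∧
    (Φ.map (Polynomial.aeval (qExpand k p (jqModC k))).toRingHom).eval (jqModC k) = 0 ∧
    phiInf k p * ((Polynomial.derivative Φ).map (Polynomial.aeval (jqModC k)).toRingHom).eval
        (qExpand k p (jqModC k)) =
      (T.map (Polynomial.aeval (jqModC k)).toRingHom).eval (qExpand k p (jqModC k)) ∧
    phiZero k p * ((Polynomial.derivative Φ).map
        (Polynomial.aeval (qExpand k p (jqModC k))).toRingHom).eval (jqModC k) =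
      (T.map (Polynomial.aeval (qExpand k p (jqModC k))).toRingHom).eval (jqModC k) ∧
    (Ψ.map (Polynomial.aeval (jqModC k)).toRingHom).eval (phiInf k p) = 0 ∧
    (Ψ.map (Polynomial.aeval (qExpand k p (jqModC k))).toRingHom).eval (phiZero k p) = 0

omit [NeZero p] in
/-- `φ∞` at the prime `p`, total in `p`. -/
def aFam (p : ℕ) : LaurentSeries k :=
  if h : p = 0 then 0 else (have : NeZero p := ⟨h⟩; phiInf k p)

omit [NeZero p] in
/-- `φ₀` at the prime `p`, total in `p`. -/
def bFam (p : ℕ) : LaurentSeries k :=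
  if h : p = 0 then 0 else (have : NeZero p := ⟨h⟩; phiZero k p)

theorem aFam_eq : aFam k p = phiInf k p := by rw [aFam, dif_neg (NeZero.ne p)]

theorem bFam_eq : bFam k p = phiZero k p := by rw [bFam, dif_neg (NeZero.ne p)]

omit [NeZero p] in
/-- **The characteristic-`ℓ` crux from the modular equation package**: if `k` is algebraically
closed, every prime divisor of `N` is invertible in `k`, and the modular equation data exist at
every prime `p ∣ N`, then there are `ψ(N)` monomials in the `j(q^d)`, `d ∣ N`, independent over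
`F₀[j]` for every subfield `F₀` of `k`. -/
theorem exists_monomials_of_modData [IsAlgClosed k] {F₀ : Type*} [Field F₀] (f : F₀ →+* k)
    (N : ℕ) (hN : 0 < N) (hNk : ∀ p : ℕ, p.Prime → p ∣ N → (p : k) ≠ 0)
    (hmod : ∀ (p : ℕ) [NeZero p], p.Prime → p ∣ N → ModData k p) :
    ∃ m : Fin (dedekindPsi N) → (ℕ →₀ ℕ), (∀ i, ∀ d ∈ (m i).support, d ∣ N) ∧
      ∀ c : Fin (dedekindPsi N) → Polynomial F₀,
        ∑ i, Polynomial.aeval (jqModC F₀) (c i) * Defs.mono F₀ (m i) = 0 → ∀ i, c i = 0 := by
  have hprime : ∀ p : ℕ, p.Prime → p ∣ N → IsIntegral (Rj k) (Defs.jd k p) := by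
    intro p hp hpN
    have : NeZero p := ⟨hp.ne_zero⟩
    obtain ⟨Φ, T, Ψ, hΦ, -, -, h2, -⟩ := hmod p hp hpN
    rw [Defs.jd_of_neZero]
    exact isIntegral_adjoin_of_ev k Φ hΦ h2
  have hint : ∀ d : ℕ, d ∣ N → IsIntegral (Rj k) (Defs.jd k d) := by
    intro d hd
    have hd0 : d ≠ 0 := fun h => hN.ne' (by rw [h, zero_dvd_iff] at hd; exact hd)
    exact JTower.isIntegral_jd (B := k) (A := k) d hd0
      (fun p hp hpd => hprime p hp (hpd.trans hd))
  refine exists_monomials_of_pkg k f N hN (aFam k) (bFam k) ?_ ?_ ?_ hint ?_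
  · intro p _ hp hpN
    obtain ⟨Φ, T, Ψ, hΦ, hdeg, -, h2, h3, h4, h5, -, -⟩ := hmod p hp hpN
    rw [aFam_eq, bFam_eq]
    exact ⟨hNk p hp hpN, Φ, T, hΦ, hdeg, h2, h3, h4, h5⟩
  · intro p hp hpN
    have : NeZero p := ⟨hp.ne_zero⟩
    rw [aFam_eq]
    exact ⟨phiInf_ne_zero k p (hNk p hp hpN), order_phiInf k p (hNk p hp hpN)⟩
  · intro p hp hpN
    have : NeZero p := ⟨hp.ne_zero⟩
    rw [bFam_eq]
    exact ⟨phiZero_ne_zero k p, order_phiZero k p⟩
  · intro p d _ hp hdp
    have : NeZero p := ⟨hp.ne_zero⟩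
    have hpN : p ∣ N := (Dvd.intro_left d rfl).trans hdp
    have hdN : d ∣ N := (Dvd.intro _ rfl).trans hdp
    have hpk : (p : k) ≠ 0 := hNk p hp hpN
    obtain ⟨Φ, T, Ψ, -, -, hΨ, -, -, -, -, h6, h6'⟩ := hmod p hp hpN
    rw [aFam_eq]
    have hjd : IsIntegral (Rj k) (qExpand k d (jqModC k)) := by
      rw [← Defs.jd_of_neZero]
      exact hint d hdN
    have hjdp : IsIntegral (Rj k) (qExpand k d (qExpand k p (jqModC k))) := by
      have : NeZero (d * p) := ⟨Nat.mul_ne_zero (NeZero.ne d) (NeZero.ne p)⟩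
      rw [qExpand_qExpand, ← Defs.jd_of_neZero]
      exact hint (d * p) hdp
    have h1 : IsIntegral (Rj k) (qExpand k d (phiInf k p)) :=
      JTower.isIntegral_of_isIntegral_adjoin (Rj k) _ _ hjd
        (JTower.isIntegral_qExpand d _ _ (isIntegral_adjoin_of_ev k Ψ hΨ h6))
    have h2 : IsIntegral (Rj k) (qExpand k d (phiZero k p)) :=
      JTower.isIntegral_of_isIntegral_adjoin (Rj k) _ _ hjdp
        (JTower.isIntegral_qExpand d _ _ (isIntegral_adjoin_of_ev k Ψ hΨ h6'))
    refine ⟨h1, ?_⟩
    have hmul : qExpand k d (phiInf k p) * qExpand k d (phiZero k p) =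
        HahnSeries.C ((p : k) ^ 12) := by
      rw [← map_mul, phiInf_mul_phiZero, qExpand_C]
    have hinv : (qExpand k d (phiInf k p))⁻¹ =
        HahnSeries.C (((p : k) ^ 12)⁻¹) * qExpand k d (phiZero k p) := by
      symm
      apply eq_inv_of_mul_eq_one_right
      rw [mul_left_comm, hmul, ← map_mul, inv_mul_cancel₀ (pow_ne_zero 12 hpk), map_one]
    rw [hinv]
    exact (isIntegral_C k _).mul h2


omit [NeZero p] in
/-- **(C) modulo the modular equation package**: for `ℓ ∤ N` there are `ψ(N)` monomials in the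
`j(q^d)`, `d ∣ N`, whose expansions over `𝔽_ℓ` are independent over `𝔽_ℓ[j]`, provided the
modular equation data exist over `k = \overline{𝔽_ℓ}` at every prime `p ∣ N`. -/
theorem exists_monomials_of_modPkg (N : ℕ) [NeZero N] (ℓ : ℕ) [Fact ℓ.Prime] (hℓN : ¬ ℓ ∣ N)
    (hmod : ∀ (p : ℕ) [NeZero p], p.Prime → p ∣ N → ModData (AlgebraicClosure (ZMod ℓ)) p) :
    ∃ m : Fin (dedekindPsi N) → (ℕ →₀ ℕ), (∀ i, ∀ d ∈ (m i).support, d ∣ N) ∧
      ∀ c : Fin (dedekindPsi N) → Polynomial (ZMod ℓ),
        ∑ i, Polynomial.aeval (jqModC (ZMod ℓ)) (c i) * Defs.mono (ZMod ℓ) (m i) = 0 →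
          ∀ i, c i = 0 := by
  have : CharP (AlgebraicClosure (ZMod ℓ)) ℓ :=
    charP_of_injective_algebraMap
      (algebraMap (ZMod ℓ) (AlgebraicClosure (ZMod ℓ))).injective ℓ
  refine exists_monomials_of_modData (AlgebraicClosure (ZMod ℓ))
    (algebraMap (ZMod ℓ) (AlgebraicClosure (ZMod ℓ))) N (Nat.pos_of_ne_zero (NeZero.ne N))
    ?_ hmod
  intro p hp hpN h0
  rw [CharP.cast_eq_zero_iff (AlgebraicClosure (ZMod ℓ)) ℓ] at h0
  have hℓp : ℓ = p := (Nat.prime_dvd_prime_iff_eq (Fact.out : ℓ.Prime) hp).mp h0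
  exact hℓN (hℓp ▸ hpN)

end Fermat.Agent.S28.CruxL
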