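import Mathlib
import Fermat.Agent.S24.NormAn
import Fermat.Agent.S24.Bridge.JScaled
import Fermat.Agent.S16.EpSlash
import Fermat.Agent.S16.Root12B2
import Fermat.Agent.S16.CosetsP
import Fermat.Agent.S16.Companion

/-!
# S28 (ModPkg, analytic unit side): the modular unit `φ∞ = p¹² Δ(pz)/Δ(z)`

For a prime `p`, the function `phiInf p z = p¹² Δ(pz)/Δ(z)` is holomorphic on `ℍ`, invariant under
`Γ₀(p)`, of moderate growth at `i∞` after every `SL(2,ℤ)`-translation, and its `S`-translate is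
`z ↦ Δ(z/p)/Δ(z)`.
-/

set_option autoImplicit false

open UpperHalfPlane ModularForm Filter CongruenceSubgroup
open scoped MatrixGroups ModularForm Manifold Topology Real

namespace Fermat.Agent.S28.UnitAn

open Fermat.Agent.S20 Fermat.Agent.S24 Fermat.Agent.S16

/-- the modular unit `φ∞(z) = p¹² Δ(pz)/Δ(z)` -/
noncomputable def phiInf (p : ℕ) (z : ℍ) : ℂ :=
  (p : ℂ) ^ 12 * Dl (ofComplex ((p : ℂ) * (z : ℂ))) / Dl z

theorem ofComplex_natCast_mul {p : ℕ} (hp : p ≠ 0) (z : ℍ) :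
    ofComplex ((p : ℂ) * (z : ℂ)) = heckeDiagMatrix p • z :=
  (Companion.diag_smul_eq hp z).symm

theorem phiInf_eq_uQ {p : ℕ} (hp : p ≠ 0) (z : ℍ) :
    phiInf p z = (p : ℂ) ^ 12 * EpSlash.uQ p z := by
  simp only [phiInf, EpSlash.uQ, ofComplex_natCast_mul hp, Dl]
  ring

theorem im_div_natCast_pos {p : ℕ} (hp : p ≠ 0) (z : ℍ) : 0 < ((z : ℂ) / (p : ℂ)).im := by
  have hp' : (0 : ℝ) < p := Nat.cast_pos.mpr (Nat.pos_of_ne_zero hp)
  have h : ((z : ℂ) / (p : ℂ)).im = z.im / p := by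
    have : ((p : ℂ)) = ((p : ℝ) : ℂ) := by push_cast; rfl
    rw [this, Complex.div_ofReal_im]
    rfl
  rw [h]
  exact div_pos z.im_pos hp'

theorem heckeMatrix_zero_smul {p : ℕ} (hp : p ≠ 0) (z : ℍ) :
    heckeMatrix p 0 • z = ofComplex ((z : ℂ) / (p : ℂ)) := by
  ext
  rw [coe_heckeMatrix_smul hp, ofComplex_apply_of_im_pos (im_div_natCast_pos hp z)]
  simp

/-- (U1) -/
theorem mdiff_phiInf (p : ℕ) (hp : p.Prime) : MDiff (phiInf p) := by
  have h1 : MDiff (fun z : ℍ => Dl (ofComplex ((p : ℂ) * (z : ℂ)))) :=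
    Bridge.mdiff_comp_scale (s := fun z : ℍ => ofComplex ((p : ℂ) * (z : ℂ))) Bridge.mdiff_Dl
      hp.ne_zero (fun z => Bridge.coe_ofComplex_natCast_mul hp.pos z)
  have h2 : MDiff (fun z : ℍ => (p : ℂ) ^ 12 * Dl (ofComplex ((p : ℂ) * (z : ℂ)))) :=
    mdifferentiable_const.mul h1
  exact h2.div Bridge.mdiff_Dl Dl_ne_zero

/-- (U2) -/
theorem phiInf_smul_of_mem (p : ℕ) (hp : p.Prime) (g : SL(2, ℤ)) (hg : g ∈ Gamma0 p) (z : ℍ) :
    phiInf p (g • z) = phiInf p z := by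
  rw [phiInf_eq_uQ hp.ne_zero, phiInf_eq_uQ hp.ne_zero, EpSlash.uQ_smul p hp.ne_zero g hg z]

/-- (U4) -/
theorem phiInf_S_smul (p : ℕ) (hp : p.Prime) (z : ℍ) :
    phiInf p (ModularGroup.S • z) = Dl (ofComplex ((z : ℂ) / p)) / Dl z := by
  have : Fact p.Prime := ⟨hp⟩
  have hpC : (p : ℂ) ^ 12 ≠ 0 := pow_ne_zero _ (by exact_mod_cast hp.ne_zero)
  have h := Root12B.uQ_S_mul p z
  have h2 : EpSlash.uQ p (heckeMatrix p 0 • z) = Dl z / Dl (heckeMatrix p 0 • z) := by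
    simp only [EpSlash.uQ, Root12B.diag_smul_heckeMatrix p z, Dl]
  rw [phiInf_eq_uQ hp.ne_zero, ← heckeMatrix_zero_smul hp.ne_zero]
  rw [h2] at h
  have hD1 := Dl_ne_zero z
  have hD2 := Dl_ne_zero (heckeMatrix p 0 • z)
  have h3 : EpSlash.uQ p (ModularGroup.S • z) * Dl z =
      ((p : ℂ) ^ 12)⁻¹ * Dl (heckeMatrix p 0 • z) := by
    have h4 : EpSlash.uQ p (ModularGroup.S • z) * (Dl z / Dl (heckeMatrix p 0 • z)) *
        Dl (heckeMatrix p 0 • z) = ((p : ℂ) ^ 12)⁻¹ * Dl (heckeMatrix p 0 • z) := by rw [h]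
    rw [mul_assoc, div_mul_cancel₀ _ hD2] at h4
    exact h4
  rw [eq_div_iff hD1, mul_assoc, h3, ← mul_assoc, mul_inv_cancel₀ hpC, one_mul]

/-- (U5) -/
theorem jFun_scale_S_smul (p : ℕ) (hp : p.Prime) (z : ℍ) :
    jFun (ofComplex ((p : ℂ) * ((ModularGroup.S • z : ℍ) : ℂ))) =
      jFun (ofComplex ((z : ℂ) / p)) := by
  have : Fact p.Prime := ⟨hp⟩
  rw [ofComplex_natCast_mul hp.ne_zero, Root12B.diag_smul_S p z, LevelOneJ.jFun_smul,
    heckeMatrix_zero_smul hp.ne_zero]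

theorem Dl_T_pow_smul (b : ℕ) (z : ℍ) : Dl (ModularGroup.T ^ b • z) = Dl z := by
  have h := UpperHalfPlane.modular_T_zpow_smul z (b : ℤ)
  rw [zpow_natCast] at h
  rw [h]
  have := Bridge.Dl_vadd b z
  simpa using this

theorem im_T_pow_smul (b : ℕ) (z : ℍ) : (ModularGroup.T ^ b • z).im = z.im := by
  have h := UpperHalfPlane.modular_T_zpow_smul z (b : ℤ)
  rw [zpow_natCast] at h
  rw [h]
  simp

/-- `z ↦ Δ(z/p)` is bounded at `i∞`. -/
theorem exists_bound_Dl_div {p : ℕ} (hp : p ≠ 0) :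
    ∃ M A : ℝ, ∀ w : ℍ, A ≤ w.im → ‖Dl (ofComplex ((w : ℂ) / p))‖ ≤ M := by
  have hp' : (0 : ℝ) < p := Nat.cast_pos.mpr (Nat.pos_of_ne_zero hp)
  obtain ⟨M, A, hMA⟩ := UpperHalfPlane.isBoundedAtImInfty_iff.mp Bridge.isBounded_Dl
  refine ⟨M, A * p, fun w hw => hMA _ ?_⟩
  have him : (ofComplex ((w : ℂ) / p)).im = w.im / p := by
    have h1 : ((ofComplex ((w : ℂ) / p) : ℍ) : ℂ) = (w : ℂ) / p := by
      rw [ofComplex_apply_of_im_pos (im_div_natCast_pos hp w)]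
    have h2 : ((w : ℂ) / (p : ℂ)).im = w.im / p := by
      have : ((p : ℂ)) = ((p : ℝ) : ℂ) := by push_cast; rfl
      rw [this, Complex.div_ofReal_im]
      rfl
    rw [← UpperHalfPlane.coe_im, h1, h2]
  rw [him, le_div_iff₀ hp']
  exact hw

/-- (U3) -/
theorem moderate_phiInf_smul (p : ℕ) (hp : p.Prime) (g : SL(2, ℤ)) :
    NormAn.Moderate (fun z : ℍ => phiInf p (g • z)) := by
  have : Fact p.Prime := ⟨hp⟩
  refine ⟨1, ?_⟩
  by_cases hg : g ∈ Gamma0 p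
  · have e : (fun z : ℍ => phiInf p (g • z) * Dl z ^ 1) =
        fun z : ℍ => (p : ℂ) ^ 12 * Dl (ofComplex ((p : ℂ) * (z : ℂ))) := by
      funext z
      rw [phiInf_smul_of_mem p hp g hg, phiInf, pow_one, div_mul_cancel₀ _ (Dl_ne_zero z)]
    rw [e]
    have h1 : IsBoundedAtImInfty (fun z : ℍ => Dl (ofComplex ((p : ℂ) * (z : ℂ)))) :=
      ((Bridge.isHolBdd_Dl 1).scale (s := fun z : ℍ => ofComplex ((p : ℂ) * (z : ℂ))) hp.ne_zero
        (fun z => Bridge.coe_ofComplex_natCast_mul hp.pos z)).bdd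
    exact (Filter.const_boundedAtFilter _ ((p : ℂ) ^ 12)).mul h1
  · obtain ⟨b, -, β, hβ, rfl⟩ := exists_ST_rep p g hg
    have e : (fun z : ℍ => phiInf p ((β * ModularGroup.S * ModularGroup.T ^ b) • z) * Dl z ^ 1) =
        fun z : ℍ => Dl (ofComplex (((ModularGroup.T ^ b • z : ℍ) : ℂ) / p)) := by
      funext z
      rw [mul_smul, mul_smul, phiInf_smul_of_mem p hp β hβ, phiInf_S_smul p hp, Dl_T_pow_smul,
        pow_one, div_mul_cancel₀ _ (Dl_ne_zero z)]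
    rw [e]
    obtain ⟨M, A, hMA⟩ := exists_bound_Dl_div hp.ne_zero
    refine UpperHalfPlane.isBoundedAtImInfty_iff.mpr ⟨M, A, fun z hz => hMA _ ?_⟩
    rw [im_T_pow_smul]
    exact hz

end Fermat.Agent.S28.UnitAn
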