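import Mathlib
import Fermat.Agent.S28.UnitAn
import Fermat.Agent.S24.Bridge.JLaurent

/-!
# S28 (ModPkg, analytic unit side): Laurent expansions of the modular units

`φ∞ = p¹² Δ(pz)/Δ(z)` and `φ₀ = Δ(z)/Δ(pz)` are `1`-periodic, holomorphic and meromorphic at
`i∞`, with Laurent expansions determined by
`laurent φ∞ · Δ(q) = p¹² Δ(q^p)` and `laurent φ₀ · Δ(q^p) = Δ(q)`.
-/

set_option autoImplicit false

open UpperHalfPlane ModularForm Filter CongruenceSubgroup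
open scoped MatrixGroups ModularForm Manifold Topology Real

namespace Fermat.Agent.S28.UnitAn

open Fermat.Agent.S20 Fermat.Agent.S24 Fermat.Agent.S24.Bridge Fermat.Agent.S16

theorem coe_scale {p : ℕ} (hp : p.Prime) (z : ℍ) :
    ((ofComplex ((p : ℂ) * (z : ℂ)) : ℍ) : ℂ) = p * z :=
  Bridge.coe_ofComplex_natCast_mul hp.pos z

theorem phiInf_mul_Dl (p : ℕ) :
    (phiInf p * Dl : ℍ → ℂ) =
      (fun _ : ℍ => (p : ℂ) ^ 12) * fun z : ℍ => Dl (ofComplex ((p : ℂ) * (z : ℂ))) := by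
  funext z
  simp only [Pi.mul_apply, phiInf]
  rw [div_mul_cancel₀ _ (Dl_ne_zero z)]

/-- (U6) -/
theorem isMeroInf_phiInf (p : ℕ) (hp : p.Prime) : IsMeroInf 1 (phiInf p) := by
  refine ⟨mdiff_phiInf p hp, fun z => ?_, 1, ?_⟩
  · have h := phiInf_smul_of_mem p hp ModularGroup.T (gT p).2 z
    rw [UpperHalfPlane.modular_T_smul] at h
    simpa using h
  · have e : (fun z : ℍ => phiInf p z * Dl z ^ 1) =
        fun z : ℍ => (p : ℂ) ^ 12 * Dl (ofComplex ((p : ℂ) * (z : ℂ))) := by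
      funext z
      rw [phiInf, pow_one, div_mul_cancel₀ _ (Dl_ne_zero z)]
    rw [e]
    have h1 : IsBoundedAtImInfty (fun z : ℍ => Dl (ofComplex ((p : ℂ) * (z : ℂ)))) :=
      ((Bridge.isHolBdd_Dl 1).scale (s := fun z : ℍ => ofComplex ((p : ℂ) * (z : ℂ))) hp.ne_zero
        (fun z => coe_scale hp z)).bdd
    exact (Filter.const_boundedAtFilter _ ((p : ℂ) ^ 12)).mul h1

/-- (U6) -/
theorem laurent_phiInf (p : ℕ) (hp : p.Prime) [NeZero p] :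
    laurent 1 (phiInf p) * DlSeries 1 =
      HahnSeries.C ((p : ℂ) ^ 12) * ModularCurve.qExpand ℂ p (DlSeries 1) := by
  have hs : ∀ z : ℍ, ((ofComplex ((p : ℂ) * (z : ℂ)) : ℍ) : ℂ) = p * z := coe_scale hp
  have hsc : IsMeroInf 1 (fun z : ℍ => Dl (ofComplex ((p : ℂ) * (z : ℂ)))) :=
    (isMeroInf_Dl 1).scale (s := fun z : ℍ => ofComplex ((p : ℂ) * (z : ℂ))) hp.ne_zero hs
  rw [← laurent_Dl 1, ← laurent_mul (isMeroInf_phiInf p hp) (isMeroInf_Dl 1), phiInf_mul_Dl,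
    laurent_mul (isMeroInf_const 1 _) hsc, laurent_const,
    laurent_scale (s := fun z : ℍ => ofComplex ((p : ℂ) * (z : ℂ))) (isMeroInf_Dl 1) hs]

/-- (U7) -/
theorem isMeroInf_phiZero (p : ℕ) (hp : p.Prime) :
    IsMeroInf 1 (fun z : ℍ => Dl z / Dl (ofComplex ((p : ℂ) * (z : ℂ)))) := by
  have hs : ∀ z : ℍ, ((ofComplex ((p : ℂ) * (z : ℂ)) : ℍ) : ℂ) = p * z := coe_scale hp
  have hsc : IsMeroInf 1 (fun z : ℍ => Dl (ofComplex ((p : ℂ) * (z : ℂ)))) :=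
    (isMeroInf_Dl 1).scale (s := fun z : ℍ => ofComplex ((p : ℂ) * (z : ℂ))) hp.ne_zero hs
  refine ⟨Bridge.mdiff_Dl.div hsc.1 (fun z => Dl_ne_zero _), fun z => ?_, p - 1, ?_⟩
  · have h1 : Dl (ofComplex ((p : ℂ) * (((((1 : ℕ) : ℝ)) +ᵥ z : ℍ) : ℂ))) =
        Dl (ofComplex ((p : ℂ) * (z : ℂ))) := hsc.2.1 z
    have h2 : Dl ((((1 : ℕ) : ℝ)) +ᵥ z) = Dl z := (isMeroInf_Dl 1).2.1 z
    beta_reduce
    rw [h1, h2]
  · have e : (fun z : ℍ => Dl z / Dl (ofComplex ((p : ℂ) * (z : ℂ))) * Dl z ^ (p - 1)) =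
        fun z : ℍ => Dl z ^ p / Dl (ofComplex ((p : ℂ) * (z : ℂ))) := by
      funext z
      have hp1 : Dl z ^ p = Dl z ^ (p - 1) * Dl z := by
        rw [← pow_succ, Nat.sub_add_cancel hp.pos]
      rw [hp1]
      ring
    rw [e]
    exact Bridge.isBounded_Dl_pow_div_scale (s := fun z : ℍ => ofComplex ((p : ℂ) * (z : ℂ)))
      hp.ne_zero hs

/-- (U7) -/
theorem laurent_phiZero (p : ℕ) (hp : p.Prime) [NeZero p] :
    laurent 1 (fun z : ℍ => Dl z / Dl (ofComplex ((p : ℂ) * (z : ℂ)))) *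
      ModularCurve.qExpand ℂ p (DlSeries 1) = DlSeries 1 := by
  have hs : ∀ z : ℍ, ((ofComplex ((p : ℂ) * (z : ℂ)) : ℍ) : ℂ) = p * z := coe_scale hp
  have hsc : IsMeroInf 1 (fun z : ℍ => Dl (ofComplex ((p : ℂ) * (z : ℂ)))) :=
    (isMeroInf_Dl 1).scale (s := fun z : ℍ => ofComplex ((p : ℂ) * (z : ℂ))) hp.ne_zero hs
  have e : ((fun z : ℍ => Dl z / Dl (ofComplex ((p : ℂ) * (z : ℂ)))) *
      (fun z : ℍ => Dl (ofComplex ((p : ℂ) * (z : ℂ)))) : ℍ → ℂ) = Dl := by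
    funext z
    simp only [Pi.mul_apply]
    rw [div_mul_cancel₀ _ (Dl_ne_zero _)]
  rw [← laurent_Dl 1, ← laurent_scale (s := fun z : ℍ => ofComplex ((p : ℂ) * (z : ℂ)))
    (isMeroInf_Dl 1) hs, ← laurent_mul (isMeroInf_phiZero p hp) hsc, e]

end Fermat.Agent.S28.UnitAn
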