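import Fermat.Agent.S28.ModPkgFormal
import Fermat.Agent.S28.ModPkgDefs
import Fermat.Agent.S28.UnitLaurent

/-!
# S28 (ModPkg): the formal package over `ℂ` with the integral units `phiInf ℤ p`, `phiZero ℤ p`
-/

open UpperHalfPlane ModularForm Filter Matrix CongruenceSubgroup
open scoped MatrixGroups ModularForm Manifold Topology Real

namespace Fermat.Agent.S28.ModPkg

open Fermat.Agent.S20 Fermat.Agent.S24 Fermat.Agent.S24.Bridge
open Polynomial

theorem DlSeries_one_eq : DlSeries 1 = DlS ℂ := DlSeries_one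

/-- the expansion of a function `φ` with `φ Δ = p¹² Δ(p ·)` is `phiInf` -/
theorem laurent_eq_phiInf (p : ℕ) [NeZero p] {x : LaurentSeries ℂ}
    (h : x * DlSeries 1 = HahnSeries.C ((p : ℂ) ^ 12) * ModularCurve.qExpand ℂ p (DlSeries 1)) :
    x = ModularCurve.coeffMap (Int.castRingHom ℂ) (phiInf ℤ p) := by
  rw [coeffMap_phiInf, phiInf]
  rw [DlSeries_one_eq] at h
  calc x = x * DlS ℂ * DlSInv ℂ := by rw [mul_assoc, DlS_mul_DlSInv, mul_one]
    _ = _ := by rw [h, mul_assoc]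

/-- the expansion of a function `ψ` with `ψ Δ(p ·) = Δ` is `phiZero` -/
theorem laurent_eq_phiZero (p : ℕ) [NeZero p] {x : LaurentSeries ℂ}
    (h : x * ModularCurve.qExpand ℂ p (DlSeries 1) = DlSeries 1) :
    x = ModularCurve.coeffMap (Int.castRingHom ℂ) (phiZero ℤ p) := by
  rw [coeffMap_phiZero, phiZero]
  rw [DlSeries_one_eq] at h
  calc x = x * ModularCurve.qExpand ℂ p (DlS ℂ * DlSInv ℂ) := by
        rw [DlS_mul_DlSInv, map_one, mul_one]
    _ = _ := by rw [map_mul, ← mul_assoc, h]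

/-- **The formal package over `ℂ`**, in the shape consumed by the reduction step. -/
theorem exists_complex_of_unit (p : ℕ) [Fact p.Prime] (φ : ℍ → ℂ) (hφ : MDiff φ)
    (hφinv : ∀ g ∈ Gamma0 p, ∀ z, φ (g • z) = φ z)
    (hφmod : ∀ g : SL(2, ℤ), NormAn.Moderate (fun z => φ (g • z)))
    (hφS : ∀ z : ℍ, φ (ModularGroup.S • z) = Dl (ofComplex ((z : ℂ) / p)) / Dl z)
    (hJS : ∀ z : ℍ, jFun (ofComplex ((p : ℂ) * ((ModularGroup.S • z : ℍ) : ℂ))) =
      jFun (ofComplex ((z : ℂ) / p)))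
    (hφM : IsMeroInf 1 φ)
    (hφ0M : IsMeroInf 1 (fun z : ℍ => Dl z / Dl (ofComplex ((p : ℂ) * (z : ℂ)))))
    (hU6 : laurent 1 φ * DlSeries 1 =
      HahnSeries.C ((p : ℂ) ^ 12) * ModularCurve.qExpand ℂ p (DlSeries 1))
    (hU7 : laurent 1 (fun z : ℍ => Dl z / Dl (ofComplex ((p : ℂ) * (z : ℂ)))) *
      ModularCurve.qExpand ℂ p (DlSeries 1) = DlSeries 1) :
    ∃ Φ T Ψ : (ℂ[X])[X], Φ.Monic ∧ Φ.natDegree = p + 1 ∧ Ψ.Monic ∧ Ψ.natDegree = p + 1 ∧
      T.degree < ((p + 1 : ℕ) : WithBot ℕ) ∧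
      ev (ModularCurve.qExpand ℂ p (ModularCurve.jqModC ℂ)) (ModularCurve.jqModC ℂ) Φ = 0 ∧
      ev (ModularCurve.jqModC ℂ) (ModularCurve.qExpand ℂ p (ModularCurve.jqModC ℂ)) Φ = 0 ∧
      ModularCurve.coeffMap (Int.castRingHom ℂ) (phiInf ℤ p) *
          ev (ModularCurve.qExpand ℂ p (ModularCurve.jqModC ℂ))
            (ModularCurve.jqModC ℂ) (derivative Φ) =
        ev (ModularCurve.qExpand ℂ p (ModularCurve.jqModC ℂ)) (ModularCurve.jqModC ℂ) T ∧
      ModularCurve.coeffMap (Int.castRingHom ℂ) (phiZero ℤ p) *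
          ev (ModularCurve.jqModC ℂ) (ModularCurve.qExpand ℂ p (ModularCurve.jqModC ℂ))
            (derivative Φ) =
        ev (ModularCurve.jqModC ℂ) (ModularCurve.qExpand ℂ p (ModularCurve.jqModC ℂ)) T ∧
      ev (ModularCurve.coeffMap (Int.castRingHom ℂ) (phiInf ℤ p)) (ModularCurve.jqModC ℂ) Ψ = 0 ∧
      ev (ModularCurve.coeffMap (Int.castRingHom ℂ) (phiZero ℤ p))
        (ModularCurve.qExpand ℂ p (ModularCurve.jqModC ℂ)) Ψ = 0 := by
  have hp : p.Prime := Fact.out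
  obtain ⟨Φ, T, Ψ, hΦm, hΦd, hΨm, hΨd, hTd, h⟩ :=
    exists_formal p hp φ hφ hφinv hφmod hφS hJS hφM hφ0M
  rw [laurent_eq_phiInf p hU6, laurent_eq_phiZero p hU7] at h
  exact ⟨Φ, T, Ψ, hΦm, hΦd, hΨm, hΨd, hTd, h⟩

/-- **The modular package at a prime `p` over `ℂ`**: the modular polynomial `Φ`, the Lagrange
resolvent `T` of the unit `φ∞ = p¹² Δ(q^p)/Δ(q)`, and the characteristic polynomial `Ψ` of the
unit, with the six identities in `ℂ((q))` (`j = j(q)`, `jp = j(q^p)`). -/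
theorem exists_complex (p : ℕ) [Fact p.Prime] :
    ∃ Φ T Ψ : (ℂ[X])[X], Φ.Monic ∧ Φ.natDegree = p + 1 ∧ Ψ.Monic ∧ Ψ.natDegree = p + 1 ∧
      T.degree < ((p + 1 : ℕ) : WithBot ℕ) ∧
      ev (ModularCurve.qExpand ℂ p (ModularCurve.jqModC ℂ)) (ModularCurve.jqModC ℂ) Φ = 0 ∧
      ev (ModularCurve.jqModC ℂ) (ModularCurve.qExpand ℂ p (ModularCurve.jqModC ℂ)) Φ = 0 ∧
      ModularCurve.coeffMap (Int.castRingHom ℂ) (phiInf ℤ p) *
          ev (ModularCurve.qExpand ℂ p (ModularCurve.jqModC ℂ))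
            (ModularCurve.jqModC ℂ) (derivative Φ) =
        ev (ModularCurve.qExpand ℂ p (ModularCurve.jqModC ℂ)) (ModularCurve.jqModC ℂ) T ∧
      ModularCurve.coeffMap (Int.castRingHom ℂ) (phiZero ℤ p) *
          ev (ModularCurve.jqModC ℂ) (ModularCurve.qExpand ℂ p (ModularCurve.jqModC ℂ))
            (derivative Φ) =
        ev (ModularCurve.jqModC ℂ) (ModularCurve.qExpand ℂ p (ModularCurve.jqModC ℂ)) T ∧
      ev (ModularCurve.coeffMap (Int.castRingHom ℂ) (phiInf ℤ p)) (ModularCurve.jqModC ℂ) Ψ = 0 ∧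
      ev (ModularCurve.coeffMap (Int.castRingHom ℂ) (phiZero ℤ p))
        (ModularCurve.qExpand ℂ p (ModularCurve.jqModC ℂ)) Ψ = 0 :=
  have hp : p.Prime := Fact.out
  exists_complex_of_unit p (UnitAn.phiInf p) (UnitAn.mdiff_phiInf p hp)
    (fun g hg z => UnitAn.phiInf_smul_of_mem p hp g hg z)
    (fun g => UnitAn.moderate_phiInf_smul p hp g)
    (fun z => UnitAn.phiInf_S_smul p hp z) (fun z => UnitAn.jFun_scale_S_smul p hp z)
    (UnitAn.isMeroInf_phiInf p hp) (UnitAn.isMeroInf_phiZero p hp)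
    (UnitAn.laurent_phiInf p hp) (UnitAn.laurent_phiZero p hp)

end Fermat.Agent.S28.ModPkg
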