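import Fermat.Agent.S28.ModPkgDefs

/-!
# S28 (ModPkg): leading terms and orders of the units `phiInf`, `phiZero`
-/

namespace Fermat.Agent.S28.ModPkg

open ModularCurve

section General

variable {R : Type*} [CommRing R]

/-- `q ↦ q^p` on power series inside Laurent series -/
theorem qExpand_ofPowerSeries (p : ℕ) [NeZero p] (g : PowerSeries R) :
    qExpand R p (HahnSeries.ofPowerSeries ℤ R g) =
      HahnSeries.ofPowerSeries ℤ R (PowerSeries.expand p (NeZero.ne p) g) := by
  have hm : 0 < p := Nat.pos_of_ne_zero (NeZero.ne p)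
  ext k
  by_cases hk : (p : ℤ) ∣ k
  · obtain ⟨k', rfl⟩ := hk
    rw [qExpand_coeff_mul]
    rcases lt_or_ge k' 0 with hneg | hpos
    · rw [ofPowerSeries_coeff_of_neg _ hneg, ofPowerSeries_coeff_of_neg]
      exact mul_neg_of_pos_of_neg (by exact_mod_cast hm) hneg
    · lift k' to ℕ using hpos
      have e : (p : ℤ) * (k' : ℤ) = ((p * k' : ℕ) : ℤ) := by push_cast; ring
      rw [e, HahnSeries.ofPowerSeries_apply_coeff, HahnSeries.ofPowerSeries_apply_coeff,
        PowerSeries.coeff_expand_mul]
  · rw [qExpand_coeff_of_not_dvd _ _ hk]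
    rcases lt_or_ge k 0 with hneg | hpos
    · exact (ofPowerSeries_coeff_of_neg _ hneg).symm
    · lift k to ℕ using hpos
      rw [HahnSeries.ofPowerSeries_apply_coeff, PowerSeries.coeff_expand_of_not_dvd]
      intro hd
      exact hk (Int.natCast_dvd_natCast.mpr hd)

theorem coeff_single_mul_ofPowerSeries (n : ℤ) (c : R) (W : PowerSeries R) (m : ℤ) :
    (HahnSeries.single n c * HahnSeries.ofPowerSeries ℤ R W).coeff m =
      c * (HahnSeries.ofPowerSeries ℤ R W).coeff (m - n) := by
  have h := HahnSeries.coeff_single_mul_add (r := c) (x := HahnSeries.ofPowerSeries ℤ R W)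
    (a := m - n) (b := n)
  rwa [sub_add_cancel] at h

theorem coeff_single_mul_ofPowerSeries_self (n : ℤ) (c : R) (W : PowerSeries R)
    (hW : PowerSeries.constantCoeff W = 1) :
    (HahnSeries.single n c * HahnSeries.ofPowerSeries ℤ R W).coeff n = c := by
  rw [coeff_single_mul_ofPowerSeries, sub_self]
  have h := HahnSeries.ofPowerSeries_apply_coeff (Γ := ℤ) W 0
  rw [Nat.cast_zero] at h
  rw [h, PowerSeries.coeff_zero_eq_constantCoeff_apply, hW, mul_one]

theorem coeff_single_mul_ofPowerSeries_of_lt (n : ℤ) (c : R) (W : PowerSeries R) {m : ℤ}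
    (hm : m < n) :
    (HahnSeries.single n c * HahnSeries.ofPowerSeries ℤ R W).coeff m = 0 := by
  rw [coeff_single_mul_ofPowerSeries, ofPowerSeries_coeff_of_neg _ (by omega), mul_zero]

theorem order_eq_of_coeff {x : LaurentSeries R} {n : ℤ} (h1 : x.coeff n ≠ 0)
    (h2 : ∀ m : ℤ, m < n → x.coeff m = 0) : x.order = n := by
  have hx : x ≠ 0 := by
    rintro rfl
    exact h1 rfl
  refine le_antisymm (HahnSeries.order_le_of_coeff_ne_zero h1) ?_
  by_contra hlt
  rw [not_le] at hlt
  exact hx (HahnSeries.coeff_order_eq_zero.mp (h2 _ hlt))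

end General

variable (R : Type*) [CommRing R] (p : ℕ) [NeZero p]

theorem constantCoeff_map_eta :
    PowerSeries.constantCoeff (dedekindEtaUnit.map (Int.castRingHom R)) = 1 := by
  rw [← PowerSeries.coeff_zero_eq_constantCoeff_apply, PowerSeries.coeff_map,
    PowerSeries.coeff_zero_eq_constantCoeff_apply, constantCoeff_dedekindEtaUnit, map_one]

theorem constantCoeff_map_etaInv :
    PowerSeries.constantCoeff (dedekindEtaUnitInv.map (Int.castRingHom R)) = 1 := by
  rw [← PowerSeries.coeff_zero_eq_constantCoeff_apply, PowerSeries.coeff_map,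
    PowerSeries.coeff_zero_eq_constantCoeff_apply, constantCoeff_dedekindEtaUnitInv, map_one]

/-- `φ₀ = q^{1-p} · (1 + ⋯)` -/
theorem phiZero_eq :
    phiZero R p = HahnSeries.single (1 - (p : ℤ)) (1 : R) *
      HahnSeries.ofPowerSeries ℤ R (dedekindEtaUnit.map (Int.castRingHom R) *
        PowerSeries.expand p (NeZero.ne p) (dedekindEtaUnitInv.map (Int.castRingHom R))) := by
  have h1 : HahnSeries.single (1 : ℤ) (1 : R) * HahnSeries.single (-(p : ℤ)) (1 : R) =
      HahnSeries.single (1 - (p : ℤ)) (1 : R) := by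
    rw [HahnSeries.single_mul_single, mul_one, sub_eq_add_neg]
  rw [phiZero, DlS, DlSInv, map_mul, qExpand_single, qExpand_ofPowerSeries, map_mul, ← h1,
    mul_neg, mul_one]
  ring

/-- `φ∞ = p¹² q^{p-1} · (1 + ⋯)` -/
theorem phiInf_eq :
    phiInf R p = HahnSeries.single ((p : ℤ) - 1) ((p : R) ^ 12) *
      HahnSeries.ofPowerSeries ℤ R
        (PowerSeries.expand p (NeZero.ne p) (dedekindEtaUnit.map (Int.castRingHom R)) *
          dedekindEtaUnitInv.map (Int.castRingHom R)) := by
  have h1 : HahnSeries.C ((p : R) ^ 12) * (HahnSeries.single (p : ℤ) (1 : R) *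
      HahnSeries.single (-1 : ℤ) (1 : R)) = HahnSeries.single ((p : ℤ) - 1) ((p : R) ^ 12) := by
    rw [HahnSeries.single_mul_single, mul_one, HahnSeries.C_apply, HahnSeries.single_mul_single,
      mul_one, zero_add, sub_eq_add_neg]
  rw [phiInf, DlS, DlSInv, map_mul, qExpand_single, qExpand_ofPowerSeries, map_mul, ← h1,
    mul_one]
  ring

theorem constantCoeff_phiZero_unit :
    PowerSeries.constantCoeff (dedekindEtaUnit.map (Int.castRingHom R) *
      PowerSeries.expand p (NeZero.ne p) (dedekindEtaUnitInv.map (Int.castRingHom R))) = 1 := by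
  rw [map_mul, PowerSeries.constantCoeff_expand, constantCoeff_map_eta,
    constantCoeff_map_etaInv, mul_one]

theorem constantCoeff_phiInf_unit :
    PowerSeries.constantCoeff
      (PowerSeries.expand p (NeZero.ne p) (dedekindEtaUnit.map (Int.castRingHom R)) *
        dedekindEtaUnitInv.map (Int.castRingHom R)) = 1 := by
  rw [map_mul, PowerSeries.constantCoeff_expand, constantCoeff_map_eta,
    constantCoeff_map_etaInv, mul_one]

theorem coeff_phiZero : (phiZero R p).coeff (1 - (p : ℤ)) = 1 := by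
  rw [phiZero_eq]
  exact coeff_single_mul_ofPowerSeries_self _ _ _ (constantCoeff_phiZero_unit R p)

theorem coeff_phiZero_of_lt {n : ℤ} (hn : n < 1 - (p : ℤ)) : (phiZero R p).coeff n = 0 := by
  rw [phiZero_eq]
  exact coeff_single_mul_ofPowerSeries_of_lt _ _ _ hn

theorem coeff_phiInf : (phiInf R p).coeff ((p : ℤ) - 1) = (p : R) ^ 12 := by
  rw [phiInf_eq]
  exact coeff_single_mul_ofPowerSeries_self _ _ _ (constantCoeff_phiInf_unit R p)

theorem coeff_phiInf_of_lt {n : ℤ} (hn : n < (p : ℤ) - 1) : (phiInf R p).coeff n = 0 := by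
  rw [phiInf_eq]
  exact coeff_single_mul_ofPowerSeries_of_lt _ _ _ hn

theorem phiZero_ne_zero [Nontrivial R] : phiZero R p ≠ 0 := by
  intro h
  have := coeff_phiZero R p
  rw [h] at this
  exact zero_ne_one this

theorem order_phiZero [Nontrivial R] : (phiZero R p).order = 1 - (p : ℤ) :=
  order_eq_of_coeff (by rw [coeff_phiZero]; exact one_ne_zero)
    (fun _ hm => coeff_phiZero_of_lt R p hm)

theorem order_phiZero_cast [Nontrivial R] : ((phiZero R p).order : ℚ) = 1 - (p : ℚ) := by
  rw [order_phiZero]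
  push_cast
  ring

theorem phiInf_ne_zero (hp : ((p : R) ^ 12) ≠ 0) : phiInf R p ≠ 0 := by
  intro h
  have := coeff_phiInf R p
  rw [h] at this
  exact hp this.symm

theorem order_phiInf (hp : ((p : R) ^ 12) ≠ 0) : (phiInf R p).order = (p : ℤ) - 1 :=
  order_eq_of_coeff (by rw [coeff_phiInf]; exact hp) (fun _ hm => coeff_phiInf_of_lt R p hm)

theorem order_phiInf_cast (hp : ((p : R) ^ 12) ≠ 0) :
    ((phiInf R p).order : ℚ) = (p : ℚ) - 1 := by
  rw [order_phiInf R p hp]
  push_cast
  ring

/-- field versions, in the shape of `SlopeTower.unit_order` / `CruxL` -/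
theorem phiInf_ne_zero' (k : Type*) [Field k] (hp : (p : k) ≠ 0) : phiInf k p ≠ 0 :=
  phiInf_ne_zero k p (pow_ne_zero 12 hp)

theorem order_phiInf' (k : Type*) [Field k] (hp : (p : k) ≠ 0) :
    ((phiInf k p).order : ℚ) = (p : ℚ) - 1 :=
  order_phiInf_cast k p (pow_ne_zero 12 hp)

end Fermat.Agent.S28.ModPkg
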