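import Mathlib
import Fermat.Prelude.Def_ModularCurve_X0ModL

/-!
# S28 (P-int): integrality of polynomials in `j` and reduction of algebraic integers

* `coeff_mem_of_aeval`: if `J = q⁻¹ + …` is a Laurent series with coefficients in a subring `O`
  and `R(J)` has all its coefficients in `O`, then `R` has coefficients in `O`
  (leading-term induction).  Instance `J = jqModC A`.
* `aeval_jq_injective`: `j` is transcendental over any coefficient ring.
* `exists_ringHom_of_isIntegral`, `exists_ringHom_integralClosure`: a characteristic-zero domain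
  integral over `ℤ` (e.g. the ring of algebraic integers in `ℂ`) maps to every algebraically
  closed field.
-/

set_option autoImplicit false

open Polynomial HahnSeries

namespace Fermat.Agent.S28.PolyInt

section Leading

variable {A : Type*} [CommRing A]

/-- Laurent series all of whose coefficients lie in a subring. -/
def coeffSubring (O : Subring A) : Subring (LaurentSeries A) where
  carrier := {f | ∀ k : ℤ, f.coeff k ∈ O}
  mul_mem' := by
    intro x y hx hy k
    rw [HahnSeries.coeff_mul]
    exact Subring.sum_mem _ fun ij _ => O.mul_mem (hx _) (hy _)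
  one_mem' := by
    intro k
    rw [HahnSeries.coeff_one]
    split_ifs
    · exact O.one_mem
    · exact O.zero_mem
  add_mem' := by
    intro x y hx hy k
    rw [HahnSeries.coeff_add]
    exact O.add_mem (hx _) (hy _)
  zero_mem' := by
    intro k
    rw [HahnSeries.coeff_zero]
    exact O.zero_mem
  neg_mem' := by
    intro x hx k
    rw [HahnSeries.coeff_neg]
    exact O.neg_mem (hx _)

theorem mem_coeffSubring {O : Subring A} {f : LaurentSeries A} :
    f ∈ coeffSubring O ↔ ∀ k : ℤ, f.coeff k ∈ O := Iff.rfl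

theorem algebraMap_eq_single (c : A) :
    algebraMap A (LaurentSeries A) c = HahnSeries.single 0 c := by
  have h1 : algebraMap A (PowerSeries A) c = PowerSeries.C c := by
    simp
  rw [HahnSeries.algebraMap_apply', h1, HahnSeries.ofPowerSeries_C]
  rfl

theorem coeff_algebraMap_mul (c : A) (f : LaurentSeries A) (n : ℤ) :
    (algebraMap A (LaurentSeries A) c * f).coeff n = c * f.coeff n := by
  rw [algebraMap_eq_single, HahnSeries.coeff_single_mul, sub_zero]

theorem coeff_algebra_smul (c : A) (f : LaurentSeries A) (n : ℤ) :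
    (@HSMul.hSMul A (LaurentSeries A) (LaurentSeries A) (@instHSMul _ _ Algebra.toSMul) c f).coeff n
      = c * f.coeff n := by
  rw [Algebra.smul_def, coeff_algebraMap_mul]

/-- The power series `U` with `J = q⁻¹ U`. -/
noncomputable def shiftSeries (J : LaurentSeries A) : PowerSeries A :=
  PowerSeries.mk fun n => J.coeff ((n : ℤ) - 1)

theorem eq_single_mul_shiftSeries (J : LaurentSeries A) (hJ0 : ∀ k : ℤ, k < -1 → J.coeff k = 0) :
    J = HahnSeries.single (-1 : ℤ) 1 * HahnSeries.ofPowerSeries ℤ A (shiftSeries J) := by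
  ext k
  rw [HahnSeries.coeff_single_mul, one_mul, sub_neg_eq_add]
  rcases lt_or_ge (k + 1) 0 with hk | hk
  · rw [ModularCurve.ofPowerSeries_coeff_of_neg _ hk]
    exact hJ0 k (by omega)
  · obtain ⟨n, hn⟩ := Int.eq_ofNat_of_zero_le hk
    rw [hn, HahnSeries.ofPowerSeries_apply_coeff, shiftSeries, PowerSeries.coeff_mk]
    congr 1
    omega

theorem pow_eq_single_mul (J : LaurentSeries A) (hJ0 : ∀ k : ℤ, k < -1 → J.coeff k = 0) (n : ℕ) :
    J ^ n = HahnSeries.single (-(n : ℤ)) 1 *
      HahnSeries.ofPowerSeries ℤ A (shiftSeries J ^ n) := by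
  have h : n • (-1 : ℤ) = -(n : ℤ) := by simp
  conv_lhs => rw [eq_single_mul_shiftSeries J hJ0]
  rw [mul_pow, HahnSeries.single_pow, one_pow, h, ← map_pow]

theorem coeff_pow_self (J : LaurentSeries A) (hJ1 : J.coeff (-1) = 1)
    (hJ0 : ∀ k : ℤ, k < -1 → J.coeff k = 0) (n : ℕ) : (J ^ n).coeff (-(n : ℤ)) = 1 := by
  rw [pow_eq_single_mul J hJ0, HahnSeries.coeff_single_mul, one_mul, sub_neg_eq_add,
    neg_add_cancel, show (0 : ℤ) = ((0 : ℕ) : ℤ) from rfl, HahnSeries.ofPowerSeries_apply_coeff,
    PowerSeries.coeff_zero_eq_constantCoeff, map_pow]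
  have : PowerSeries.constantCoeff (shiftSeries J) = 1 := by
    rw [← PowerSeries.coeff_zero_eq_constantCoeff, shiftSeries, PowerSeries.coeff_mk]
    simpa using hJ1
  rw [this, one_pow]

theorem coeff_pow_of_lt (J : LaurentSeries A) (hJ0 : ∀ k : ℤ, k < -1 → J.coeff k = 0) {n : ℕ}
    {m : ℤ} (hm : m < -(n : ℤ)) : (J ^ n).coeff m = 0 := by
  rw [pow_eq_single_mul J hJ0, HahnSeries.coeff_single_mul, one_mul]
  exact ModularCurve.ofPowerSeries_coeff_of_neg _ (by omega)

/-- The coefficient of `q^{-d}` in `R(J)` is the coefficient of `Y^d` in `R` when `deg R ≤ d`. -/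
theorem coeff_aeval_neg (J : LaurentSeries A) (hJ1 : J.coeff (-1) = 1)
    (hJ0 : ∀ k : ℤ, k < -1 → J.coeff k = 0) (R : Polynomial A) (d : ℕ)
    (hd : R.natDegree < d + 1) :
    (Polynomial.aeval J R).coeff (-(d : ℤ)) = R.coeff d := by
  rw [Polynomial.aeval_eq_sum_range' hd, HahnSeries.coeff_sum]
  rw [Finset.sum_eq_single d]
  · rw [coeff_algebra_smul, coeff_pow_self J hJ1 hJ0, mul_one]
  · intro i hi hid
    have hi' : i < d := lt_of_le_of_ne (Nat.lt_succ_iff.mp (Finset.mem_range.mp hi)) hid
    rw [coeff_algebra_smul, coeff_pow_of_lt J hJ0 (by omega), mul_zero]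
  · intro h
    exact absurd (Finset.mem_range.mpr (Nat.lt_succ_self d)) h

theorem coeff_mem_of_aeval_aux (O : Subring A) (J : LaurentSeries A) (hJ1 : J.coeff (-1) = 1)
    (hJ0 : ∀ k : ℤ, k < -1 → J.coeff k = 0) (hJ : ∀ k, J.coeff k ∈ O) :
    ∀ (d : ℕ) (R : Polynomial A), R.degree < (d : WithBot ℕ) →
      (∀ n : ℤ, (Polynomial.aeval J R).coeff n ∈ O) → ∀ i, R.coeff i ∈ O := by
  intro d
  induction d with
  | zero =>
    intro R hR _ i
    have : R = 0 := by
      rw [← Polynomial.degree_eq_bot]
      rcases h : R.degree with _ | n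
      · rfl
      · rw [h] at hR
        exact absurd hR (by simp)
    rw [this, Polynomial.coeff_zero]
    exact O.zero_mem
  | succ d ih =>
    intro R hR h i
    have hnat : R.natDegree < d + 1 := by
      by_cases hR0 : R = 0
      · rw [hR0]; simp
      · exact (Polynomial.natDegree_lt_iff_degree_lt hR0).mpr (by exact_mod_cast hR)
    have hc : R.coeff d ∈ O := by
      rw [← coeff_aeval_neg J hJ1 hJ0 R d hnat]
      exact h _
    set R' : Polynomial A := R - Polynomial.C (R.coeff d) * Polynomial.X ^ d with hR'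
    have hdeg : R'.degree < (d : WithBot ℕ) := by
      rw [Polynomial.degree_lt_iff_coeff_zero]
      intro m hm
      rw [hR', Polynomial.coeff_sub, Polynomial.coeff_C_mul, Polynomial.coeff_X_pow]
      rcases hm.lt_or_eq with hlt | rfl
      · rw [if_neg (by omega), mul_zero, sub_zero]
        exact Polynomial.coeff_eq_zero_of_natDegree_lt (by omega)
      · simp
    have hJd : J ^ d ∈ coeffSubring O := (coeffSubring O).pow_mem hJ d
    have h' : ∀ n : ℤ, (Polynomial.aeval J R').coeff n ∈ O := by
      intro n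
      have : Polynomial.aeval J R' =
          Polynomial.aeval J R - algebraMap A (LaurentSeries A) (R.coeff d) * J ^ d := by
        rw [hR', map_sub, map_mul, Polynomial.aeval_C, map_pow, Polynomial.aeval_X]
      rw [this, HahnSeries.coeff_sub, coeff_algebraMap_mul]
      exact O.sub_mem (h n) (O.mul_mem hc (hJd n))
    have hi := ih R' hdeg h' i
    have : R.coeff i = R'.coeff i + (Polynomial.C (R.coeff d) * Polynomial.X ^ d).coeff i := by
      rw [hR', Polynomial.coeff_sub]; ring
    rw [this, Polynomial.coeff_C_mul, Polynomial.coeff_X_pow]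
    refine O.add_mem hi (O.mul_mem hc ?_)
    split_ifs
    · exact O.one_mem
    · exact O.zero_mem

/-- **Leading-term induction.**  If `J = q⁻¹ + …` has coefficients in the subring `O` and
`R(J)` has coefficients in `O`, then `R` has coefficients in `O`. -/
theorem coeff_mem_of_aeval (O : Subring A) (J : LaurentSeries A) (hJ1 : J.coeff (-1) = 1)
    (hJ0 : ∀ k : ℤ, k < -1 → J.coeff k = 0) (hJ : ∀ k, J.coeff k ∈ O)
    (R : Polynomial A) (h : ∀ n : ℤ, (Polynomial.aeval J R).coeff n ∈ O) :
    ∀ i, R.coeff i ∈ O :=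
  coeff_mem_of_aeval_aux O J hJ1 hJ0 hJ (R.natDegree + 1) R
    (lt_of_le_of_lt Polynomial.degree_le_natDegree (by exact_mod_cast Nat.lt_succ_self _)) h

/-- `J = q⁻¹ + …` is transcendental over the coefficient ring. -/
theorem aeval_injective (J : LaurentSeries A) (hJ1 : J.coeff (-1) = 1)
    (hJ0 : ∀ k : ℤ, k < -1 → J.coeff k = 0) (R : Polynomial A)
    (h : Polynomial.aeval J R = 0) : R = 0 := by
  by_contra hR
  have hnat : R.natDegree < R.natDegree + 1 := Nat.lt_succ_self _
  have := coeff_aeval_neg J hJ1 hJ0 R R.natDegree hnat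
  rw [h, HahnSeries.coeff_zero] at this
  exact hR (Polynomial.leadingCoeff_eq_zero.mp this.symm)

end Leading

section Jq

variable (A : Type*) [CommRing A]

theorem coeff_jqModC_mem (O : Subring A) (k : ℤ) : (ModularCurve.jqModC A).coeff k ∈ O := by
  rw [ModularCurve.coeff_jqModC_eq_intCast]
  exact intCast_mem O _

variable {A}

/-- If `R(j)` has all its `q`-coefficients in the subring `O`, then `R ∈ O[Y]`. -/
theorem coeff_mem_of_aeval_jq (O : Subring A) (R : Polynomial A)
    (h : ∀ n : ℤ, (Polynomial.aeval (ModularCurve.jqModC A) R).coeff n ∈ O) :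
    ∀ i, R.coeff i ∈ O :=
  coeff_mem_of_aeval O (ModularCurve.jqModC A) (ModularCurve.coeff_jqModC_neg_one A)
    (fun _ hk => ModularCurve.coeff_jqModC_of_lt A hk) (coeff_jqModC_mem A O) R h

/-- Lifted form of `coeff_mem_of_aeval_jq`. -/
theorem exists_map_eq_of_aeval_jq (O : Subring A) (R : Polynomial A)
    (h : ∀ n : ℤ, (Polynomial.aeval (ModularCurve.jqModC A) R).coeff n ∈ O) :
    ∃ R' : Polynomial O, R'.map O.subtype = R := by
  have hR := coeff_mem_of_aeval_jq O R h
  have : R ∈ Polynomial.lifts O.subtype := by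
    rw [Polynomial.lifts_iff_coeff_lifts]
    intro i
    exact ⟨⟨R.coeff i, hR i⟩, rfl⟩
  obtain ⟨R', hR'⟩ := this
  exact ⟨R', hR'⟩

/-- `j` is transcendental over any coefficient ring. -/
theorem aeval_jq_injective (R : Polynomial A)
    (h : Polynomial.aeval (ModularCurve.jqModC A) R = 0) : R = 0 :=
  aeval_injective (ModularCurve.jqModC A) (ModularCurve.coeff_jqModC_neg_one A)
    (fun _ hk => ModularCurve.coeff_jqModC_of_lt A hk) R h

end Jq

section TwoVar

variable {A : Type*} [CommRing A]

/-- Two-variable form: if every `X`-coefficient `c_i(Y)` of `P ∈ A[Y][X]` has `c_i(j)` with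
coefficients in `O`, then `P` comes from `O[Y][X]`. -/
theorem exists_map_map_eq_of_aeval_jq (O : Subring A) (P : Polynomial (Polynomial A))
    (h : ∀ (i : ℕ) (n : ℤ), (Polynomial.aeval (ModularCurve.jqModC A) (P.coeff i)).coeff n ∈ O) :
    ∃ P' : Polynomial (Polynomial O), P'.map (Polynomial.mapRingHom O.subtype) = P := by
  have : P ∈ Polynomial.lifts (Polynomial.mapRingHom O.subtype) := by
    rw [Polynomial.lifts_iff_coeff_lifts]
    intro i
    obtain ⟨R', hR'⟩ := exists_map_eq_of_aeval_jq O (P.coeff i) (h i)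
    exact ⟨R', hR'⟩
  obtain ⟨P', hP'⟩ := this
  exact ⟨P', hP'⟩

end TwoVar

section RingHom


/-- Characteristic zero: an integral extension domain of `ℤ` embeds into every algebraically
closed field of characteristic zero. -/
theorem exists_ringHom_of_charZero (O : Type*) [CommRing O] [IsDomain O] [CharZero O]
    [Algebra.IsIntegral ℤ O] (k : Type*) [Field k] [IsAlgClosed k] [CharZero k] :
    Nonempty (O →+* k) := by
  exact ⟨(IsAlgClosed.lift (R := ℤ) (S := O) (M := k)).toRingHom⟩

/-- Characteristic `ℓ`: reduce modulo a maximal ideal above `ℓ`. -/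
theorem exists_ringHom_of_charP (O : Type*) [CommRing O] [CharZero O]
    [Algebra.IsIntegral ℤ O] (k : Type*) [Field k] [IsAlgClosed k] (ℓ : ℕ) [Fact ℓ.Prime]
    [CharP k ℓ] : Nonempty (O →+* k) := by
  have hℓ : ℓ.Prime := Fact.out
  have hmax : (Ideal.span {(ℓ : ℤ)}).IsMaximal :=
    PrincipalIdealRing.isMaximal_of_irreducible
      (Nat.prime_iff_prime_int.mp hℓ).irreducible
  have hker : RingHom.ker (algebraMap ℤ O) ≤ Ideal.span {(ℓ : ℤ)} := by
    intro x hx
    rw [RingHom.mem_ker, eq_intCast] at hx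
    have : x = 0 := by exact_mod_cast hx
    rw [this]
    exact Ideal.zero_mem _
  obtain ⟨Q, hQmax, hQ⟩ := Ideal.exists_ideal_over_maximal_of_isIntegral
    (S := O) (Ideal.span {(ℓ : ℤ)}) hker
  have hℓQ : (ℓ : O) ∈ Q := by
    have h1 : (ℓ : ℤ) ∈ Ideal.comap (algebraMap ℤ O) Q := by
      rw [hQ]
      exact Ideal.subset_span rfl
    simpa using h1
  let _ : Field (O ⧸ Q) := Ideal.Quotient.field Q
  have hchar : CharP (O ⧸ Q) ℓ := by
    have h0 : ((ℓ : ℕ) : O ⧸ Q) = 0 := by
      have : (Ideal.Quotient.mk Q (ℓ : O)) = 0 := Ideal.Quotient.eq_zero_iff_mem.mpr hℓQ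
      simpa using this
    have hdvd : ringChar (O ⧸ Q) ∣ ℓ := (ringChar.spec (O ⧸ Q) ℓ).mp h0
    rcases (Nat.dvd_prime hℓ).mp hdvd with h1 | h1
    · exact absurd h1 (CharP.ringChar_ne_one)
    · exact h1 ▸ ringChar.charP (O ⧸ Q)
  let _ : Algebra (ZMod ℓ) (O ⧸ Q) := ZMod.algebra _ ℓ
  let _ : Algebra (ZMod ℓ) k := ZMod.algebra _ ℓ
  have _ : Algebra.IsIntegral (ZMod ℓ) (O ⧸ Q) := by
    refine ⟨fun x => ?_⟩
    obtain ⟨a, rfl⟩ := Ideal.Quotient.mk_surjective x
    have h1 : IsIntegral ℤ a := Algebra.IsIntegral.isIntegral a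
    have h2 : IsIntegral ℤ (Ideal.Quotient.mkₐ ℤ Q a) := h1.map (Ideal.Quotient.mkₐ ℤ Q)
    exact h2.tower_top
  exact ⟨((IsAlgClosed.lift (R := ZMod ℓ) (S := O ⧸ Q) (M := k)).toRingHom).comp
    (Ideal.Quotient.mk Q)⟩

/-- A characteristic-zero domain that is integral over `ℤ` maps to every algebraically closed
field. -/
theorem exists_ringHom_of_isIntegral (O : Type*) [CommRing O] [IsDomain O] [CharZero O]
    [Algebra.IsIntegral ℤ O] (k : Type*) [Field k] [IsAlgClosed k] : Nonempty (O →+* k) := by
  obtain ⟨p, hp⟩ := CharP.exists k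
  rcases CharP.char_is_prime_or_zero k p with hpp | rfl
  · have _ : Fact p.Prime := ⟨hpp⟩
    exact exists_ringHom_of_charP O k p
  · have _ : CharZero k := CharP.charP_to_charZero k
    exact exists_ringHom_of_charZero O k

/-- The ring of algebraic integers maps to every algebraically closed field. -/
theorem exists_ringHom_integralClosure (k : Type*) [Field k] [IsAlgClosed k] :
    Nonempty (integralClosure ℤ ℂ →+* k) :=
  exists_ringHom_of_isIntegral (integralClosure ℤ ℂ) k


/-- Any ring hom out of a ring is compatible with the integer coefficient maps. -/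
theorem coeffMap_comp_intCast {O k : Type*} [CommRing O] [CommRing k] (φ : O →+* k)
    (x : LaurentSeries ℤ) :
    ModularCurve.coeffMap φ (ModularCurve.coeffMap (Int.castRingHom O) x) =
      ModularCurve.coeffMap (Int.castRingHom k) x := by
  rw [ModularCurve.coeffMap_coeffMap]
  exact ModularCurve.coeffMap_congr (RingHom.ext_int _ _) x

end RingHom

end Fermat.Agent.S28.PolyInt
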