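import Mathlib
import Fermat.Prelude.Def_ModularCurve_X0ModL
import Fermat.Prelude.Def_ModularCurve_LaurentCoeff
import Fermat.Agent.S28.PolyInt

/-!
# S28 (ModPkg): from the modular package over `ℂ((q))` to any algebraically closed field

Purely formal.  Given `Φ, T, Ψ ∈ ℂ[Y][X]` (monic of degree `p + 1`, resp. of degree `≤ p`) with
the six identities in `ℂ((q))` (`j = j(q)`, `jp = j(q^p)`, `a`, `b` integral series):
`Φ(jp, j) = 0`, `Φ(j, jp) = 0`, `a Φ'(jp, j) = T(jp, j)`, `b Φ'(j, jp) = T(j, jp)`,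
`Ψ(a, j) = 0`, `Ψ(b, jp) = 0`:

* the substitution `t ↦ ζ t` (`ζ` a primitive `p`-th root of unity) fixes `qExpand p (·)`, so
  `Φ(X, j(t^p))` has the `p + 1` pairwise distinct roots `j(t^{p²})`, `j(ζ^i t)`; hence it is
  the product of the `X - root`, and its coefficients lie in `O((t))`, `O` the algebraic
  integers; likewise `Ψ(X, j(t^p)) = ∏ (X - value)` and `T(X, j(t^p))` is the Lagrange
  resolvent;
* so `Φ, T, Ψ ∈ O[Y][X]` (`PolyInt`), the identities hold in `O((q))`, and are pushed forward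
  along a ring hom `O → k`.

Main statements: `exists_isPkg_of_complex`, `exists_modPkg_of_complex` (unfolded form),
`exists_lifts`.
-/

set_option autoImplicit false

open Polynomial ModularCurve

namespace Fermat.Agent.S28.ModPkgRed

section Twist

variable {R : Type*} [CommRing R]

theorem coeff_mul_subset {x y : LaurentSeries R} {s t : Set ℤ} (hs : s.IsPWO) (ht : t.IsPWO)
    (hxs : x.support ⊆ s) (hyt : y.support ⊆ t) (a : ℤ) :
    (x * y).coeff a = ∑ ij ∈ Finset.antidiagonal hs ht a, x.coeff ij.1 * y.coeff ij.2 := by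
  rw [HahnSeries.coeff_mul]
  apply Finset.sum_subset
  · intro ij hij
    rw [Finset.mem_antidiagonal] at hij ⊢
    exact ⟨hxs hij.1, hyt hij.2.1, hij.2.2⟩
  · intro ij hij hnot
    rw [Finset.mem_antidiagonal] at hij hnot
    by_cases hx : x.coeff ij.1 = 0
    · rw [hx, zero_mul]
    · by_cases hy : y.coeff ij.2 = 0
      · rw [hy, mul_zero]
      · exact absurd ⟨hx, hy, hij.2.2⟩ hnot

/-- The underlying function of the substitution `t ↦ ζ t`. -/
noncomputable def twistFun (ζ : Rˣ) (f : LaurentSeries R) : LaurentSeries R where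
  coeff n := ((ζ ^ n : Rˣ) : R) * f.coeff n
  isPWO_support' := f.isPWO_support.mono (fun n hn => by
    simp only [Function.mem_support, ne_eq] at hn
    exact fun h => hn (by rw [h, mul_zero]))

theorem twistFun_support_subset (ζ : Rˣ) (f : LaurentSeries R) :
    (twistFun ζ f).support ⊆ f.support := by
  intro n hn
  simp only [HahnSeries.mem_support, ne_eq, twistFun] at hn ⊢
  exact fun h => hn (by rw [h, mul_zero])

/-- The substitution `t ↦ ζ t` on Laurent series, `ζ` a unit. -/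
noncomputable def twist (ζ : Rˣ) : LaurentSeries R →+* LaurentSeries R where
  toFun := twistFun ζ
  map_one' := by
    ext n
    show ((ζ ^ n : Rˣ) : R) * (1 : LaurentSeries R).coeff n = (1 : LaurentSeries R).coeff n
    rw [HahnSeries.coeff_one]
    split_ifs with h
    · subst h; simp
    · simp
  map_zero' := by
    ext n
    show ((ζ ^ n : Rˣ) : R) * (0 : LaurentSeries R).coeff n = (0 : LaurentSeries R).coeff n
    simp
  map_add' x y := by
    ext n
    show ((ζ ^ n : Rˣ) : R) * (x + y).coeff n =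
      ((ζ ^ n : Rˣ) : R) * x.coeff n + ((ζ ^ n : Rˣ) : R) * y.coeff n
    rw [HahnSeries.coeff_add, mul_add]
  map_mul' x y := by
    ext n
    show ((ζ ^ n : Rˣ) : R) * (x * y).coeff n = (twistFun ζ x * twistFun ζ y).coeff n
    rw [coeff_mul_subset x.isPWO_support y.isPWO_support (twistFun_support_subset ζ x)
      (twistFun_support_subset ζ y), HahnSeries.coeff_mul, Finset.mul_sum]
    refine Finset.sum_congr rfl fun ij hij => ?_
    rw [Finset.mem_antidiagonal] at hij
    show _ = (((ζ ^ ij.1 : Rˣ) : R) * x.coeff ij.1) * (((ζ ^ ij.2 : Rˣ) : R) * y.coeff ij.2)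
    rw [← hij.2.2, zpow_add, Units.val_mul]
    ring

@[simp]
theorem twist_coeff (ζ : Rˣ) (f : LaurentSeries R) (n : ℤ) :
    (twist ζ f).coeff n = ((ζ ^ n : Rˣ) : R) * f.coeff n := rfl

theorem twist_algebraMap (ζ : Rˣ) (c : R) :
    twist ζ (algebraMap R (LaurentSeries R) c) = algebraMap R (LaurentSeries R) c := by
  ext n
  rw [twist_coeff, PolyInt.algebraMap_eq_single]
  by_cases h : n = 0
  · subst h; simp
  · rw [HahnSeries.coeff_single_of_ne h, mul_zero]

theorem twist_qExpand (ζ : Rˣ) (p : ℕ) [NeZero p] (hζ : ζ ^ p = 1) (f : LaurentSeries R) :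
    twist ζ (qExpand R p f) = qExpand R p f := by
  ext n
  rw [twist_coeff]
  by_cases h : (p : ℤ) ∣ n
  · obtain ⟨m, rfl⟩ := h
    rw [zpow_mul, zpow_natCast, hζ, one_zpow, Units.val_one, one_mul]
  · rw [qExpand_coeff_of_not_dvd p f h, mul_zero]

theorem qExpand_algebraMap (p : ℕ) [NeZero p] (c : R) :
    qExpand R p (algebraMap R (LaurentSeries R) c) = algebraMap R (LaurentSeries R) c := by
  rw [PolyInt.algebraMap_eq_single, qExpand_single, mul_zero]

theorem coeffMap_algebraMap' {S : Type*} [CommRing S] (f : R →+* S) (c : R) :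
    coeffMap f (algebraMap R (LaurentSeries R) c) = algebraMap S (LaurentSeries S) (f c) := by
  rw [PolyInt.algebraMap_eq_single, PolyInt.algebraMap_eq_single, coeffMap_single]

end Twist

section Ev

variable {R S : Type*} [CommRing R] [CommRing S]

/-- `P(X := x, Y := y)` for `P ∈ R[Y][X]`. -/
noncomputable def ev (x y : LaurentSeries R) (P : Polynomial (Polynomial R)) : LaurentSeries R :=
  (P.map (Polynomial.aeval y).toRingHom).eval x

theorem ev_def (x y : LaurentSeries R) (P : Polynomial (Polynomial R)) :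
    ev x y P = (P.map (Polynomial.aeval y).toRingHom).eval x := rfl

/-- Naturality of `ev` under a ring hom compatible with a coefficient hom. -/
theorem map_ev (σ : LaurentSeries R →+* LaurentSeries S) (f : R →+* S)
    (hσ : ∀ c : R, σ (algebraMap R (LaurentSeries R) c) = algebraMap S (LaurentSeries S) (f c))
    (x y : LaurentSeries R) (P : Polynomial (Polynomial R)) :
    σ (ev x y P) = ev (σ x) (σ y) (P.map (Polynomial.mapRingHom f)) := by
  have hcomp : σ.comp (Polynomial.aeval y).toRingHom =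
      ((Polynomial.aeval (σ y)).toRingHom : Polynomial S →+* LaurentSeries S).comp
        (Polynomial.mapRingHom f) := by
    apply Polynomial.ringHom_ext
    · intro c
      simp [hσ]
    · simp
  rw [ev, ev, Polynomial.eval_map, Polynomial.eval_map, Polynomial.hom_eval₂, hcomp,
    Polynomial.eval₂_map]

theorem map_ev_id (σ : LaurentSeries R →+* LaurentSeries R)
    (hσ : ∀ c : R, σ (algebraMap R (LaurentSeries R) c) = algebraMap R (LaurentSeries R) c)
    (x y : LaurentSeries R) (P : Polynomial (Polynomial R)) :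
    σ (ev x y P) = ev (σ x) (σ y) P := by
  have h := map_ev σ (RingHom.id R) (by simpa using hσ) x y P
  rw [h]
  congr 1
  ext n m
  simp

theorem map_aeval (σ : LaurentSeries R →+* LaurentSeries S) (f : R →+* S)
    (hσ : ∀ c : R, σ (algebraMap R (LaurentSeries R) c) = algebraMap S (LaurentSeries S) (f c))
    (y : LaurentSeries R) (P : Polynomial R) :
    σ (Polynomial.aeval y P) = Polynomial.aeval (σ y) (P.map f) := by
  rw [Polynomial.aeval_def, Polynomial.aeval_def, Polynomial.hom_eval₂, Polynomial.eval₂_map]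
  congr 1
  ext c
  simp [hσ]

end Ev

section Roots

variable {L : Type*} [Field L] {ι : Type*} [Fintype ι] [DecidableEq ι]

omit [DecidableEq ι] in
theorem eq_prod_of_roots (F : Polynomial L) (hF : F.Monic) (ρ : ι → L)
    (hinj : Function.Injective ρ) (hcard : F.natDegree = Fintype.card ι)
    (hroot : ∀ i, F.eval (ρ i) = 0) : F = ∏ i, (X - C (ρ i)) := by
  classical
  have hF0 : F ≠ 0 := hF.ne_zero
  have hnodup : (Finset.univ.val.map ρ).Nodup := Finset.univ.nodup.map hinj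
  have hle : Finset.univ.val.map ρ ≤ F.roots := by
    rw [Multiset.le_iff_subset hnodup]
    intro x hx
    rw [Multiset.mem_map] at hx
    obtain ⟨i, -, rfl⟩ := hx
    exact (Polynomial.mem_roots hF0).mpr (hroot i)
  have hcard' : Multiset.card F.roots ≤ Multiset.card (Finset.univ.val.map ρ) := by
    rw [Multiset.card_map]
    calc Multiset.card F.roots ≤ F.natDegree := Polynomial.card_roots' F
      _ = Fintype.card ι := hcard
      _ = Multiset.card (Finset.univ : Finset ι).val := rfl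
  have heq : Finset.univ.val.map ρ = F.roots := Multiset.eq_of_le_of_card_le hle hcard'
  have hc : Multiset.card F.roots = F.natDegree := by
    rw [← heq, Multiset.card_map, hcard]
    rfl
  have h := Polynomial.prod_multiset_X_sub_C_of_monic_of_roots_card_eq hF hc
  rw [← h, ← heq, Multiset.map_map]
  rfl

theorem eval_derivative_prod (ρ : ι → L) (i : ι) :
    (Polynomial.derivative (∏ j, (X - C (ρ j)))).eval (ρ i) =
      ∏ j ∈ Finset.univ.erase i, (ρ i - ρ j) := by
  rw [Polynomial.derivative_prod_finset, Polynomial.eval_finsetSum]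
  rw [Finset.sum_eq_single i]
  · simp [Polynomial.eval_prod]
  · intro b _ hb
    rw [Polynomial.eval_mul, Polynomial.eval_prod]
    have : ∏ j ∈ Finset.univ.erase b, (X - C (ρ j)).eval (ρ i) = 0 :=
      Finset.prod_eq_zero (Finset.mem_erase.mpr ⟨Ne.symm hb, Finset.mem_univ i⟩) (by simp)
    rw [this, zero_mul]
  · intro h
    exact absurd (Finset.mem_univ i) h

theorem eval_lagrange (ρ u : ι → L) (i : ι) :
    (∑ i', C (u i') * ∏ j ∈ Finset.univ.erase i', (X - C (ρ j))).eval (ρ i) =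
      u i * ∏ j ∈ Finset.univ.erase i, (ρ i - ρ j) := by
  rw [Polynomial.eval_finsetSum, Finset.sum_eq_single i]
  · simp [Polynomial.eval_prod]
  · intro b _ hb
    rw [Polynomial.eval_mul, Polynomial.eval_prod]
    have : ∏ j ∈ Finset.univ.erase b, (X - C (ρ j)).eval (ρ i) = 0 :=
      Finset.prod_eq_zero (Finset.mem_erase.mpr ⟨Ne.symm hb, Finset.mem_univ i⟩) (by simp)
    rw [this, mul_zero]
  · intro h
    exact absurd (Finset.mem_univ i) h

theorem degree_lagrange_lt [Nonempty ι] (ρ u : ι → L) :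
    (∑ i', C (u i') * ∏ j ∈ Finset.univ.erase i', (X - C (ρ j))).degree <
      (Fintype.card ι : WithBot ℕ) := by
  refine lt_of_le_of_lt (Polynomial.degree_sum_le _ _) ?_
  rw [Finset.sup_lt_iff (by exact WithBot.bot_lt_coe _)]
  intro i _
  refine lt_of_le_of_lt (Polynomial.degree_mul_le _ _) ?_
  have h1 : (C (u i)).degree ≤ 0 := Polynomial.degree_C_le
  have h2 : (∏ j ∈ Finset.univ.erase i, (X - C (ρ j))).degree ≤
      ((Fintype.card ι - 1 : ℕ) : WithBot ℕ) := by
    refine le_trans (Polynomial.degree_prod_le _ _) ?_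
    have h3 : ∀ j ∈ Finset.univ.erase i, (X - C (ρ j)).degree ≤ (1 : WithBot ℕ) :=
      fun j _ => by rw [Polynomial.degree_X_sub_C]
    refine le_trans (Finset.sum_le_sum h3) ?_
    rw [Finset.sum_const, Finset.card_erase_of_mem (Finset.mem_univ i), Finset.card_univ]
    simp
  have hpos : 0 < Fintype.card ι := Fintype.card_pos
  calc (C (u i)).degree + (∏ j ∈ Finset.univ.erase i, (X - C (ρ j))).degree
      ≤ 0 + ((Fintype.card ι - 1 : ℕ) : WithBot ℕ) := add_le_add h1 h2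
    _ = ((Fintype.card ι - 1 : ℕ) : WithBot ℕ) := zero_add _
    _ < (Fintype.card ι : WithBot ℕ) := by
        exact_mod_cast Nat.sub_lt hpos Nat.one_pos

theorem eq_lagrange [Nonempty ι] (H : Polynomial L) (ρ u : ι → L) (hinj : Function.Injective ρ)
    (hdeg : H.degree < (Fintype.card ι : WithBot ℕ))
    (h : ∀ i, H.eval (ρ i) = u i * ∏ j ∈ Finset.univ.erase i, (ρ i - ρ j)) :
    H = ∑ i, C (u i) * ∏ j ∈ Finset.univ.erase i, (X - C (ρ j)) := by
  refine Polynomial.eq_of_degrees_lt_of_eval_index_eq (Finset.univ : Finset ι)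
    (hinj.injOn) ?_ ?_ ?_
  · simpa using hdeg
  · simpa using degree_lagrange_lt ρ u
  · intro i _
    rw [h i, eval_lagrange]

end Roots

section Main

open PolyInt

variable (p : ℕ) [Fact p.Prime]

/-- The ring of algebraic integers, as a subring of `ℂ`. -/
noncomputable abbrev OC : Subring ℂ := (integralClosure ℤ ℂ).toSubring

theorem mem_OC {x : ℂ} : x ∈ OC ↔ IsIntegral ℤ x := Iff.rfl

theorem zpow_mem_OC (v : ℂˣ) (hv : (v : ℂ) ∈ OC) (hv' : ((v⁻¹ : ℂˣ) : ℂ) ∈ OC) (n : ℤ) :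
    ((v ^ n : ℂˣ) : ℂ) ∈ OC := by
  obtain ⟨m, rfl | rfl⟩ := n.eq_nat_or_neg
  · rw [zpow_natCast, Units.val_pow_eq_pow_val]
    exact pow_mem hv m
  · rw [zpow_neg, zpow_natCast, ← inv_pow, Units.val_pow_eq_pow_val]
    exact pow_mem hv' m

/-- The `p + 1` formal conjugates: `x(t^p)` and the twists `y(ζ^i t)`. -/
noncomputable def rt (ζ : ℂˣ) (x y : LaurentSeries ℂ) : Option (Fin p) → LaurentSeries ℂ
  | none => qExpand ℂ p x
  | some i => twist (ζ ^ (i : ℕ)) y

variable {p}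

theorem rt_mem (ζ : ℂˣ) (hζ : IsPrimitiveRoot ζ p) (x y : LaurentSeries ℂ)
    (hx : x ∈ coeffSubring OC) (hy : y ∈ coeffSubring OC) (i : Option (Fin p)) :
    rt p ζ x y i ∈ coeffSubring OC := by
  have hp : p.Prime := Fact.out
  have hζ1 : (ζ : ℂ) ∈ OC := (IsPrimitiveRoot.coe_units_iff.mpr hζ).isIntegral hp.pos
  have hζ2 : ((ζ⁻¹ : ℂˣ) : ℂ) ∈ OC :=
    (IsPrimitiveRoot.coe_units_iff.mpr hζ.inv).isIntegral hp.pos
  cases i with
  | none =>
    intro n
    show (qExpand ℂ p x).coeff n ∈ OC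
    by_cases h : (p : ℤ) ∣ n
    · obtain ⟨m, rfl⟩ := h
      rw [qExpand_coeff_mul]
      exact hx m
    · rw [qExpand_coeff_of_not_dvd p x h]
      exact zero_mem _
  | some i =>
    intro n
    show (twist (ζ ^ (i : ℕ)) y).coeff n ∈ OC
    rw [twist_coeff]
    refine mul_mem ?_ (hy n)
    have h1 : ((ζ ^ (i : ℕ) : ℂˣ) : ℂ) ∈ OC := by
      rw [Units.val_pow_eq_pow_val]; exact pow_mem hζ1 _
    have h2 : (((ζ ^ (i : ℕ))⁻¹ : ℂˣ) : ℂ) ∈ OC := by
      rw [← inv_pow, Units.val_pow_eq_pow_val]; exact pow_mem hζ2 _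
    exact zpow_mem_OC _ h1 h2 n

theorem rt_injective (ζ : ℂˣ) (hζ : IsPrimitiveRoot ζ p) (x y : LaurentSeries ℂ) (m : ℤ)
    (hm : ¬ (p : ℤ) ∣ m) (hy : y.coeff m ≠ 0) : Function.Injective (rt p ζ x y) := by
  have hp : p.Prime := Fact.out
  have hnone : (rt p ζ x y none).coeff m = 0 := qExpand_coeff_of_not_dvd p x hm
  have hsome : ∀ i : Fin p, (rt p ζ x y (some i)).coeff m =
      (((ζ ^ (i : ℕ)) ^ m : ℂˣ) : ℂ) * y.coeff m := fun i => rfl
  have hsome0 : ∀ i : Fin p, (rt p ζ x y (some i)).coeff m ≠ 0 := fun i => by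
    rw [hsome]; exact mul_ne_zero (Units.ne_zero _) hy
  intro a b hab
  cases a with
  | none =>
    cases b with
    | none => rfl
    | some i => exact absurd (by rw [← hab]; exact hnone) (hsome0 i)
  | some i =>
    cases b with
    | none => exact absurd (by rw [hab]; exact hnone) (hsome0 i)
    | some i' =>
      have h1 : (((ζ ^ (i : ℕ)) ^ m : ℂˣ) : ℂ) = (((ζ ^ (i' : ℕ)) ^ m : ℂˣ) : ℂ) := by
        have := congrArg (fun f : LaurentSeries ℂ => f.coeff m) hab
        simp only [hsome] at this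
        exact mul_right_cancel₀ hy this
      have h2 : (ζ ^ (i : ℕ)) ^ m = (ζ ^ (i' : ℕ)) ^ m := Units.ext h1
      have h3 : ζ ^ ((((i : ℕ) : ℤ) - ((i' : ℕ) : ℤ)) * m) = 1 := by
        rw [sub_mul, zpow_sub, zpow_mul, zpow_mul, zpow_natCast, zpow_natCast, h2]
        exact mul_inv_cancel _
      have h4 : (p : ℤ) ∣ (((i : ℕ) : ℤ) - ((i' : ℕ) : ℤ)) * m :=
        (hζ.zpow_eq_one_iff_dvd _).mp h3
      have h5 : (p : ℤ) ∣ ((i : ℕ) : ℤ) - ((i' : ℕ) : ℤ) :=
        ((Nat.prime_iff_prime_int.mp hp).dvd_or_dvd h4).resolve_right hm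
      have h6 : ((i : ℕ) : ℤ) = ((i' : ℕ) : ℤ) := by
        have hi := i.2
        have hi' := i'.2
        obtain ⟨c, hc⟩ := h5
        have hc0 : c = 0 := by
          by_contra hne
          rcases lt_or_gt_of_ne hne with hneg | hpos
          · have : (p : ℤ) * c ≤ (p : ℤ) * (-1) :=
              mul_le_mul_of_nonneg_left (by omega) (by positivity)
            omega
          · have : (p : ℤ) * 1 ≤ (p : ℤ) * c :=
              mul_le_mul_of_nonneg_left (by omega) (by positivity)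
            omega
        rw [hc0, mul_zero] at hc
        omega
      have h7 : i = i' := Fin.ext (by exact_mod_cast h6)
      rw [h7]


variable (p)

theorem ev_rt_none (ζ : ℂˣ) (x y : LaurentSeries ℂ) (P : Polynomial (Polynomial ℂ)) :
    ev (rt p ζ x y none) (qExpand ℂ p (jqModC ℂ)) P = qExpand ℂ p (ev x (jqModC ℂ) P) := by
  rw [map_ev_id (qExpand ℂ p) (qExpand_algebraMap p)]
  rfl

theorem ev_rt_some (ζ : ℂˣ) (hζp : ζ ^ p = 1) (x y : LaurentSeries ℂ)
    (P : Polynomial (Polynomial ℂ)) (i : Fin p) :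
    ev (rt p ζ x y (some i)) (qExpand ℂ p (jqModC ℂ)) P =
      twist (ζ ^ (i : ℕ)) (ev y (qExpand ℂ p (jqModC ℂ)) P) := by
  rw [map_ev_id (twist _) (twist_algebraMap _),
    twist_qExpand _ p (by rw [← pow_mul, mul_comm, pow_mul, hζp, one_pow])]
  rfl

theorem not_dvd_neg_one : ¬ (p : ℤ) ∣ (-1 : ℤ) := by
  have hp : p.Prime := Fact.out
  intro h
  have h1 : (p : ℤ) ∣ ((1 : ℕ) : ℤ) := by simpa using (dvd_neg.mp h)
  have h2 : p ∣ 1 := Int.natCast_dvd_natCast.mp h1
  exact hp.one_lt.ne' (Nat.dvd_one.mp h2)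

theorem not_dvd_one_sub : ¬ (p : ℤ) ∣ (1 - (p : ℤ)) := by
  have hp : p.Prime := Fact.out
  intro h
  have h0 : (p : ℤ) ∣ 1 - (p : ℤ) + (p : ℤ) := dvd_add h (dvd_refl _)
  have h1 : (p : ℤ) ∣ ((1 : ℕ) : ℤ) := by simpa using h0
  have h2 : p ∣ 1 := Int.natCast_dvd_natCast.mp h1
  exact hp.one_lt.ne' (Nat.dvd_one.mp h2)

theorem X_sub_C_mem_lifts (x : LaurentSeries ℂ) (hx : x ∈ coeffSubring OC) :
    (X - C x : Polynomial (LaurentSeries ℂ)) ∈ Polynomial.lifts (coeffSubring OC).subtype :=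
  (Polynomial.mem_lifts _).mpr ⟨X - C ⟨x, hx⟩, by simp⟩

theorem C_mem_lifts' (x : LaurentSeries ℂ) (hx : x ∈ coeffSubring OC) :
    (C x : Polynomial (LaurentSeries ℂ)) ∈ Polynomial.lifts (coeffSubring OC).subtype :=
  (Polynomial.mem_lifts _).mpr ⟨C ⟨x, hx⟩, by simp⟩

/-- If `P(X, j(t^p))` has all its coefficients in `O((t))`, then `P ∈ O[Y][X]`. -/
theorem exists_lift_of_mem_lifts (P : Polynomial (Polynomial ℂ))
    (h : P.map (Polynomial.aeval (qExpand ℂ p (jqModC ℂ))).toRingHom ∈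
      Polynomial.lifts (coeffSubring OC).subtype) :
    ∃ P₀ : Polynomial (Polynomial OC), P₀.map (Polynomial.mapRingHom OC.subtype) = P := by
  apply PolyInt.exists_map_map_eq_of_aeval_jq OC P
  intro n m
  rw [Polynomial.lifts_iff_coeff_lifts] at h
  obtain ⟨c, hc⟩ := h n
  rw [Polynomial.coeff_map] at hc
  have h1 : Polynomial.aeval (qExpand ℂ p (jqModC ℂ)) (P.coeff n) =
      qExpand ℂ p (Polynomial.aeval (jqModC ℂ) (P.coeff n)) := by
    rw [map_aeval (qExpand ℂ p) (RingHom.id ℂ) (by simpa using qExpand_algebraMap (R := ℂ) p),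
      Polynomial.map_id]
  have h2 := c.2 ((p : ℤ) * m)
  have h3 : ((c : LaurentSeries ℂ)).coeff ((p : ℤ) * m) =
      (Polynomial.aeval (jqModC ℂ) (P.coeff n)).coeff m := by
    have : (c : LaurentSeries ℂ) =
        Polynomial.aeval (qExpand ℂ p (jqModC ℂ)) (P.coeff n) := hc
    rw [this, h1, qExpand_coeff_mul]
  rw [← h3]
  exact h2

variable {p}

/-- Roots `⟹` product formula for `P(X, j(t^p))`. -/
theorem map_eq_prod (ζ : ℂˣ) (hζ : IsPrimitiveRoot ζ p) (x y : LaurentSeries ℂ) (m : ℤ)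
    (hm : ¬ (p : ℤ) ∣ m) (hy : y.coeff m ≠ 0)
    (P : Polynomial (Polynomial ℂ)) (hP : P.Monic) (hPd : P.natDegree = p + 1)
    (h2 : ev x (jqModC ℂ) P = 0) (h3 : ev y (qExpand ℂ p (jqModC ℂ)) P = 0) :
    P.map (Polynomial.aeval (qExpand ℂ p (jqModC ℂ))).toRingHom =
      ∏ i, (X - C (rt p ζ x y i)) := by
  refine eq_prod_of_roots _ (hP.map _) _ (rt_injective ζ hζ x y m hm hy) ?_ ?_
  · rw [hP.natDegree_map, hPd, Fintype.card_option, Fintype.card_fin]
  · intro i
    cases i with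
    | none =>
      have := ev_rt_none p ζ x y P
      rw [h2, map_zero] at this
      exact this
    | some i =>
      have := ev_rt_some p ζ hζ.pow_eq_one x y P i
      rw [h3, map_zero] at this
      exact this

theorem exists_lift_of_roots (ζ : ℂˣ) (hζ : IsPrimitiveRoot ζ p) (x y : LaurentSeries ℂ)
    (hx : x ∈ coeffSubring OC) (hy' : y ∈ coeffSubring OC) (m : ℤ)
    (hm : ¬ (p : ℤ) ∣ m) (hy : y.coeff m ≠ 0)
    (P : Polynomial (Polynomial ℂ)) (hP : P.Monic) (hPd : P.natDegree = p + 1)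
    (h2 : ev x (jqModC ℂ) P = 0) (h3 : ev y (qExpand ℂ p (jqModC ℂ)) P = 0) :
    ∃ P₀ : Polynomial (Polynomial OC), P₀.map (Polynomial.mapRingHom OC.subtype) = P := by
  apply exists_lift_of_mem_lifts p P
  rw [map_eq_prod ζ hζ x y m hm hy P hP hPd h2 h3]
  exact Subsemiring.prod_mem _ fun i _ => X_sub_C_mem_lifts _ (rt_mem ζ hζ x y hx hy' i)

theorem exists_lift_T (ζ : ℂˣ) (hζ : IsPrimitiveRoot ζ p) (a b : LaurentSeries ℂ)
    (ha : a ∈ coeffSubring OC) (hb : b ∈ coeffSubring OC)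
    (Φ T : Polynomial (Polynomial ℂ)) (hΦ : Φ.Monic) (hΦd : Φ.natDegree = p + 1)
    (hT : T.degree < ((p + 1 : ℕ) : WithBot ℕ))
    (h2 : ev (qExpand ℂ p (jqModC ℂ)) (jqModC ℂ) Φ = 0)
    (h3 : ev (jqModC ℂ) (qExpand ℂ p (jqModC ℂ)) Φ = 0)
    (h4 : a * ev (qExpand ℂ p (jqModC ℂ)) (jqModC ℂ) (derivative Φ) =
      ev (qExpand ℂ p (jqModC ℂ)) (jqModC ℂ) T)
    (h5 : b * ev (jqModC ℂ) (qExpand ℂ p (jqModC ℂ)) (derivative Φ) =
      ev (jqModC ℂ) (qExpand ℂ p (jqModC ℂ)) T) :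
    ∃ T₀ : Polynomial (Polynomial OC), T₀.map (Polynomial.mapRingHom OC.subtype) = T := by
  have hj1 : (jqModC ℂ).coeff (-1) ≠ 0 := by
    rw [coeff_jqModC_neg_one]; exact one_ne_zero
  have hjmem : jqModC ℂ ∈ coeffSubring OC := fun k => PolyInt.coeff_jqModC_mem ℂ OC k
  have hjpmem : qExpand ℂ p (jqModC ℂ) ∈ coeffSubring OC := by
    intro n
    by_cases h : (p : ℤ) ∣ n
    · obtain ⟨m, rfl⟩ := h
      rw [qExpand_coeff_mul]
      exact hjmem m
    · rw [qExpand_coeff_of_not_dvd p _ h]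
      exact zero_mem _
  set ρ := rt p ζ (qExpand ℂ p (jqModC ℂ)) (jqModC ℂ) with hρ
  set u := rt p ζ a b with hu
  have hinj : Function.Injective ρ :=
    rt_injective ζ hζ _ _ (-1) (not_dvd_neg_one p) hj1
  have hprod := map_eq_prod ζ hζ (qExpand ℂ p (jqModC ℂ)) (jqModC ℂ) (-1) (not_dvd_neg_one p) hj1
    Φ hΦ hΦd h2 h3
  have hder : ∀ i, ev (ρ i) (qExpand ℂ p (jqModC ℂ)) (derivative Φ) =
      ∏ j ∈ Finset.univ.erase i, (ρ i - ρ j) := by
    intro i
    rw [ev_def, ← Polynomial.derivative_map, hprod]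
    exact eval_derivative_prod ρ i
  have hval : ∀ i, (T.map (Polynomial.aeval (qExpand ℂ p (jqModC ℂ))).toRingHom).eval (ρ i) =
      u i * ∏ j ∈ Finset.univ.erase i, (ρ i - ρ j) := by
    intro i
    rw [← hder i, ← ev_def]
    cases i with
    | none =>
      rw [hρ, hu, ev_rt_none, ev_rt_none, ← h4, map_mul]
      rfl
    | some i =>
      rw [hρ, hu, ev_rt_some p ζ hζ.pow_eq_one, ev_rt_some p ζ hζ.pow_eq_one, ← h5, map_mul]
      rfl
  have hdeg : (T.map (Polynomial.aeval (qExpand ℂ p (jqModC ℂ))).toRingHom).degree <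
      (Fintype.card (Option (Fin p)) : WithBot ℕ) := by
    rw [Fintype.card_option, Fintype.card_fin]
    exact lt_of_le_of_lt (Polynomial.degree_map_le) hT
  have hlag := eq_lagrange _ ρ u hinj hdeg hval
  apply exists_lift_of_mem_lifts p T
  rw [hlag]
  refine Subsemiring.sum_mem _ fun i _ => Subsemiring.mul_mem _ ?_ ?_
  · exact C_mem_lifts' _ (rt_mem ζ hζ a b ha hb i)
  · exact Subsemiring.prod_mem _ fun j _ =>
      X_sub_C_mem_lifts _ (rt_mem ζ hζ _ _ hjpmem hjmem j)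

end Main

section Pkg

variable (p : ℕ) [NeZero p]

/-- The six identities of the modular package at `p` over a coefficient ring `R`:
`Φ(j(q^p), j(q)) = 0`, `Φ(j(t), j(t^p)) = 0`, the two resolvent identities
`a Φ'(j_p, j) = T(j_p, j)`, `b Φ'(j, j_p) = T(j, j_p)`, and `Ψ(a, j) = 0`, `Ψ(b, j_p) = 0`. -/
def IsPkg (R : Type*) [CommRing R] (a b : LaurentSeries R) (Φ T Ψ : Polynomial (Polynomial R)) :
    Prop :=
  ev (qExpand R p (jqModC R)) (jqModC R) Φ = 0 ∧
  ev (jqModC R) (qExpand R p (jqModC R)) Φ = 0 ∧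
  a * ev (qExpand R p (jqModC R)) (jqModC R) (derivative Φ) =
    ev (qExpand R p (jqModC R)) (jqModC R) T ∧
  b * ev (jqModC R) (qExpand R p (jqModC R)) (derivative Φ) =
    ev (jqModC R) (qExpand R p (jqModC R)) T ∧
  ev a (jqModC R) Ψ = 0 ∧ ev b (qExpand R p (jqModC R)) Ψ = 0

variable {p} {R S : Type*} [CommRing R] [CommRing S]

theorem coeffMap_injective (f : R →+* S) (hf : Function.Injective f) :
    Function.Injective (coeffMap f) := by
  intro x y h
  ext k
  have := congrArg (fun z : LaurentSeries S => z.coeff k) h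
  simp only [coeffMap_coeff] at this
  exact hf this

theorem coeffMap_ev (f : R →+* S) (x y : LaurentSeries R) (P : Polynomial (Polynomial R)) :
    coeffMap f (ev x y P) = ev (coeffMap f x) (coeffMap f y) (P.map (Polynomial.mapRingHom f)) :=
  map_ev (coeffMap f) f (coeffMap_algebraMap' f) x y P

theorem coeffMap_jp (f : R →+* S) :
    coeffMap f (qExpand R p (jqModC R)) = qExpand S p (jqModC S) := by
  rw [coeffMap_qExpand, coeffMap_jqModC]

/-- The six expressions of the package over `S` are the images of those over `R`. -/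
theorem isPkg_map_iff_aux (f : R →+* S) (a b : LaurentSeries R)
    (Φ T Ψ : Polynomial (Polynomial R)) :
    IsPkg p S (coeffMap f a) (coeffMap f b) (Φ.map (Polynomial.mapRingHom f))
      (T.map (Polynomial.mapRingHom f)) (Ψ.map (Polynomial.mapRingHom f)) ↔
    (coeffMap f (ev (qExpand R p (jqModC R)) (jqModC R) Φ) = coeffMap f 0 ∧
      coeffMap f (ev (jqModC R) (qExpand R p (jqModC R)) Φ) = coeffMap f 0 ∧
      coeffMap f (a * ev (qExpand R p (jqModC R)) (jqModC R) (derivative Φ)) =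
        coeffMap f (ev (qExpand R p (jqModC R)) (jqModC R) T) ∧
      coeffMap f (b * ev (jqModC R) (qExpand R p (jqModC R)) (derivative Φ)) =
        coeffMap f (ev (jqModC R) (qExpand R p (jqModC R)) T) ∧
      coeffMap f (ev a (jqModC R) Ψ) = coeffMap f 0 ∧
      coeffMap f (ev b (qExpand R p (jqModC R)) Ψ) = coeffMap f 0) := by
  simp only [IsPkg, map_mul, coeffMap_ev, coeffMap_jp, coeffMap_jqModC, map_zero,
    Polynomial.derivative_map]

theorem IsPkg.map (f : R →+* S) {a b : LaurentSeries R} {Φ T Ψ : Polynomial (Polynomial R)}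
    (h : IsPkg p R a b Φ T Ψ) :
    IsPkg p S (coeffMap f a) (coeffMap f b) (Φ.map (Polynomial.mapRingHom f))
      (T.map (Polynomial.mapRingHom f)) (Ψ.map (Polynomial.mapRingHom f)) := by
  rw [isPkg_map_iff_aux]
  obtain ⟨h1, h2, h3, h4, h5, h6⟩ := h
  exact ⟨congrArg _ h1, congrArg _ h2, congrArg _ h3, congrArg _ h4, congrArg _ h5,
    congrArg _ h6⟩

theorem IsPkg.of_map (f : R →+* S) (hf : Function.Injective f) {a b : LaurentSeries R}
    {Φ T Ψ : Polynomial (Polynomial R)}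
    (h : IsPkg p S (coeffMap f a) (coeffMap f b) (Φ.map (Polynomial.mapRingHom f))
      (T.map (Polynomial.mapRingHom f)) (Ψ.map (Polynomial.mapRingHom f))) :
    IsPkg p R a b Φ T Ψ := by
  rw [isPkg_map_iff_aux] at h
  obtain ⟨h1, h2, h3, h4, h5, h6⟩ := h
  have hinj := coeffMap_injective f hf
  exact ⟨hinj h1, hinj h2, hinj h3, hinj h4, hinj h5, hinj h6⟩

end Pkg

section Final

open PolyInt

variable (p : ℕ) [Fact p.Prime]

theorem coeffMap_intCast_mem (a0 : LaurentSeries ℤ) :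
    coeffMap (Int.castRingHom ℂ) a0 ∈ coeffSubring OC := by
  intro k
  rw [coeffMap_coeff]
  exact intCast_mem OC _

theorem exists_primitiveRoot_unit : ∃ ζ : ℂˣ, IsPrimitiveRoot ζ p := by
  have hp : p.Prime := Fact.out
  have h := Complex.isPrimitiveRoot_exp p hp.ne_zero
  refine ⟨(h.isUnit hp.ne_zero).unit, IsPrimitiveRoot.coe_units_iff.mp ?_⟩
  simpa using h

/-- The three polynomials of a complex package have algebraic integer coefficients. -/
theorem exists_lifts (a0 b0 : LaurentSeries ℤ) (hb0 : b0.coeff (1 - (p : ℤ)) ≠ 0)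
    (Φ T Ψ : Polynomial (Polynomial ℂ)) (hΦ : Φ.Monic) (hΦd : Φ.natDegree = p + 1)
    (hΨ : Ψ.Monic) (hΨd : Ψ.natDegree = p + 1) (hT : T.degree < ((p + 1 : ℕ) : WithBot ℕ))
    (hpkg : IsPkg p ℂ (coeffMap (Int.castRingHom ℂ) a0) (coeffMap (Int.castRingHom ℂ) b0) Φ T Ψ) :
    ∃ Φ₀ T₀ Ψ₀ : Polynomial (Polynomial OC),
      Φ₀.map (Polynomial.mapRingHom OC.subtype) = Φ ∧
      T₀.map (Polynomial.mapRingHom OC.subtype) = T ∧
      Ψ₀.map (Polynomial.mapRingHom OC.subtype) = Ψ := by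
  obtain ⟨ζ, hζ⟩ := exists_primitiveRoot_unit p
  obtain ⟨h2, h3, h4, h5, h6, h6'⟩ := hpkg
  have hj1 : (jqModC ℂ).coeff (-1) ≠ 0 := by
    rw [coeff_jqModC_neg_one]; exact one_ne_zero
  have hjmem : jqModC ℂ ∈ coeffSubring OC := fun k => PolyInt.coeff_jqModC_mem ℂ OC k
  have hjpmem : qExpand ℂ p (jqModC ℂ) ∈ coeffSubring OC := by
    intro n
    by_cases h : (p : ℤ) ∣ n
    · obtain ⟨m, rfl⟩ := h
      rw [qExpand_coeff_mul]
      exact hjmem m
    · rw [qExpand_coeff_of_not_dvd p _ h]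
      exact zero_mem _
  have ha := coeffMap_intCast_mem a0
  have hb := coeffMap_intCast_mem b0
  have hbm : (coeffMap (Int.castRingHom ℂ) b0).coeff (1 - (p : ℤ)) ≠ 0 := by
    rw [coeffMap_coeff, eq_intCast]
    exact Int.cast_ne_zero.mpr hb0
  obtain ⟨Φ₀, hΦ₀⟩ := exists_lift_of_roots ζ hζ _ _ hjpmem hjmem (-1) (not_dvd_neg_one p) hj1
    Φ hΦ hΦd h2 h3
  obtain ⟨Ψ₀, hΨ₀⟩ := exists_lift_of_roots ζ hζ _ _ ha hb (1 - (p : ℤ)) (not_dvd_one_sub p) hbm
    Ψ hΨ hΨd h6 h6'
  obtain ⟨T₀, hT₀⟩ := exists_lift_T ζ hζ _ _ ha hb Φ T hΦ hΦd hT h2 h3 h4 h5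
  exact ⟨Φ₀, T₀, Ψ₀, hΦ₀, hT₀, hΨ₀⟩

/-- A ring hom from the algebraic integers to any algebraically closed field. -/
theorem exists_ringHom_OC (k : Type*) [Field k] [IsAlgClosed k] : Nonempty (OC →+* k) := by
  obtain ⟨φ⟩ := PolyInt.exists_ringHom_integralClosure k
  exact ⟨{ toFun := fun x => φ ⟨x.1, x.2⟩
           map_one' := map_one φ
           map_mul' := fun x y => map_mul φ ⟨x.1, x.2⟩ ⟨y.1, y.2⟩
           map_zero' := map_zero φ
           map_add' := fun x y => map_add φ ⟨x.1, x.2⟩ ⟨y.1, y.2⟩ }⟩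

theorem mapRingHom_injective {R S : Type*} [CommRing R] [CommRing S] (f : R →+* S)
    (hf : Function.Injective f) :
    Function.Injective (Polynomial.mapRingHom f) := by
  rw [Polynomial.coe_mapRingHom]
  exact Polynomial.map_injective f hf

/-- **Reduction of the modular package.** From the six identities over `ℂ((q))` to the same
identities over any algebraically closed field. -/
theorem exists_isPkg_of_complex (a0 b0 : LaurentSeries ℤ) (hb0 : b0.coeff (1 - (p : ℤ)) ≠ 0)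
    (Φ T Ψ : Polynomial (Polynomial ℂ)) (hΦ : Φ.Monic) (hΦd : Φ.natDegree = p + 1)
    (hΨ : Ψ.Monic) (hΨd : Ψ.natDegree = p + 1) (hT : T.degree < ((p + 1 : ℕ) : WithBot ℕ))
    (hpkg : IsPkg p ℂ (coeffMap (Int.castRingHom ℂ) a0) (coeffMap (Int.castRingHom ℂ) b0) Φ T Ψ)
    (k : Type*) [Field k] [IsAlgClosed k] :
    ∃ Φ' T' Ψ' : Polynomial (Polynomial k), Φ'.Monic ∧ Φ'.natDegree = p + 1 ∧ Ψ'.Monic ∧
      Ψ'.natDegree = p + 1 ∧ T'.degree < ((p + 1 : ℕ) : WithBot ℕ) ∧
      IsPkg p k (coeffMap (Int.castRingHom k) a0) (coeffMap (Int.castRingHom k) b0) Φ' T' Ψ' := by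
  obtain ⟨Φ₀, T₀, Ψ₀, rfl, rfl, rfl⟩ := exists_lifts p a0 b0 hb0 Φ T Ψ hΦ hΦd hΨ hΨd hT hpkg
  obtain ⟨φ⟩ := exists_ringHom_OC k
  have hinj : Function.Injective (Polynomial.mapRingHom OC.subtype) :=
    mapRingHom_injective _ Subtype.val_injective
  have hΦ₀ : Φ₀.Monic := Polynomial.monic_of_injective hinj hΦ
  have hΨ₀ : Ψ₀.Monic := Polynomial.monic_of_injective hinj hΨ
  rw [Polynomial.natDegree_map_eq_of_injective hinj] at hΦd hΨd
  rw [Polynomial.degree_map_eq_of_injective hinj] at hT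
  have hpkgO : IsPkg p OC (coeffMap (Int.castRingHom OC) a0) (coeffMap (Int.castRingHom OC) b0)
      Φ₀ T₀ Ψ₀ := by
    refine IsPkg.of_map OC.subtype Subtype.val_injective ?_
    rw [PolyInt.coeffMap_comp_intCast, PolyInt.coeffMap_comp_intCast]
    exact hpkg
  have hpkgk := hpkgO.map φ
  rw [PolyInt.coeffMap_comp_intCast, PolyInt.coeffMap_comp_intCast] at hpkgk
  refine ⟨Φ₀.map (Polynomial.mapRingHom φ), T₀.map (Polynomial.mapRingHom φ),
    Ψ₀.map (Polynomial.mapRingHom φ), hΦ₀.map _, ?_, hΨ₀.map _, ?_, ?_, hpkgk⟩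
  · rw [hΦ₀.natDegree_map, hΦd]
  · rw [hΨ₀.natDegree_map, hΨd]
  · exact lt_of_le_of_lt Polynomial.degree_map_le hT


/-- **Reduction of the modular package**, unfolded form: `P(X := x, Y := y)` is written
`(P.map (Polynomial.aeval y).toRingHom).eval x`. -/
theorem exists_modPkg_of_complex (a0 b0 : LaurentSeries ℤ) (hb0 : b0.coeff (1 - (p : ℤ)) ≠ 0)
    (Φ T Ψ : Polynomial (Polynomial ℂ)) (hΦ : Φ.Monic) (hΦd : Φ.natDegree = p + 1)
    (hΨ : Ψ.Monic) (hΨd : Ψ.natDegree = p + 1) (hT : T.degree < ((p + 1 : ℕ) : WithBot ℕ))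
    (h2 : (Φ.map (Polynomial.aeval (jqModC ℂ)).toRingHom).eval (qExpand ℂ p (jqModC ℂ)) = 0)
    (h3 : (Φ.map (Polynomial.aeval (qExpand ℂ p (jqModC ℂ))).toRingHom).eval (jqModC ℂ) = 0)
    (h4 : coeffMap (Int.castRingHom ℂ) a0 *
        ((derivative Φ).map (Polynomial.aeval (jqModC ℂ)).toRingHom).eval
          (qExpand ℂ p (jqModC ℂ)) =
      (T.map (Polynomial.aeval (jqModC ℂ)).toRingHom).eval (qExpand ℂ p (jqModC ℂ)))
    (h5 : coeffMap (Int.castRingHom ℂ) b0 *
        ((derivative Φ).map (Polynomial.aeval (qExpand ℂ p (jqModC ℂ))).toRingHom).eval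
          (jqModC ℂ) =
      (T.map (Polynomial.aeval (qExpand ℂ p (jqModC ℂ))).toRingHom).eval (jqModC ℂ))
    (h6 : (Ψ.map (Polynomial.aeval (jqModC ℂ)).toRingHom).eval
      (coeffMap (Int.castRingHom ℂ) a0) = 0)
    (h6' : (Ψ.map (Polynomial.aeval (qExpand ℂ p (jqModC ℂ))).toRingHom).eval
      (coeffMap (Int.castRingHom ℂ) b0) = 0)
    (k : Type*) [Field k] [IsAlgClosed k] :
    ∃ Φ' T' Ψ' : Polynomial (Polynomial k), Φ'.Monic ∧ Φ'.natDegree = p + 1 ∧ Ψ'.Monic ∧
      Ψ'.natDegree = p + 1 ∧ T'.degree < ((p + 1 : ℕ) : WithBot ℕ) ∧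
      (Φ'.map (Polynomial.aeval (jqModC k)).toRingHom).eval (qExpand k p (jqModC k)) = 0 ∧
      (Φ'.map (Polynomial.aeval (qExpand k p (jqModC k))).toRingHom).eval (jqModC k) = 0 ∧
      coeffMap (Int.castRingHom k) a0 *
          ((derivative Φ').map (Polynomial.aeval (jqModC k)).toRingHom).eval
            (qExpand k p (jqModC k)) =
        (T'.map (Polynomial.aeval (jqModC k)).toRingHom).eval (qExpand k p (jqModC k)) ∧
      coeffMap (Int.castRingHom k) b0 *
          ((derivative Φ').map (Polynomial.aeval (qExpand k p (jqModC k))).toRingHom).eval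
            (jqModC k) =
        (T'.map (Polynomial.aeval (qExpand k p (jqModC k))).toRingHom).eval (jqModC k) ∧
      (Ψ'.map (Polynomial.aeval (jqModC k)).toRingHom).eval
        (coeffMap (Int.castRingHom k) a0) = 0 ∧
      (Ψ'.map (Polynomial.aeval (qExpand k p (jqModC k))).toRingHom).eval
        (coeffMap (Int.castRingHom k) b0) = 0 := by
  obtain ⟨Φ', T', Ψ', h1, h2', h3', h4', h5', hpkg⟩ :=
    exists_isPkg_of_complex p a0 b0 hb0 Φ T Ψ hΦ hΦd hΨ hΨd hT ⟨h2, h3, h4, h5, h6, h6'⟩ k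
  exact ⟨Φ', T', Ψ', h1, h2', h3', h4', h5', hpkg⟩

end Final

end Fermat.Agent.S28.ModPkgRed
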