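import Mathlib
import Fermat.Agent.S28.ModPkgC
import Fermat.Agent.S28.ModPkgRed
import Fermat.Agent.S28.ModPkgOrd
import Fermat.Agent.S28.CruxLPkg

/-!
# S28 (M5), assembler, part 5: the characteristic-`ℓ` crux, hypothesis-free

`exists_monomials` : for `ℓ ∤ N` there are `ψ(N)` monomials in the `j(q^d)`, `d ∣ N`, whose
expansions over `𝔽_ℓ` are linearly independent over `𝔽_ℓ[j]` -- statement (C) of the S28
architecture.  The modular equation package comes from `ModPkg.exists_complex` (analytic side)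
and `ModPkgRed.exists_modPkg_of_complex` (integrality and reduction).
-/

set_option autoImplicit false

noncomputable section

open ModularCurve

namespace Fermat.Agent.S28.CruxL

/-- the modular equation data at a prime `p` over any algebraically closed field. -/
theorem modData (p : ℕ) [Fact p.Prime] (k : Type*) [Field k] [IsAlgClosed k] : ModData k p := by
  obtain ⟨Φ, T, Ψ, hΦ, hΦd, hΨ, hΨd, hT, h2, h3, h4, h5, h6, h6'⟩ := ModPkg.exists_complex p
  have hb0 : (ModPkg.phiZero ℤ p).coeff (1 - (p : ℤ)) ≠ 0 := by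
    rw [ModPkg.coeff_phiZero]
    exact one_ne_zero
  obtain ⟨Φ', T', Ψ', hΦ', hΦd', hΨ', -, -, g2, g3, g4, g5, g6, g6'⟩ :=
    ModPkgRed.exists_modPkg_of_complex p (ModPkg.phiInf ℤ p) (ModPkg.phiZero ℤ p) hb0 Φ T Ψ
      hΦ hΦd hΨ hΨd hT h2 h3 h4 h5 h6 h6' k
  rw [ModPkg.coeffMap_phiInf] at g4 g6
  rw [ModPkg.coeffMap_phiZero] at g5 g6'
  exact ⟨Φ', T', Ψ', hΦ', hΦd', hΨ', g2, g3, g4, g5, g6, g6'⟩

/-- **(C): the characteristic-`ℓ` crux.**  For `ℓ ∤ N` there are `ψ(N)` monomials in the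
`j(q^d)`, `d ∣ N`, whose expansions with coefficients in `𝔽_ℓ` are linearly independent over
`𝔽_ℓ[j]`. -/
theorem exists_monomials (N : ℕ) [NeZero N] (ℓ : ℕ) [Fact ℓ.Prime] (hℓN : ¬ ℓ ∣ N) :
    ∃ m : Fin (dedekindPsi N) → (ℕ →₀ ℕ), (∀ i, ∀ d ∈ (m i).support, d ∣ N) ∧
      ∀ c : Fin (dedekindPsi N) → Polynomial (ZMod ℓ),
        ∑ i, Polynomial.aeval (jqModC (ZMod ℓ)) (c i) * Defs.mono (ZMod ℓ) (m i) = 0 →
          ∀ i, c i = 0 :=
  exists_monomials_of_modPkg N ℓ hℓN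
    (fun p _ hp _ => haveI : Fact p.Prime := ⟨hp⟩; modData p _)

end Fermat.Agent.S28.CruxL
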