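import Fermat.Agent.S28.ModPkgC
import Fermat.Agent.S28.ModPkgOrd
import Fermat.Agent.S28.ModPkgRed

/-!
# S28 (ModPkg): the modular package at a prime `p` over any algebraically closed field

`exists_modPkg`: the modular polynomial `Φ`, the Lagrange resolvent `T` and the characteristic
polynomial `Ψ` of the unit `φ∞ = p¹² Δ(q^p)/Δ(q)`, with coefficients in `k[Y]`, and the six
identities in `k((q))` -- any characteristic.
-/

namespace Fermat.Agent.S28.ModPkgK

open Polynomial ModularCurve Fermat.Agent.S28.ModPkg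

/-- **The modular package at a prime `p` over an algebraically closed field `k`.** -/
theorem exists_modPkg (p : ℕ) [Fact p.Prime] (k : Type*) [Field k] [IsAlgClosed k] :
    ∃ Φ T Ψ : Polynomial (Polynomial k), Φ.Monic ∧ Φ.natDegree = p + 1 ∧ Ψ.Monic ∧
      Ψ.natDegree = p + 1 ∧ T.degree < ((p + 1 : ℕ) : WithBot ℕ) ∧
      ev (qExpand k p (jqModC k)) (jqModC k) Φ = 0 ∧
      ev (jqModC k) (qExpand k p (jqModC k)) Φ = 0 ∧
      phiInf k p * ev (qExpand k p (jqModC k)) (jqModC k) (derivative Φ) =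
        ev (qExpand k p (jqModC k)) (jqModC k) T ∧
      phiZero k p * ev (jqModC k) (qExpand k p (jqModC k)) (derivative Φ) =
        ev (jqModC k) (qExpand k p (jqModC k)) T ∧
      ev (phiInf k p) (jqModC k) Ψ = 0 ∧
      ev (phiZero k p) (qExpand k p (jqModC k)) Ψ = 0 := by
  obtain ⟨Φ, T, Ψ, hΦ, hΦd, hΨ, hΨd, hT, h2, h3, h4, h5, h6, h6'⟩ := exists_complex p
  have hb0 : (phiZero ℤ p).coeff (1 - (p : ℤ)) ≠ 0 := by
    rw [coeff_phiZero]; exact one_ne_zero
  have h := ModPkgRed.exists_modPkg_of_complex p (phiInf ℤ p) (phiZero ℤ p) hb0 Φ T Ψ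
    hΦ hΦd hΨ hΨd hT h2 h3 h4 h5 h6 h6' k
  rw [coeffMap_phiInf, coeffMap_phiZero] at h
  exact h

end Fermat.Agent.S28.ModPkgK
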