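import Fermat.Agent.S28.CharLDegPkg
import Fermat.Agent.S28.ModPkgK

/-!
# S28 (M5), final: `ψ(N)` monomials in the `j(q^d)`, `d ∣ N`, independent over `𝔽_ℓ[j]`

`exists_monomials` is statement (C) of the S28 architecture: for `ℓ ∤ N` there are `ψ(N)`
monomials in the `j(q^d)`, `d ∣ N`, whose reductions mod `ℓ` are linearly independent over
`𝔽_ℓ[j]`.  It is `CharLDeg.exists_monomials_of_modPkg` fed with `ModPkgK.exists_modPkg`.
-/

set_option autoImplicit false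

open ModularCurve

namespace Fermat.Agent.S28.CharLDeg

open Fermat.Agent.S28

/-- **(C)**: for `ℓ ∤ N`, `ψ(N)` monomials in the `j(q^d)`, `d ∣ N`, whose reductions are
independent over `𝔽_ℓ[j]`. -/
theorem exists_monomials (N : ℕ) [NeZero N] (ℓ : ℕ) [Fact ℓ.Prime] (hℓN : ¬ ℓ ∣ N) :
    ∃ m : Fin (dedekindPsi N) → (ℕ →₀ ℕ), (∀ i, ∀ d ∈ (m i).support, d ∣ N) ∧
      ∀ c : Fin (dedekindPsi N) → Polynomial (ZMod ℓ),
        ∑ i, Polynomial.aeval (jqModC (ZMod ℓ)) (c i) * Defs.mono (ZMod ℓ) (m i) = 0 →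
          ∀ i, c i = 0 :=
  exists_monomials_of_modPkg N ℓ hℓN fun p _ hp _ =>
    haveI : Fact p.Prime := ⟨hp⟩
    ModPkgK.exists_modPkg p (AlgebraicClosure (ZMod ℓ))

end Fermat.Agent.S28.CharLDeg
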