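import Mathlib

/-!
# S28: the `q`-expansion principle, abstract form

* `isIntegral_of_mul_of_mul`: if `R` is an integrally closed domain, `π` a prime element, `a` prime
  to `π`, and both `π y` and `a y` are integral over `R`, then so is `y`.
* `ker_red_le`: the abstract `q`-expansion principle `A ∩ π O = π A`.
-/

set_option autoImplicit false

namespace Fermat.Agent.S28.QExpPrinciple

open Polynomial

section Scale

variable {R L : Type*} [CommRing R] [IsDomain R] [IsIntegrallyClosed R] [Field L] [Algebra R L]
  [FaithfulSMul R L]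

attribute [local instance] FractionRing.liftAlgebra

/-- For `c ≠ 0` in `R` with `c y` integral over the integrally closed domain `R`, the coefficients
of the minimal polynomial `f` of `y` over `K = Frac R` satisfy `f_i c^(n-i) ∈ R`. -/
theorem coeff_minpoly_mul_pow_mem (c : R) (hc : c ≠ 0) (y : L)
    (hcy : IsIntegral R (algebraMap R L c * y)) (i : ℕ) :
    ∃ r : R, algebraMap R (FractionRing R) r =
      (minpoly (FractionRing R) y).coeff i *
        algebraMap R (FractionRing R) c ^ ((minpoly (FractionRing R) y).natDegree - i) := by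
  set K := FractionRing R with hK
  have hcK : algebraMap R K c ≠ 0 := by
    rw [Ne, map_eq_zero_iff _ (IsFractionRing.injective R K)]; exact hc
  have hcL : algebraMap R L c ≠ 0 := by
    rw [Ne, map_eq_zero_iff _ (FaithfulSMul.algebraMap_injective R L)]; exact hc
  have hcyK : IsIntegral K (algebraMap R L c * y) := hcy.tower_top
  have hyK : IsIntegral K y := by
    have h1 : IsIntegral K (algebraMap K L (algebraMap R K c)⁻¹) := isIntegral_algebraMap
    have h2 := h1.mul hcyK
    have h3 : algebraMap K L (algebraMap R K c)⁻¹ * (algebraMap R L c * y) = y := by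
      rw [IsScalarTower.algebraMap_apply R K L, ← mul_assoc, ← map_mul, inv_mul_cancel₀ hcK,
        map_one, one_mul]
    rwa [h3] at h2
  set f := minpoly K y with hf
  set h := minpoly K (algebraMap R L c * y) with hh
  set g := f.scaleRoots (algebraMap R K c) with hg
  have hfm : f.Monic := minpoly.monic hyK
  have hhm : h.Monic := minpoly.monic hcyK
  have hgm : g.Monic := (monic_scaleRoots_iff _).mpr hfm
  have hgroot : aeval (algebraMap R L c * y) g = 0 := by
    have := scaleRoots_aeval_eq_zero (p := f) (a := y) (r := algebraMap R K c) (minpoly.aeval K y)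
    rwa [← IsScalarTower.algebraMap_apply R K L] at this
  have hdvd : h ∣ g := minpoly.dvd K _ hgroot
  -- degree comparison
  have hroot2 : aeval y (h.scaleRoots (algebraMap R K c)⁻¹) = 0 := by
    have := scaleRoots_aeval_eq_zero (p := h) (a := algebraMap R L c * y)
      (r := (algebraMap R K c)⁻¹) (minpoly.aeval K _)
    have h3 : algebraMap K L (algebraMap R K c)⁻¹ * (algebraMap R L c * y) = y := by
      rw [IsScalarTower.algebraMap_apply R K L, ← mul_assoc, ← map_mul, inv_mul_cancel₀ hcK,
        map_one, one_mul]
    rwa [h3] at this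
  have hdeg : g.natDegree ≤ h.natDegree := by
    rw [hg, natDegree_scaleRoots]
    have h1 : f ∣ h.scaleRoots (algebraMap R K c)⁻¹ := minpoly.dvd K _ hroot2
    have h2 : (h.scaleRoots (algebraMap R K c)⁻¹).Monic := (monic_scaleRoots_iff _).mpr hhm
    have h3 := natDegree_le_of_dvd h1 h2.ne_zero
    rwa [natDegree_scaleRoots] at h3
  have hgh : g = h := eq_of_monic_of_dvd_of_natDegree_le hhm hgm hdvd hdeg
  have hmap : h = (minpoly R (algebraMap R L c * y)).map (algebraMap R K) :=
    minpoly.isIntegrallyClosed_eq_field_fractions K L hcy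
  refine ⟨(minpoly R (algebraMap R L c * y)).coeff i, ?_⟩
  rw [← coeff_map, ← hmap, ← hgh, hg, coeff_scaleRoots]

/-- If `π` is a prime element of the integrally closed domain `R`, `π ∤ a`, and `π y`, `a y` are
both integral over `R`, then `y` is integral over `R`. -/
theorem isIntegral_of_mul_of_mul (π a : R) (hπ : Prime π) (ha : ¬ π ∣ a) (y : L)
    (h1 : IsIntegral R (algebraMap R L π * y)) (h2 : IsIntegral R (algebraMap R L a * y)) :
    IsIntegral R y := by
  set K := FractionRing R with hK
  have ha0 : a ≠ 0 := fun h => ha (h ▸ dvd_zero π)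
  have hπK : algebraMap R K π ≠ 0 := by
    rw [Ne, map_eq_zero_iff _ (IsFractionRing.injective R K)]; exact hπ.ne_zero
  set f := minpoly K y with hf
  have hcoeff : ∀ i, ∃ r : R, algebraMap R K r = f.coeff i := by
    intro i
    obtain ⟨r₁, hr₁⟩ := coeff_minpoly_mul_pow_mem π hπ.ne_zero y h1 i
    obtain ⟨r₂, hr₂⟩ := coeff_minpoly_mul_pow_mem a ha0 y h2 i
    set k := f.natDegree - i with hk
    have hrel : a ^ k * r₁ = π ^ k * r₂ := by
      apply IsFractionRing.injective R K
      rw [map_mul, map_mul, map_pow, map_pow, hr₁, hr₂]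
      ring
    have hdvd : π ^ k ∣ r₁ := by
      have hak : ¬ π ∣ a ^ k := fun h => ha (hπ.dvd_of_dvd_pow h)
      exact hπ.pow_dvd_of_dvd_mul_left k hak ⟨r₂, hrel⟩
    obtain ⟨r', hr'⟩ := hdvd
    refine ⟨r', ?_⟩
    have h3 : algebraMap R K π ^ k * algebraMap R K r' = f.coeff i * algebraMap R K π ^ k := by
      rw [← hr₁, hr', map_mul, map_pow]
    have h4 : algebraMap R K π ^ k ≠ 0 := pow_ne_zero _ hπK
    apply mul_left_cancel₀ h4
    rw [h3, mul_comm]
  -- `y` is algebraic over `K`
  have hyK : IsIntegral K y := by
    have h1K : IsIntegral K (algebraMap R L π * y) := h1.tower_top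
    have h5 : IsIntegral K (algebraMap K L (algebraMap R K π)⁻¹) := isIntegral_algebraMap
    have h6 := h5.mul h1K
    have h7 : algebraMap K L (algebraMap R K π)⁻¹ * (algebraMap R L π * y) = y := by
      rw [IsScalarTower.algebraMap_apply R K L, ← mul_assoc, ← map_mul, inv_mul_cancel₀ hπK,
        map_one, one_mul]
    rwa [h7] at h6
  have hfm : f.Monic := minpoly.monic hyK
  have hlifts : f ∈ Polynomial.lifts (algebraMap R K) :=
    (Polynomial.lifts_iff_coeff_lifts f).mpr fun i => by
      obtain ⟨r, hr⟩ := hcoeff i
      exact ⟨r, hr⟩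
  obtain ⟨f', hf'f, -, hf'monic⟩ := Polynomial.lifts_and_natDegree_eq_and_monic hlifts hfm
  refine ⟨f', hf'monic, ?_⟩
  have h8 : aeval y f = 0 := minpoly.aeval K y
  rw [← hf'f, aeval_map_algebraMap] at h8
  exact h8

end Scale

section Principle

variable {R L T : Type*} [CommRing R] [IsDomain R] [IsIntegrallyClosed R] [Field L] [Algebra R L]
  [FaithfulSMul R L] [CommRing T] [IsDomain T]

omit [IsDomain R] [IsIntegrallyClosed R] [FaithfulSMul R L] in
/-- `π` is a prime element of `R` as soon as the reduction map detects divisibility by `π`. -/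
theorem prime_of_red (A : Subalgebra R L) (red : A →+* T) (π : R) (hπ0 : π ≠ 0)
    (hπred : red (algebraMap R A π) = 0) (hR : ∀ r : R, red (algebraMap R A r) = 0 → π ∣ r) :
    Prime π := by
  refine ⟨hπ0, ?_, ?_⟩
  · intro hu
    have h1 : IsUnit (red (algebraMap R A π)) := (hu.map (algebraMap R A)).map red
    rw [hπred] at h1
    exact not_isUnit_zero h1
  · intro a b hab
    obtain ⟨q, hq⟩ := hab
    have h1 : red (algebraMap R A a) * red (algebraMap R A b) = 0 := by
      rw [← map_mul, ← map_mul, hq, map_mul, map_mul, hπred, zero_mul]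
    rcases mul_eq_zero.mp h1 with h | h
    · exact Or.inl (hR a h)
    · exact Or.inr (hR b h)

/-- The abstract `q`-expansion principle: with `A` the integral closure of `R` in `L`,
`red : A → T` a ring hom to a domain killing `π`, such that `red` detects divisibility by `π` on
`R`, and `m₁, …, mₙ ∈ A` spanning `L` over `Frac R` with `red`-independent reductions, every
`x ∈ A` with `red x = 0` is divisible by `π` in `A`. -/
theorem ker_red_le (A : Subalgebra R L) (hA : ∀ x : L, x ∈ A ↔ IsIntegral R x) (red : A →+* T)
    (π : R) (hπ0 : π ≠ 0) (hπred : red (algebraMap R A π) = 0)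
    (hR : ∀ r : R, red (algebraMap R A r) = 0 → π ∣ r)
    (hfin : ∀ c : R, c ≠ 0 → ∃ k : ℕ, ¬ π ^ k ∣ c)
    {n : ℕ} (m : Fin n → A)
    (hspan : ∀ x : A, ∃ (c : R) (cs : Fin n → R), c ≠ 0 ∧ c • x = ∑ i, cs i • m i)
    (hind : ∀ cs : Fin n → R, ∑ i, red (algebraMap R A (cs i)) * red (m i) = 0 →
      ∀ i, red (algebraMap R A (cs i)) = 0)
    (x : A) (hx : red x = 0) : ∃ y : A, x = algebraMap R A π * y := by
  have hπ : Prime π := prime_of_red A red π hπ0 hπred hR
  have hπL : algebraMap R L π ≠ 0 := by
    rw [Ne, map_eq_zero_iff _ (FaithfulSMul.algebraMap_injective R L)]; exact hπ0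
  have hπA : algebraMap R A π ≠ 0 := by
    intro h
    apply hπL
    have := congrArg (Subtype.val : A → L) h
    simpa using this
  -- the induction on the `π`-divisibility of the denominator
  have key : ∀ k : ℕ, ∀ (c : R) (cs : Fin n → R), ¬ π ^ k ∣ c →
      c • x = ∑ i, cs i • m i → ∃ y : A, x = algebraMap R A π * y := by
    intro k
    induction k with
    | zero => intro c cs hk _; exact absurd (by simp) hk
    | succ k ih =>
      intro c cs hk hrel
      -- all the `cs i` are divisible by `π`
      have h1 : ∑ i, red (algebraMap R A (cs i)) * red (m i) = 0 := by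
        have h2 := congrArg red hrel
        rw [Algebra.smul_def, map_mul, hx, mul_zero, map_sum] at h2
        rw [h2]
        refine Finset.sum_congr rfl fun i _ => ?_
        rw [Algebra.smul_def, map_mul]
      have h3 : ∀ i, π ∣ cs i := fun i => hR _ (hind cs h1 i)
      choose cs' hcs' using h3
      have hrel' : c • x = algebraMap R A π * ∑ i, cs' i • m i := by
        rw [hrel, Finset.mul_sum]
        refine Finset.sum_congr rfl fun i _ => ?_
        rw [hcs' i, Algebra.smul_def, Algebra.smul_def, map_mul, mul_assoc]
      by_cases hc : π ∣ c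
      · obtain ⟨c', hc'⟩ := hc
        refine ih c' cs' ?_ ?_
        · intro h
          apply hk
          rw [hc', pow_succ']
          exact mul_dvd_mul_left π h
        · apply mul_left_cancel₀ hπA
          rw [← hrel', hc', Algebra.smul_def, Algebra.smul_def, map_mul, mul_assoc]
      · -- the element `y = x / π` of `L`
        set yL : L := (algebraMap R L π)⁻¹ * (x : L) with hyL
        have hy1 : algebraMap R L π * yL = (x : L) := by
          rw [hyL, ← mul_assoc, mul_inv_cancel₀ hπL, one_mul]
        have hy2 : algebraMap R L c * yL = ((∑ i, cs' i • m i : A) : L) := by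
          have h4 := congrArg (Subtype.val : A → L) hrel'
          simp only [Algebra.smul_def, Subalgebra.coe_mul, Subalgebra.coe_algebraMap] at h4
          have h5 : algebraMap R L c * yL =
              (algebraMap R L π)⁻¹ * (algebraMap R L c * (x : L)) := by
            rw [hyL]; ring
          rw [h5, h4, ← mul_assoc, inv_mul_cancel₀ hπL, one_mul]
          simp only [Algebra.smul_def]
        have hint : IsIntegral R yL := by
          refine isIntegral_of_mul_of_mul π c hπ hc yL ?_ ?_
          · rw [hy1]; exact (hA _).mp x.2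
          · rw [hy2]; exact (hA _).mp (Subtype.mem _)
        refine ⟨⟨yL, (hA _).mpr hint⟩, Subtype.ext ?_⟩
        rw [Subalgebra.coe_mul, Subalgebra.coe_algebraMap]
        exact hy1.symm
  obtain ⟨c, cs, hc0, hrel⟩ := hspan x
  obtain ⟨k, hk⟩ := hfin c hc0
  exact key k c cs hk hrel

end Principle

end Fermat.Agent.S28.QExpPrinciple
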