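import Mathlib
import Fermat.Prelude.Def_ModularCurve_IgusaScheme
import Fermat.Agent.S28.QExpPrinciple

/-!
# S28: the `q`-expansion principle for the frozen charts of the Igusa model

`ℤℓ = GaloisRep.ratLocalizedAt ℓ` is an integrally closed domain; for `x₀` transcendental over `ℤℓ`
the chart algebra `chartAlg N ℓ {x₀}` (integral closure of `ℤℓ[x₀]` in the modular function field)
satisfies the abstract `q`-expansion principle of `QExpPrinciple.ker_red_le`.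
-/

set_option autoImplicit false

namespace Fermat.Agent.S28.ChartKer

open Polynomial ModularCurve ModularCurve.IgusaScheme

section ZL

variable (ℓ : ℕ) [Fact ℓ.Prime]

set_option quotPrecheck false in
local notation "ℤℓ" => ↥(GaloisRep.ratLocalizedAt ℓ)

omit [Fact ℓ.Prime] in
theorem mem_ratLocalizedAt_iff (q : ℚ) : q ∈ GaloisRep.ratLocalizedAt ℓ ↔ q.den.Coprime ℓ :=
  Iff.rfl

/-- the integers prime to `ℓ` -/
def primeTo : Submonoid ℤ where
  carrier := {m | ¬ (ℓ : ℤ) ∣ m}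
  one_mem' := by
    have hℓ : ℓ.Prime := Fact.out
    show ¬ (ℓ : ℤ) ∣ 1
    intro h
    have := Int.natCast_dvd_natCast.mp (by simpa using h : (ℓ : ℤ) ∣ ((1 : ℕ) : ℤ))
    exact hℓ.one_lt.ne' (Nat.dvd_one.mp this)
  mul_mem' := by
    intro a b ha hb h
    have hℓ : ℓ.Prime := Fact.out
    rcases (Nat.prime_iff_prime_int.mp hℓ).dvd_or_dvd h with h | h
    · exact ha h
    · exact hb h

theorem mem_primeTo_iff (m : ℤ) : m ∈ primeTo ℓ ↔ ¬ (ℓ : ℤ) ∣ m := Iff.rfl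

theorem primeTo_le : primeTo ℓ ≤ nonZeroDivisors ℤ := by
  intro m hm
  rw [mem_nonZeroDivisors_iff_ne_zero]
  rintro rfl
  exact hm (dvd_zero _)

theorem coprime_of_not_dvd {m : ℤ} (hm : ¬ (ℓ : ℤ) ∣ m) : m.natAbs.Coprime ℓ := by
  have hℓ : ℓ.Prime := Fact.out
  rw [Nat.coprime_comm, hℓ.coprime_iff_not_dvd]
  intro h
  exact hm (Int.natCast_dvd.mpr h)

theorem not_dvd_of_coprime {n : ℕ} (hn : n.Coprime ℓ) : ¬ (ℓ : ℤ) ∣ (n : ℤ) := by
  have hℓ : ℓ.Prime := Fact.out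
  intro h
  have h1 : ℓ ∣ n := Int.natCast_dvd_natCast.mp h
  rw [Nat.coprime_comm, hℓ.coprime_iff_not_dvd] at hn
  exact hn h1

instance isLocalization_ratLocalizedAt : IsLocalization (primeTo ℓ) ℤℓ := by
  rw [isLocalization_iff]
  refine ⟨?_, ?_, ?_⟩
  · rintro ⟨m, hm⟩
    have hm0 : m ≠ 0 := by rintro rfl; exact hm (dvd_zero _)
    have hmem : ((m : ℚ))⁻¹ ∈ GaloisRep.ratLocalizedAt ℓ := by
      rw [mem_ratLocalizedAt_iff, Rat.inv_intCast_den, if_neg hm0]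
      exact coprime_of_not_dvd ℓ hm
    refine IsUnit.of_mul_eq_one ⟨(m : ℚ)⁻¹, hmem⟩ (Subtype.ext ?_)
    have hmQ : (m : ℚ) ≠ 0 := by exact_mod_cast hm0
    simp [mul_inv_cancel₀ hmQ]
  · rintro ⟨q, hq⟩
    refine ⟨(q.num, ⟨(q.den : ℤ), not_dvd_of_coprime ℓ hq⟩), Subtype.ext ?_⟩
    simp [Rat.mul_den_eq_num]
  · intro x y h
    refine ⟨1, ?_⟩
    have h1 := congrArg (Subtype.val : ℤℓ → ℚ) h
    simp only [eq_intCast, SubringClass.coe_intCast, Int.cast_inj] at h1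
    rw [h1]

instance isIntegrallyClosed_ratLocalizedAt : IsIntegrallyClosed ℤℓ :=
  isIntegrallyClosed_of_isLocalization ℤℓ (primeTo ℓ) (primeTo_le ℓ)

/-- the `ℓ`-adic valuation bounds the `ℓ`-divisibility in `ℤℓ` -/
theorem exists_not_pow_dvd (a : ℤℓ) (ha : a ≠ 0) : ∃ k : ℕ, ¬ ((ℓ : ℤℓ) ^ k ∣ a) := by
  have hℓ : ℓ.Prime := Fact.out
  have haQ : (a : ℚ) ≠ 0 := fun h => ha (Subtype.ext h)
  refine ⟨(a : ℚ).num.natAbs + 1, ?_⟩
  rintro ⟨b, hb⟩
  have hbQ := congrArg (Subtype.val : ℤℓ → ℚ) hb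
  push_cast at hbQ
  -- `a.num * b.den = ℓ^k * b.num * a.den`
  set k := (a : ℚ).num.natAbs + 1 with hk
  have h1 : ((a : ℚ).num : ℚ) * ((b : ℚ).den : ℚ) =
      (ℓ : ℚ) ^ k * ((b : ℚ).num : ℚ) * ((a : ℚ).den : ℚ) := by
    have ha' := Rat.num_div_den (a : ℚ)
    have hb' := Rat.num_div_den (b : ℚ)
    have hda : ((a : ℚ).den : ℚ) ≠ 0 := by exact_mod_cast (a : ℚ).den_ne_zero
    have hdb : ((b : ℚ).den : ℚ) ≠ 0 := by exact_mod_cast (b : ℚ).den_ne_zero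
    rw [← ha', ← hb'] at hbQ
    field_simp at hbQ
    linear_combination hbQ
  have h2 : (a : ℚ).num * ((b : ℚ).den : ℤ) = (ℓ : ℤ) ^ k * (b : ℚ).num * ((a : ℚ).den : ℤ) := by
    exact_mod_cast h1
  have h3 : (ℓ : ℤ) ^ k ∣ (a : ℚ).num * ((b : ℚ).den : ℤ) := ⟨(b : ℚ).num * (a : ℚ).den, by
    rw [h2]; ring⟩
  have h4 : IsCoprime ((ℓ : ℤ) ^ k) ((b : ℚ).den : ℤ) := by
    apply IsCoprime.pow_left
    rw [Int.isCoprime_iff_gcd_eq_one]
    have := (b.2 : (b : ℚ).den.Coprime ℓ)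
    rw [Int.gcd_natCast_natCast, Nat.gcd_comm]
    exact this
  have h5 : (ℓ : ℤ) ^ k ∣ (a : ℚ).num := h4.dvd_of_dvd_mul_right h3
  have hnum : (a : ℚ).num ≠ 0 := Rat.num_ne_zero.mpr haQ
  have h6 : ((ℓ : ℤ) ^ k).natAbs ≤ (a : ℚ).num.natAbs :=
    Nat.le_of_dvd (Int.natAbs_pos.mpr hnum) (Int.natAbs_dvd_natAbs.mpr h5)
  rw [Int.natAbs_pow, Int.natAbs_natCast] at h6
  have h7 : k < ℓ ^ k := Nat.lt_pow_self hℓ.one_lt
  omega

end ZL

section Chart

variable (N : ℕ) [NeZero N] (ℓ : ℕ) [Fact ℓ.Prime]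

set_option quotPrecheck false in
local notation "ℤℓ" => ↥(GaloisRep.ratLocalizedAt ℓ)

set_option quotPrecheck false in
local notation "F" => ↥(modularFunctionFieldFull N)

/-- polynomials in `x₀` as elements of the chart algebra -/
noncomputable def polyChart (x₀ : F) : ℤℓ[X] →+* chartAlg N ℓ {x₀} :=
  ((Polynomial.aeval x₀).codRestrict (chartAlg N ℓ {x₀}) fun P =>
    adjoin_le_chartAlg N ℓ {x₀} (Polynomial.aeval_mem_adjoin_singleton ℤℓ x₀)).toRingHom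

theorem coe_polyChart (x₀ : F) (P : ℤℓ[X]) :
    ((polyChart N ℓ x₀ P : chartAlg N ℓ {x₀}) : F) = Polynomial.aeval x₀ P := rfl

theorem polyChart_C (x₀ : F) (a : ℤℓ) :
    polyChart N ℓ x₀ (C a) = algebraMap ℤℓ (chartAlg N ℓ {x₀}) a := by
  apply Subtype.ext
  rw [coe_polyChart, aeval_C]
  rfl

/-- `ℤℓ[X]` acts on `F` through `X ↦ x₀` -/
@[reducible] noncomputable def polyAlgebra (x₀ : F) : Algebra ℤℓ[X] F :=
  (Polynomial.aeval x₀).toRingHom.toAlgebra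

theorem isIntegral_poly_iff (x₀ : F) (y : F) :
    @IsIntegral ℤℓ[X] F _ _ (polyAlgebra N ℓ x₀) y ↔ IsIntegral (Algebra.adjoin ℤℓ {x₀}) y := by
  letI := polyAlgebra N ℓ x₀
  -- the surjection `ℤℓ[X] → ℤℓ[x₀]`
  set φ : ℤℓ[X] →+* ↥(Algebra.adjoin ℤℓ {x₀}) :=
    ((Polynomial.aeval x₀).codRestrict (Algebra.adjoin ℤℓ {x₀}) fun P =>
      Polynomial.aeval_mem_adjoin_singleton ℤℓ x₀).toRingHom with hφ
  have hcomp : (algebraMap ↥(Algebra.adjoin ℤℓ {x₀}) F).comp φ = algebraMap ℤℓ[X] F := by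
    ext <;> rfl
  have hsurj : Function.Surjective φ := by
    rintro ⟨z, hz⟩
    rw [Algebra.adjoin_singleton_eq_range_aeval] at hz
    obtain ⟨P, hP⟩ := hz
    exact ⟨P, Subtype.ext hP⟩
  constructor
  · intro h
    have := h.map_of_comp_eq φ (RingHom.id F) (by rw [hcomp]; rfl)
    simpa using this
  · rintro ⟨p', hp'monic, hp'root⟩
    have hl : p' ∈ Polynomial.lifts φ := by
      rw [Polynomial.mem_lifts]
      exact Polynomial.map_surjective φ hsurj p'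
    obtain ⟨p, hpp', -, hpmonic⟩ := Polynomial.lifts_and_degree_eq_and_monic hl hp'monic
    refine ⟨p, hpmonic, ?_⟩
    rw [← hpp', Polynomial.eval₂_map, hcomp] at hp'root
    exact hp'root

/-- `ℓ`-divisibility of a nonzero polynomial over `ℤℓ` is bounded. -/
theorem exists_not_C_pow_dvd (c : ℤℓ[X]) (hc : c ≠ 0) :
    ∃ k : ℕ, ¬ ((C (ℓ : ℤℓ) : ℤℓ[X]) ^ k ∣ c) := by
  obtain ⟨i, hi⟩ : ∃ i, c.coeff i ≠ 0 := by
    by_contra h
    push Not at h
    exact hc (Polynomial.ext fun i => by rw [h i, coeff_zero])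
  obtain ⟨k, hk⟩ := exists_not_pow_dvd ℓ (c.coeff i) hi
  refine ⟨k, fun h => hk ?_⟩
  rw [← C_pow, Polynomial.C_dvd_iff_dvd_coeff] at h
  exact h i

/-- **`q`-expansion principle for a chart `chartAlg N ℓ {x₀}`** (`x₀` transcendental over `ℤℓ`),
relative to an arbitrary reduction map `red` to a domain: if `red` detects `ℓ`-divisibility on
`ℤℓ[x₀]`, and `m₁, …, mₙ` span `F` over `ℚ(x₀)` and have `red`-independent reductions, then
`ker red = ℓ · chartAlg`. -/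
theorem chart_ker_red (x₀ : F) (hx₀ : Transcendental ℤℓ x₀)
    {T : Type*} [CommRing T] [IsDomain T] (red : chartAlg N ℓ {x₀} →+* T)
    (hℓ : red (algebraMap ℤℓ (chartAlg N ℓ {x₀}) (ℓ : ℤℓ)) = 0)
    (hR : ∀ P : ℤℓ[X], red (polyChart N ℓ x₀ P) = 0 → C (ℓ : ℤℓ) ∣ P)
    {n : ℕ} (m : Fin n → chartAlg N ℓ {x₀})
    (hspan : ∀ x : chartAlg N ℓ {x₀}, ∃ (c : ℤℓ[X]) (cs : Fin n → ℤℓ[X]), c ≠ 0 ∧
      polyChart N ℓ x₀ c * x = ∑ i, polyChart N ℓ x₀ (cs i) * m i)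
    (hind : ∀ cs : Fin n → ℤℓ[X], ∑ i, red (polyChart N ℓ x₀ (cs i)) * red (m i) = 0 →
      ∀ i, red (polyChart N ℓ x₀ (cs i)) = 0)
    (x : chartAlg N ℓ {x₀}) (hx : red x = 0) :
    ∃ y : chartAlg N ℓ {x₀}, x = algebraMap ℤℓ (chartAlg N ℓ {x₀}) (ℓ : ℤℓ) * y := by
  have hℓp : ℓ.Prime := Fact.out
  letI := polyAlgebra N ℓ x₀
  have hinj : Function.Injective (algebraMap ℤℓ[X] F) := transcendental_iff_injective.mp hx₀
  haveI : FaithfulSMul ℤℓ[X] F := (faithfulSMul_iff_algebraMap_injective _ _).mpr hinj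
  -- the integral closure of `ℤℓ[X]` in `F` is the chart algebra
  set A' : Subalgebra ℤℓ[X] F := integralClosure ℤℓ[X] F with hA'
  have hA : ∀ z : F, z ∈ A' ↔ IsIntegral ℤℓ[X] z := fun z => Iff.rfl
  have hmem : ∀ z : F, z ∈ A' ↔ z ∈ chartAlg N ℓ {x₀} := fun z =>
    (hA z).trans (isIntegral_poly_iff N ℓ x₀ z)
  let toChart : A' →+* chartAlg N ℓ {x₀} :=
    { toFun := fun z => ⟨z.1, (hmem _).mp z.2⟩
      map_one' := rfl
      map_mul' := fun _ _ => rfl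
      map_zero' := rfl
      map_add' := fun _ _ => rfl }
  let ofChart : chartAlg N ℓ {x₀} → A' := fun z => ⟨z.1, (hmem _).mpr z.2⟩
  have hto : ∀ z, toChart (ofChart z) = z := fun z => rfl
  have halg : ∀ P : ℤℓ[X], toChart (algebraMap ℤℓ[X] A' P) = polyChart N ℓ x₀ P := fun P => rfl
  have hπ0 : (C (ℓ : ℤℓ) : ℤℓ[X]) ≠ 0 := by
    rw [Ne, C_eq_zero]
    intro h
    have := congrArg (Subtype.val : ℤℓ → ℚ) h
    simp only [SubringClass.coe_natCast, ZeroMemClass.coe_zero, Nat.cast_eq_zero] at this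
    exact hℓp.ne_zero this
  have key := QExpPrinciple.ker_red_le A' hA (red.comp toChart) (C (ℓ : ℤℓ)) hπ0
    (by rw [RingHom.comp_apply, halg, polyChart_C]; exact hℓ)
    (fun r hr => hR r (by rwa [RingHom.comp_apply, halg] at hr))
    (fun c hc => exists_not_C_pow_dvd ℓ c hc)
    (fun i => ofChart (m i))
    (fun z => by
      obtain ⟨c, cs, hc0, hrel⟩ := hspan (toChart z)
      refine ⟨c, cs, hc0, Subtype.ext ?_⟩
      have h1 := congrArg (Subtype.val : chartAlg N ℓ {x₀} → F) hrel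
      simp only [Algebra.smul_def]
      rw [Subalgebra.coe_mul, Subalgebra.coe_algebraMap]
      rw [Subalgebra.coe_mul, coe_polyChart] at h1
      rw [show ((z : A') : F) = ((toChart z : chartAlg N ℓ {x₀}) : F) from rfl]
      rw [show (algebraMap ℤℓ[X] F) c = Polynomial.aeval x₀ c from rfl, h1]
      simp only [AddSubmonoidClass.coe_finset_sum, Subalgebra.coe_mul, coe_polyChart,
        Subalgebra.coe_algebraMap]
      rfl)
    (fun cs h i => by
      rw [RingHom.comp_apply, halg]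
      refine hind cs ?_ i
      rw [← h]
      refine Finset.sum_congr rfl fun i _ => ?_
      rw [RingHom.comp_apply, RingHom.comp_apply, halg, hto])
    (ofChart x) (by rw [RingHom.comp_apply, hto]; exact hx)
  obtain ⟨y, hy⟩ := key
  refine ⟨toChart y, ?_⟩
  have := congrArg toChart hy
  rw [hto, map_mul, halg, polyChart_C] at this
  exact this

end Chart

end Fermat.Agent.S28.ChartKer
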