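import Mathlib
import Fermat.Prelude.Def_ModularCurve_X0
import Fermat.Prelude.Def_ModularCurve_LaurentCoeff
import Fermat.Prelude.Def_ModularCurve_JqCoeff
import Fermat.Prelude.Def_ModularCurve_X0ModL
import Fermat.Prelude.Def_GaloisRep_Flat
import Fermat.Prelude.Def_ModularCurve_IgusaScheme
import Fermat.Prelude.Thm_ModularCurve_coeffMap_qExpand

/-!
# S28 (M3): the Gauss valuation ring inside `ℚ((q))`

`Zl ℓ = GaloisRep.ratLocalizedAt ℓ` is the localisation of `ℤ` at `ℓ`, `T = Zl ℓ((q))`,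
`incl : T → ℚ((q))` the inclusion, and for a field `k` with a ring hom `φ : Zl ℓ → k` killing `ℓ`,
`rho φ : T → k((q))` is the coefficientwise reduction.

* `gaussRing ℓ`: the subring `O = {a / b : a, b ∈ T, b ∉ ℓ T}` of `ℚ((q))`.
* `red φ hφ : O →+* k((q))`, with kernel `ℓ O` (`red_eq_zero_iff`).
* `fracField ℓ`: the subfield `{a / b : b ≠ 0}`; `O` is a valuation ring of it
  (`mem_or_inv_mem`) and integrally closed in it (`mem_gaussRing_of_isIntegral`).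
* the modular function field lies in `fracField ℓ` (`full_le_fracField`), and the charts of the
  Igusa scheme lie in `O` (`coe_chartAlg_mem`); `redChart` is the induced reduction map.
-/

set_option autoImplicit false

noncomputable section

open ModularCurve

namespace Fermat.Agent.S28.Gauss

/-- `ℤ_(ℓ)` as a type (reducible abbreviation of the frozen `GaloisRep.ratLocalizedAt ℓ`). -/
abbrev Zl (ℓ : ℕ) : Type := ↥(GaloisRep.ratLocalizedAt ℓ)

/-! ### Arithmetic of `ℤ_(ℓ)` -/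

section Zl

variable (ℓ : ℕ) [Fact ℓ.Prime]

omit [Fact ℓ.Prime] in
theorem mem_Zl_iff (x : ℚ) : x ∈ GaloisRep.ratLocalizedAt ℓ ↔ x.den.Coprime ℓ := Iff.rfl

/-- The element `ℓ` of `ℤ_(ℓ)`. -/
def ellZ : Zl ℓ := (ℓ : Zl ℓ)

omit [Fact ℓ.Prime] in
theorem coe_ellZ : ((ellZ ℓ : Zl ℓ) : ℚ) = (ℓ : ℚ) := by
  simp [ellZ]

theorem not_dvd_den (x : Zl ℓ) : ¬ ℓ ∣ (x : ℚ).den := by
  have h : (x : ℚ).den.Coprime ℓ := x.2
  intro hd
  have := Nat.Coprime.eq_one_of_dvd h.symm hd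
  exact (Fact.out : ℓ.Prime).one_lt.ne' this

/-- `x / ℓ ∈ ℤ_(ℓ)` when `ℓ` divides the numerator. -/
theorem div_mem_of_dvd_num (x : Zl ℓ) (h : (ℓ : ℤ) ∣ (x : ℚ).num) :
    (x : ℚ) / ℓ ∈ GaloisRep.ratLocalizedAt ℓ := by
  obtain ⟨m, hm⟩ := h
  have hℓ : (ℓ : ℚ) ≠ 0 := Nat.cast_ne_zero.mpr (Fact.out : ℓ.Prime).ne_zero
  have hden : (((x : ℚ).den : ℤ) : ℚ) ≠ 0 := by
    exact_mod_cast (x : ℚ).den_nz
  have key : (x : ℚ) / ℓ = Rat.divInt m ((x : ℚ).den : ℤ) := by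
    rw [Rat.divInt_eq_div]
    have h1 : (x : ℚ) * (((x : ℚ).den : ℤ) : ℚ) = ((x : ℚ).num : ℚ) := by
      exact_mod_cast Rat.mul_den_eq_num (x : ℚ)
    have h2 : ((x : ℚ).num : ℚ) = (ℓ : ℚ) * m := by rw [hm]; push_cast; rfl
    rw [div_eq_div_iff hℓ hden, h1, h2]
    ring
  show ((x : ℚ) / ℓ).den.Coprime ℓ
  rw [key]
  have hdvd : (Rat.divInt m ((x : ℚ).den : ℤ)).den ∣ (x : ℚ).den := by
    exact_mod_cast Rat.den_dvd m ((x : ℚ).den : ℤ)
  exact Nat.Coprime.coprime_dvd_left hdvd x.2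

/-- An element of `ℤ_(ℓ)` whose numerator is prime to `ℓ` is a unit. -/
theorem isUnit_of_not_dvd_num (x : Zl ℓ) (h : ¬ (ℓ : ℤ) ∣ (x : ℚ).num) : IsUnit x := by
  have hx0 : (x : ℚ) ≠ 0 := by
    intro h0
    apply h
    rw [h0]
    simp
  have hinv : (x : ℚ)⁻¹ ∈ GaloisRep.ratLocalizedAt ℓ := by
    rw [mem_Zl_iff, Rat.inv_def]
    have hdvd : (Rat.divInt ((x : ℚ).den : ℤ) (x : ℚ).num).den ∣ (x : ℚ).num.natAbs := by
      have := Rat.den_dvd ((x : ℚ).den : ℤ) (x : ℚ).num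
      exact Int.natCast_dvd.mp this
    refine Nat.Coprime.coprime_dvd_left hdvd ?_
    rw [Nat.coprime_comm, (Fact.out : ℓ.Prime).coprime_iff_not_dvd]
    intro hd
    exact h (Int.natCast_dvd.mpr hd)
  refine IsUnit.of_mul_eq_one ⟨(x : ℚ)⁻¹, hinv⟩ (Subtype.ext ?_)
  simp [hx0]

/-- Division by `ℓ` on `ℤ_(ℓ)` (junk value `0` when `ℓ` does not divide the numerator). -/
def divEll (x : Zl ℓ) : Zl ℓ :=
  if h : (ℓ : ℤ) ∣ (x : ℚ).num then ⟨(x : ℚ) / ℓ, div_mem_of_dvd_num ℓ x h⟩ else 0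

theorem divEll_zero : divEll ℓ 0 = 0 := by
  unfold divEll
  split_ifs with h
  · exact Subtype.ext (by simp)
  · rfl

theorem ellZ_mul_divEll (x : Zl ℓ) (h : (ℓ : ℤ) ∣ (x : ℚ).num) : ellZ ℓ * divEll ℓ x = x := by
  have hℓ : (ℓ : ℚ) ≠ 0 := Nat.cast_ne_zero.mpr (Fact.out : ℓ.Prime).ne_zero
  unfold divEll
  rw [dif_pos h]
  apply Subtype.ext
  rw [Subring.coe_mul, coe_ellZ]
  field_simp

/-- The residue map `ℤ_(ℓ) → 𝔽_ℓ`. -/
def resZ : Zl ℓ →+* ZMod ℓ where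
  toFun x := ((x : ℚ) : ZMod ℓ)
  map_one' := by simp
  map_zero' := by simp
  map_mul' x y := by
    have hx : (((x : ℚ).den : ℕ) : ZMod ℓ) ≠ 0 := by
      rw [Ne, ZMod.natCast_eq_zero_iff]
      exact not_dvd_den ℓ x
    have hy : (((y : ℚ).den : ℕ) : ZMod ℓ) ≠ 0 := by
      rw [Ne, ZMod.natCast_eq_zero_iff]
      exact not_dvd_den ℓ y
    rw [Subring.coe_mul]
    exact Rat.cast_mul_of_ne_zero hx hy
  map_add' x y := by
    have hx : (((x : ℚ).den : ℕ) : ZMod ℓ) ≠ 0 := by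
      rw [Ne, ZMod.natCast_eq_zero_iff]
      exact not_dvd_den ℓ x
    have hy : (((y : ℚ).den : ℕ) : ZMod ℓ) ≠ 0 := by
      rw [Ne, ZMod.natCast_eq_zero_iff]
      exact not_dvd_den ℓ y
    rw [Subring.coe_add]
    exact Rat.cast_add_of_ne_zero hx hy

theorem resZ_ellZ : resZ ℓ (ellZ ℓ) = 0 := by
  show (((ellZ ℓ : Zl ℓ) : ℚ) : ZMod ℓ) = 0
  rw [coe_ellZ]
  simp

variable {ℓ}
variable {k : Type*} [Field k] (φ : Zl ℓ →+* k)

/-- A ring hom from `ℤ_(ℓ)` to a field that kills `x` forces `ℓ ∣ num x`. -/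
theorem dvd_num_of_map_eq_zero (x : Zl ℓ) (hx : φ x = 0) : (ℓ : ℤ) ∣ (x : ℚ).num := by
  by_contra h
  exact ((isUnit_of_not_dvd_num ℓ x h).map φ).ne_zero hx

/-- The kernel of a ring hom from `ℤ_(ℓ)` to a field is contained in `ℓ ℤ_(ℓ)`. -/
theorem ellZ_mul_divEll_of_map_eq_zero (x : Zl ℓ) (hx : φ x = 0) : ellZ ℓ * divEll ℓ x = x :=
  ellZ_mul_divEll ℓ x (dvd_num_of_map_eq_zero φ x hx)

end Zl

/-! ### Laurent series over `ℤ_(ℓ)` -/

section Series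

variable (ℓ : ℕ) [Fact ℓ.Prime]

/-- The inclusion `ℤ_(ℓ)((q)) → ℚ((q))`. -/
def incl : LaurentSeries (Zl ℓ) →+* LaurentSeries ℚ :=
  coeffMap (GaloisRep.ratLocalizedAt ℓ).subtype

omit [Fact ℓ.Prime] in
@[simp]
theorem incl_coeff (a : LaurentSeries (Zl ℓ)) (n : ℤ) : (incl ℓ a).coeff n = (a.coeff n : ℚ) :=
  rfl

omit [Fact ℓ.Prime] in
theorem incl_injective : Function.Injective (incl ℓ) := by
  intro a b h
  ext n
  have := congrArg (fun f => HahnSeries.coeff f n) h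
  exact this

open Classical in
/-- The zero-preserving map `ℚ → ℤ_(ℓ)` which is the identity on `ℤ_(ℓ)` (junk value `0`). -/
def toZl : ZeroHom ℚ (Zl ℓ) where
  toFun x := if h : x ∈ GaloisRep.ratLocalizedAt ℓ then ⟨x, h⟩ else 0
  map_zero' := by
    rw [dif_pos (GaloisRep.ratLocalizedAt ℓ).zero_mem]
    rfl

omit [Fact ℓ.Prime] in
/-- A series over `ℚ` with coefficients in `ℤ_(ℓ)` comes from `ℤ_(ℓ)((q))`. -/
theorem exists_incl_eq (f : LaurentSeries ℚ)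
    (h : ∀ n, f.coeff n ∈ GaloisRep.ratLocalizedAt ℓ) : ∃ a, incl ℓ a = f := by
  refine ⟨f.map (toZl ℓ), ?_⟩
  ext n
  rw [incl_coeff, HahnSeries.map_coeff]
  show ((toZl ℓ (f.coeff n) : Zl ℓ) : ℚ) = f.coeff n
  simp only [toZl, ZeroHom.coe_mk]
  rw [dif_pos (h n)]

omit [Fact ℓ.Prime] in
theorem mem_range_incl_iff (f : LaurentSeries ℚ) :
    f ∈ (incl ℓ).range ↔ ∀ n, f.coeff n ∈ GaloisRep.ratLocalizedAt ℓ := by
  constructor
  · rintro ⟨a, rfl⟩ n
    rw [incl_coeff]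
    exact (a.coeff n).2
  · intro h
    obtain ⟨a, ha⟩ := exists_incl_eq ℓ f h
    exact ⟨a, ha⟩

/-- The element `ℓ` of `ℤ_(ℓ)((q))`. -/
def ellT : LaurentSeries (Zl ℓ) := HahnSeries.C (ellZ ℓ)

omit [Fact ℓ.Prime] in
theorem ellT_mul_coeff (a : LaurentSeries (Zl ℓ)) (n : ℤ) :
    (ellT ℓ * a).coeff n = ellZ ℓ * a.coeff n := by
  rw [ellT, HahnSeries.C_mul_eq_smul, HahnSeries.coeff_smul, smul_eq_mul]

omit [Fact ℓ.Prime] in
theorem incl_ellT : incl ℓ (ellT ℓ) = HahnSeries.C (ℓ : ℚ) := by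
  rw [ellT, incl, HahnSeries.C_apply, coeffMap_single, HahnSeries.C_apply]
  rfl

variable {k : Type*} [Field k] (φ : Zl ℓ →+* k)

/-- The coefficientwise reduction `ℤ_(ℓ)((q)) → k((q))`. -/
def rho : LaurentSeries (Zl ℓ) →+* LaurentSeries k := coeffMap φ

omit [Fact ℓ.Prime] in
@[simp]
theorem rho_coeff (a : LaurentSeries (Zl ℓ)) (n : ℤ) : (rho ℓ φ a).coeff n = φ (a.coeff n) := rfl

omit [Fact ℓ.Prime] in
theorem rho_ellT (hφ : φ (ellZ ℓ) = 0) : rho ℓ φ (ellT ℓ) = 0 := by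
  rw [ellT, rho, HahnSeries.C_apply, coeffMap_single, hφ, HahnSeries.single_eq_zero]

/-- Division by `ℓ` on series (junk on non-divisible coefficients). -/
def divEllT (a : LaurentSeries (Zl ℓ)) : LaurentSeries (Zl ℓ) :=
  a.map (⟨divEll ℓ, divEll_zero ℓ⟩ : ZeroHom (Zl ℓ) (Zl ℓ))

/-- (G1) A series with zero reduction is divisible by `ℓ`. -/
theorem ellT_mul_divEllT (a : LaurentSeries (Zl ℓ)) (h : rho ℓ φ a = 0) :
    ellT ℓ * divEllT ℓ a = a := by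
  ext n
  rw [ellT_mul_coeff, divEllT, HahnSeries.map_coeff]
  have hn : φ (a.coeff n) = 0 := by
    have := congrArg (fun f => HahnSeries.coeff f n) h
    simpa using this
  exact congrArg Subtype.val (ellZ_mul_divEll_of_map_eq_zero φ (a.coeff n) hn)

/-- A series is primitive if it is not divisible by `ℓ`. -/
def IsPrim (b : LaurentSeries (Zl ℓ)) : Prop := ∀ b' : LaurentSeries (Zl ℓ), b ≠ ellT ℓ * b'

theorem rho_ne_zero_iff (hφ : φ (ellZ ℓ) = 0) (b : LaurentSeries (Zl ℓ)) :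
    rho ℓ φ b ≠ 0 ↔ IsPrim ℓ b := by
  constructor
  · rintro h b' rfl
    apply h
    rw [map_mul, rho_ellT ℓ φ hφ, zero_mul]
  · intro h h0
    exact h _ (ellT_mul_divEllT ℓ φ b h0).symm

theorem isPrim_iff_resZ (b : LaurentSeries (Zl ℓ)) : IsPrim ℓ b ↔ rho ℓ (resZ ℓ) b ≠ 0 :=
  (rho_ne_zero_iff ℓ (resZ ℓ) (resZ_ellZ ℓ) b).symm

theorem IsPrim.mul {b b' : LaurentSeries (Zl ℓ)} (hb : IsPrim ℓ b) (hb' : IsPrim ℓ b') :
    IsPrim ℓ (b * b') := by
  rw [isPrim_iff_resZ] at hb hb' ⊢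
  rw [map_mul]
  exact mul_ne_zero hb hb'

theorem isPrim_one : IsPrim ℓ (1 : LaurentSeries (Zl ℓ)) := by
  rw [isPrim_iff_resZ, map_one]
  exact one_ne_zero

omit [Fact ℓ.Prime] in
theorem IsPrim.ne_zero {b : LaurentSeries (Zl ℓ)} (hb : IsPrim ℓ b) : b ≠ 0 := by
  rintro rfl
  exact hb 0 (by rw [mul_zero])

/-- (G2), auxiliary form: induction on the `ℓ`-adic valuation of a nonzero coefficient. -/
theorem exists_pow_mul_aux (n : ℤ) : ∀ (d : ℕ) (a : LaurentSeries (Zl ℓ)), a.coeff n ≠ 0 →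
    padicValRat ℓ ((a.coeff n : Zl ℓ) : ℚ) = d →
    ∃ (m : ℕ) (a' : LaurentSeries (Zl ℓ)), a = ellT ℓ ^ m * a' ∧ IsPrim ℓ a' := by
  have hℓ1 : 1 < ℓ := (Fact.out : ℓ.Prime).one_lt
  have hℓ0 : (ℓ : ℚ) ≠ 0 := Nat.cast_ne_zero.mpr (Fact.out : ℓ.Prime).ne_zero
  intro d
  induction d with
  | zero =>
    intro a ha hd
    refine ⟨0, a, by rw [pow_zero, one_mul], ?_⟩
    rw [isPrim_iff_resZ]
    intro h0
    have hn : resZ ℓ (a.coeff n) = 0 := by
      have := congrArg (fun f => HahnSeries.coeff f n) h0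
      simpa using this
    have hdvd := dvd_num_of_map_eq_zero (resZ ℓ) (a.coeff n) hn
    have hq0 : ((a.coeff n : Zl ℓ) : ℚ) ≠ 0 := fun h => ha (Subtype.ext h)
    have hden : padicValNat ℓ ((a.coeff n : Zl ℓ) : ℚ).den = 0 :=
      padicValNat.eq_zero_of_not_dvd (not_dvd_den ℓ (a.coeff n))
    have hv : padicValRat ℓ ((a.coeff n : Zl ℓ) : ℚ) =
        padicValInt ℓ ((a.coeff n : Zl ℓ) : ℚ).num := by
      rw [padicValRat, hden]
      simp
    rw [hv] at hd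
    have hv0 : padicValInt ℓ ((a.coeff n : Zl ℓ) : ℚ).num = 0 := by exact_mod_cast hd
    have hnum0 : ((a.coeff n : Zl ℓ) : ℚ).num ≠ 0 := Rat.num_ne_zero.mpr hq0
    rcases padicValInt.eq_zero_iff.mp hv0 with h1 | h1 | h1
    · exact hℓ1.ne' h1
    · exact hnum0 h1
    · exact h1 hdvd
  | succ d ih =>
    intro a ha hd
    by_cases hprim : IsPrim ℓ a
    · exact ⟨0, a, by rw [pow_zero, one_mul], hprim⟩
    · rw [isPrim_iff_resZ, not_not] at hprim
      have ha1 := ellT_mul_divEllT ℓ (resZ ℓ) a hprim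
      set a₁ := divEllT ℓ a with ha₁
      have hc : a.coeff n = ellZ ℓ * a₁.coeff n := by
        conv_lhs => rw [← ha1]
        exact ellT_mul_coeff ℓ a₁ n
      have hc1 : a₁.coeff n ≠ 0 := by
        intro h0
        apply ha
        rw [hc, h0, mul_zero]
      have hq1 : ((a₁.coeff n : Zl ℓ) : ℚ) ≠ 0 := fun h => hc1 (Subtype.ext h)
      have hval : padicValRat ℓ ((a.coeff n : Zl ℓ) : ℚ) =
          1 + padicValRat ℓ ((a₁.coeff n : Zl ℓ) : ℚ) := by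
        rw [hc, Subring.coe_mul, coe_ellZ, padicValRat.mul hℓ0 hq1, padicValRat.self hℓ1]
      have hd1 : padicValRat ℓ ((a₁.coeff n : Zl ℓ) : ℚ) = d := by
        rw [hval] at hd
        push_cast at hd
        linarith
      obtain ⟨m, a', hm, hprim'⟩ := ih a₁ hc1 hd1
      refine ⟨m + 1, a', ?_, hprim'⟩
      rw [← ha1, hm, pow_succ]
      ring

/-- (G2) Every nonzero series is a power of `ℓ` times a primitive series. -/
theorem exists_pow_mul (a : LaurentSeries (Zl ℓ)) (ha : a ≠ 0) :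
    ∃ (m : ℕ) (a' : LaurentSeries (Zl ℓ)), a = ellT ℓ ^ m * a' ∧ IsPrim ℓ a' := by
  obtain ⟨n, hn⟩ : ∃ n, a.coeff n ≠ 0 := by
    by_contra hcon
    push Not at hcon
    apply ha
    ext n
    exact congrArg Subtype.val (hcon n)
  have hq0 : ((a.coeff n : Zl ℓ) : ℚ) ≠ 0 := fun h => hn (Subtype.ext h)
  have hden : padicValNat ℓ ((a.coeff n : Zl ℓ) : ℚ).den = 0 :=
    padicValNat.eq_zero_of_not_dvd (not_dvd_den ℓ (a.coeff n))
  have hv : padicValRat ℓ ((a.coeff n : Zl ℓ) : ℚ) =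
      ((padicValInt ℓ ((a.coeff n : Zl ℓ) : ℚ).num : ℕ) : ℤ) := by
    rw [padicValRat, hden]
    simp
  exact exists_pow_mul_aux ℓ n _ a hn hv

end Series

/-! ### The Gauss valuation ring -/

section Ring

variable (ℓ : ℕ) [Fact ℓ.Prime]

/-- The Gauss valuation ring `O = {a / b : a, b ∈ ℤ_(ℓ)((q)), b ∉ ℓ ℤ_(ℓ)((q))}` in `ℚ((q))`. -/
def gaussRing : Subring (LaurentSeries ℚ) where
  carrier := {x | ∃ a b : LaurentSeries (Zl ℓ), IsPrim ℓ b ∧ x * incl ℓ b = incl ℓ a}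
  mul_mem' := by
    rintro x y ⟨a, b, hb, h⟩ ⟨a', b', hb', h'⟩
    refine ⟨a * a', b * b', hb.mul ℓ hb', ?_⟩
    rw [map_mul, map_mul, ← h, ← h']
    ring
  one_mem' := ⟨1, 1, isPrim_one ℓ, by rw [map_one, mul_one]⟩
  add_mem' := by
    rintro x y ⟨a, b, hb, h⟩ ⟨a', b', hb', h'⟩
    refine ⟨a * b' + a' * b, b * b', hb.mul ℓ hb', ?_⟩
    rw [map_add, map_mul, map_mul, map_mul, ← h, ← h']
    ring
  zero_mem' := ⟨0, 1, isPrim_one ℓ, by rw [map_zero, zero_mul]⟩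
  neg_mem' := by
    rintro x ⟨a, b, hb, h⟩
    exact ⟨-a, b, hb, by rw [map_neg, ← h, neg_mul]⟩

theorem mem_gaussRing_iff (x : LaurentSeries ℚ) :
    x ∈ gaussRing ℓ ↔ ∃ a b : LaurentSeries (Zl ℓ), IsPrim ℓ b ∧ x * incl ℓ b = incl ℓ a :=
  Iff.rfl

theorem incl_mem_gaussRing (a : LaurentSeries (Zl ℓ)) : incl ℓ a ∈ gaussRing ℓ :=
  ⟨a, 1, isPrim_one ℓ, by rw [map_one, mul_one]⟩

omit [Fact ℓ.Prime] in
theorem incl_ne_zero {b : LaurentSeries (Zl ℓ)} (hb : b ≠ 0) : incl ℓ b ≠ 0 := fun h =>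
  hb (incl_injective ℓ (by rw [h, map_zero]))

variable {k : Type*} [Field k] (φ : Zl ℓ →+* k)

/-- The value of the reduction on a fraction does not depend on the representation. -/
theorem rho_div_eq (hφ : φ (ellZ ℓ) = 0) {x : LaurentSeries ℚ} {a b a' b' : LaurentSeries (Zl ℓ)}
    (hb : IsPrim ℓ b) (hb' : IsPrim ℓ b') (h : x * incl ℓ b = incl ℓ a)
    (h' : x * incl ℓ b' = incl ℓ a') : rho ℓ φ a / rho ℓ φ b = rho ℓ φ a' / rho ℓ φ b' := by
  have hρb := (rho_ne_zero_iff ℓ φ hφ b).mpr hb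
  have hρb' := (rho_ne_zero_iff ℓ φ hφ b').mpr hb'
  have hab : a * b' = a' * b := by
    apply incl_injective ℓ
    rw [map_mul, map_mul, ← h, ← h']
    ring
  rw [div_eq_div_iff hρb hρb', ← map_mul, ← map_mul, hab]

/-- A chosen numerator of an element of the Gauss ring. -/
def numOf (x : gaussRing ℓ) : LaurentSeries (Zl ℓ) := Classical.choose x.2

/-- A chosen (primitive) denominator of an element of the Gauss ring. -/
def denOf (x : gaussRing ℓ) : LaurentSeries (Zl ℓ) :=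
  Classical.choose (Classical.choose_spec x.2)

theorem isPrim_denOf (x : gaussRing ℓ) : IsPrim ℓ (denOf ℓ x) :=
  (Classical.choose_spec (Classical.choose_spec x.2)).1

theorem mul_incl_denOf (x : gaussRing ℓ) :
    (x : LaurentSeries ℚ) * incl ℓ (denOf ℓ x) = incl ℓ (numOf ℓ x) :=
  (Classical.choose_spec (Classical.choose_spec x.2)).2

/-- Reduction of the Gauss ring modulo `ℓ`, with values in `k((q))`. -/
def red (hφ : φ (ellZ ℓ) = 0) : gaussRing ℓ →+* LaurentSeries k where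
  toFun x := rho ℓ φ (numOf ℓ x) / rho ℓ φ (denOf ℓ x)
  map_one' := by
    have h1 : ((1 : gaussRing ℓ) : LaurentSeries ℚ) * incl ℓ 1 = incl ℓ 1 := by
      rw [map_one, mul_one]; rfl
    rw [rho_div_eq ℓ φ hφ (isPrim_denOf ℓ 1) (isPrim_one ℓ) (mul_incl_denOf ℓ 1) h1, map_one,
      div_one]
  map_zero' := by
    have h1 : ((0 : gaussRing ℓ) : LaurentSeries ℚ) * incl ℓ 1 = incl ℓ 0 := by
      rw [map_zero, map_one, mul_one]; rfl
    rw [rho_div_eq ℓ φ hφ (isPrim_denOf ℓ 0) (isPrim_one ℓ) (mul_incl_denOf ℓ 0) h1, map_zero,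
      zero_div]
  map_mul' x y := by
    have hx := mul_incl_denOf ℓ x
    have hy := mul_incl_denOf ℓ y
    have h1 : ((x * y : gaussRing ℓ) : LaurentSeries ℚ) * incl ℓ (denOf ℓ x * denOf ℓ y) =
        incl ℓ (numOf ℓ x * numOf ℓ y) := by
      rw [map_mul, map_mul, Subring.coe_mul]
      linear_combination ((y : LaurentSeries ℚ) * incl ℓ (denOf ℓ y)) * hx +
        (incl ℓ (numOf ℓ x)) * hy
    rw [rho_div_eq ℓ φ hφ (isPrim_denOf ℓ (x * y)) ((isPrim_denOf ℓ x).mul ℓ (isPrim_denOf ℓ y))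
      (mul_incl_denOf ℓ (x * y)) h1, map_mul, map_mul, div_mul_div_comm]
  map_add' x y := by
    have hx := mul_incl_denOf ℓ x
    have hy := mul_incl_denOf ℓ y
    have hρx := (rho_ne_zero_iff ℓ φ hφ _).mpr (isPrim_denOf ℓ x)
    have hρy := (rho_ne_zero_iff ℓ φ hφ _).mpr (isPrim_denOf ℓ y)
    have h1 : ((x + y : gaussRing ℓ) : LaurentSeries ℚ) * incl ℓ (denOf ℓ x * denOf ℓ y) =
        incl ℓ (numOf ℓ x * denOf ℓ y + denOf ℓ x * numOf ℓ y) := by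
      rw [map_add, map_mul, map_mul, map_mul, Subring.coe_add]
      linear_combination (incl ℓ (denOf ℓ y)) * hx + (incl ℓ (denOf ℓ x)) * hy
    rw [rho_div_eq ℓ φ hφ (isPrim_denOf ℓ (x + y)) ((isPrim_denOf ℓ x).mul ℓ (isPrim_denOf ℓ y))
      (mul_incl_denOf ℓ (x + y)) h1, map_add, map_mul, map_mul, map_mul,
      div_add_div _ _ hρx hρy]

/-- The defining property of `red`: `red (a / b) = rho a / rho b`. -/
theorem red_eq (hφ : φ (ellZ ℓ) = 0) (x : gaussRing ℓ) {a b : LaurentSeries (Zl ℓ)}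
    (hb : IsPrim ℓ b) (h : (x : LaurentSeries ℚ) * incl ℓ b = incl ℓ a) :
    red ℓ φ hφ x = rho ℓ φ a / rho ℓ φ b := by
  exact rho_div_eq ℓ φ hφ (isPrim_denOf ℓ x) hb (mul_incl_denOf ℓ x) h

theorem red_mul_rho (hφ : φ (ellZ ℓ) = 0) (x : gaussRing ℓ) {a b : LaurentSeries (Zl ℓ)}
    (hb : IsPrim ℓ b) (h : (x : LaurentSeries ℚ) * incl ℓ b = incl ℓ a) :
    red ℓ φ hφ x * rho ℓ φ b = rho ℓ φ a := by
  rw [red_eq ℓ φ hφ x hb h, div_mul_cancel₀ _ ((rho_ne_zero_iff ℓ φ hφ b).mpr hb)]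

/-- `red` extends the coefficientwise reduction of `ℤ_(ℓ)((q))`. -/
theorem red_incl (hφ : φ (ellZ ℓ) = 0) (a : LaurentSeries (Zl ℓ)) :
    red ℓ φ hφ ⟨incl ℓ a, incl_mem_gaussRing ℓ a⟩ = rho ℓ φ a := by
  rw [red_eq ℓ φ hφ _ (isPrim_one ℓ) (a := a) (by rw [map_one, mul_one]), map_one, div_one]

/-- The kernel of `red` is `ℓ O`. -/
theorem red_eq_zero_iff (hφ : φ (ellZ ℓ) = 0) (x : gaussRing ℓ) :
    red ℓ φ hφ x = 0 ↔ ∃ y : gaussRing ℓ, x = (ℓ : gaussRing ℓ) * y := by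
  have hℓ0 : (ℓ : ℚ) ≠ 0 := Nat.cast_ne_zero.mpr (Fact.out : ℓ.Prime).ne_zero
  have hCℓ : (HahnSeries.C (ℓ : ℚ) : LaurentSeries ℚ) ≠ 0 := HahnSeries.C_ne_zero hℓ0
  have hcast : ((ℓ : gaussRing ℓ) : LaurentSeries ℚ) = HahnSeries.C (ℓ : ℚ) := by
    rw [Subring.coe_natCast]; rfl
  constructor
  · intro h
    obtain ⟨a, b, hb, hab⟩ := x.2
    have hρb := (rho_ne_zero_iff ℓ φ hφ b).mpr hb
    have ha0 : rho ℓ φ a = 0 := by
      rw [← red_mul_rho ℓ φ hφ x hb hab, h, zero_mul]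
    have ha := ellT_mul_divEllT ℓ φ a ha0
    have hy : (HahnSeries.C (ℓ : ℚ) : LaurentSeries ℚ)⁻¹ * (x : LaurentSeries ℚ) ∈ gaussRing ℓ := by
      refine ⟨divEllT ℓ a, b, hb, ?_⟩
      have hinc : incl ℓ a = HahnSeries.C (ℓ : ℚ) * incl ℓ (divEllT ℓ a) := by
        rw [← incl_ellT, ← map_mul, ha]
      rw [mul_assoc, hab, hinc, ← mul_assoc, inv_mul_cancel₀ hCℓ, one_mul]
    refine ⟨⟨_, hy⟩, Subtype.ext ?_⟩
    rw [Subring.coe_mul, hcast, ← mul_assoc, mul_inv_cancel₀ hCℓ, one_mul]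
  · rintro ⟨y, rfl⟩
    have h0 : red ℓ φ hφ (ℓ : gaussRing ℓ) = 0 := by
      have hmem : ((ℓ : gaussRing ℓ) : LaurentSeries ℚ) = incl ℓ (ellT ℓ) := by
        rw [hcast, incl_ellT]
      have : (ℓ : gaussRing ℓ) = ⟨incl ℓ (ellT ℓ), incl_mem_gaussRing ℓ (ellT ℓ)⟩ :=
        Subtype.ext hmem
      rw [this, red_incl, rho_ellT ℓ φ hφ]
    rw [map_mul, h0, zero_mul]

end Ring

/-! ### The fraction field and the valuation-ring property -/

section Frac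

variable (ℓ : ℕ) [Fact ℓ.Prime]

/-- The subfield `{a / b : a, b ∈ ℤ_(ℓ)((q)), b ≠ 0}` of `ℚ((q))`. -/
def fracSubfield : Subfield (LaurentSeries ℚ) where
  carrier := {x | ∃ a b : LaurentSeries (Zl ℓ), b ≠ 0 ∧ x * incl ℓ b = incl ℓ a}
  mul_mem' := by
    rintro x y ⟨a, b, hb, h⟩ ⟨a', b', hb', h'⟩
    refine ⟨a * a', b * b', mul_ne_zero hb hb', ?_⟩
    rw [map_mul, map_mul, ← h, ← h']
    ring
  one_mem' := ⟨1, 1, one_ne_zero, by rw [map_one, mul_one]⟩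
  add_mem' := by
    rintro x y ⟨a, b, hb, h⟩ ⟨a', b', hb', h'⟩
    refine ⟨a * b' + a' * b, b * b', mul_ne_zero hb hb', ?_⟩
    rw [map_add, map_mul, map_mul, map_mul, ← h, ← h']
    ring
  zero_mem' := ⟨0, 1, one_ne_zero, by rw [map_zero, zero_mul]⟩
  neg_mem' := by
    rintro x ⟨a, b, hb, h⟩
    exact ⟨-a, b, hb, by rw [map_neg, ← h, neg_mul]⟩
  inv_mem' := by
    rintro x ⟨a, b, hb, h⟩
    by_cases hx : x = 0
    · subst hx
      exact ⟨0, 1, one_ne_zero, by rw [inv_zero, map_zero, zero_mul]⟩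
    · have ha : a ≠ 0 := by
        rintro rfl
        rw [map_zero] at h
        rcases mul_eq_zero.mp h with h0 | h0
        · exact hx h0
        · exact incl_ne_zero ℓ hb h0
      refine ⟨b, a, ha, ?_⟩
      rw [← h, ← mul_assoc, inv_mul_cancel₀ hx, one_mul]

omit [Fact ℓ.Prime] in
theorem mem_fracSubfield_iff (x : LaurentSeries ℚ) :
    x ∈ fracSubfield ℓ ↔ ∃ a b : LaurentSeries (Zl ℓ), b ≠ 0 ∧ x * incl ℓ b = incl ℓ a :=
  Iff.rfl

omit [Fact ℓ.Prime] in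
theorem incl_mem_fracSubfield (a : LaurentSeries (Zl ℓ)) : incl ℓ a ∈ fracSubfield ℓ :=
  ⟨a, 1, one_ne_zero, by rw [map_one, mul_one]⟩

theorem gaussRing_le_fracSubfield {x : LaurentSeries ℚ} (hx : x ∈ gaussRing ℓ) :
    x ∈ fracSubfield ℓ := by
  obtain ⟨a, b, hb, h⟩ := hx
  exact ⟨a, b, hb.ne_zero ℓ, h⟩

/-- The fraction field of `ℤ_(ℓ)((q))` inside `ℚ((q))`, as an intermediate field over `ℚ`. -/
def fracField : IntermediateField ℚ (LaurentSeries ℚ) :=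
  (fracSubfield ℓ).toIntermediateField (by
    intro c
    have hc : algebraMap ℚ (LaurentSeries ℚ) c = (c.num : LaurentSeries ℚ) / (c.den : LaurentSeries ℚ) := by
      conv_lhs => rw [← Rat.num_div_den c]
      rw [map_div₀, map_intCast, map_natCast]
    rw [hc]
    refine (fracSubfield ℓ).div_mem ?_ ?_
    · have : ((c.num : LaurentSeries (Zl ℓ)) : LaurentSeries (Zl ℓ)) = (c.num : LaurentSeries (Zl ℓ)) := rfl
      have h := incl_mem_fracSubfield ℓ (c.num : LaurentSeries (Zl ℓ))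
      rwa [map_intCast] at h
    · have h := incl_mem_fracSubfield ℓ (c.den : LaurentSeries (Zl ℓ))
      rwa [map_natCast] at h)

omit [Fact ℓ.Prime] in
theorem mem_fracField_iff (x : LaurentSeries ℚ) :
    x ∈ fracField ℓ ↔ ∃ a b : LaurentSeries (Zl ℓ), b ≠ 0 ∧ x * incl ℓ b = incl ℓ a :=
  Iff.rfl

/-- **Valuation-ring property**: an element of the fraction field lies in `O`, or its inverse
lies in `ℓ O`. -/
theorem mem_or_inv_mem {x : LaurentSeries ℚ} (hx : x ∈ fracField ℓ) :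
    x ∈ gaussRing ℓ ∨ ∃ z : gaussRing ℓ, x * ((ℓ : LaurentSeries ℚ) * (z : LaurentSeries ℚ)) = 1 := by
  have hℓ0 : (ℓ : ℚ) ≠ 0 := Nat.cast_ne_zero.mpr (Fact.out : ℓ.Prime).ne_zero
  have hCℓ : (HahnSeries.C (ℓ : ℚ) : LaurentSeries ℚ) ≠ 0 := HahnSeries.C_ne_zero hℓ0
  have hcast : ((ℓ : ℕ) : LaurentSeries ℚ) = HahnSeries.C (ℓ : ℚ) := rfl
  obtain ⟨a, b, hb, h⟩ := hx
  by_cases ha : a = 0
  · left
    subst ha
    rw [map_zero] at h
    rcases mul_eq_zero.mp h with h0 | h0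
    · rw [h0]; exact (gaussRing ℓ).zero_mem
    · exact absurd h0 (incl_ne_zero ℓ hb)
  obtain ⟨m, a', rfl, ha'⟩ := exists_pow_mul ℓ a ha
  obtain ⟨n, b', rfl, hb'⟩ := exists_pow_mul ℓ b hb
  rw [map_mul, map_mul, map_pow, map_pow, incl_ellT] at h
  have hb'0 : incl ℓ b' ≠ 0 := incl_ne_zero ℓ (hb'.ne_zero ℓ)
  have ha'0 : incl ℓ a' ≠ 0 := incl_ne_zero ℓ (ha'.ne_zero ℓ)
  rcases le_or_gt n m with hnm | hnm
  · left
    obtain ⟨d, rfl⟩ := Nat.exists_eq_add_of_le hnm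
    refine ⟨ellT ℓ ^ d * a', b', hb', ?_⟩
    rw [map_mul, map_pow, incl_ellT]
    have hpow : (HahnSeries.C (ℓ : ℚ) : LaurentSeries ℚ) ^ n ≠ 0 := pow_ne_zero _ hCℓ
    apply mul_left_cancel₀ hpow
    rw [pow_add] at h
    linear_combination h
  · right
    obtain ⟨d, rfl⟩ := Nat.exists_eq_add_of_le hnm.le
    have hd : 1 ≤ d := by omega
    obtain ⟨e, rfl⟩ := Nat.exists_eq_add_of_le hd
    have hpow : (HahnSeries.C (ℓ : ℚ) : LaurentSeries ℚ) ^ m ≠ 0 := pow_ne_zero _ hCℓ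
    -- `x * ℓ^(1+e) * b' = a'`
    have h2 : x * (HahnSeries.C (ℓ : ℚ) ^ (1 + e) * incl ℓ b') = incl ℓ a' := by
      apply mul_left_cancel₀ hpow
      rw [pow_add] at h
      linear_combination h
    have hz : (HahnSeries.C (ℓ : ℚ) : LaurentSeries ℚ) ^ e * incl ℓ b' * (incl ℓ a')⁻¹ ∈
        gaussRing ℓ := by
      refine ⟨ellT ℓ ^ e * b', a', ha', ?_⟩
      rw [map_mul, map_pow, incl_ellT, mul_assoc, inv_mul_cancel₀ ha'0, mul_one]
    refine ⟨⟨_, hz⟩, ?_⟩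
    rw [hcast]
    show x * (HahnSeries.C (ℓ : ℚ) * (HahnSeries.C (ℓ : ℚ) ^ e * incl ℓ b' * (incl ℓ a')⁻¹)) = 1
    rw [show x * (HahnSeries.C (ℓ : ℚ) * (HahnSeries.C (ℓ : ℚ) ^ e * incl ℓ b' * (incl ℓ a')⁻¹)) =
      (x * (HahnSeries.C (ℓ : ℚ) ^ (1 + e) * incl ℓ b')) * (incl ℓ a')⁻¹ by ring, h2,
      mul_inv_cancel₀ ha'0]

/-- **`O` is integrally closed in its fraction field.** -/
theorem mem_gaussRing_of_isIntegral {x : LaurentSeries ℚ} (hx : x ∈ fracField ℓ)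
    (hint : IsIntegral (gaussRing ℓ) x) : x ∈ gaussRing ℓ := by
  rcases mem_or_inv_mem ℓ hx with h | ⟨z, hz⟩
  · exact h
  exfalso
  obtain ⟨p, hp, hpx⟩ := hint
  -- `y = ℓ z ∈ O` is the inverse of `x`, and its reduction is zero
  set y : gaussRing ℓ := (ℓ : gaussRing ℓ) * z with hy
  have hxy : x * (y : LaurentSeries ℚ) = 1 := by
    rw [hy, Subring.coe_mul, Subring.coe_natCast]
    exact hz
  have hx0 : x ≠ 0 := left_ne_zero_of_mul_eq_one hxy
  have hyinv : (y : LaurentSeries ℚ) = x⁻¹ := eq_inv_of_mul_eq_one_right hxy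
  have hredy : red ℓ (resZ ℓ) (resZ_ellZ ℓ) y = 0 :=
    (red_eq_zero_iff ℓ (resZ ℓ) (resZ_ellZ ℓ) y).mpr ⟨z, rfl⟩
  -- the reversed polynomial kills `y`
  let _ : Invertible x := invertibleOfNonzero hx0
  have h1 := Polynomial.eval₂_reverse_mul_pow (algebraMap (gaussRing ℓ) (LaurentSeries ℚ)) x p
  rw [hpx] at h1
  have h2 : Polynomial.eval₂ (algebraMap (gaussRing ℓ) (LaurentSeries ℚ)) (⅟x) p.reverse = 0 := by
    rcases mul_eq_zero.mp h1 with h | h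
    · exact h
    · exact absurd h (pow_ne_zero _ hx0)
  have h3 : (⅟x : LaurentSeries ℚ) = algebraMap (gaussRing ℓ) (LaurentSeries ℚ) y := by
    rw [invOf_eq_inv]
    exact hyinv.symm
  rw [h3, Polynomial.eval₂_at_apply] at h2
  have h4 : Polynomial.eval y p.reverse = 0 := by
    have hinj : Function.Injective (algebraMap (gaussRing ℓ) (LaurentSeries ℚ)) :=
      Subtype.val_injective
    exact hinj (by rw [h2, map_zero])
  -- reduce
  have h5 := congrArg (red ℓ (resZ ℓ) (resZ_ellZ ℓ)) h4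
  rw [map_zero, ← Polynomial.eval₂_at_apply, hredy, Polynomial.eval₂_at_zero,
    Polynomial.coeff_zero_reverse, hp.leadingCoeff, map_one] at h5
  exact one_ne_zero h5

end Frac

/-! ### The modular function field and the charts of the Igusa scheme -/

section Modular

variable (ℓ : ℕ) [Fact ℓ.Prime]

omit [Fact ℓ.Prime] in
theorem incl_jqModC : incl ℓ (jqModC (Zl ℓ)) = jq := by
  rw [incl, coeffMap_jqModC, jqModC_rat]

omit [Fact ℓ.Prime] in
theorem incl_qExpand (d : ℕ) [NeZero d] (a : LaurentSeries (Zl ℓ)) :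
    incl ℓ (qExpand (Zl ℓ) d a) = qExpand ℚ d (incl ℓ a) :=
  coeffMap_qExpand _ d a

omit [Fact ℓ.Prime] in
theorem incl_C (c : Zl ℓ) : incl ℓ (HahnSeries.C c) = HahnSeries.single 0 (c : ℚ) := by
  rw [incl, HahnSeries.C_apply, coeffMap_single]
  rfl

variable {k : Type*} [Field k] (φ : Zl ℓ →+* k)

omit [Fact ℓ.Prime] in
theorem rho_jqModC : rho ℓ φ (jqModC (Zl ℓ)) = jqModC k := coeffMap_jqModC φ

omit [Fact ℓ.Prime] in
theorem rho_qExpand (d : ℕ) [NeZero d] (a : LaurentSeries (Zl ℓ)) :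
    rho ℓ φ (qExpand (Zl ℓ) d a) = qExpand k d (rho ℓ φ a) :=
  coeffMap_qExpand φ d a

omit [Fact ℓ.Prime] in
theorem rho_C (c : Zl ℓ) : rho ℓ φ (HahnSeries.C c) = HahnSeries.C (φ c) := by
  rw [rho, HahnSeries.C_apply, coeffMap_single, HahnSeries.C_apply]

theorem isPrim_jqModC : IsPrim ℓ (jqModC (Zl ℓ)) := by
  rw [isPrim_iff_resZ, rho_jqModC]
  exact jqModC_ne_zero_of_nontrivial (ZMod ℓ)

theorem jq_mem_gaussRing : jq ∈ gaussRing ℓ := by
  rw [← incl_jqModC ℓ]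
  exact incl_mem_gaussRing ℓ _

theorem jq_inv_mem_gaussRing : jq⁻¹ ∈ gaussRing ℓ :=
  ⟨1, jqModC (Zl ℓ), isPrim_jqModC ℓ, by
    rw [incl_jqModC, map_one, inv_mul_cancel₀ jq_ne_zero]⟩

theorem qExpand_jq_mem_gaussRing (d : ℕ) [NeZero d] : qExpand ℚ d jq ∈ gaussRing ℓ := by
  rw [← incl_jqModC ℓ, ← incl_qExpand]
  exact incl_mem_gaussRing ℓ _

/-- The modular function field lies in the fraction field of `ℤ_(ℓ)((q))`. -/
theorem full_le_fracField (N : ℕ) [NeZero N] : modularFunctionFieldFull N ≤ fracField ℓ := by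
  rw [modularFunctionFieldFull, IntermediateField.adjoin_le_iff]
  rintro x ⟨d, hne, -, rfl⟩
  exact gaussRing_le_fracSubfield ℓ (qExpand_jq_mem_gaussRing ℓ d)

open ModularCurve.IgusaScheme

variable (N : ℕ) [NeZero N]

omit [Fact ℓ.Prime] [NeZero N] in
theorem coe_algebraMap_Zl (c : Zl ℓ) :
    ((algebraMap (Zl ℓ) ↥(modularFunctionFieldFull N) c : ↥(modularFunctionFieldFull N)) :
      LaurentSeries ℚ) = incl ℓ (HahnSeries.C c) := by
  have h1 : ∀ q : ℚ, ((algebraMap ℚ ↥(modularFunctionFieldFull N) q :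
      ↥(modularFunctionFieldFull N)) : LaurentSeries ℚ) = algebraMap ℚ (LaurentSeries ℚ) q := by
    intro q
    have h2 : (algebraMap ℚ ↥(modularFunctionFieldFull N) q : ↥(modularFunctionFieldFull N)) =
        ((q : ℚ) : ↥(modularFunctionFieldFull N)) := eq_ratCast _ q
    rw [h2, eq_ratCast (algebraMap ℚ (LaurentSeries ℚ)) q]
    rfl
  rw [incl_C, IsScalarTower.algebraMap_apply (Zl ℓ) ℚ ↥(modularFunctionFieldFull N) c, h1,
    algebraMap_apply_eq_single]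
  rfl

/-- Elements of `ℤ_(ℓ)[S]`, `S ⊆ {j, j⁻¹}`, lie in the Gauss ring. -/
theorem coe_adjoin_mem {S : Set ↥(modularFunctionFieldFull N)}
    (hS : S ⊆ {jFull N, (jFull N)⁻¹}) {x : ↥(modularFunctionFieldFull N)}
    (hx : x ∈ Algebra.adjoin (Zl ℓ) S) : (x : LaurentSeries ℚ) ∈ gaussRing ℓ := by
  induction hx using Algebra.adjoin_induction with
  | mem y hy =>
    rcases hS hy with rfl | rfl
    · exact jq_mem_gaussRing ℓ
    · rw [IntermediateField.coe_inv]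
      exact jq_inv_mem_gaussRing ℓ
  | algebraMap c =>
    rw [coe_algebraMap_Zl]
    exact incl_mem_gaussRing ℓ _
  | add y z _ _ hy hz =>
    rw [IntermediateField.coe_add]
    exact (gaussRing ℓ).add_mem hy hz
  | mul y z _ _ hy hz =>
    rw [IntermediateField.coe_mul]
    exact (gaussRing ℓ).mul_mem hy hz

/-- **(M3)** The charts of the Igusa scheme lie in the Gauss ring. -/
theorem coe_chartAlg_mem {S : Set ↥(modularFunctionFieldFull N)}
    (hS : S ⊆ {jFull N, (jFull N)⁻¹}) (x : chartAlg N ℓ S) :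
    ((x : ↥(modularFunctionFieldFull N)) : LaurentSeries ℚ) ∈ gaussRing ℓ := by
  have hint : IsIntegral (Algebra.adjoin (Zl ℓ) S) (x : ↥(modularFunctionFieldFull N)) := x.2
  let f : Algebra.adjoin (Zl ℓ) S →+* gaussRing ℓ :=
    { toFun := fun g => ⟨((g : ↥(modularFunctionFieldFull N)) : LaurentSeries ℚ),
        coe_adjoin_mem ℓ N hS g.2⟩
      map_one' := rfl
      map_mul' := fun _ _ => rfl
      map_zero' := rfl
      map_add' := fun _ _ => rfl }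
  have h := IsIntegral.map_of_comp_eq f
    (algebraMap ↥(modularFunctionFieldFull N) (LaurentSeries ℚ)) (by ext; rfl) hint
  exact mem_gaussRing_of_isIntegral ℓ (full_le_fracField ℓ N (x : ↥(modularFunctionFieldFull N)).2) h

/-- The inclusion of a chart into the Gauss ring. -/
def chartToGauss {S : Set ↥(modularFunctionFieldFull N)} (hS : S ⊆ {jFull N, (jFull N)⁻¹}) :
    chartAlg N ℓ S →+* gaussRing ℓ where
  toFun x := ⟨((x : ↥(modularFunctionFieldFull N)) : LaurentSeries ℚ), coe_chartAlg_mem ℓ N hS x⟩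
  map_one' := rfl
  map_mul' _ _ := rfl
  map_zero' := rfl
  map_add' _ _ := rfl

theorem coe_chartToGauss {S : Set ↥(modularFunctionFieldFull N)}
    (hS : S ⊆ {jFull N, (jFull N)⁻¹}) (x : chartAlg N ℓ S) :
    (chartToGauss ℓ N hS x : LaurentSeries ℚ) = ((x : ↥(modularFunctionFieldFull N)) : LaurentSeries ℚ) :=
  rfl

theorem chartToGauss_injective {S : Set ↥(modularFunctionFieldFull N)}
    (hS : S ⊆ {jFull N, (jFull N)⁻¹}) : Function.Injective (chartToGauss ℓ N hS) := by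
  intro x y h
  apply Subtype.ext
  apply Subtype.ext
  have h' : (chartToGauss ℓ N hS x : LaurentSeries ℚ) = (chartToGauss ℓ N hS y : LaurentSeries ℚ) :=
    congrArg Subtype.val h
  exact h'

/-- Reduction of a chart modulo `ℓ`, with values in `k((q))`. -/
def redChart (hφ : φ (ellZ ℓ) = 0) {S : Set ↥(modularFunctionFieldFull N)}
    (hS : S ⊆ {jFull N, (jFull N)⁻¹}) : chartAlg N ℓ S →+* LaurentSeries k :=
  (red ℓ φ hφ).comp (chartToGauss ℓ N hS)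

/-- `redChart x = 0` iff `x ∈ ℓ O`. -/
theorem redChart_eq_zero_iff (hφ : φ (ellZ ℓ) = 0) {S : Set ↥(modularFunctionFieldFull N)}
    (hS : S ⊆ {jFull N, (jFull N)⁻¹}) (x : chartAlg N ℓ S) :
    redChart ℓ φ N hφ hS x = 0 ↔ ∃ y : gaussRing ℓ,
      ((x : ↥(modularFunctionFieldFull N)) : LaurentSeries ℚ) = (ℓ : LaurentSeries ℚ) * y := by
  rw [redChart, RingHom.comp_apply, red_eq_zero_iff]
  constructor
  · rintro ⟨y, hy⟩
    refine ⟨y, ?_⟩
    have := congrArg Subtype.val hy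
    rwa [Subring.coe_mul, Subring.coe_natCast, coe_chartToGauss] at this
  · rintro ⟨y, hy⟩
    refine ⟨y, Subtype.ext ?_⟩
    rw [Subring.coe_mul, Subring.coe_natCast, coe_chartToGauss]
    exact hy

/-- `redChart` of an element whose `q`-expansion has coefficients in `ℤ_(ℓ)` is the
coefficientwise reduction. -/
theorem redChart_of_incl (hφ : φ (ellZ ℓ) = 0) {S : Set ↥(modularFunctionFieldFull N)}
    (hS : S ⊆ {jFull N, (jFull N)⁻¹}) (x : chartAlg N ℓ S) (a : LaurentSeries (Zl ℓ))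
    (h : ((x : ↥(modularFunctionFieldFull N)) : LaurentSeries ℚ) = incl ℓ a) :
    redChart ℓ φ N hφ hS x = rho ℓ φ a := by
  rw [redChart, RingHom.comp_apply, ← red_incl ℓ φ hφ a]
  congr 1
  exact Subtype.ext h

theorem redChart_algebraMap (hφ : φ (ellZ ℓ) = 0) {S : Set ↥(modularFunctionFieldFull N)}
    (hS : S ⊆ {jFull N, (jFull N)⁻¹}) (c : Zl ℓ) :
    redChart ℓ φ N hφ hS (algebraMap (Zl ℓ) (chartAlg N ℓ S) c) = HahnSeries.C (φ c) := by
  rw [redChart_of_incl ℓ φ N hφ hS _ (HahnSeries.C c) (coe_algebraMap_Zl ℓ N c), rho_C]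

/-- `redChart j = j̄`. -/
theorem redChart_of_coe_eq_jFull (hφ : φ (ellZ ℓ) = 0) {S : Set ↥(modularFunctionFieldFull N)}
    (hS : S ⊆ {jFull N, (jFull N)⁻¹}) (x : chartAlg N ℓ S)
    (h : (x : ↥(modularFunctionFieldFull N)) = jFull N) :
    redChart ℓ φ N hφ hS x = jqModC k := by
  rw [redChart_of_incl ℓ φ N hφ hS x (jqModC (Zl ℓ)) (by rw [h, incl_jqModC]; rfl), rho_jqModC]

/-- `redChart (j(q^d)) = j̄(q^d)`. -/
theorem redChart_of_coe_eq_qExpand (hφ : φ (ellZ ℓ) = 0)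
    {S : Set ↥(modularFunctionFieldFull N)} (hS : S ⊆ {jFull N, (jFull N)⁻¹})
    (x : chartAlg N ℓ S) (d : ℕ) [NeZero d]
    (h : ((x : ↥(modularFunctionFieldFull N)) : LaurentSeries ℚ) = qExpand ℚ d jq) :
    redChart ℓ φ N hφ hS x = qExpand k d (jqModC k) := by
  rw [redChart_of_incl ℓ φ N hφ hS x (qExpand (Zl ℓ) d (jqModC (Zl ℓ)))
    (by rw [h, incl_qExpand, incl_jqModC]), rho_qExpand, rho_jqModC]

end Modular

end Fermat.Agent.S28.Gauss
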