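import Mathlib
import Fermat.Prelude.Def_ModularCurve_IgusaScheme
import Fermat.Agent.S28.Defs
import Fermat.Agent.S28.Gauss
import Fermat.Agent.S28.ChartKer
import Fermat.Agent.S28.PolyInt

/-!
# S28: the monomial families on the two one-generator charts

For exponent vectors `m : ℕ →₀ ℕ` supported on the divisors of `N` we realise the monomials
`mono ℚ m = ∏_d j(q^d)^(m d)` as elements `monoF N m` of the modular function field, show that they
lie in the chart `chartAlgFin` (given integrality of the `j(q^d)` over `ℤ[j]`), that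
`j⁻¹ ^ M * monoF N m` lies in `chartAlgInf` for a suitable `M`, compute their reductions under
`Gauss.redChart`, and transport the characteristic-`ℓ` independence statement to the shape of the
hypotheses `hind` / `hR` of `ChartKer.chart_ker_red`, for both charts.
-/

set_option autoImplicit false

namespace Fermat.Agent.S28.ChartMono

open Polynomial ModularCurve ModularCurve.IgusaScheme
open Fermat.Agent.S28

noncomputable section

section Mono

variable (N : ℕ) [NeZero N]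

set_option quotPrecheck false in
local notation "F" => ↥(modularFunctionFieldFull N)

theorem ne_zero_of_dvd {d : ℕ} (hd : d ∣ N) : d ≠ 0 := by
  rintro rfl
  exact NeZero.ne N (Nat.eq_zero_of_zero_dvd hd)

theorem jd_rat_mem {d : ℕ} (hd : d ∣ N) : Defs.jd ℚ d ∈ modularFunctionFieldFull N := by
  have : NeZero d := ⟨ne_zero_of_dvd N hd⟩
  rw [Defs.jd_rat]
  exact jqd_mem_full N hd

open Classical in
/-- `j(q^d)` as an element of the modular function field (`1` if `d ∤ N`). -/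
def jF (d : ℕ) : F := if h : d ∣ N then ⟨Defs.jd ℚ d, jd_rat_mem N h⟩ else 1

theorem coe_jF {d : ℕ} (hd : d ∣ N) : ((jF N d : F) : LaurentSeries ℚ) = Defs.jd ℚ d := by
  rw [jF, dif_pos hd]

/-- the monomial `∏_d j(q^d)^(m d)` as an element of the modular function field. -/
def monoF (m : ℕ →₀ ℕ) : F := m.prod fun d e => jF N d ^ e

theorem coe_monoF (m : ℕ →₀ ℕ) (hm : ∀ d ∈ m.support, d ∣ N) :
    ((monoF N m : F) : LaurentSeries ℚ) = Defs.mono ℚ m := by
  rw [monoF, Defs.mono, Finsupp.prod, Finsupp.prod]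
  rw [show ((∏ d ∈ m.support, jF N d ^ m d : F) : LaurentSeries ℚ) =
      (modularFunctionFieldFull N).val (∏ d ∈ m.support, jF N d ^ m d) from rfl, map_prod]
  refine Finset.prod_congr rfl fun d hd => ?_
  rw [map_pow]
  show ((jF N d : F) : LaurentSeries ℚ) ^ m d = _
  rw [coe_jF N (hm d hd)]

end Mono

section Chart

variable (N : ℕ) [NeZero N] (ℓ : ℕ) [Fact ℓ.Prime]

set_option quotPrecheck false in
local notation "F" => ↥(modularFunctionFieldFull N)

set_option quotPrecheck false in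
local notation "ℤℓ" => ↥(GaloisRep.ratLocalizedAt ℓ)

omit [Fact ℓ.Prime] in
/-- every element of `ℤ[j] ⊆ ℚ((q))` comes from `ℤℓ[j] ⊆ F`. -/
theorem exists_coe_eq {x : LaurentSeries ℚ} (hx : x ∈ Algebra.adjoin ℤ {jq}) :
    ∃ y : F, (y : LaurentSeries ℚ) = x ∧ y ∈ Algebra.adjoin ℤℓ {jFull N} := by
  induction hx using Algebra.adjoin_induction with
  | mem y hy =>
    rw [Set.mem_singleton_iff] at hy
    exact ⟨jFull N, by rw [hy]; rfl, Algebra.subset_adjoin (Set.mem_singleton _)⟩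
  | algebraMap n =>
    exact ⟨(n : F), by rw [eq_intCast]; rfl, intCast_mem _ n⟩
  | add y z _ _ hy hz =>
    obtain ⟨y', rfl, hy'⟩ := hy
    obtain ⟨z', rfl, hz'⟩ := hz
    exact ⟨y' + z', rfl, add_mem hy' hz'⟩
  | mul y z _ _ hy hz =>
    obtain ⟨y', rfl, hy'⟩ := hy
    obtain ⟨z', rfl, hz'⟩ := hz
    exact ⟨y' * z', rfl, mul_mem hy' hz'⟩

/-- the inclusion `ℤ[j] → ℤℓ[j]`. -/
def toAdjoin : ↥(Algebra.adjoin ℤ {jq}) →+* ↥(Algebra.adjoin ℤℓ {jFull N}) where
  toFun x := ⟨Classical.choose (exists_coe_eq N ℓ x.2),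
    (Classical.choose_spec (exists_coe_eq N ℓ x.2)).2⟩
  map_one' := Subtype.ext (Subtype.ext (Classical.choose_spec (exists_coe_eq N ℓ
    (1 : ↥(Algebra.adjoin ℤ {jq})).2)).1)
  map_zero' := Subtype.ext (Subtype.ext (Classical.choose_spec (exists_coe_eq N ℓ
    (0 : ↥(Algebra.adjoin ℤ {jq})).2)).1)
  map_mul' x y := Subtype.ext (Subtype.ext (by
    show ((Classical.choose (exists_coe_eq N ℓ (x * y).2) : F) : LaurentSeries ℚ) =
      ((Classical.choose (exists_coe_eq N ℓ x.2) : F) : LaurentSeries ℚ) *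
        ((Classical.choose (exists_coe_eq N ℓ y.2) : F) : LaurentSeries ℚ)
    rw [(Classical.choose_spec (exists_coe_eq N ℓ (x * y).2)).1,
      (Classical.choose_spec (exists_coe_eq N ℓ x.2)).1,
      (Classical.choose_spec (exists_coe_eq N ℓ y.2)).1]
    rfl))
  map_add' x y := Subtype.ext (Subtype.ext (by
    show ((Classical.choose (exists_coe_eq N ℓ (x + y).2) : F) : LaurentSeries ℚ) =
      ((Classical.choose (exists_coe_eq N ℓ x.2) : F) : LaurentSeries ℚ) +
        ((Classical.choose (exists_coe_eq N ℓ y.2) : F) : LaurentSeries ℚ)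
    rw [(Classical.choose_spec (exists_coe_eq N ℓ (x + y).2)).1,
      (Classical.choose_spec (exists_coe_eq N ℓ x.2)).1,
      (Classical.choose_spec (exists_coe_eq N ℓ y.2)).1]
    rfl))

omit [Fact ℓ.Prime] in
theorem coe_toAdjoin (x : ↥(Algebra.adjoin ℤ {jq})) :
    (((toAdjoin N ℓ x : ↥(Algebra.adjoin ℤℓ {jFull N})) : F) : LaurentSeries ℚ) = x :=
  (Classical.choose_spec (exists_coe_eq N ℓ x.2)).1

/-- integrality over `ℤ[j]` inside `ℚ((q))` gives membership in the chart `chartAlgFin`. -/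
theorem mem_chartAlgFin_of_isIntegral (y : F)
    (hy : IsIntegral (Algebra.adjoin ℤ {jq}) (y : LaurentSeries ℚ)) : y ∈ chartAlgFin N ℓ := by
  rw [mem_chartAlg_iff]
  obtain ⟨p, hpm, hp⟩ := hy
  refine ⟨p.map (toAdjoin N ℓ), hpm.map _, ?_⟩
  rw [Polynomial.eval₂_map]
  apply Subtype.ext
  have h := Polynomial.hom_eval₂ p
    ((algebraMap ↥(Algebra.adjoin ℤℓ {jFull N}) F).comp (toAdjoin N ℓ))
    (algebraMap F (LaurentSeries ℚ)) y
  have hcomp : (algebraMap F (LaurentSeries ℚ)).comp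
      ((algebraMap ↥(Algebra.adjoin ℤℓ {jFull N}) F).comp (toAdjoin N ℓ)) =
      algebraMap ↥(Algebra.adjoin ℤ {jq}) (LaurentSeries ℚ) :=
    RingHom.ext fun x => coe_toAdjoin N ℓ x
  rw [hcomp] at h
  exact h.trans hp

variable (hint : ∀ d, d ∣ N → IsIntegral (Algebra.adjoin ℤ {jq}) (Defs.jd ℚ d))

include hint in
theorem jF_mem_chartAlgFin {d : ℕ} (hd : d ∣ N) : jF N d ∈ chartAlgFin N ℓ :=
  mem_chartAlgFin_of_isIntegral N ℓ _ (by rw [coe_jF N hd]; exact hint d hd)

include hint in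
theorem monoF_mem_chartAlgFin (m : ℕ →₀ ℕ) (hm : ∀ d ∈ m.support, d ∣ N) :
    monoF N m ∈ chartAlgFin N ℓ := by
  rw [monoF, Finsupp.prod]
  exact Subalgebra.prod_mem _ fun d hd =>
    Subalgebra.pow_mem _ (jF_mem_chartAlgFin N ℓ hint (hm d hd)) _

/-- an element of the finite chart becomes an element of the chart at infinity after
multiplication by a power of `j⁻¹`. -/
theorem exists_pow_mul_mem_chartAlgInf {x : F} (hx : x ∈ chartAlgFin N ℓ) :
    ∃ n : ℕ, (jFull N)⁻¹ ^ n * x ∈ chartAlgInf N ℓ := by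
  have hx' : x ∈ chartAlg N ℓ (insert ((jFull N)⁻¹)⁻¹ {(jFull N)⁻¹}) := by
    rw [inv_inv]
    exact chartAlg_mono N ℓ (sFin_subset N) hx
  exact exists_pow_mul_mem_chartAlg (Set.mem_singleton _) (inv_ne_zero (jFull_ne_zero N)) hx'

include hint in
/-- the monomials as a family in the finite chart. -/
theorem exists_mFin {n : ℕ} (mexp : Fin n → ℕ →₀ ℕ)
    (hm : ∀ i, ∀ d ∈ (mexp i).support, d ∣ N) :
    ∃ m : Fin n → chartAlg N ℓ {jFull N},
      ∀ i, (((m i : chartAlg N ℓ {jFull N}) : F) : LaurentSeries ℚ) = Defs.mono ℚ (mexp i) :=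
  ⟨fun i => ⟨monoF N (mexp i), monoF_mem_chartAlgFin N ℓ hint (mexp i) (hm i)⟩,
    fun i => coe_monoF N (mexp i) (hm i)⟩

include hint in
/-- the monomials, scaled by powers of `j⁻¹`, as a family in the chart at infinity. -/
theorem exists_mInf {n : ℕ} (mexp : Fin n → ℕ →₀ ℕ)
    (hm : ∀ i, ∀ d ∈ (mexp i).support, d ∣ N) :
    ∃ (M : Fin n → ℕ) (m : Fin n → chartAlg N ℓ {(jFull N)⁻¹}),
      ∀ i, (((m i : chartAlg N ℓ {(jFull N)⁻¹}) : F) : LaurentSeries ℚ) =
        jq⁻¹ ^ M i * Defs.mono ℚ (mexp i) := by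
  have h := fun i => exists_pow_mul_mem_chartAlgInf N ℓ
    (monoF_mem_chartAlgFin N ℓ hint (mexp i) (hm i))
  choose M hM using h
  refine ⟨M, fun i => ⟨_, hM i⟩, fun i => ?_⟩
  show (((jFull N)⁻¹ ^ M i * monoF N (mexp i) : F) : LaurentSeries ℚ) = _
  rw [← coe_monoF N (mexp i) (hm i)]
  rfl

end Chart

section Field

variable (k : Type*) [Field k]

/-- `j̄⁻¹`-polynomials are `j̄`-polynomials divided by a power of `j̄`. -/
theorem aeval_inv_eq (c : Polynomial k) (d : ℕ) (hd : c.natDegree ≤ d) :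
    Polynomial.aeval (jqModC k)⁻¹ c =
      Polynomial.aeval (jqModC k) (c.reflect d) * (jqModC k)⁻¹ ^ d := by
  have hj : jqModC k ≠ 0 := jqModC_ne_zero_of_nontrivial k
  let _ : Invertible (jqModC k)⁻¹ := invertibleOfNonzero (inv_ne_zero hj)
  have h := Polynomial.eval₂_reflect_mul_pow (algebraMap k (LaurentSeries k)) (jqModC k)⁻¹ d c hd
  rw [invOf_eq_inv, inv_inv] at h
  rw [Polynomial.aeval_def, Polynomial.aeval_def, h]

/-- `j̄⁻¹` is transcendental over `k`. -/
theorem aeval_inv_injective (Q : Polynomial k) (h : Polynomial.aeval (jqModC k)⁻¹ Q = 0) :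
    Q = 0 := by
  have hj : jqModC k ≠ 0 := jqModC_ne_zero_of_nontrivial k
  rw [aeval_inv_eq k Q Q.natDegree le_rfl] at h
  rcases mul_eq_zero.mp h with h | h
  · have := PolyInt.aeval_jq_injective _ h
    rwa [Polynomial.reflect_eq_zero_iff] at this
  · exact absurd h (pow_ne_zero _ (inv_ne_zero hj))

/-- **(D)** the independence statement for the `j`-chart implies the one for the `j⁻¹`-chart
(monomials scaled by arbitrary powers of `j̄⁻¹`). -/
theorem hind_inv' {n : ℕ} (m : Fin n → ℕ →₀ ℕ) (M : Fin n → ℕ)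
    (hind : ∀ c : Fin n → Polynomial k,
      ∑ i, Polynomial.aeval (jqModC k) (c i) * Defs.mono k (m i) = 0 → ∀ i, c i = 0) :
    ∀ c : Fin n → Polynomial k,
      ∑ i, Polynomial.aeval (jqModC k)⁻¹ (c i) * ((jqModC k)⁻¹ ^ M i * Defs.mono k (m i)) = 0 →
        ∀ i, c i = 0 := by
  intro c hc
  have hj : jqModC k ≠ 0 := jqModC_ne_zero_of_nontrivial k
  set D : ℕ := ∑ i, (M i + (c i).natDegree) with hD
  have hle : ∀ i, M i + (c i).natDegree ≤ D := fun i =>
    Finset.single_le_sum (f := fun i => M i + (c i).natDegree) (fun _ _ => Nat.zero_le _)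
      (Finset.mem_univ i)
  set Q : Fin n → Polynomial k := fun i =>
    X ^ (D - (M i + (c i).natDegree)) * (c i).reflect (c i).natDegree with hQ
  have hterm : ∀ i, Polynomial.aeval (jqModC k) (Q i) * Defs.mono k (m i) =
      jqModC k ^ D * (Polynomial.aeval (jqModC k)⁻¹ (c i) *
        ((jqModC k)⁻¹ ^ M i * Defs.mono k (m i))) := by
    intro i
    have hpow : jqModC k ^ D = jqModC k ^ (D - (M i + (c i).natDegree)) *
        (jqModC k ^ M i * jqModC k ^ (c i).natDegree) := by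
      rw [← pow_add, ← pow_add, Nat.sub_add_cancel (hle i)]
    have h1 : jqModC k ^ M i * (jqModC k)⁻¹ ^ M i = 1 := by
      rw [← mul_pow, mul_inv_cancel₀ hj, one_pow]
    have h2 : jqModC k ^ (c i).natDegree * (jqModC k)⁻¹ ^ (c i).natDegree = 1 := by
      rw [← mul_pow, mul_inv_cancel₀ hj, one_pow]
    rw [aeval_inv_eq k (c i) _ le_rfl, hpow, hQ]
    simp only [map_mul, map_pow, Polynomial.aeval_X]
    linear_combination
      (-(jqModC k ^ (D - (M i + (c i).natDegree)) *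
        Polynomial.aeval (jqModC k) ((c i).reflect (c i).natDegree) * Defs.mono k (m i) *
          (jqModC k ^ (c i).natDegree * (jqModC k)⁻¹ ^ (c i).natDegree))) * h1 -
      (jqModC k ^ (D - (M i + (c i).natDegree)) *
        Polynomial.aeval (jqModC k) ((c i).reflect (c i).natDegree) * Defs.mono k (m i)) * h2
  have hsum : ∑ i, Polynomial.aeval (jqModC k) (Q i) * Defs.mono k (m i) = 0 := by
    rw [Finset.sum_congr rfl fun i _ => hterm i, ← Finset.mul_sum, hc, mul_zero]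
  intro i
  have hQi := hind Q hsum i
  rw [hQ] at hQi
  rcases mul_eq_zero.mp hQi with h | h
  · exact absurd h (pow_ne_zero _ Polynomial.X_ne_zero)
  · rwa [Polynomial.reflect_eq_zero_iff] at h

end Field

section Red

variable (N : ℕ) [NeZero N] (ℓ : ℕ) [Fact ℓ.Prime]

set_option quotPrecheck false in
local notation "F" => ↥(modularFunctionFieldFull N)

set_option quotPrecheck false in
local notation "ℤℓ" => ↥(GaloisRep.ratLocalizedAt ℓ)

variable {k : Type*} [Field k] (φ : Gauss.Zl ℓ →+* k) (hφ : φ (Gauss.ellZ ℓ) = 0)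

variable {S : Set ↥(modularFunctionFieldFull N)} (hS : S ⊆ {jFull N, (jFull N)⁻¹})

/-- **(E)** reduction of a chart element whose `q`-expansion is a monomial in the `j(q^d)`. -/
theorem redChart_of_coe_eq_mono (x : chartAlg N ℓ S) (m : ℕ →₀ ℕ)
    (h : ((x : F) : LaurentSeries ℚ) = Defs.mono ℚ m) :
    Gauss.redChart ℓ φ N hφ hS x = Defs.mono k m := by
  rw [Gauss.redChart_of_incl ℓ φ N hφ hS x (Defs.mono ℤℓ m)
    (by rw [h, Gauss.incl, Defs.coeffMap_mono]), Gauss.rho, Defs.coeffMap_mono]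

/-- **(E)** reduction of a chart element whose `q`-expansion is `j⁻¹ ^ M` times a monomial. -/
theorem redChart_of_coe_eq_inv_pow_mul_mono (x : chartAlg N ℓ S) (M : ℕ) (m : ℕ →₀ ℕ)
    (h : ((x : F) : LaurentSeries ℚ) = jq⁻¹ ^ M * Defs.mono ℚ m) :
    Gauss.redChart ℓ φ N hφ hS x = (jqModC k)⁻¹ ^ M * Defs.mono k m := by
  rw [Gauss.redChart_of_incl ℓ φ N hφ hS x (Defs.jqInv ℤℓ ^ M * Defs.mono ℤℓ m)
    (by rw [h, Gauss.incl, map_mul, map_pow, Defs.coeffMap_mono, Defs.coeffMap_jqInv,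
      Defs.jqInv_rat]), Gauss.rho, map_mul, map_pow, Defs.coeffMap_mono, Defs.coeffMap_jqInv,
    Defs.jqInv_eq_inv]

/-- reduction of a polynomial in the chart generator `x₀`. -/
theorem redChart_polyChart (x₀ : F) (hS₀ : ({x₀} : Set F) ⊆ {jFull N, (jFull N)⁻¹})
    (y : LaurentSeries k)
    (hy : Gauss.redChart ℓ φ N hφ hS₀ (ChartKer.polyChart N ℓ x₀ X) = y) (P : ℤℓ[X]) :
    Gauss.redChart ℓ φ N hφ hS₀ (ChartKer.polyChart N ℓ x₀ P) =
      Polynomial.aeval y (P.map φ) := by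
  have h : (Gauss.redChart ℓ φ N hφ hS₀).comp (ChartKer.polyChart N ℓ x₀) =
      ((Polynomial.aeval y).toRingHom).comp (Polynomial.mapRingHom φ) := by
    apply Polynomial.ringHom_ext
    · intro a
      rw [RingHom.comp_apply, RingHom.comp_apply, ChartKer.polyChart_C,
        Gauss.redChart_algebraMap, Polynomial.coe_mapRingHom, Polynomial.map_C]
      show _ = Polynomial.aeval y (C (φ a))
      rw [Polynomial.aeval_C, PolyInt.algebraMap_eq_single, HahnSeries.C_apply]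
    · rw [RingHom.comp_apply, RingHom.comp_apply, hy, Polynomial.coe_mapRingHom,
        Polynomial.map_X]
      show _ = Polynomial.aeval y X
      rw [Polynomial.aeval_X]
  exact RingHom.congr_fun h P

theorem redChart_polyChart_fin (P : ℤℓ[X]) :
    Gauss.redChart ℓ φ N hφ (sFin_subset N) (ChartKer.polyChart N ℓ (jFull N) P) =
      Polynomial.aeval (jqModC k) (P.map φ) :=
  redChart_polyChart N ℓ φ hφ (jFull N) (sFin_subset N) _
    (Gauss.redChart_of_coe_eq_jFull ℓ φ N hφ (sFin_subset N) _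
      (by rw [ChartKer.coe_polyChart, Polynomial.aeval_X])) P

theorem redChart_polyChart_inf (P : ℤℓ[X]) :
    Gauss.redChart ℓ φ N hφ (sInf_subset N) (ChartKer.polyChart N ℓ (jFull N)⁻¹ P) =
      Polynomial.aeval (jqModC k)⁻¹ (P.map φ) :=
  redChart_polyChart N ℓ φ hφ (jFull N)⁻¹ (sInf_subset N) _
    (by
      have h := redChart_of_coe_eq_inv_pow_mul_mono N ℓ φ hφ (sInf_subset N)
        (ChartKer.polyChart N ℓ (jFull N)⁻¹ X) 1 0
        (by rw [ChartKer.coe_polyChart, Polynomial.aeval_X, Defs.mono_zero, pow_one, mul_one]; rfl)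
      rwa [Defs.mono_zero, pow_one, mul_one] at h) P

/-- a polynomial over `ℤℓ` whose reduction vanishes is divisible by `ℓ`. -/
theorem C_dvd_of_map_eq_zero (P : ℤℓ[X]) (h : P.map φ = 0) : C (ℓ : ℤℓ) ∣ P := by
  rw [Polynomial.C_dvd_iff_dvd_coeff]
  intro i
  have hi : φ (P.coeff i) = 0 := by rw [← Polynomial.coeff_map, h, Polynomial.coeff_zero]
  exact ⟨Gauss.divEll ℓ (P.coeff i), (Gauss.ellZ_mul_divEll_of_map_eq_zero φ _ hi).symm⟩

/-- `hℓ` of `ChartKer.chart_ker_red`, any chart. -/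
theorem redChart_ell : Gauss.redChart ℓ φ N hφ hS (algebraMap ℤℓ (chartAlg N ℓ S) (ℓ : ℤℓ)) = 0 := by
  rw [Gauss.redChart_algebraMap]
  have : φ (ℓ : ℤℓ) = 0 := hφ
  rw [this, map_zero]

/-- `hR` of `ChartKer.chart_ker_red` for the chart `{j}`. -/
theorem hR_fin (P : ℤℓ[X])
    (h : Gauss.redChart ℓ φ N hφ (sFin_subset N) (ChartKer.polyChart N ℓ (jFull N) P) = 0) :
    C (ℓ : ℤℓ) ∣ P := by
  rw [redChart_polyChart_fin] at h
  exact C_dvd_of_map_eq_zero ℓ φ P (PolyInt.aeval_jq_injective _ h)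

/-- `hR` of `ChartKer.chart_ker_red` for the chart `{j⁻¹}`. -/
theorem hR_inf (P : ℤℓ[X])
    (h : Gauss.redChart ℓ φ N hφ (sInf_subset N) (ChartKer.polyChart N ℓ (jFull N)⁻¹ P) = 0) :
    C (ℓ : ℤℓ) ∣ P := by
  rw [redChart_polyChart_inf] at h
  exact C_dvd_of_map_eq_zero ℓ φ P (aeval_inv_injective k _ h)

variable {n : ℕ} (mexp : Fin n → ℕ →₀ ℕ)
  (hM5 : ∀ c : Fin n → Polynomial k,
    ∑ i, Polynomial.aeval (jqModC k) (c i) * Defs.mono k (mexp i) = 0 → ∀ i, c i = 0)

include hM5 in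
/-- `hind` of `ChartKer.chart_ker_red` for the chart `{j}`, from the characteristic-`ℓ`
independence of the monomials. -/
theorem hind_fin (m : Fin n → chartAlg N ℓ {jFull N})
    (hm : ∀ i, (((m i : chartAlg N ℓ {jFull N}) : F) : LaurentSeries ℚ) = Defs.mono ℚ (mexp i))
    (cs : Fin n → ℤℓ[X])
    (h : ∑ i, Gauss.redChart ℓ φ N hφ (sFin_subset N) (ChartKer.polyChart N ℓ (jFull N) (cs i)) *
      Gauss.redChart ℓ φ N hφ (sFin_subset N) (m i) = 0) (i : Fin n) :
    Gauss.redChart ℓ φ N hφ (sFin_subset N) (ChartKer.polyChart N ℓ (jFull N) (cs i)) = 0 := by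
  have h' : ∑ i, Polynomial.aeval (jqModC k) ((cs i).map φ) * Defs.mono k (mexp i) = 0 := by
    rw [← h]
    refine Finset.sum_congr rfl fun i _ => ?_
    rw [redChart_polyChart_fin, redChart_of_coe_eq_mono N ℓ φ hφ (sFin_subset N) (m i) _ (hm i)]
  rw [redChart_polyChart_fin, hM5 _ h' i, map_zero]

include hM5 in
/-- `hind` of `ChartKer.chart_ker_red` for the chart `{j⁻¹}`, from the same characteristic-`ℓ`
independence statement. -/
theorem hind_inf (M : Fin n → ℕ) (m : Fin n → chartAlg N ℓ {(jFull N)⁻¹})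
    (hm : ∀ i, (((m i : chartAlg N ℓ {(jFull N)⁻¹}) : F) : LaurentSeries ℚ) =
      jq⁻¹ ^ M i * Defs.mono ℚ (mexp i))
    (cs : Fin n → ℤℓ[X])
    (h : ∑ i, Gauss.redChart ℓ φ N hφ (sInf_subset N)
        (ChartKer.polyChart N ℓ (jFull N)⁻¹ (cs i)) *
      Gauss.redChart ℓ φ N hφ (sInf_subset N) (m i) = 0) (i : Fin n) :
    Gauss.redChart ℓ φ N hφ (sInf_subset N) (ChartKer.polyChart N ℓ (jFull N)⁻¹ (cs i)) = 0 := by
  have h' : ∑ i, Polynomial.aeval (jqModC k)⁻¹ ((cs i).map φ) *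
      ((jqModC k)⁻¹ ^ M i * Defs.mono k (mexp i)) = 0 := by
    rw [← h]
    refine Finset.sum_congr rfl fun i _ => ?_
    rw [redChart_polyChart_inf,
      redChart_of_coe_eq_inv_pow_mul_mono N ℓ φ hφ (sInf_subset N) (m i) _ _ (hm i)]
  rw [redChart_polyChart_inf, hind_inv' k mexp M hM5 _ h' i, map_zero]

end Red

/-- **(D)**, in the `Defs.jqInv` shape of the assembly: the independence statement for the
`j`-chart implies the one for the `j⁻¹`-chart. -/
theorem hind_inv {k : Type*} [Field k] {n : ℕ} (m : Fin n → ℕ →₀ ℕ) (M : Fin n → ℕ)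
    (hind : ∀ c : Fin n → Polynomial k,
      ∑ i, Polynomial.aeval (jqModC k) (c i) * Defs.mono k (m i) = 0 → ∀ i, c i = 0) :
    ∀ c : Fin n → Polynomial k,
      ∑ i, Polynomial.aeval (Defs.jqInv k) (c i) * (Defs.jqInv k ^ M i * Defs.mono k (m i)) = 0 →
        ∀ i, c i = 0 := by
  rw [Defs.jqInv_eq_inv]
  exact hind_inv' k m M hind

section Skeleton

variable (N : ℕ) [NeZero N] (ℓ : ℕ) [Fact ℓ.Prime]

set_option quotPrecheck false in
local notation "F" => ↥(modularFunctionFieldFull N)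

/-- **(B)**, finite chart: every monomial is an element of `chartAlgFin`, with the expected
reduction. -/
theorem exists_fin_mono
    (hInt : ∀ d : ℕ, d ∣ N → IsIntegral (Algebra.adjoin ℤ {jq}) (Defs.jd ℚ d))
    (m : ℕ →₀ ℕ) (hm : ∀ d ∈ m.support, d ∣ N) :
    ∃ x : ↥(chartAlgFin N ℓ), ((x : F) : LaurentSeries ℚ) = Defs.mono ℚ m ∧
      Gauss.redChart ℓ (Gauss.resZ ℓ) N (Gauss.resZ_ellZ ℓ) (sFin_subset N) x =
        Defs.mono (ZMod ℓ) m := by
  refine ⟨⟨monoF N m, monoF_mem_chartAlgFin N ℓ hInt m hm⟩, coe_monoF N m hm, ?_⟩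
  exact redChart_of_coe_eq_mono N ℓ (Gauss.resZ ℓ) (Gauss.resZ_ellZ ℓ) (sFin_subset N) _ m
    (coe_monoF N m hm)

/-- **(B)**, chart at infinity: every monomial times a power of `j⁻¹` is an element of
`chartAlgInf`, with the expected reduction. -/
theorem exists_inf_mono
    (hInt : ∀ d : ℕ, d ∣ N → IsIntegral (Algebra.adjoin ℤ {jq}) (Defs.jd ℚ d))
    (m : ℕ →₀ ℕ) (hm : ∀ d ∈ m.support, d ∣ N) :
    ∃ (M : ℕ) (x : ↥(chartAlgInf N ℓ)),
      ((x : F) : LaurentSeries ℚ) = Defs.jqInv ℚ ^ M * Defs.mono ℚ m ∧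
      Gauss.redChart ℓ (Gauss.resZ ℓ) N (Gauss.resZ_ellZ ℓ) (sInf_subset N) x =
        Defs.jqInv (ZMod ℓ) ^ M * Defs.mono (ZMod ℓ) m := by
  obtain ⟨M, hM⟩ := exists_pow_mul_mem_chartAlgInf N ℓ (monoF_mem_chartAlgFin N ℓ hInt m hm)
  have hcoe : (((⟨(jFull N)⁻¹ ^ M * monoF N m, hM⟩ : ↥(chartAlgInf N ℓ)) : F) :
      LaurentSeries ℚ) = jq⁻¹ ^ M * Defs.mono ℚ m := by
    show (((jFull N)⁻¹ ^ M * monoF N m : F) : LaurentSeries ℚ) = _
    rw [← coe_monoF N m hm]
    rfl
  refine ⟨M, ⟨(jFull N)⁻¹ ^ M * monoF N m, hM⟩, ?_, ?_⟩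
  · rw [Defs.jqInv_rat]
    exact hcoe
  · rw [Defs.jqInv_eq_inv]
    exact redChart_of_coe_eq_inv_pow_mul_mono N ℓ (Gauss.resZ ℓ) (Gauss.resZ_ellZ ℓ)
      (sInf_subset N) _ M m hcoe

end Skeleton

end

end Fermat.Agent.S28.ChartMono
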