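import Mathlib
import Fermat.Prelude.Def_ModularCurve_IgusaScheme
import Fermat.Prelude.Def_ModularCurve_X0ModL

/-!
# S28 (M1): scheme-theoretic glue

`Glue.isIntegral_pullback_igusaTo`: the base change of the Igusa scheme along
`Spec K → Spec ℤ_(ℓ)` is integral as soon as the three rings `A ⊗[ℤ_(ℓ)] K`
(`A` = the coordinate rings of the two charts and of their overlap) are domains.
-/

set_option autoImplicit false

open AlgebraicGeometry CategoryTheory CategoryTheory.Limits ModularCurve ModularCurve.IgusaScheme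
open TensorProduct

noncomputable section

namespace Fermat.Agent.S28

namespace Glue

variable (N : ℕ) [NeZero N] (ℓ : ℕ) [Fact ℓ.Prime]


/-- the three-piece affine open cover of the Igusa scheme -/
abbrev cover : (ModularCurve.IgusaScheme N ℓ).OpenCover :=
  Scheme.IsLocallyDirected.openCover (span (fFin N ℓ) (fInf N ℓ))

theorem cover_f_zero : (cover N ℓ).f WalkingSpan.zero = fFin N ℓ ≫ ιFin N ℓ :=
  (colimit.w (span (fFin N ℓ) (fInf N ℓ)) WalkingSpan.Hom.fst).symm

theorem cover_f_zero' : (cover N ℓ).f WalkingSpan.zero = fInf N ℓ ≫ ιInf N ℓ :=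
  (colimit.w (span (fFin N ℓ) (fInf N ℓ)) WalkingSpan.Hom.snd).symm

theorem cover_f_left : (cover N ℓ).f WalkingSpan.left = ιFin N ℓ := rfl

theorem cover_f_right : (cover N ℓ).f WalkingSpan.right = ιInf N ℓ := rfl

/-- the structure morphisms of the three pieces -/
theorem cover_left_igusaTo : (cover N ℓ).f WalkingSpan.left ≫ igusaTo N ℓ =
    Spec.map (CommRingCat.ofHom (algebraMap ↥(GaloisRep.ratLocalizedAt ℓ) (chartAlgFin N ℓ))) :=
  ιFin_igusaTo N ℓ

theorem cover_right_igusaTo : (cover N ℓ).f WalkingSpan.right ≫ igusaTo N ℓ =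
    Spec.map (CommRingCat.ofHom (algebraMap ↥(GaloisRep.ratLocalizedAt ℓ) (chartAlgInf N ℓ))) :=
  ιInf_igusaTo N ℓ

theorem cover_zero_igusaTo : (cover N ℓ).f WalkingSpan.zero ≫ igusaTo N ℓ =
    Spec.map (CommRingCat.ofHom (algebraMap ↥(GaloisRep.ratLocalizedAt ℓ) (chartAlgMid N ℓ))) := by
  have h1 : (fFin N ℓ ≫ ιFin N ℓ) ≫ igusaTo N ℓ =
      Spec.map (CommRingCat.ofHom (algebraMap ↥(GaloisRep.ratLocalizedAt ℓ) (chartAlgMid N ℓ))) := by
    rw [Category.assoc, ιFin_igusaTo, ← Spec.map_comp, ← CommRingCat.ofHom_comp]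
    congr 2
  exact (congrArg (· ≫ igusaTo N ℓ) (cover_f_zero N ℓ)).trans h1

variable (K : Type) [Field K] [Algebra ↥(GaloisRep.ratLocalizedAt ℓ) K]

/-- the base-change morphism -/
abbrev gK : Spec (CommRingCat.of K) ⟶ Spec (CommRingCat.of ↥(GaloisRep.ratLocalizedAt ℓ)) :=
  Spec.map (CommRingCat.ofHom (algebraMap ↥(GaloisRep.ratLocalizedAt ℓ) K))

omit [Fact ℓ.Prime] in
/-- a pullback of `Spec`s of algebras is integral as soon as the tensor product is a domain -/
theorem isIntegral_pullback_Spec (A : Type) [CommRing A] [Algebra ↥(GaloisRep.ratLocalizedAt ℓ) A]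
    (h : IsDomain (A ⊗[↥(GaloisRep.ratLocalizedAt ℓ)] K)) :
    IsIntegral ↑(pullback (Spec.map (CommRingCat.ofHom (algebraMap ↥(GaloisRep.ratLocalizedAt ℓ) A))) (gK ℓ K)) := by
  have h1 : IsIntegral (Spec (CommRingCat.of (A ⊗[↥(GaloisRep.ratLocalizedAt ℓ)] K))) :=
    (affine_isIntegral_iff _).mpr h
  exact IsIntegral.of_isIso (pullbackSpecIso ↥(GaloisRep.ratLocalizedAt ℓ) A K).inv

/-- the induced cover of the base change -/
abbrev coverK : (pullback (igusaTo N ℓ) (gK ℓ K)).OpenCover :=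
  Scheme.Pullback.openCoverOfLeft (cover N ℓ) (igusaTo N ℓ) (gK ℓ K)

theorem range_cover_zero_subset (i : WalkingSpan) :
    Set.range ((cover N ℓ).f WalkingSpan.zero) ⊆ Set.range ((cover N ℓ).f i) := by
  rcases i with (_ | _ | _)
  · exact subset_rfl
  · rintro _ ⟨x, rfl⟩
    refine ⟨fFin N ℓ x, ?_⟩
    have h := cover_f_zero N ℓ
    exact (congrArg (fun φ : XMid N ℓ ⟶ ModularCurve.IgusaScheme N ℓ => φ x) h).symm
  · rintro _ ⟨x, rfl⟩
    refine ⟨fInf N ℓ x, ?_⟩
    have h := cover_f_zero' N ℓ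
    exact (congrArg (fun φ : XMid N ℓ ⟶ ModularCurve.IgusaScheme N ℓ => φ x) h).symm

theorem range_coverK (i : WalkingSpan) :
    Set.range ((coverK N ℓ K).f i) =
      pullback.fst (igusaTo N ℓ) (gK ℓ K) ⁻¹' Set.range ((cover N ℓ).f i) := by
  have h := Scheme.Pullback.range_map ((cover N ℓ).f i ≫ igusaTo N ℓ) (gK ℓ K)
    (igusaTo N ℓ) (gK ℓ K) ((cover N ℓ).f i) (𝟙 _) (𝟙 _) (by simp) (by simp)
  simp at h
  exact h

set_option maxHeartbeats 1000000 in
/-- (M1) the scheme-theoretic glue: integrality of the base change of the Igusa scheme from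
the three tensor products being domains. -/
theorem isIntegral_pullback_igusaTo
    (hFin : IsDomain (chartAlgFin N ℓ ⊗[↥(GaloisRep.ratLocalizedAt ℓ)] K))
    (hInf : IsDomain (chartAlgInf N ℓ ⊗[↥(GaloisRep.ratLocalizedAt ℓ)] K))
    (hMid : IsDomain (chartAlgMid N ℓ ⊗[↥(GaloisRep.ratLocalizedAt ℓ)] K)) :
    IsIntegral ↑(pullback (igusaTo N ℓ) (gK ℓ K)) := by
  have hpiece : ∀ i : WalkingSpan, IsIntegral ((coverK N ℓ K).X i) := by
    intro i
    rcases i with (_ | _ | _)
    · show IsIntegral ↑(pullback ((cover N ℓ).f WalkingSpan.zero ≫ igusaTo N ℓ) (gK ℓ K))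
      rw [cover_zero_igusaTo]
      exact isIntegral_pullback_Spec ℓ K _ hMid
    · show IsIntegral ↑(pullback ((cover N ℓ).f WalkingSpan.left ≫ igusaTo N ℓ) (gK ℓ K))
      rw [cover_left_igusaTo]
      exact isIntegral_pullback_Spec ℓ K _ hFin
    · show IsIntegral ↑(pullback ((cover N ℓ).f WalkingSpan.right ≫ igusaTo N ℓ) (gK ℓ K))
      rw [cover_right_igusaTo]
      exact isIntegral_pullback_Spec ℓ K _ hInf
  have hpr : ∀ i : (coverK N ℓ K).I₀, IsReduced ((coverK N ℓ K).X i) := fun i => by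
    have := hpiece i
    infer_instance
  have hred : IsReduced (pullback (igusaTo N ℓ) (gK ℓ K)) :=
    IsReduced.of_openCover _ (coverK N ℓ K)
  -- a point lying in all three pieces
  obtain ⟨x₀⟩ : Nonempty ((coverK N ℓ K).X WalkingSpan.zero) := (hpiece _).nonempty
  set y₀ := (coverK N ℓ K).f WalkingSpan.zero x₀ with hy₀
  have hy₀mem : ∀ i : WalkingSpan, y₀ ∈ Set.range ((coverK N ℓ K).f i) := by
    intro i
    rw [range_coverK]
    have h0 : y₀ ∈ Set.range ((coverK N ℓ K).f WalkingSpan.zero) := ⟨x₀, rfl⟩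
    rw [range_coverK] at h0
    exact range_cover_zero_subset N ℓ i h0
  -- irreducibility
  have hirr : ∀ i : (coverK N ℓ K).I₀,
      IsPreirreducible ((coverK N ℓ K).f i).opensRange.carrier := by
    intro i
    have := hpiece i
    have h1 : IsIrreducible (Set.univ : Set ((coverK N ℓ K).X i)) :=
      IrreducibleSpace.isIrreducible_univ _
    have h2 := h1.image ((coverK N ℓ K).f i) ((coverK N ℓ K).f i).continuous.continuousOn
    rw [Set.image_univ] at h2
    exact h2.isPreirreducible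
  have hcov : TopologicalSpace.IsOpenCover
      (fun i : (coverK N ℓ K).I₀ => ((coverK N ℓ K).f i).opensRange) :=
    .mk (coverK N ℓ K).iSup_opensRange
  have hn : Pairwise (Function.onFun (¬ Disjoint · ·)
      (fun i : (coverK N ℓ K).I₀ => ((coverK N ℓ K).f i).opensRange)) := by
    intro i j _
    simp only [Function.onFun]
    intro hdis
    have h1 : y₀ ∈ ((coverK N ℓ K).f i).opensRange ⊓ ((coverK N ℓ K).f j).opensRange :=
      ⟨hy₀mem i, hy₀mem j⟩
    have h2 : y₀ ∈ (⊥ : (pullback (igusaTo N ℓ) (gK ℓ K)).Opens) := hdis.le_bot h1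
    exact h2
  have hpre : PreirreducibleSpace ↥(pullback (igusaTo N ℓ) (gK ℓ K)) :=
    PreirreducibleSpace.of_isOpenCover hn hcov
      (fun i => Subtype.preirreducibleSpace (hirr i))
  have hirrS : IrreducibleSpace ↥(pullback (igusaTo N ℓ) (gK ℓ K)) :=
    { toPreirreducibleSpace := hpre, toNonempty := ⟨y₀⟩ }
  exact isIntegral_of_irreducibleSpace_of_isReduced _

end Glue
end Fermat.Agent.S28
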