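import Mathlib
import Fermat.Prelude.Def_ModularCurve_IgusaScheme

/-!
# S28 (F): the kernel statement on the middle chart

If the reduction of the finite chart has kernel `ℓ A_fin`, then any compatible reduction of the
middle chart `A_mid = A_fin[1/j]` has kernel `ℓ A_mid`.
-/

set_option autoImplicit false

open ModularCurve ModularCurve.IgusaScheme

noncomputable section

namespace Fermat.Agent.S28.MidKer

variable (N : ℕ) [NeZero N] (ℓ : ℕ) [Fact ℓ.Prime]

/-- every element of the middle chart becomes an element of the finite chart after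
multiplication by a power of `j`. -/
theorem exists_inclFin_eq (x : ↥(chartAlgMid N ℓ)) :
    ∃ (n : ℕ) (z : ↥(chartAlgFin N ℓ)),
      inclFin N ℓ z = inclFin N ℓ (jChartFin N ℓ) ^ n * x := by
  have hx : (x : ↥(modularFunctionFieldFull N)) ∈
      chartAlg N ℓ (insert (jFull N)⁻¹ {jFull N}) := by
    rw [show insert (jFull N)⁻¹ ({jFull N} : Set ↥(modularFunctionFieldFull N)) =
      {jFull N, (jFull N)⁻¹} from Set.pair_comm _ _]
    exact x.2
  obtain ⟨n, hn⟩ := exists_pow_mul_mem_chartAlg (Set.mem_singleton _) (jFull_ne_zero N) hx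
  refine ⟨n, ⟨(jFull N) ^ n * x, hn⟩, Subtype.ext ?_⟩
  simp only [Subalgebra.coe_mul, Subalgebra.coe_pow, coe_chartIncl, coe_jChartFin]

/-- **(F)** the kernel statement for the middle chart follows from the one for the finite
chart. -/
theorem ker_mid_of_fin {T : Type*} [CommRing T]
    (redFin : ↥(chartAlgFin N ℓ) →+* T) (redMid : ↥(chartAlgMid N ℓ) →+* T)
    (hcompat : ∀ x, redMid (inclFin N ℓ x) = redFin x)
    (hfin : ∀ x, redFin x = 0 → ∃ y, x = (ℓ : ↥(chartAlgFin N ℓ)) * y) :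
    ∀ x : ↥(chartAlgMid N ℓ), redMid x = 0 → ∃ y, x = (ℓ : ↥(chartAlgMid N ℓ)) * y := by
  intro x hx
  obtain ⟨n, z, hz⟩ := exists_inclFin_eq N ℓ x
  have hz0 : redFin z = 0 := by
    rw [← hcompat, hz, map_mul, hx, mul_zero]
  obtain ⟨y, hy⟩ := hfin z hz0
  obtain ⟨u, hu⟩ := (isUnit_inclFin_jChartFin N ℓ).exists_left_inv
  refine ⟨u ^ n * inclFin N ℓ y, ?_⟩
  have h1 : x = u ^ n * inclFin N ℓ z := by
    rw [hz, ← mul_assoc, ← mul_pow, hu, one_pow, one_mul]
  rw [h1, hy, map_mul, map_natCast]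
  ring

/-- the mirror statement through the chart at infinity. -/
theorem exists_inclInf_eq (x : ↥(chartAlgMid N ℓ)) :
    ∃ (n : ℕ) (z : ↥(chartAlgInf N ℓ)),
      inclInf N ℓ z = inclInf N ℓ (jInvChartInf N ℓ) ^ n * x := by
  have hx : (x : ↥(modularFunctionFieldFull N)) ∈
      chartAlg N ℓ (insert (jFull N)⁻¹⁻¹ {(jFull N)⁻¹}) := by
    rw [inv_inv]; exact x.2
  obtain ⟨n, hn⟩ := exists_pow_mul_mem_chartAlg (Set.mem_singleton _)
    (inv_ne_zero (jFull_ne_zero N)) hx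
  refine ⟨n, ⟨(jFull N)⁻¹ ^ n * x, hn⟩, Subtype.ext ?_⟩
  simp only [Subalgebra.coe_mul, Subalgebra.coe_pow, coe_chartIncl, coe_jInvChartInf]

theorem ker_mid_of_inf {T : Type*} [CommRing T]
    (redInf : ↥(chartAlgInf N ℓ) →+* T) (redMid : ↥(chartAlgMid N ℓ) →+* T)
    (hcompat : ∀ x, redMid (inclInf N ℓ x) = redInf x)
    (hinf : ∀ x, redInf x = 0 → ∃ y, x = (ℓ : ↥(chartAlgInf N ℓ)) * y) :
    ∀ x : ↥(chartAlgMid N ℓ), redMid x = 0 → ∃ y, x = (ℓ : ↥(chartAlgMid N ℓ)) * y := by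
  intro x hx
  obtain ⟨n, z, hz⟩ := exists_inclInf_eq N ℓ x
  have hz0 : redInf z = 0 := by
    rw [← hcompat, hz, map_mul, hx, mul_zero]
  obtain ⟨y, hy⟩ := hinf z hz0
  obtain ⟨u, hu⟩ := (isUnit_inclInf_jInvChartInf N ℓ).exists_left_inv
  refine ⟨u ^ n * inclInf N ℓ y, ?_⟩
  have h1 : x = u ^ n * inclInf N ℓ z := by
    rw [hz, ← mul_assoc, ← mul_pow, hu, one_pow, one_mul]
  rw [h1, hy, map_mul, map_natCast]
  ring

end Fermat.Agent.S28.MidKer
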