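import Mathlib
import Fermat.Prelude.Def_ModularCurve_LaurentCoeff
import Fermat.Prelude.Def_GaloisRep_Flat

/-!
# S28 (M2): the special fibre of a chart embeds into Laurent series

Let `A` be a `ℤ_(ℓ)`-algebra with a ring homomorphism `red : A → 𝔽_ℓ((q))` whose kernel is `ℓ A`,
and let `K` be a field of characteristic `ℓ`.  Then `a ⊗ c ↦ c · red(a)` embeds `A ⊗ K` into the
field `K((q))`; in particular `A ⊗_{ℤ_(ℓ)} K` is a domain.
-/

set_option autoImplicit false

namespace Fermat.Agent.S28.TensorRed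

open TensorProduct

/-- ring homomorphisms out of `ℤ_(ℓ)` are unique. -/
theorem ratLocalizedAt_ringHom_ext (ℓ : ℕ) {S : Type*} [Ring S]
    (f g : ↥(GaloisRep.ratLocalizedAt ℓ) →+* S) : f = g := by
  ext x
  have hden : 0 < x.1.den := x.1.den_pos
  have hmem : ((x.1.den : ℚ)⁻¹) ∈ GaloisRep.ratLocalizedAt ℓ := by
    show ((x.1.den : ℚ)⁻¹).den.Coprime ℓ
    rw [Rat.inv_natCast_den_of_pos hden]
    exact x.2
  set dinv : ↥(GaloisRep.ratLocalizedAt ℓ) := ⟨(x.1.den : ℚ)⁻¹, hmem⟩ with hdinv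
  set d : ↥(GaloisRep.ratLocalizedAt ℓ) := (x.1.den : ↥(GaloisRep.ratLocalizedAt ℓ)) with hd
  set n : ↥(GaloisRep.ratLocalizedAt ℓ) := (x.1.num : ↥(GaloisRep.ratLocalizedAt ℓ)) with hn
  have hdC : (x.1.den : ℚ) ≠ 0 := by exact_mod_cast hden.ne'
  have h1 : dinv * d = 1 := by
    apply Subtype.ext
    show (x.1.den : ℚ)⁻¹ * ((x.1.den : ↥(GaloisRep.ratLocalizedAt ℓ)) : ℚ) = 1
    rw [Subring.coe_natCast, inv_mul_cancel₀ hdC]
  have h2 : d * dinv = 1 := by rw [mul_comm]; exact h1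
  have hx : x = n * dinv := by
    apply Subtype.ext
    show x.1 = ((x.1.num : ↥(GaloisRep.ratLocalizedAt ℓ)) : ℚ) * (x.1.den : ℚ)⁻¹
    rw [Subring.coe_intCast, ← div_eq_mul_inv, Rat.num_div_den]
  have hfd : f d = g d := by rw [hd, map_natCast, map_natCast]
  have hfn : f n = g n := by rw [hn, map_intCast, map_intCast]
  have hinv : f dinv = g dinv := by
    calc f dinv = f dinv * (g d * g dinv) := by rw [← map_mul, h2, map_one, mul_one]
      _ = (f dinv * f d) * g dinv := by rw [hfd, mul_assoc]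
      _ = g dinv := by rw [← map_mul, h1, map_one, one_mul]
  rw [hx, map_mul, map_mul, hfn, hinv]

variable (ℓ : ℕ) [Fact ℓ.Prime]
variable (A : Type*) [CommRing A] [Algebra ↥(GaloisRep.ratLocalizedAt ℓ) A]
variable (red : A →+* LaurentSeries (ZMod ℓ))
variable (K : Type*) [Field K] [CharP K ℓ] [Algebra ↥(GaloisRep.ratLocalizedAt ℓ) K]

/-- any two ring homomorphisms `A → C`, `K → C` into a commutative `ℤ_(ℓ)`-algebra induce an
algebra map on `A ⊗ K` (ring homs out of `ℤ_(ℓ)` are unique, so they are automatically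
`ℤ_(ℓ)`-linear). -/
noncomputable def liftHom {C : Type*} [CommRing C] [Algebra ↥(GaloisRep.ratLocalizedAt ℓ) C]
    (f : A →+* C) (g : K →+* C) :
    A ⊗[↥(GaloisRep.ratLocalizedAt ℓ)] K →ₐ[↥(GaloisRep.ratLocalizedAt ℓ)] C :=
  Algebra.TensorProduct.lift
    ({ toRingHom := f
       commutes' := fun r => congrFun (congrArg DFunLike.coe (ratLocalizedAt_ringHom_ext ℓ
          (f.comp (algebraMap ↥(GaloisRep.ratLocalizedAt ℓ) A))
          (algebraMap ↥(GaloisRep.ratLocalizedAt ℓ) C))) r } :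
        A →ₐ[↥(GaloisRep.ratLocalizedAt ℓ)] C)
    ({ toRingHom := g
       commutes' := fun r => congrFun (congrArg DFunLike.coe (ratLocalizedAt_ringHom_ext ℓ
          (g.comp (algebraMap ↥(GaloisRep.ratLocalizedAt ℓ) K))
          (algebraMap ↥(GaloisRep.ratLocalizedAt ℓ) C))) r } :
        K →ₐ[↥(GaloisRep.ratLocalizedAt ℓ)] C)
    (fun _ _ => Commute.all _ _)

omit [Fact ℓ.Prime] [CharP K ℓ] in
theorem liftHom_tmul {C : Type*} [CommRing C] [Algebra ↥(GaloisRep.ratLocalizedAt ℓ) C]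
    (f : A →+* C) (g : K →+* C) (a : A) (c : K) :
    liftHom ℓ A K f g (a ⊗ₜ c) = f a * g c := by
  rw [liftHom, Algebra.TensorProduct.lift_tmul]
  rfl

/-- the map `A ⊗ K → K((q))`, `a ⊗ c ↦ red(a) · c`. -/
noncomputable def Phi : A ⊗[↥(GaloisRep.ratLocalizedAt ℓ)] K →+* LaurentSeries K :=
  (liftHom ℓ A K ((ModularCurve.coeffMap (ZMod.castHom (dvd_refl ℓ) K)).comp red)
    (HahnSeries.C : K →+* LaurentSeries K)).toRingHom

theorem Phi_tmul (a : A) (c : K) :
    Phi ℓ A red K (a ⊗ₜ c) =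
      ModularCurve.coeffMap (ZMod.castHom (dvd_refl ℓ) K) (red a) * HahnSeries.C c := by
  show liftHom ℓ A K _ _ (a ⊗ₜ c) = _
  rw [liftHom_tmul]
  rfl

theorem coeff_Phi_tmul (a : A) (c : K) (n : ℤ) :
    (Phi ℓ A red K (a ⊗ₜ c)).coeff n = c * ZMod.castHom (dvd_refl ℓ) K ((red a).coeff n) := by
  rw [Phi_tmul, mul_comm, HahnSeries.C_mul_eq_smul, HahnSeries.coeff_smul,
    ModularCurve.coeffMap_coeff, smul_eq_mul]

omit [Fact ℓ.Prime] in
/-- `ℓ` kills `K`-tensors. -/
theorem natCast_mul_tmul (y : A) (c : K) :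
    (((ℓ : A) * y) ⊗ₜ[↥(GaloisRep.ratLocalizedAt ℓ)] c) = 0 := by
  have h1 : (ℓ : A) * y = (ℓ : ↥(GaloisRep.ratLocalizedAt ℓ)) • y := by
    rw [Algebra.smul_def, map_natCast]
  have h2 : (ℓ : ↥(GaloisRep.ratLocalizedAt ℓ)) • c = 0 := by
    rw [Algebra.smul_def, map_natCast, CharP.cast_eq_zero K ℓ, zero_mul]
  rw [h1, TensorProduct.smul_tmul, h2, TensorProduct.tmul_zero]

section Basis

/-- every tensor is a finite sum `∑ a_j ⊗ b_j` over a `ZMod ℓ`-basis `b` of `K`. -/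
theorem exists_finsupp_rep :
    letI := ZMod.algebra K ℓ
    ∀ t : A ⊗[↥(GaloisRep.ratLocalizedAt ℓ)] K,
      ∃ f : Module.Basis.ofVectorSpaceIndex (ZMod ℓ) K →₀ A,
        t = f.sum (fun j a => a ⊗ₜ[↥(GaloisRep.ratLocalizedAt ℓ)]
          (Module.Basis.ofVectorSpace (ZMod ℓ) K j)) := by
  let _ : Algebra (ZMod ℓ) K := ZMod.algebra K ℓ
  intro t
  induction t using TensorProduct.induction_on with
  | zero => exact ⟨0, by simp⟩
  | tmul a c =>
    set b := Module.Basis.ofVectorSpace (ZMod ℓ) K with hb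
    refine ⟨(b.repr c).mapRange (fun lam => (lam.val : ↥(GaloisRep.ratLocalizedAt ℓ)) • a)
      (by simp), ?_⟩
    rw [Finsupp.sum_mapRange_index
      (h := fun j a' => a' ⊗ₜ[↥(GaloisRep.ratLocalizedAt ℓ)] b j)
      (fun j => TensorProduct.zero_tmul _ _)]
    conv_lhs => rw [← b.linearCombination_repr c, Finsupp.linearCombination_apply]
    rw [Finsupp.sum, TensorProduct.tmul_sum, Finsupp.sum]
    refine Finset.sum_congr rfl fun j _ => ?_
    have h1 : (b.repr c j) • b j = ((b.repr c j).val : ↥(GaloisRep.ratLocalizedAt ℓ)) • b j := by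
      rw [Algebra.smul_def, Algebra.smul_def, map_natCast]
      congr 1
      show ZMod.castHom (dvd_refl ℓ) K (b.repr c j) = _
      rw [ZMod.castHom_apply, ZMod.natCast_val]
    rw [h1, TensorProduct.tmul_smul, TensorProduct.smul_tmul']
  | add t₁ t₂ h₁ h₂ =>
    obtain ⟨f₁, rfl⟩ := h₁
    obtain ⟨f₂, rfl⟩ := h₂
    refine ⟨f₁ + f₂, ?_⟩
    rw [Finsupp.sum_add_index'
      (h := fun j a' => a' ⊗ₜ[↥(GaloisRep.ratLocalizedAt ℓ)]
        (Module.Basis.ofVectorSpace (ZMod ℓ) K j))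
      (fun j => TensorProduct.zero_tmul _ _)
      (fun j a₁ a₂ => TensorProduct.add_tmul _ _ _)]

end Basis

/-- **(M2)** `Phi` is injective when the kernel of `red` is `ℓ A`. -/
theorem Phi_injective (hker : ∀ x : A, red x = 0 → ∃ y : A, x = (ℓ : A) * y) :
    Function.Injective (Phi ℓ A red K) := by
  let _ : Algebra (ZMod ℓ) K := ZMod.algebra K ℓ
  rw [injective_iff_map_eq_zero]
  intro t ht
  obtain ⟨f, rfl⟩ := exists_finsupp_rep ℓ A K t
  set b := Module.Basis.ofVectorSpace (ZMod ℓ) K with hb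
  rw [Finsupp.sum, map_sum] at ht
  have hzero : ∀ j ∈ f.support, red (f j) = 0 := by
    intro j hj
    ext n
    have hn := congrArg (fun x : LaurentSeries K => x.coeff n) ht
    simp only [HahnSeries.coeff_sum, HahnSeries.coeff_zero] at hn
    have hli := b.linearIndependent
    rw [linearIndependent_iff'] at hli
    have hsum : ∑ i ∈ f.support, ((red (f i)).coeff n) • b i = 0 := by
      rw [← hn]
      refine Finset.sum_congr rfl fun i _ => ?_
      rw [coeff_Phi_tmul, Algebra.smul_def, mul_comm]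
      rfl
    rw [HahnSeries.coeff_zero]
    exact hli f.support (fun i => (red (f i)).coeff n) hsum j hj
  rw [Finsupp.sum]
  refine Finset.sum_eq_zero fun j hj => ?_
  obtain ⟨y, hy⟩ := hker (f j) (hzero j hj)
  rw [hy]
  exact natCast_mul_tmul ℓ A K y (b j)

/-- **(M2)** the special fibre `A ⊗_{ℤ_(ℓ)} K` is a domain. -/
theorem isDomain_tensor_of_red (hker : ∀ x : A, red x = 0 → ∃ y : A, x = (ℓ : A) * y) :
    IsDomain (A ⊗[↥(GaloisRep.ratLocalizedAt ℓ)] K) :=
  Function.Injective.isDomain (Phi ℓ A red K) (Phi_injective ℓ A red K hker)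

/-- **(M2)**, other order of the factors. -/
theorem isDomain_tensor_of_red' (hker : ∀ x : A, red x = 0 → ∃ y : A, x = (ℓ : A) * y) :
    IsDomain (K ⊗[↥(GaloisRep.ratLocalizedAt ℓ)] A) :=
  haveI := isDomain_tensor_of_red ℓ A red K hker
  (Algebra.TensorProduct.comm ↥(GaloisRep.ratLocalizedAt ℓ) K A).toMulEquiv.isDomain

end Fermat.Agent.S28.TensorRed
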