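import Mathlib
import Fermat.Prelude.Def_ModularCurve_IgusaScheme
import Fermat.Agent.S28.TensorRed
import Fermat.Agent.S28.Gauss
import Fermat.Agent.S28.MidKer

/-!
# S28: the middle chart

`chartAlgMid` is the localization of `chartAlgFin` at the powers of `j`, so `chartAlgMid ⊗ K`
is a localization of `chartAlgFin ⊗ K`; it is a domain as soon as the latter is one and
`j ⊗ 1 ≠ 0`.
-/

set_option autoImplicit false

open ModularCurve ModularCurve.IgusaScheme
open TensorProduct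

noncomputable section

namespace Fermat.Agent.S28.MidChart

/-- abstract form: base change of a localization away from one element of a domain. -/
theorem isDomain_tensor_of_away {R A B K : Type*} [CommRing R] [CommRing A] [CommRing B]
    [CommRing K] [Algebra R A] [Algebra R B] [Algebra R K] (f : A →ₐ[R] B) (x : A)
    (hloc : letI := f.toRingHom.toAlgebra; IsLocalization.Away x B)
    (hdom : IsDomain (A ⊗[R] K)) (hx : x ⊗ₜ[R] (1 : K) ≠ 0) : IsDomain (B ⊗[R] K) := by
  let _ : Algebra A B := f.toRingHom.toAlgebra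
  have : IsScalarTower R A B := IsScalarTower.of_algebraMap_eq' f.comp_algebraMap.symm
  have : IsLocalization (Submonoid.powers x) B := hloc
  let _ : Algebra (A ⊗[R] K) (B ⊗[R] K) :=
    (Algebra.TensorProduct.map f (AlgHom.id R K)).toRingHom.toAlgebra
  have : IsScalarTower A (A ⊗[R] K) (B ⊗[R] K) := by
    refine IsScalarTower.of_algebraMap_eq' ?_
    ext a
    simp [RingHom.algebraMap_toAlgebra, Algebra.TensorProduct.algebraMap_apply]
  have H : (algebraMap (A ⊗[R] K) (B ⊗[R] K)).comp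
      (Algebra.TensorProduct.includeRight : K →ₐ[R] A ⊗[R] K).toRingHom =
      (Algebra.TensorProduct.includeRight : K →ₐ[R] B ⊗[R] K).toRingHom := by
    ext c
    simp [RingHom.algebraMap_toAlgebra]
  have := IsLocalization.tensorProduct_tensorProduct R K (Submonoid.powers x) B H
  refine IsLocalization.isDomain_of_le_nonZeroDivisors (B ⊗[R] K)
    (M := Algebra.algebraMapSubmonoid (A ⊗[R] K) (Submonoid.powers x)) ?_
  rintro _ ⟨_, ⟨n, rfl⟩, rfl⟩
  refine mem_nonZeroDivisors_of_ne_zero ?_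
  rw [map_pow]
  exact pow_ne_zero n (by simpa [Algebra.TensorProduct.algebraMap_apply] using hx)

variable (N : ℕ) [NeZero N] (ℓ : ℕ) [Fact ℓ.Prime]

/-- **(1)** the middle chart is a domain once the finite chart is one and `j ⊗ 1 ≠ 0`. -/
theorem isDomain_mid_of_fin (K : Type*) [Field K] [Algebra ↥(GaloisRep.ratLocalizedAt ℓ) K]
    (hFin : IsDomain (chartAlgFin N ℓ ⊗[↥(GaloisRep.ratLocalizedAt ℓ)] K))
    (hj : (jChartFin N ℓ ⊗ₜ[↥(GaloisRep.ratLocalizedAt ℓ)] (1 : K)) ≠ 0) :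
    IsDomain (chartAlgMid N ℓ ⊗[↥(GaloisRep.ratLocalizedAt ℓ)] K) :=
  isDomain_tensor_of_away (inclFin N ℓ) (jChartFin N ℓ) (isLocalization_away_inclFin N ℓ) hFin hj

/-- the mirror statement through the chart at infinity. -/
theorem isDomain_mid_of_inf (K : Type*) [Field K] [Algebra ↥(GaloisRep.ratLocalizedAt ℓ) K]
    (hInf : IsDomain (chartAlgInf N ℓ ⊗[↥(GaloisRep.ratLocalizedAt ℓ)] K))
    (hj : (jInvChartInf N ℓ ⊗ₜ[↥(GaloisRep.ratLocalizedAt ℓ)] (1 : K)) ≠ 0) :
    IsDomain (chartAlgMid N ℓ ⊗[↥(GaloisRep.ratLocalizedAt ℓ)] K) :=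
  isDomain_tensor_of_away (inclInf N ℓ) (jInvChartInf N ℓ) (isLocalization_away_inclInf N ℓ)
    hInf hj

/-- **(2)** an element with nonzero reduction gives a nonzero pure tensor. -/
theorem tmul_one_ne_zero_of_red (A : Type*) [CommRing A] [Algebra ↥(GaloisRep.ratLocalizedAt ℓ) A]
    (red : A →+* LaurentSeries (ZMod ℓ))
    (K : Type*) [Field K] [CharP K ℓ] [Algebra ↥(GaloisRep.ratLocalizedAt ℓ) K]
    (a : A) (ha : red a ≠ 0) : (a ⊗ₜ[↥(GaloisRep.ratLocalizedAt ℓ)] (1 : K)) ≠ 0 := by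
  intro h
  apply ha
  ext n
  have h1 := TensorRed.coeff_Phi_tmul ℓ A red K a 1 n
  rw [h, map_zero, HahnSeries.coeff_zero, one_mul] at h1
  rw [HahnSeries.coeff_zero]
  exact (ZMod.castHom (dvd_refl ℓ) K).injective (by rw [← h1, map_zero])

/-- **(3)** the middle chart costs nothing beyond the finite chart. -/
theorem isDomain_mid (K : Type*) [Field K] [CharP K ℓ] [Algebra ↥(GaloisRep.ratLocalizedAt ℓ) K]
    (red : chartAlgFin N ℓ →+* LaurentSeries (ZMod ℓ))
    (hker : ∀ x : chartAlgFin N ℓ, red x = 0 → ∃ y : chartAlgFin N ℓ,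
      x = (ℓ : chartAlgFin N ℓ) * y)
    (hj : red (jChartFin N ℓ) ≠ 0) :
    IsDomain (chartAlgMid N ℓ ⊗[↥(GaloisRep.ratLocalizedAt ℓ)] K) :=
  isDomain_mid_of_fin N ℓ K (TensorRed.isDomain_tensor_of_red ℓ _ red K hker)
    (tmul_one_ne_zero_of_red ℓ _ red K _ hj)

/-- the mirror of **(3)** through the chart at infinity. -/
theorem isDomain_mid' (K : Type*) [Field K] [CharP K ℓ] [Algebra ↥(GaloisRep.ratLocalizedAt ℓ) K]
    (red : chartAlgInf N ℓ →+* LaurentSeries (ZMod ℓ))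
    (hker : ∀ x : chartAlgInf N ℓ, red x = 0 → ∃ y : chartAlgInf N ℓ,
      x = (ℓ : chartAlgInf N ℓ) * y)
    (hj : red (jInvChartInf N ℓ) ≠ 0) :
    IsDomain (chartAlgMid N ℓ ⊗[↥(GaloisRep.ratLocalizedAt ℓ)] K) :=
  isDomain_mid_of_inf N ℓ K (TensorRed.isDomain_tensor_of_red ℓ _ red K hker)
    (tmul_one_ne_zero_of_red ℓ _ red K _ hj)

/-- **(4)** the hypothesis `hj` of **(3)** for the concrete reduction of the Gauss ring. -/
theorem redChart_jChartFin_ne_zero {k : Type*} [Field k] (φ : Gauss.Zl ℓ →+* k)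
    (hφ : φ (Gauss.ellZ ℓ) = 0) :
    Gauss.redChart ℓ φ N hφ (sFin_subset N) (jChartFin N ℓ) ≠ 0 := by
  rw [Gauss.redChart_of_coe_eq_jFull ℓ φ N hφ (sFin_subset N) (jChartFin N ℓ) rfl]
  intro h
  have h1 := congrArg (fun f : LaurentSeries k => f.coeff (-1)) h
  simp only [HahnSeries.coeff_zero] at h1
  rw [coeff_jqModC_neg_one] at h1
  exact one_ne_zero h1

/-- the reduction of `j⁻¹` on the chart at infinity is `j̄⁻¹`. -/
theorem redChart_jInvChartInf {k : Type*} [Field k] (φ : Gauss.Zl ℓ →+* k)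
    (hφ : φ (Gauss.ellZ ℓ) = 0) :
    Gauss.redChart ℓ φ N hφ (sInf_subset N) (jInvChartInf N ℓ) = (jqModC k)⁻¹ := by
  have hjmem : jq ∈ Gauss.gaussRing ℓ := Gauss.jq_mem_gaussRing ℓ
  have h1 : Gauss.chartToGauss ℓ N (sInf_subset N) (jInvChartInf N ℓ) * ⟨jq, hjmem⟩ = 1 := by
    apply Subtype.ext
    show ((jInvChartInf N ℓ : ↥(modularFunctionFieldFull N)) : LaurentSeries ℚ) * jq = 1
    have h2 : (jFull N)⁻¹ * jFull N = 1 := inv_mul_cancel₀ (jFull_ne_zero N)
    exact congrArg Subtype.val h2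
  have h3 : Gauss.red ℓ φ hφ ⟨jq, hjmem⟩ = jqModC k := by
    have h4 := Gauss.red_incl ℓ φ hφ (jqModC (Gauss.Zl ℓ))
    rw [Gauss.rho_jqModC] at h4
    rw [← h4]
    congr 1
    exact Subtype.ext (Gauss.incl_jqModC ℓ).symm
  have h5 := congrArg (Gauss.red ℓ φ hφ) h1
  rw [map_mul, map_one, h3] at h5
  exact eq_inv_of_mul_eq_one_left h5

theorem redChart_jInvChartInf_ne_zero {k : Type*} [Field k] (φ : Gauss.Zl ℓ →+* k)
    (hφ : φ (Gauss.ellZ ℓ) = 0) :
    Gauss.redChart ℓ φ N hφ (sInf_subset N) (jInvChartInf N ℓ) ≠ 0 := by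
  rw [redChart_jInvChartInf]
  refine inv_ne_zero ?_
  intro h
  have h1 := congrArg (fun f : LaurentSeries k => f.coeff (-1)) h
  simp only [HahnSeries.coeff_zero] at h1
  rw [coeff_jqModC_neg_one] at h1
  exact one_ne_zero h1

/-- **(5)** the middle chart for the concrete reduction: only the kernel statement of the finite
chart is needed. -/
theorem isDomain_mid_redChart (K : Type*) [Field K] [CharP K ℓ]
    [Algebra ↥(GaloisRep.ratLocalizedAt ℓ) K]
    (hker : ∀ x : chartAlgFin N ℓ,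
      Gauss.redChart ℓ (Gauss.resZ ℓ) N (Gauss.resZ_ellZ ℓ) (sFin_subset N) x = 0 →
        ∃ y : chartAlgFin N ℓ, x = (ℓ : chartAlgFin N ℓ) * y) :
    IsDomain (chartAlgMid N ℓ ⊗[↥(GaloisRep.ratLocalizedAt ℓ)] K) :=
  isDomain_mid N ℓ K _ hker (redChart_jChartFin_ne_zero N ℓ _ _)

/-- the concrete reductions are compatible with the inclusion of the finite chart. -/
theorem redChart_inclFin {k : Type*} [Field k] (φ : Gauss.Zl ℓ →+* k)
    (hφ : φ (Gauss.ellZ ℓ) = 0) (x : ↥(chartAlgFin N ℓ)) :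
    Gauss.redChart ℓ φ N hφ (subset_refl _) (inclFin N ℓ x) =
      Gauss.redChart ℓ φ N hφ (sFin_subset N) x := by
  have h : Gauss.chartToGauss ℓ N (subset_refl _) (inclFin N ℓ x) =
      Gauss.chartToGauss ℓ N (sFin_subset N) x :=
    Subtype.ext (by rw [Gauss.coe_chartToGauss, Gauss.coe_chartToGauss, coe_chartIncl])
  rw [Gauss.redChart, Gauss.redChart, RingHom.comp_apply, RingHom.comp_apply, h]

/-- the concrete reductions are compatible with the inclusion of the chart at infinity. -/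
theorem redChart_inclInf {k : Type*} [Field k] (φ : Gauss.Zl ℓ →+* k)
    (hφ : φ (Gauss.ellZ ℓ) = 0) (x : ↥(chartAlgInf N ℓ)) :
    Gauss.redChart ℓ φ N hφ (subset_refl _) (inclInf N ℓ x) =
      Gauss.redChart ℓ φ N hφ (sInf_subset N) x := by
  have h : Gauss.chartToGauss ℓ N (subset_refl _) (inclInf N ℓ x) =
      Gauss.chartToGauss ℓ N (sInf_subset N) x :=
    Subtype.ext (by rw [Gauss.coe_chartToGauss, Gauss.coe_chartToGauss, coe_chartIncl])
  rw [Gauss.redChart, Gauss.redChart, RingHom.comp_apply, RingHom.comp_apply, h]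

/-- **(F), concrete form**: the kernel statement for the middle chart, for the reductions
`Gauss.redChart`, from the one of the finite chart. -/
theorem ker_mid_redChart {k : Type*} [Field k] (φ : Gauss.Zl ℓ →+* k)
    (hφ : φ (Gauss.ellZ ℓ) = 0)
    (hfin : ∀ x : ↥(chartAlgFin N ℓ), Gauss.redChart ℓ φ N hφ (sFin_subset N) x = 0 →
      ∃ y, x = (ℓ : ↥(chartAlgFin N ℓ)) * y) :
    ∀ x : ↥(chartAlgMid N ℓ), Gauss.redChart ℓ φ N hφ (subset_refl _) x = 0 →
      ∃ y, x = (ℓ : ↥(chartAlgMid N ℓ)) * y :=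
  MidKer.ker_mid_of_fin N ℓ _ _ (redChart_inclFin N ℓ φ hφ) hfin

end Fermat.Agent.S28.MidChart
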