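import Mathlib
import Fermat.Prelude.Def_ModularCurve_IgusaScheme
import Fermat.Agent.S24.NormFree
import Fermat.Agent.S24.LinDisj

/-!
# S28 (M6c): the degree of the frozen function field over `ℚ(j)`

`F = modularFunctionFieldFull N ⊆ ℚ((q))` has degree at most `ψ(N)` over `ℚ(j)`: a family of
elements of `F` which is linearly independent over `ℚ(j)` has at most `ψ(N)` members
(`card_le_of_linearIndependent`).  This is the transfer to `ℚ` of the degree theorem of S24 over
`ℚ̄` (`S24.finrank_adjoin_j`), by linear disjointness of coefficient extension (`S24.LinDisj`).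
-/

set_option autoImplicit false

namespace Fermat.Agent.S28.RankQ

open ModularCurve IntermediateField Polynomial

local notation "Qb" => AlgebraicClosure ℚ

theorem coeff_algebraMap_mul {L : Type*} [Field L] (c : L) (x : LaurentSeries L) (k : ℤ) :
    (algebraMap L (LaurentSeries L) c * x).coeff k = c * x.coeff k := by
  rw [algebraMap_laurentSeries_eq_single, HahnSeries.coeff_single_zero_mul]

/-- `j` is transcendental over `ℚ` (formal version): leading terms. -/
theorem eq_zero_of_aeval_jq (R : ℚ[X]) (h : Polynomial.aeval jq R = 0) : R = 0 := by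
  by_contra hR
  have hcoeff : (Polynomial.aeval jq R).coeff (-(R.natDegree : ℤ)) = R.leadingCoeff := by
    rw [Polynomial.aeval_eq_sum_range, HahnSeries.coeff_sum, Finset.sum_range_succ]
    rw [Finset.sum_eq_zero, zero_add, Algebra.smul_def, coeff_algebraMap_mul, coeff_jq_pow_self,
      mul_one, Polynomial.leadingCoeff]
    intro k hk
    rw [Algebra.smul_def, coeff_algebraMap_mul, coeff_jq_pow_of_lt, mul_zero]
    have := Finset.mem_range.mp hk
    omega
  rw [h] at hcoeff
  exact hR (Polynomial.leadingCoeff_eq_zero.mp (by simpa using hcoeff.symm))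

variable (N : ℕ) [NeZero N]

/-- the field `ℚ(j)` inside the frozen function field -/
noncomputable abbrev Kj : IntermediateField ℚ ↥(modularFunctionFieldFull N) :=
  IntermediateField.adjoin ℚ {IgusaScheme.jFull N}

/-- the generator `j` of `ℚ(j)` -/
noncomputable def genJ : Kj N :=
  ⟨IgusaScheme.jFull N, IntermediateField.mem_adjoin_simple_self ℚ _⟩

/-- the inclusion `ℚ(j) → ℚ((q))` -/
noncomputable def inclK : ↥(Kj N) →+* LaurentSeries ℚ :=
  (modularFunctionFieldFull N).toSubfield.subtype.comp (Kj N).toSubfield.subtype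

theorem inclK_apply (a : Kj N) :
    inclK N a = ((a : ↥(modularFunctionFieldFull N)) : LaurentSeries ℚ) := rfl

theorem inclK_genJ : inclK N (genJ N) = jq := rfl

theorem inclK_aeval (R : ℚ[X]) :
    inclK N (Polynomial.aeval (genJ N) R) = Polynomial.aeval jq R := by
  have h := Polynomial.aeval_algHom_apply (inclK N).toRatAlgHom (genJ N) R
  rw [RingHom.toRatAlgHom_apply, RingHom.toRatAlgHom_apply, inclK_genJ] at h
  exact h.symm

/-- **(P1)** polynomial relations over `ℚ` -/
theorem rel_rat {ι : Type*} (m : ι → ↥(modularFunctionFieldFull N))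
    (h : LinearIndependent ↥(Kj N) m) (s : Finset ι) (R : ι → ℚ[X])
    (hrel : ∑ i ∈ s, Polynomial.aeval jq (R i) * ((m i : ↥(modularFunctionFieldFull N)) :
      LaurentSeries ℚ) = 0) : ∀ i ∈ s, R i = 0 := by
  rw [linearIndependent_iff'] at h
  have h0 : ∑ i ∈ s, (Polynomial.aeval (genJ N) (R i) : Kj N) • m i = 0 := by
    apply Subtype.ext
    rw [ZeroMemClass.coe_zero, ← hrel, AddSubmonoidClass.coe_finsetSum]
    refine Finset.sum_congr rfl fun i _ => ?_
    rw [← inclK_aeval N]
    rfl
  intro i hi
  have h1 := h s _ h0 i hi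
  apply eq_zero_of_aeval_jq
  rw [← inclK_aeval N, h1, map_zero]

theorem algebraMap_eq_C {L : Type*} [Field L] (c : L) :
    algebraMap L (LaurentSeries L) c = HahnSeries.C c := by
  rw [algebraMap_laurentSeries_eq_single]
  rfl

/-- **(P2)** polynomial relations over `ℚ̄` -/
theorem rel_bar {ι : Type*} (m : ι → ↥(modularFunctionFieldFull N))
    (h : LinearIndependent ↥(Kj N) m) (s : Finset ι) (P : ι → Qb[X])
    (hrel : ∑ i ∈ s, Polynomial.aeval (coeffEmb Qb jq) (P i) *
      coeffEmb Qb ((m i : ↥(modularFunctionFieldFull N)) : LaurentSeries ℚ) = 0) :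
    ∀ i ∈ s, P i = 0 := by
  classical
  set f : ι × ℕ → LaurentSeries ℚ := fun p =>
    jq ^ p.2 * ((m p.1 : ↥(modularFunctionFieldFull N)) : LaurentSeries ℚ) with hf
  have hLI : LinearIndependent Qb (fun p => coeffMap (algebraMap ℚ Qb) (f p)) := by
    refine Fermat.Agent.S24.LinDisj.linearIndependent_coeffMap (algebraMap ℚ Qb) f ?_
    rw [linearIndependent_iff']
    intro t g hg p hp
    -- extend the relation to a product of finsets
    set s' := t.image Prod.fst with hs'
    set D := t.sup Prod.snd + 1 with hD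
    set g' : ι × ℕ → ℚ := fun p => if p ∈ t then g p else 0 with hg'
    have hsub : t ⊆ s' ×ˢ Finset.range D := by
      intro p hp
      rw [Finset.mem_product, Finset.mem_range]
      exact ⟨Finset.mem_image_of_mem _ hp, Nat.lt_succ_of_le (Finset.le_sup (f := Prod.snd) hp)⟩
    have h1 : ∑ p ∈ s' ×ˢ Finset.range D, HahnSeries.C (g' p) * f p = 0 := by
      rw [← Finset.sum_subset hsub]
      · rw [← hg]
        refine Finset.sum_congr rfl fun p hp => ?_
        rw [HahnSeries.C_mul_eq_smul]
        simp only [hg', hp, if_true]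
      · intro p _ hp
        simp only [hg', hp, if_false, map_zero, zero_mul]
    set R : ι → ℚ[X] := fun i => ∑ k ∈ Finset.range D, Polynomial.monomial k (g' (i, k)) with hR
    have h2 : ∑ i ∈ s', Polynomial.aeval jq (R i) *
        ((m i : ↥(modularFunctionFieldFull N)) : LaurentSeries ℚ) = 0 := by
      rw [← h1, Finset.sum_product]
      refine Finset.sum_congr rfl fun i _ => ?_
      simp only [hR, map_sum, Polynomial.aeval_monomial, Finset.sum_mul]
      refine Finset.sum_congr rfl fun k _ => ?_
      rw [mul_assoc, algebraMap_eq_C]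
    have h3 := rel_rat N m h s' R h2 p.1 (Finset.mem_image_of_mem _ hp)
    have h4 : (R p.1).coeff p.2 = g' (p.1, p.2) := by
      simp only [hR, Polynomial.finsetSum_coeff, Polynomial.coeff_monomial]
      rw [Finset.sum_eq_single p.2]
      · simp
      · intro b _ hb
        simp [hb]
      · intro hn
        exfalso
        apply hn
        rw [Finset.mem_range]
        exact Nat.lt_succ_of_le (Finset.le_sup (f := Prod.snd) hp)
    rw [h3, Polynomial.coeff_zero] at h4
    simpa [hg', hp] using h4.symm
  rw [linearIndependent_iff'] at hLI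
  set D := s.sup (fun i => (P i).natDegree) + 1 with hD
  have hDlt : ∀ i ∈ s, (P i).natDegree < D := fun i hi =>
    Nat.lt_succ_of_le (Finset.le_sup (f := fun i => (P i).natDegree) hi)
  have key := hLI (s ×ˢ Finset.range D) (fun p => (P p.1).coeff p.2) (by
    rw [← hrel, Finset.sum_product]
    refine Finset.sum_congr rfl fun i hi => ?_
    rw [Polynomial.aeval_eq_sum_range' (hDlt i hi), Finset.sum_mul]
    refine Finset.sum_congr rfl fun k _ => ?_
    rw [← HahnSeries.C_mul_eq_smul, Algebra.smul_def, algebraMap_eq_C]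
    simp only [hf, map_mul, map_pow]
    rw [mul_assoc]
    rfl)
  intro i hi
  ext k
  rw [Polynomial.coeff_zero]
  by_cases hk : k < D
  · exact key (i, k) (Finset.mem_product.mpr ⟨hi, Finset.mem_range.mpr hk⟩)
  · exact Polynomial.coeff_eq_zero_of_natDegree_lt (lt_of_lt_of_le (hDlt i hi) (not_lt.mp hk))

/-- the coefficient extension of an element of the frozen field, as an element of `FF N` -/
noncomputable def barOf (x : ↥(modularFunctionFieldFull N)) : Fermat.Agent.S24.FF N :=
  ⟨coeffEmb Qb (x : LaurentSeries ℚ), coeffEmb_mem_laurentBaseChange Qb x.2⟩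

omit [NeZero N] in
theorem coe_barOf (x : ↥(modularFunctionFieldFull N)) :
    ((barOf N x : Fermat.Agent.S24.FF N) : LaurentSeries Qb) = coeffEmb Qb (x : LaurentSeries ℚ) :=
  rfl

omit [NeZero N] in
theorem coe_jBar_one :
    ((Fermat.Agent.S24.jBar N 1 (one_dvd N) one_pos : Fermat.Agent.S24.FF N) : LaurentSeries Qb) =
      coeffEmb Qb jq := by
  show coeffEmb Qb (qExpand ℚ 1 jq) = coeffEmb Qb jq
  rw [qExpand_one_apply]

open scoped IntermediateField.algebraAdjoinAdjoin in
/-- **(P3)** independence over `ℚ̄(j)` after coefficient extension -/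
theorem linearIndependent_barOf {ι : Type*} (m : ι → ↥(modularFunctionFieldFull N))
    (h : LinearIndependent ↥(Kj N) m) :
    LinearIndependent ↥(Fermat.Agent.S24.Lj N) (fun i => barOf N (m i)) := by
  set jB := Fermat.Agent.S24.jBar N 1 (one_dvd N) one_pos with hjB
  rw [← LinearIndependent.iff_fractionRing (Algebra.adjoin Qb {jB}) (Fermat.Agent.S24.Lj N)]
  rw [linearIndependent_iff']
  intro s g hg i hi
  have hmem : ∀ y ∈ (Algebra.adjoin Qb {jB} : Subalgebra Qb (Fermat.Agent.S24.FF N)),
      ∃ P : Qb[X], Polynomial.aeval jB P = y := by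
    intro y hy
    rw [Algebra.adjoin_singleton_eq_range_aeval] at hy
    exact hy
  have hP : ∀ i, ∃ P : Qb[X], Polynomial.aeval jB P = (g i : Fermat.Agent.S24.FF N) :=
    fun i => hmem _ (g i).2
  choose P hP using hP
  have hrel : ∑ i ∈ s, Polynomial.aeval (coeffEmb Qb jq) (P i) *
      coeffEmb Qb ((m i : ↥(modularFunctionFieldFull N)) : LaurentSeries ℚ) = 0 := by
    have h0 := congrArg (fun x : Fermat.Agent.S24.FF N => (x : LaurentSeries Qb)) hg
    simp only [ZeroMemClass.coe_zero, AddSubmonoidClass.coe_finsetSum] at h0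
    rw [← h0]
    refine Finset.sum_congr rfl fun i _ => ?_
    have h1 := Polynomial.aeval_algHom_apply (Fermat.Agent.S24.FF N).val jB (P i)
    have hjBc : (Fermat.Agent.S24.FF N).val jB = coeffEmb Qb jq := coe_jBar_one N
    rw [hjBc, hP i] at h1
    rw [h1]
    rfl
  have h2 := rel_bar N m h s P hrel i hi
  apply Subtype.ext
  rw [← hP i, h2, map_zero]
  rfl

/-- **(R1)** a family of elements of the frozen function field which is linearly independent
over `ℚ(j)` has at most `ψ(N)` members. -/
theorem card_le_of_linearIndependent {ι : Type*} [Fintype ι]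
    (m : ι → ↥(modularFunctionFieldFull N))
    (h : LinearIndependent ↥(IntermediateField.adjoin ℚ {IgusaScheme.jFull N}) m) :
    Fintype.card ι ≤ dedekindPsi N := by
  have := Fermat.Agent.S24.finiteDimensional_adjoin_j N
  have h1 := (linearIndependent_barOf N m h).fintype_card_le_finrank
  rwa [Fermat.Agent.S24.finrank_adjoin_j] at h1

theorem rank_Kj_le :
    Module.rank ↥(IntermediateField.adjoin ℚ {IgusaScheme.jFull N})
      ↥(modularFunctionFieldFull N) ≤ (dedekindPsi N : Cardinal) := by
  apply rank_le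
  intro s hs
  have := card_le_of_linearIndependent N (fun i : s => (i : ↥(modularFunctionFieldFull N))) hs
  simpa using this

/-- **(R2)** the frozen function field is finite over `ℚ(j)` … -/
theorem finiteDimensional_Kj :
    FiniteDimensional ↥(IntermediateField.adjoin ℚ {IgusaScheme.jFull N})
      ↥(modularFunctionFieldFull N) := by
  exact Module.rank_lt_aleph0_iff.mp (lt_of_le_of_lt (rank_Kj_le N) (Cardinal.natCast_lt_aleph0))

/-- **(R2)** … of degree at most `ψ(N)`. -/
theorem finrank_Kj_le :
    Module.finrank ↥(IntermediateField.adjoin ℚ {IgusaScheme.jFull N})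
      ↥(modularFunctionFieldFull N) ≤ dedekindPsi N :=
  Module.finrank_le_of_rank_le (rank_Kj_le N)

/-! ### the spanning statement -/

/-- the field of fractions of the image of a ring homomorphism into a field -/
def fracField {B : Type*} [CommRing B] {E : Type*} [Field E] (φ : B →+* E) : Subfield E where
  carrier := {y | ∃ a b : B, φ b ≠ 0 ∧ φ b * y = φ a}
  mul_mem' := by
    rintro x y ⟨a, b, hb, hab⟩ ⟨a', b', hb', hab'⟩
    refine ⟨a * a', b * b', ?_, ?_⟩
    · rw [map_mul]
      exact mul_ne_zero hb hb'
    · rw [map_mul, map_mul, ← hab, ← hab']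
      ring
  one_mem' := ⟨1, 1, by simp, by simp⟩
  add_mem' := by
    rintro x y ⟨a, b, hb, hab⟩ ⟨a', b', hb', hab'⟩
    refine ⟨a * b' + a' * b, b * b', ?_, ?_⟩
    · rw [map_mul]
      exact mul_ne_zero hb hb'
    · simp only [map_mul, map_add, ← hab, ← hab']
      ring
  zero_mem' := ⟨0, 1, by simp, by simp⟩
  neg_mem' := by
    rintro x ⟨a, b, hb, hab⟩
    exact ⟨-a, b, hb, by rw [map_neg, ← hab]; ring⟩
  inv_mem' := by
    rintro x ⟨a, b, hb, hab⟩
    by_cases hx : x = 0
    · subst hx
      exact ⟨0, 1, by simp, by simp⟩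
    · have ha : φ a ≠ 0 := by
        rw [← hab]
        exact mul_ne_zero hb hx
      refine ⟨b, a, ha, ?_⟩
      rw [← hab, mul_assoc, mul_inv_cancel₀ hx, mul_one]

theorem mem_fracField {B : Type*} [CommRing B] {E : Type*} [Field E] (φ : B →+* E) (y : E) :
    y ∈ fracField φ ↔ ∃ a b : B, φ b ≠ 0 ∧ φ b * y = φ a := Iff.rfl

/-- if `j` is a fraction of elements of `φ(B)`, so is every element of `ℚ(j)` -/
theorem exists_frac {B : Type*} [CommRing B] (φ : B →+* ↥(modularFunctionFieldFull N))
    (hj : ∃ a b : B, φ b ≠ 0 ∧ φ b * IgusaScheme.jFull N = φ a)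
    (y : ↥(modularFunctionFieldFull N))
    (hy : y ∈ IntermediateField.adjoin ℚ {IgusaScheme.jFull N}) :
    ∃ a b : B, φ b ≠ 0 ∧ φ b * y = φ a := by
  have hle : IntermediateField.adjoin ℚ {IgusaScheme.jFull N} ≤
      (fracField φ).toIntermediateField (fun q => by
        rw [eq_ratCast]
        exact SubfieldClass.ratCast_mem _ q) := by
    rw [IntermediateField.adjoin_simple_le_iff]
    exact hj
  exact hle hy

/-- common denominators -/
theorem exists_common_denom {B : Type*} [CommRing B] (φ : B →+* ↥(modularFunctionFieldFull N))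
    (hj : ∃ a b : B, φ b ≠ 0 ∧ φ b * IgusaScheme.jFull N = φ a)
    {ι : Type*} [Fintype ι]
    (g : ι → ↥(IntermediateField.adjoin ℚ {IgusaScheme.jFull N})) :
    ∃ (c : B) (cs : ι → B), φ c ≠ 0 ∧
      ∀ i, φ (cs i) = φ c * (g i : ↥(modularFunctionFieldFull N)) := by
  classical
  choose a b hb hab using fun i => exists_frac N φ hj (g i) (g i).2
  refine ⟨∏ i, b i, fun i => a i * ∏ j ∈ Finset.univ.erase i, b j, ?_, ?_⟩
  · rw [map_prod]
    exact Finset.prod_ne_zero_iff.mpr fun i _ => hb i
  · intro i
    rw [map_mul, ← hab i, ← Finset.mul_prod_erase Finset.univ b (Finset.mem_univ i), map_mul]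
    ring

/-- **(R3)** the spanning statement: if `B → F` is a ring homomorphism whose image has `j` in its
field of fractions, then at least `ψ(N)` elements of `F` which are independent over the image
of `B` span `F` up to denominators in `B`. -/
theorem exists_span {B : Type*} [CommRing B] (φ : B →+* ↥(modularFunctionFieldFull N))
    (hj : ∃ a b : B, φ b ≠ 0 ∧ φ b * IgusaScheme.jFull N = φ a)
    {ι : Type*} [Fintype ι] (hcard : dedekindPsi N ≤ Fintype.card ι)
    (m : ι → ↥(modularFunctionFieldFull N))
    (hind : ∀ cs : ι → B, ∑ i, φ (cs i) * m i = 0 → ∀ i, φ (cs i) = 0)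
    (x : ↥(modularFunctionFieldFull N)) :
    ∃ (c : B) (cs : ι → B), φ c ≠ 0 ∧ φ c * x = ∑ i, φ (cs i) * m i := by
  classical
  have hli : LinearIndependent ↥(IntermediateField.adjoin ℚ {IgusaScheme.jFull N}) m := by
    rw [Fintype.linearIndependent_iff]
    intro g hg i
    obtain ⟨c, cs, hc, hcs⟩ := exists_common_denom N φ hj g
    have h0 : ∑ i, φ (cs i) * m i = 0 := by
      have h1 : ∑ i, φ (cs i) * m i = φ c * ∑ i, g i • m i := by
        rw [Finset.mul_sum]
        refine Finset.sum_congr rfl fun i _ => ?_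
        rw [hcs i, mul_assoc]
        rfl
      rw [h1, hg, mul_zero]
    have h1 := hind cs h0 i
    rw [hcs i] at h1
    exact Subtype.ext ((mul_eq_zero.mp h1).resolve_left hc)
  have := finiteDimensional_Kj N
  have hcard' : Fintype.card ι =
      Module.finrank ↥(IntermediateField.adjoin ℚ {IgusaScheme.jFull N})
        ↥(modularFunctionFieldFull N) :=
    le_antisymm hli.fintype_card_le_finrank ((finrank_Kj_le N).trans hcard)
  have hspan := hli.span_eq_top_of_card_eq_finrank' hcard'
  have hx : x ∈ Submodule.span ↥(IntermediateField.adjoin ℚ {IgusaScheme.jFull N})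
      (Set.range m) := by
    rw [hspan]
    trivial
  obtain ⟨g, hg⟩ := (Submodule.mem_span_range_iff_exists_fun _).mp hx
  obtain ⟨c, cs, hc, hcs⟩ := exists_common_denom N φ hj g
  refine ⟨c, cs, hc, ?_⟩
  rw [← hg, Finset.mul_sum]
  refine Finset.sum_congr rfl fun i _ => ?_
  rw [hcs i, mul_assoc]
  rfl

end Fermat.Agent.S28.RankQ
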