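import Mathlib
import Fermat.Prelude.Def_ModularCurve_IgusaScheme

/-!
# S28: `j` and `j⁻¹` are transcendental over `ℤ_(ℓ)` in the modular function field

Leading-term argument on `q`-expansions: `jq ^ n = q^{-n} + …`.
-/

set_option autoImplicit false

namespace Fermat.Agent.S28.TranscJ

open Polynomial ModularCurve ModularCurve.IgusaScheme

/-- A polynomial relation for `jq` with coefficients pushed into `ℚ` by an injective ring hom is
trivial. -/
theorem eval₂_jq_eq_zero {R : Type*} [CommRing R] (φ : R →+* ℚ) (hφ : Function.Injective φ)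
    (P : R[X]) (h : P.eval₂ ((HahnSeries.C : ℚ →+* LaurentSeries ℚ).comp φ) jq = 0) : P = 0 := by
  rw [Polynomial.eval₂_eq_sum_range] at h
  have h1 := congrArg (fun f : LaurentSeries ℚ => f.coeff (-(P.natDegree : ℤ))) h
  simp only [HahnSeries.coeff_sum, HahnSeries.coeff_zero] at h1
  have hsm : ∀ (c : ℚ) (f : LaurentSeries ℚ) (g : ℤ),
      ((HahnSeries.C : ℚ →+* LaurentSeries ℚ) c * f).coeff g = c * f.coeff g := by
    intro c f g
    rw [HahnSeries.C_mul_eq_smul, HahnSeries.coeff_smul, smul_eq_mul]
  rw [Finset.sum_eq_single P.natDegree] at h1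
  · rw [RingHom.comp_apply, hsm, coeff_jq_pow_self, mul_one] at h1
    have h2 : P.leadingCoeff = 0 := hφ (by rw [map_zero]; exact h1)
    exact Polynomial.leadingCoeff_eq_zero.mp h2
  · intro i hi hne
    have hlt : i < P.natDegree := lt_of_le_of_ne (Nat.lt_succ_iff.mp (Finset.mem_range.mp hi)) hne
    rw [RingHom.comp_apply, hsm,
      coeff_jq_pow_of_lt (by exact_mod_cast Int.neg_lt_neg (Int.ofNat_lt.mpr hlt)), mul_zero]
  · intro h
    exact absurd (Finset.mem_range.mpr (Nat.lt_succ_self _)) h

section Chart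

variable (N : ℕ) [NeZero N] (ℓ : ℕ) [Fact ℓ.Prime]

set_option quotPrecheck false in
local notation "ℤℓ" => ↥(GaloisRep.ratLocalizedAt ℓ)

set_option quotPrecheck false in
local notation "F" => ↥(modularFunctionFieldFull N)

omit [NeZero N] [Fact (Nat.Prime ℓ)] in
/-- the coefficient embedding of `ℤℓ` into Laurent series through `F` is `C ∘ coe` -/
theorem val_comp_algebraMap :
    ((modularFunctionFieldFull N).val : F →+* LaurentSeries ℚ).comp (algebraMap ℤℓ F) =
      (HahnSeries.C : ℚ →+* LaurentSeries ℚ).comp (GaloisRep.ratLocalizedAt ℓ).subtype := by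
  have h : ((modularFunctionFieldFull N).val : F →+* LaurentSeries ℚ).comp (algebraMap ℚ F) =
      (HahnSeries.C : ℚ →+* LaurentSeries ℚ) := Subsingleton.elim _ _
  refine RingHom.ext fun a => ?_
  exact RingHom.congr_fun h (a : ℚ)

theorem transcendental_jFull : Transcendental ℤℓ (jFull N) := by
  rw [transcendental_iff_injective, injective_iff_map_eq_zero]
  intro P hP
  apply eval₂_jq_eq_zero (GaloisRep.ratLocalizedAt ℓ).subtype Subtype.val_injective P
  have h1 := congrArg ((modularFunctionFieldFull N).val : F →+* LaurentSeries ℚ) hP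
  rw [Polynomial.aeval_def, Polynomial.hom_eval₂, map_zero, val_comp_algebraMap] at h1
  exact h1

theorem transcendental_jFull_inv : Transcendental ℤℓ (jFull N)⁻¹ := by
  have hj := transcendental_jFull N ℓ
  have hj0 : jFull N ≠ 0 := by
    rintro h
    rw [h] at hj
    exact hj (isAlgebraic_zero)
  rw [transcendental_iff_injective, injective_iff_map_eq_zero] at hj ⊢
  intro P hP
  let _ : Invertible (jFull N)⁻¹ := invertibleOfNonzero (inv_ne_zero hj0)
  have h1 := Polynomial.eval₂_reverse_mul_pow (algebraMap ℤℓ F) (jFull N)⁻¹ P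
  rw [invOf_eq_inv, inv_inv] at h1
  rw [Polynomial.aeval_def] at hP
  rw [hP] at h1
  have h2 : Polynomial.aeval (jFull N) P.reverse = 0 := by
    rw [Polynomial.aeval_def]
    rcases mul_eq_zero.mp h1 with h | h
    · exact h
    · exact absurd h (pow_ne_zero _ (inv_ne_zero hj0))
  exact Polynomial.reverse_eq_zero.mp (hj _ h2)

end Chart

end Fermat.Agent.S28.TranscJ
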