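import Mathlib
import Fermat.Prelude.Def_ModularCurve_IgusaScheme
import Fermat.Agent.S28.ChartKer
import Fermat.Agent.S28.TranscJ
import Fermat.Agent.S28.Gauss
import Fermat.Agent.S28.Defs
import Fermat.Agent.S28.PolyInt

/-!
# S28: the reduction map on the two one-generator charts

For `φ : ℤ_(ℓ) →+* k` killing `ℓ` and `red = Gauss.redChart` on `chartAlg N ℓ {x₀}`,
`x₀ ∈ {j, j⁻¹}`:

* `redChart_polyChart_fin/inf`: `red (P(x₀)) = P^φ(j̄^{±1})`;
* `hR_fin/inf`: `red (P(x₀)) = 0 → ℓ ∣ P`;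
* `ker_redChart_fin/inf`: the `q`-expansion principle `ker red = ℓ · chartAlg` with the remaining
  hypotheses (a spanning family whose reductions are independent over `k[j̄^{±1}]`).
-/

set_option autoImplicit false

namespace Fermat.Agent.S28.ChartRed

open Polynomial ModularCurve ModularCurve.IgusaScheme
open Fermat.Agent.S28

section Series

variable (k : Type*) [Field k]

theorem algebraMap_eq_C :
    algebraMap k (LaurentSeries k) = (HahnSeries.C : k →+* LaurentSeries k) := by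
  refine RingHom.ext fun c => ?_
  rw [PolyInt.algebraMap_eq_single, HahnSeries.C_apply]

/-- `j̄` is transcendental over `k` (`eval₂ C` form). -/
theorem eq_zero_of_eval₂_jq (Q : k[X])
    (h : Q.eval₂ (HahnSeries.C : k →+* LaurentSeries k) (jqModC k) = 0) : Q = 0 := by
  apply PolyInt.aeval_jq_injective
  rw [Polynomial.aeval_def, algebraMap_eq_C]
  exact h

theorem jqModC_ne_zero : jqModC k ≠ 0 := by
  intro h
  have h1 := eq_zero_of_eval₂_jq k (X : k[X]) (by rw [eval₂_X, h])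
  exact X_ne_zero h1

/-- `j̄⁻¹` is transcendental over `k` (`eval₂ C` form). -/
theorem eq_zero_of_eval₂_jq_inv (Q : k[X])
    (h : Q.eval₂ (HahnSeries.C : k →+* LaurentSeries k) (jqModC k)⁻¹ = 0) : Q = 0 := by
  have hj0 := jqModC_ne_zero k
  let _ : Invertible (jqModC k)⁻¹ := invertibleOfNonzero (inv_ne_zero hj0)
  have h1 := Polynomial.eval₂_reverse_mul_pow (HahnSeries.C : k →+* LaurentSeries k)
    (jqModC k)⁻¹ Q
  rw [invOf_eq_inv, inv_inv, h] at h1
  have h2 : Q.reverse.eval₂ (HahnSeries.C : k →+* LaurentSeries k) (jqModC k) = 0 := by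
    rcases mul_eq_zero.mp h1 with h | h
    · exact h
    · exact absurd h (pow_ne_zero _ (inv_ne_zero hj0))
  exact Polynomial.reverse_eq_zero.mp (eq_zero_of_eval₂_jq k _ h2)

end Series

section Chart

variable (ℓ : ℕ) [Fact ℓ.Prime] (N : ℕ) [NeZero N] {k : Type*} [Field k]
  (φ : Gauss.Zl ℓ →+* k) (hφ : φ (Gauss.ellZ ℓ) = 0)

set_option quotPrecheck false in
local notation "ℤℓ" => ↥(GaloisRep.ratLocalizedAt ℓ)

set_option quotPrecheck false in
local notation "F" => ↥(modularFunctionFieldFull N)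

/-- the generator of a one-generator chart -/
def gen (x₀ : F) : chartAlg N ℓ {x₀} := ⟨x₀, subset_chartAlg N ℓ _ rfl⟩

theorem coe_gen (x₀ : F) : ((gen ℓ N x₀ : chartAlg N ℓ {x₀}) : F) = x₀ := rfl

theorem polyChart_X (x₀ : F) : ChartKer.polyChart N ℓ x₀ X = gen ℓ N x₀ :=
  Subtype.ext (by rw [ChartKer.coe_polyChart, aeval_X]; rfl)

/-- `red (P(x₀)) = P^φ(red x₀)` -/
theorem redChart_polyChart (x₀ : F) (hS : ({x₀} : Set F) ⊆ {jFull N, (jFull N)⁻¹}) (P : ℤℓ[X]) :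
    Gauss.redChart ℓ φ N hφ hS (ChartKer.polyChart N ℓ x₀ P) =
      (P.map φ).eval₂ HahnSeries.C (Gauss.redChart ℓ φ N hφ hS (gen ℓ N x₀)) := by
  rw [Polynomial.eval₂_map]
  have h : (Gauss.redChart ℓ φ N hφ hS).comp (ChartKer.polyChart N ℓ x₀) =
      Polynomial.eval₂RingHom ((HahnSeries.C : k →+* LaurentSeries k).comp φ)
        (Gauss.redChart ℓ φ N hφ hS (gen ℓ N x₀)) := by
    apply Polynomial.ringHom_ext
    · intro a
      rw [RingHom.comp_apply, ChartKer.polyChart_C, Gauss.redChart_algebraMap,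
        Polynomial.coe_eval₂RingHom, eval₂_C]
      rfl
    · rw [RingHom.comp_apply, polyChart_X, Polynomial.coe_eval₂RingHom, eval₂_X]
  exact RingHom.congr_fun h P

theorem redChart_gen_fin :
    Gauss.redChart ℓ φ N hφ (sFin_subset N) (gen ℓ N (jFull N)) = jqModC k :=
  Gauss.redChart_of_coe_eq_jFull ℓ φ N hφ _ _ rfl

theorem redChart_gen_inf :
    Gauss.redChart ℓ φ N hφ (sInf_subset N) (gen ℓ N (jFull N)⁻¹) = (jqModC k)⁻¹ := by
  have h : (((gen ℓ N (jFull N)⁻¹ : chartAlg N ℓ {(jFull N)⁻¹}) : F) : LaurentSeries ℚ) =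
      Gauss.incl ℓ (Defs.jqInv (Gauss.Zl ℓ)) := by
    rw [coe_gen, IntermediateField.coe_inv, coe_jFull, Gauss.incl, Defs.coeffMap_jqInv,
      Defs.jqInv_rat]
  rw [Gauss.redChart_of_incl ℓ φ N hφ _ _ (Defs.jqInv (Gauss.Zl ℓ)) h, Gauss.rho,
    Defs.coeffMap_jqInv, Defs.jqInv_eq_inv]

theorem redChart_polyChart_fin (P : ℤℓ[X]) :
    Gauss.redChart ℓ φ N hφ (sFin_subset N) (ChartKer.polyChart N ℓ (jFull N) P) =
      (P.map φ).eval₂ HahnSeries.C (jqModC k) := by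
  rw [redChart_polyChart, redChart_gen_fin]

theorem redChart_polyChart_inf (P : ℤℓ[X]) :
    Gauss.redChart ℓ φ N hφ (sInf_subset N) (ChartKer.polyChart N ℓ (jFull N)⁻¹ P) =
      (P.map φ).eval₂ HahnSeries.C (jqModC k)⁻¹ := by
  rw [redChart_polyChart, redChart_gen_inf]

theorem redChart_polyChart_fin_aeval (P : ℤℓ[X]) :
    Gauss.redChart ℓ φ N hφ (sFin_subset N) (ChartKer.polyChart N ℓ (jFull N) P) =
      Polynomial.aeval (jqModC k) (P.map φ) := by
  rw [redChart_polyChart_fin, Polynomial.aeval_def, algebraMap_eq_C]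

theorem redChart_polyChart_inf_aeval (P : ℤℓ[X]) :
    Gauss.redChart ℓ φ N hφ (sInf_subset N) (ChartKer.polyChart N ℓ (jFull N)⁻¹ P) =
      Polynomial.aeval (jqModC k)⁻¹ (P.map φ) := by
  rw [redChart_polyChart_inf, Polynomial.aeval_def, algebraMap_eq_C]

omit [NeZero N] in
/-- a polynomial over `ℤ_(ℓ)` dying under `φ` is divisible by `ℓ` -/
theorem dvd_of_map_eq_zero (P : ℤℓ[X]) (h : P.map φ = 0) : C ((ℓ : ℕ) : ℤℓ) ∣ P := by
  rw [Polynomial.C_dvd_iff_dvd_coeff]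
  intro i
  have hi : φ (P.coeff i) = 0 := by rw [← Polynomial.coeff_map, h, coeff_zero]
  exact ⟨Gauss.divEll ℓ (P.coeff i), (Gauss.ellZ_mul_divEll_of_map_eq_zero φ _ hi).symm⟩

theorem hR_fin (P : ℤℓ[X])
    (h : Gauss.redChart ℓ φ N hφ (sFin_subset N) (ChartKer.polyChart N ℓ (jFull N) P) = 0) :
    C ((ℓ : ℕ) : ℤℓ) ∣ P := by
  rw [redChart_polyChart_fin] at h
  exact dvd_of_map_eq_zero ℓ φ P (eq_zero_of_eval₂_jq k _ h)

theorem hR_inf (P : ℤℓ[X])
    (h : Gauss.redChart ℓ φ N hφ (sInf_subset N) (ChartKer.polyChart N ℓ (jFull N)⁻¹ P) = 0) :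
    C ((ℓ : ℕ) : ℤℓ) ∣ P := by
  rw [redChart_polyChart_inf] at h
  exact dvd_of_map_eq_zero ℓ φ P (eq_zero_of_eval₂_jq_inv k _ h)

/-- **`q`-expansion principle on the finite chart** `chartAlgFin N ℓ`: `ker red = ℓ · A`. -/
theorem ker_redChart_fin {n : ℕ} (m : Fin n → chartAlg N ℓ {jFull N})
    (hspan : ∀ x : chartAlg N ℓ {jFull N}, ∃ (c : ℤℓ[X]) (cs : Fin n → ℤℓ[X]), c ≠ 0 ∧
      ChartKer.polyChart N ℓ (jFull N) c * x =
        ∑ i, ChartKer.polyChart N ℓ (jFull N) (cs i) * m i)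
    (hind : ∀ c : Fin n → k[X],
      ∑ i, (c i).eval₂ HahnSeries.C (jqModC k) *
        Gauss.redChart ℓ φ N hφ (sFin_subset N) (m i) = 0 → ∀ i, c i = 0)
    (x : chartAlg N ℓ {jFull N}) (hx : Gauss.redChart ℓ φ N hφ (sFin_subset N) x = 0) :
    ∃ y : chartAlg N ℓ {jFull N}, x = (ℓ : chartAlg N ℓ {jFull N}) * y := by
  obtain ⟨y, hy⟩ := ChartKer.chart_ker_red N ℓ (jFull N) (TranscJ.transcendental_jFull N ℓ)
    (Gauss.redChart ℓ φ N hφ (sFin_subset N))
    (by rw [Gauss.redChart_algebraMap, show φ ((ℓ : ℕ) : ℤℓ) = 0 from hφ, map_zero])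
    (hR_fin ℓ N φ hφ) m hspan
    (fun cs h i => by
      rw [redChart_polyChart_fin]
      have h' : ∑ i, ((cs i).map φ).eval₂ HahnSeries.C (jqModC k) *
          Gauss.redChart ℓ φ N hφ (sFin_subset N) (m i) = 0 := by
        rw [← h]
        exact Finset.sum_congr rfl fun i _ => by rw [redChart_polyChart_fin]
      rw [hind (fun i => (cs i).map φ) h' i, eval₂_zero])
    x hx
  exact ⟨y, by rw [hy, map_natCast]⟩

/-- **`q`-expansion principle on the chart at infinity** `chartAlgInf N ℓ`: `ker red = ℓ · A`. -/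
theorem ker_redChart_inf {n : ℕ} (m : Fin n → chartAlg N ℓ {(jFull N)⁻¹})
    (hspan : ∀ x : chartAlg N ℓ {(jFull N)⁻¹}, ∃ (c : ℤℓ[X]) (cs : Fin n → ℤℓ[X]), c ≠ 0 ∧
      ChartKer.polyChart N ℓ (jFull N)⁻¹ c * x =
        ∑ i, ChartKer.polyChart N ℓ (jFull N)⁻¹ (cs i) * m i)
    (hind : ∀ c : Fin n → k[X],
      ∑ i, (c i).eval₂ HahnSeries.C (jqModC k)⁻¹ *
        Gauss.redChart ℓ φ N hφ (sInf_subset N) (m i) = 0 → ∀ i, c i = 0)
    (x : chartAlg N ℓ {(jFull N)⁻¹}) (hx : Gauss.redChart ℓ φ N hφ (sInf_subset N) x = 0) :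
    ∃ y : chartAlg N ℓ {(jFull N)⁻¹}, x = (ℓ : chartAlg N ℓ {(jFull N)⁻¹}) * y := by
  obtain ⟨y, hy⟩ := ChartKer.chart_ker_red N ℓ (jFull N)⁻¹
    (TranscJ.transcendental_jFull_inv N ℓ)
    (Gauss.redChart ℓ φ N hφ (sInf_subset N))
    (by rw [Gauss.redChart_algebraMap, show φ ((ℓ : ℕ) : ℤℓ) = 0 from hφ, map_zero])
    (hR_inf ℓ N φ hφ) m hspan
    (fun cs h i => by
      rw [redChart_polyChart_inf]
      have h' : ∑ i, ((cs i).map φ).eval₂ HahnSeries.C (jqModC k)⁻¹ *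
          Gauss.redChart ℓ φ N hφ (sInf_subset N) (m i) = 0 := by
        rw [← h]
        exact Finset.sum_congr rfl fun i _ => by rw [redChart_polyChart_inf]
      rw [hind (fun i => (cs i).map φ) h' i, eval₂_zero])
    x hx
  exact ⟨y, by rw [hy, map_natCast]⟩

end Chart

end Fermat.Agent.S28.ChartRed
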