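import Mathlib
import Fermat.Prelude.Def_ModularCurve_IgusaScheme
import Fermat.Agent.S28.ChartRed

/-!
# S28 (A): the reduction of polynomials in `j`, `j⁻¹` on the two one-generator charts

Specialisation of `ChartRed` to `φ = Gauss.resZ ℓ : ℤ_(ℓ) → 𝔽_ℓ`, in the `aeval` / `Defs.jqInv`
shape of the assembly.
-/

set_option autoImplicit false

namespace Fermat.Agent.S28.RedPoly

open Polynomial ModularCurve ModularCurve.IgusaScheme
open Fermat.Agent.S28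

variable (N : ℕ) [NeZero N] (ℓ : ℕ) [Fact ℓ.Prime]

set_option quotPrecheck false in
local notation "ℤℓ" => ↥(GaloisRep.ratLocalizedAt ℓ)

set_option quotPrecheck false in
local notation "F" => ↥(modularFunctionFieldFull N)

/-- reduction mod `ℓ` on the finite chart -/
noncomputable abbrev redFin : ↥(chartAlgFin N ℓ) →+* LaurentSeries (ZMod ℓ) :=
  Gauss.redChart ℓ (Gauss.resZ ℓ) N (Gauss.resZ_ellZ ℓ) (sFin_subset N)

/-- reduction mod `ℓ` on the chart at infinity -/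
noncomputable abbrev redInf : ↥(chartAlgInf N ℓ) →+* LaurentSeries (ZMod ℓ) :=
  Gauss.redChart ℓ (Gauss.resZ ℓ) N (Gauss.resZ_ellZ ℓ) (sInf_subset N)

theorem red_polyChart_fin (P : ℤℓ[X]) :
    Gauss.redChart ℓ (Gauss.resZ ℓ) N (Gauss.resZ_ellZ ℓ) (sFin_subset N)
        (ChartKer.polyChart N ℓ (jFull N) P) =
      Polynomial.aeval (jqModC (ZMod ℓ)) (P.map (Gauss.resZ ℓ)) :=
  ChartRed.redChart_polyChart_fin_aeval ℓ N (Gauss.resZ ℓ) (Gauss.resZ_ellZ ℓ) P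

theorem red_polyChart_inf (P : ℤℓ[X]) :
    Gauss.redChart ℓ (Gauss.resZ ℓ) N (Gauss.resZ_ellZ ℓ) (sInf_subset N)
        (ChartKer.polyChart N ℓ (jFull N)⁻¹ P) =
      Polynomial.aeval (Defs.jqInv (ZMod ℓ)) (P.map (Gauss.resZ ℓ)) := by
  rw [Defs.jqInv_eq_inv]
  exact ChartRed.redChart_polyChart_inf_aeval ℓ N (Gauss.resZ ℓ) (Gauss.resZ_ellZ ℓ) P

theorem hR_fin (P : ℤℓ[X])
    (h : Gauss.redChart ℓ (Gauss.resZ ℓ) N (Gauss.resZ_ellZ ℓ) (sFin_subset N)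
      (ChartKer.polyChart N ℓ (jFull N) P) = 0) : C ((ℓ : ℕ) : ℤℓ) ∣ P :=
  ChartRed.hR_fin ℓ N (Gauss.resZ ℓ) (Gauss.resZ_ellZ ℓ) P h

theorem hR_inf (P : ℤℓ[X])
    (h : Gauss.redChart ℓ (Gauss.resZ ℓ) N (Gauss.resZ_ellZ ℓ) (sInf_subset N)
      (ChartKer.polyChart N ℓ (jFull N)⁻¹ P) = 0) : C ((ℓ : ℕ) : ℤℓ) ∣ P :=
  ChartRed.hR_inf ℓ N (Gauss.resZ ℓ) (Gauss.resZ_ellZ ℓ) P h

/-- `red ℓ = 0` on any chart. -/
theorem red_ell {S : Set F} (hS : S ⊆ {jFull N, (jFull N)⁻¹}) :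
    Gauss.redChart ℓ (Gauss.resZ ℓ) N (Gauss.resZ_ellZ ℓ) hS
      (algebraMap ℤℓ (chartAlg N ℓ S) ((ℓ : ℕ) : ℤℓ)) = 0 := by
  rw [Gauss.redChart_algebraMap, show Gauss.resZ ℓ ((ℓ : ℕ) : ℤℓ) = 0 from Gauss.resZ_ellZ ℓ,
    map_zero]

/-- **kernel of the reduction on the finite chart**, from a spanning family with independent
reductions (`aeval` form). -/
theorem ker_fin {n : ℕ} (m : Fin n → ↥(chartAlgFin N ℓ))
    (hspan : ∀ x : ↥(chartAlgFin N ℓ), ∃ (c : ℤℓ[X]) (cs : Fin n → ℤℓ[X]), c ≠ 0 ∧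
      ChartKer.polyChart N ℓ (jFull N) c * x =
        ∑ i, ChartKer.polyChart N ℓ (jFull N) (cs i) * m i)
    (hind : ∀ c : Fin n → (ZMod ℓ)[X],
      ∑ i, Polynomial.aeval (jqModC (ZMod ℓ)) (c i) *
        Gauss.redChart ℓ (Gauss.resZ ℓ) N (Gauss.resZ_ellZ ℓ) (sFin_subset N) (m i) = 0 →
      ∀ i, c i = 0)
    (x : ↥(chartAlgFin N ℓ))
    (hx : Gauss.redChart ℓ (Gauss.resZ ℓ) N (Gauss.resZ_ellZ ℓ) (sFin_subset N) x = 0) :
    ∃ y : ↥(chartAlgFin N ℓ), x = (ℓ : ↥(chartAlgFin N ℓ)) * y :=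
  ChartRed.ker_redChart_fin ℓ N (Gauss.resZ ℓ) (Gauss.resZ_ellZ ℓ) m hspan
    (fun c h => hind c (by
      rw [← h]
      exact Finset.sum_congr rfl fun i _ => by
        rw [Polynomial.aeval_def, ChartRed.algebraMap_eq_C])) x hx

/-- **kernel of the reduction on the chart at infinity** (`aeval` / `jqInv` form). -/
theorem ker_inf {n : ℕ} (m : Fin n → ↥(chartAlgInf N ℓ))
    (hspan : ∀ x : ↥(chartAlgInf N ℓ), ∃ (c : ℤℓ[X]) (cs : Fin n → ℤℓ[X]), c ≠ 0 ∧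
      ChartKer.polyChart N ℓ (jFull N)⁻¹ c * x =
        ∑ i, ChartKer.polyChart N ℓ (jFull N)⁻¹ (cs i) * m i)
    (hind : ∀ c : Fin n → (ZMod ℓ)[X],
      ∑ i, Polynomial.aeval (Defs.jqInv (ZMod ℓ)) (c i) *
        Gauss.redChart ℓ (Gauss.resZ ℓ) N (Gauss.resZ_ellZ ℓ) (sInf_subset N) (m i) = 0 →
      ∀ i, c i = 0)
    (x : ↥(chartAlgInf N ℓ))
    (hx : Gauss.redChart ℓ (Gauss.resZ ℓ) N (Gauss.resZ_ellZ ℓ) (sInf_subset N) x = 0) :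
    ∃ y : ↥(chartAlgInf N ℓ), x = (ℓ : ↥(chartAlgInf N ℓ)) * y :=
  ChartRed.ker_redChart_inf ℓ N (Gauss.resZ ℓ) (Gauss.resZ_ellZ ℓ) m hspan
    (fun c h => hind c (by
      rw [← h]
      exact Finset.sum_congr rfl fun i _ => by
        rw [Polynomial.aeval_def, ChartRed.algebraMap_eq_C, Defs.jqInv_eq_inv])) x hx

end Fermat.Agent.S28.RedPoly
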