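import Mathlib
import Fermat.Prelude.Def_ModularCurve_IgusaScheme
import Fermat.Agent.S28.RankQ
import Fermat.Agent.S28.RedPoly

/-!
# S28 (E): the spanning hypothesis of the chart `q`-expansion principle

For a one-generator chart `chartAlg N ℓ {x₀}`, `x₀ ∈ {j, j⁻¹}`, and `ψ(N)` elements `m i` of the
chart whose reductions are independent over the reduction of `ℤ_(ℓ)[x₀]`, every element of the
chart is, up to a nonzero denominator in `ℤ_(ℓ)[x₀]`, a `ℤ_(ℓ)[x₀]`-combination of the `m i`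
(`hspan_of_hind`).  This is the `hspan` hypothesis of `ChartKer.chart_ker_red`; the packaged
corollaries `ker_fin_psi`, `ker_inf_psi` are `RedPoly.ker_fin`, `RedPoly.ker_inf` without it.
-/

set_option autoImplicit false

namespace Fermat.Agent.S28.RankQChart

open Polynomial ModularCurve ModularCurve.IgusaScheme
open Fermat.Agent.S28

variable (N : ℕ) [NeZero N] (ℓ : ℕ) [Fact ℓ.Prime]

set_option quotPrecheck false in
local notation "ℤℓ" => ↥(GaloisRep.ratLocalizedAt ℓ)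

set_option quotPrecheck false in
local notation "F" => ↥(modularFunctionFieldFull N)

theorem polyChart_C_ell_ne_zero (x₀ : F) :
    ChartKer.polyChart N ℓ x₀ (C ((ℓ : ℕ) : ℤℓ)) ≠ 0 := by
  have hℓ : ℓ.Prime := Fact.out
  intro h0
  have h1 := congrArg (Subtype.val : chartAlg N ℓ {x₀} → F) h0
  rw [ChartKer.coe_polyChart, aeval_C, map_natCast, ZeroMemClass.coe_zero] at h1
  have h2 : algebraMap ℚ F ((ℓ : ℕ) : ℚ) = algebraMap ℚ F 0 := by
    rw [map_natCast, map_zero]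
    exact h1
  exact hℓ.ne_zero (Nat.cast_eq_zero.mp ((algebraMap ℚ F).injective h2))

/-- characteristic-zero independence over `ℤ_(ℓ)[x₀]` from the independence of the reductions -/
theorem ind0_of_hind (x₀ : F) {T : Type*} [CommRing T] (red : chartAlg N ℓ {x₀} →+* T)
    (hR : ∀ P : ℤℓ[X], red (ChartKer.polyChart N ℓ x₀ P) = 0 → C ((ℓ : ℕ) : ℤℓ) ∣ P)
    {n : ℕ} (m : Fin n → chartAlg N ℓ {x₀})
    (hind : ∀ cs : Fin n → ℤℓ[X],
      ∑ i, red (ChartKer.polyChart N ℓ x₀ (cs i)) * red (m i) = 0 →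
        ∀ i, red (ChartKer.polyChart N ℓ x₀ (cs i)) = 0)
    (cs : Fin n → ℤℓ[X]) (h : ∑ i, ChartKer.polyChart N ℓ x₀ (cs i) * m i = 0) :
    ∀ i, cs i = 0 := by
  have key : ∀ k : ℕ, ∀ cs : Fin n → ℤℓ[X],
      ∑ i, ChartKer.polyChart N ℓ x₀ (cs i) * m i = 0 →
        ∀ i, (C ((ℓ : ℕ) : ℤℓ)) ^ k ∣ cs i := by
    intro k
    induction k with
    | zero =>
      intro cs _ i
      rw [pow_zero]
      exact one_dvd _
    | succ k ih =>
      intro cs hcs i
      have h1 : ∑ i, red (ChartKer.polyChart N ℓ x₀ (cs i)) * red (m i) = 0 := by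
        have := congrArg red hcs
        simpa [map_sum, map_mul] using this
      have h2 := fun i => hR _ (hind cs h1 i)
      choose cs' hcs' using h2
      have h3 : ∑ i, ChartKer.polyChart N ℓ x₀ (cs' i) * m i = 0 := by
        have h4 : ChartKer.polyChart N ℓ x₀ (C ((ℓ : ℕ) : ℤℓ)) *
            ∑ i, ChartKer.polyChart N ℓ x₀ (cs' i) * m i = 0 := by
          rw [Finset.mul_sum, ← hcs]
          refine Finset.sum_congr rfl fun i _ => ?_
          rw [hcs' i, map_mul, mul_assoc]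
        exact (mul_eq_zero.mp h4).resolve_left (polyChart_C_ell_ne_zero N ℓ x₀)
      rw [hcs' i, pow_succ']
      exact mul_dvd_mul_left _ (ih cs' h3 i)
  intro i
  by_contra hne
  obtain ⟨k, hk⟩ := ChartKer.exists_not_C_pow_dvd ℓ (cs i) hne
  exact hk (key k cs h i)

/-- the spanning statement from characteristic-zero independence -/
theorem hspan_of_ind0 (x₀ : F) (hx₀ : x₀ = jFull N ∨ x₀ = (jFull N)⁻¹)
    {n : ℕ} (hn : dedekindPsi N ≤ n) (m : Fin n → chartAlg N ℓ {x₀})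
    (hind0 : ∀ cs : Fin n → ℤℓ[X],
      ∑ i, ChartKer.polyChart N ℓ x₀ (cs i) * m i = 0 → ∀ i, cs i = 0)
    (x : chartAlg N ℓ {x₀}) :
    ∃ (c : ℤℓ[X]) (cs : Fin n → ℤℓ[X]), c ≠ 0 ∧
      ChartKer.polyChart N ℓ x₀ c * x = ∑ i, ChartKer.polyChart N ℓ x₀ (cs i) * m i := by
  set φ : ℤℓ[X] →+* F :=
    (chartAlg N ℓ {x₀}).val.toRingHom.comp (ChartKer.polyChart N ℓ x₀) with hφ
  have hφa : ∀ P : ℤℓ[X], φ P = ((ChartKer.polyChart N ℓ x₀ P : chartAlg N ℓ {x₀}) : F) :=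
    fun P => rfl
  have hφX : φ X = x₀ := by
    rw [hφa, ChartKer.coe_polyChart, aeval_X]
  have hφ1 : φ 1 = 1 := map_one φ
  have hj : ∃ a b : ℤℓ[X], φ b ≠ 0 ∧ φ b * jFull N = φ a := by
    rcases hx₀ with h | h
    · exact ⟨X, 1, by rw [hφ1]; exact one_ne_zero, by rw [hφ1, one_mul, hφX, h]⟩
    · refine ⟨1, X, ?_, ?_⟩
      · rw [hφX, h]
        exact inv_ne_zero (jFull_ne_zero N)
      · rw [hφX, hφ1, h, inv_mul_cancel₀ (jFull_ne_zero N)]
  obtain ⟨c, cs, hc, hcs⟩ := RankQ.exists_span N φ hj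
    (by rw [Fintype.card_fin]; exact hn) (fun i => ((m i : chartAlg N ℓ {x₀}) : F))
    (fun cs h i => by
      have h' : ∑ i, ChartKer.polyChart N ℓ x₀ (cs i) * m i = 0 := by
        apply Subtype.ext
        rw [ZeroMemClass.coe_zero, ← h, AddSubmonoidClass.coe_finsetSum]
        rfl
      rw [hind0 cs h' i, map_zero]) (x : F)
  refine ⟨c, cs, fun h0 => hc (by rw [h0, map_zero]), Subtype.ext ?_⟩
  rw [Subalgebra.coe_mul, AddSubmonoidClass.coe_finsetSum]
  exact hcs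

/-- **(E)** the `hspan` hypothesis of `ChartKer.chart_ker_red` from `hR` and `hind`, for
`ψ(N)` elements of a one-generator chart. -/
theorem hspan_of_hind (x₀ : F) (hx₀ : x₀ = jFull N ∨ x₀ = (jFull N)⁻¹)
    {T : Type*} [CommRing T] (red : chartAlg N ℓ {x₀} →+* T)
    (hR : ∀ P : ℤℓ[X], red (ChartKer.polyChart N ℓ x₀ P) = 0 → C ((ℓ : ℕ) : ℤℓ) ∣ P)
    (m : Fin (dedekindPsi N) → chartAlg N ℓ {x₀})
    (hind : ∀ cs : Fin (dedekindPsi N) → ℤℓ[X],
      ∑ i, red (ChartKer.polyChart N ℓ x₀ (cs i)) * red (m i) = 0 →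
        ∀ i, red (ChartKer.polyChart N ℓ x₀ (cs i)) = 0) :
    ∀ x : chartAlg N ℓ {x₀}, ∃ (c : ℤℓ[X]) (cs : Fin (dedekindPsi N) → ℤℓ[X]), c ≠ 0 ∧
      ChartKer.polyChart N ℓ x₀ c * x = ∑ i, ChartKer.polyChart N ℓ x₀ (cs i) * m i :=
  fun x => hspan_of_ind0 N ℓ x₀ hx₀ le_rfl m (ind0_of_hind N ℓ x₀ red hR m hind) x

/-- **kernel of the reduction on the finite chart** from `ψ(N)` elements with independent
reductions: `RedPoly.ker_fin` without the spanning hypothesis. -/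
theorem ker_fin_psi (m : Fin (dedekindPsi N) → ↥(chartAlgFin N ℓ))
    (hind : ∀ c : Fin (dedekindPsi N) → (ZMod ℓ)[X],
      ∑ i, Polynomial.aeval (jqModC (ZMod ℓ)) (c i) *
        Gauss.redChart ℓ (Gauss.resZ ℓ) N (Gauss.resZ_ellZ ℓ) (sFin_subset N) (m i) = 0 →
      ∀ i, c i = 0)
    (x : ↥(chartAlgFin N ℓ))
    (hx : Gauss.redChart ℓ (Gauss.resZ ℓ) N (Gauss.resZ_ellZ ℓ) (sFin_subset N) x = 0) :
    ∃ y : ↥(chartAlgFin N ℓ), x = (ℓ : ↥(chartAlgFin N ℓ)) * y :=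
  RedPoly.ker_fin N ℓ m
    (hspan_of_hind N ℓ (jFull N) (Or.inl rfl)
      (Gauss.redChart ℓ (Gauss.resZ ℓ) N (Gauss.resZ_ellZ ℓ) (sFin_subset N))
      (RedPoly.hR_fin N ℓ) m (fun cs h i => by
        rw [RedPoly.red_polyChart_fin]
        have h' : ∑ i, Polynomial.aeval (jqModC (ZMod ℓ)) ((cs i).map (Gauss.resZ ℓ)) *
            Gauss.redChart ℓ (Gauss.resZ ℓ) N (Gauss.resZ_ellZ ℓ) (sFin_subset N) (m i) = 0 := by
          rw [← h]
          exact Finset.sum_congr rfl fun i _ => by rw [RedPoly.red_polyChart_fin]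
        rw [hind (fun i => (cs i).map (Gauss.resZ ℓ)) h' i, map_zero]))
    hind x hx

/-- **kernel of the reduction on the chart at infinity** from `ψ(N)` elements with independent
reductions: `RedPoly.ker_inf` without the spanning hypothesis. -/
theorem ker_inf_psi (m : Fin (dedekindPsi N) → ↥(chartAlgInf N ℓ))
    (hind : ∀ c : Fin (dedekindPsi N) → (ZMod ℓ)[X],
      ∑ i, Polynomial.aeval (Defs.jqInv (ZMod ℓ)) (c i) *
        Gauss.redChart ℓ (Gauss.resZ ℓ) N (Gauss.resZ_ellZ ℓ) (sInf_subset N) (m i) = 0 →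
      ∀ i, c i = 0)
    (x : ↥(chartAlgInf N ℓ))
    (hx : Gauss.redChart ℓ (Gauss.resZ ℓ) N (Gauss.resZ_ellZ ℓ) (sInf_subset N) x = 0) :
    ∃ y : ↥(chartAlgInf N ℓ), x = (ℓ : ↥(chartAlgInf N ℓ)) * y :=
  RedPoly.ker_inf N ℓ m
    (hspan_of_hind N ℓ (jFull N)⁻¹ (Or.inr rfl)
      (Gauss.redChart ℓ (Gauss.resZ ℓ) N (Gauss.resZ_ellZ ℓ) (sInf_subset N))
      (RedPoly.hR_inf N ℓ) m (fun cs h i => by
        rw [RedPoly.red_polyChart_inf]
        have h' : ∑ i, Polynomial.aeval (Defs.jqInv (ZMod ℓ)) ((cs i).map (Gauss.resZ ℓ)) *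
            Gauss.redChart ℓ (Gauss.resZ ℓ) N (Gauss.resZ_ellZ ℓ) (sInf_subset N) (m i) = 0 := by
          rw [← h]
          exact Finset.sum_congr rfl fun i _ => by rw [RedPoly.red_polyChart_inf]
        rw [hind (fun i => (cs i).map (Gauss.resZ ℓ)) h' i, map_zero]))
    hind x hx

end Fermat.Agent.S28.RankQChart
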