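import Mathlib
import Fermat.Prelude.Def_ModularCurve_IgusaScheme
import Fermat.Agent.S28.Defs
import Fermat.Agent.S28.Glue
import Fermat.Agent.S28.TensorRed
import Fermat.Agent.S28.MidChart
import Fermat.Agent.S28.RankQChart
import Fermat.Agent.S28.ChartMono

/-!
# S28: final assembly

The base change of the Igusa model to a field `K` of characteristic `ℓ ∤ N` is integral, from

* `hInt` : `j(q^d)` is integral over `ℤ[j]` for `d ∣ N` (characteristic `0`, modular equation);
* `hM5`  : there are `ψ(N)` monomials in the `j(q^d)`, `d ∣ N`, whose reductions mod `ℓ` are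
  linearly independent over `𝔽_ℓ[j̄]` (the degree of the reduced function field is `≥ ψ(N)`).

Chain: `ChartMono` turns the monomials into elements of the two one-generator charts with known
reductions; `RankQChart.ker_fin_psi / ker_inf_psi` (`q`-expansion principle with the rank bound in
characteristic `0`) give `ker red = ℓ · chart`; `TensorRed` embeds `chart ⊗ K` into `K((q))`;
`MidChart` handles the overlap; `Glue` glues.
-/

set_option autoImplicit false

namespace Fermat.Agent.S28.Final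

open AlgebraicGeometry CategoryTheory CategoryTheory.Limits
open ModularCurve ModularCurve.IgusaScheme
open Fermat.Agent.S28

variable (N : ℕ) [NeZero N] (ℓ : ℕ) [Fact ℓ.Prime]

/-- the characteristic `0` input: integrality of the `j(q^d)`, `d ∣ N`, over `ℤ[j]`. -/
def IntStatement : Prop :=
  ∀ d : ℕ, d ∣ N → IsIntegral (Algebra.adjoin ℤ {jq}) (Defs.jd ℚ d)

/-- the characteristic `ℓ` input: `ψ(N)` monomials independent over `𝔽_ℓ[j̄]`. -/
def MonoStatement : Prop :=
  ∃ m : Fin (dedekindPsi N) → (ℕ →₀ ℕ), (∀ i, ∀ d ∈ (m i).support, d ∣ N) ∧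
    ∀ c : Fin (dedekindPsi N) → Polynomial (ZMod ℓ),
      ∑ i, Polynomial.aeval (jqModC (ZMod ℓ)) (c i) * Defs.mono (ZMod ℓ) (m i) = 0 → ∀ i, c i = 0

/-- `ker red = ℓ · A` for the finite chart. -/
theorem ker_fin (hInt : IntStatement N) (hM5 : MonoStatement N ℓ) (x : ↥(chartAlgFin N ℓ))
    (hx : Gauss.redChart ℓ (Gauss.resZ ℓ) N (Gauss.resZ_ellZ ℓ) (sFin_subset N) x = 0) :
    ∃ y : ↥(chartAlgFin N ℓ), x = (ℓ : ↥(chartAlgFin N ℓ)) * y := by
  obtain ⟨mexp, hsupp, hM5⟩ := hM5
  choose xF _ hredF using fun i => ChartMono.exists_fin_mono N ℓ hInt (mexp i) (hsupp i)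
  refine RankQChart.ker_fin_psi N ℓ xF (fun c hc => hM5 c ?_) x hx
  rw [← hc]
  exact Finset.sum_congr rfl fun i _ => by rw [hredF i]

/-- `ker red = ℓ · A` for the chart at infinity. -/
theorem ker_inf (hInt : IntStatement N) (hM5 : MonoStatement N ℓ) (x : ↥(chartAlgInf N ℓ))
    (hx : Gauss.redChart ℓ (Gauss.resZ ℓ) N (Gauss.resZ_ellZ ℓ) (sInf_subset N) x = 0) :
    ∃ y : ↥(chartAlgInf N ℓ), x = (ℓ : ↥(chartAlgInf N ℓ)) * y := by
  obtain ⟨mexp, hsupp, hM5⟩ := hM5
  choose M xI _ hredI using fun i => ChartMono.exists_inf_mono N ℓ hInt (mexp i) (hsupp i)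
  refine RankQChart.ker_inf_psi N ℓ xI (fun c hc => ChartMono.hind_inv mexp M hM5 c ?_) x hx
  rw [← hc]
  exact Finset.sum_congr rfl fun i _ => by rw [hredI i]

/-- **S28 from the two arithmetic inputs.** -/
theorem isIntegral_pullback (hInt : IntStatement N) (hM5 : MonoStatement N ℓ)
    (K : Type) [Field K] [CharP K ℓ] [Algebra ↥(GaloisRep.ratLocalizedAt ℓ) K] :
    IsIntegral ↑(pullback (igusaTo N ℓ)
      (Spec.map (CommRingCat.ofHom (algebraMap ↥(GaloisRep.ratLocalizedAt ℓ) K)))) :=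
  Glue.isIntegral_pullback_igusaTo N ℓ K
    (TensorRed.isDomain_tensor_of_red ℓ _ _ K (ker_fin N ℓ hInt hM5))
    (TensorRed.isDomain_tensor_of_red ℓ _ _ K (ker_inf N ℓ hInt hM5))
    (MidChart.isDomain_mid_redChart N ℓ K (ker_fin N ℓ hInt hM5))

end Fermat.Agent.S28.Final
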