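import Fermat.Agent.S28.ModPkgC
import Fermat.Agent.S28.ModPkgOrd
import Fermat.Agent.S28.ModPkgRed
import Fermat.Agent.S28.JTower

/-!
# S28 (ModPkg): `j(q^d)` is integral over `ℤ[j]`

The modular polynomial `Φ_p` has algebraic integer coefficients (`ModPkgRed.exists_lifts`), so
`j(q^p)` is integral over `ℤ[j]` inside `ℂ((q))`, hence inside `ℚ((q))`; the composite case is
`JTower.isIntegral_jd`.
-/

namespace Fermat.Agent.S28.ModPkgJp

open Polynomial ModularCurve Fermat.Agent.S28.ModPkg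

/-- A root of a monic polynomial whose coefficients are integral is integral. -/
theorem isIntegral_of_monic_of_coeff {R A : Type*} [CommRing R] [CommRing A] [Algebra R A]
    (F : Polynomial A) (hF : F.Monic) (hc : ∀ n, IsIntegral R (F.coeff n)) (x : A)
    (hx : F.eval x = 0) : IsIntegral R x := by
  have hl : F ∈ Polynomial.lifts (algebraMap (integralClosure R A) A) := by
    rw [Polynomial.lifts_iff_coeff_lifts]
    intro n
    exact ⟨⟨F.coeff n, hc n⟩, rfl⟩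
  obtain ⟨G, hG, -, hGm⟩ := Polynomial.lifts_and_natDegree_eq_and_monic hl hF
  have hxB : IsIntegral (integralClosure R A) x :=
    ⟨G, hGm, by rw [← Polynomial.eval_map, hG, hx]⟩
  exact isIntegral_trans x hxB

/-- `j(q^p)` is integral over `ℤ[j]` in `ℂ((q))`, in ring-hom form. -/
theorem isIntegralElem_jp (p : ℕ) [Fact p.Prime] :
    ((Polynomial.aeval (jqModC ℂ) : Polynomial ℤ →ₐ[ℤ] LaurentSeries ℂ) :
      Polynomial ℤ →+* LaurentSeries ℂ).IsIntegralElem (qExpand ℂ p (jqModC ℂ)) := by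
  obtain ⟨Φ, T, Ψ, hΦ, hΦd, hΨ, hΨd, hT, h2, h3, h4, h5, h6, h6'⟩ := exists_complex p
  have hb0 : (phiZero ℤ p).coeff (1 - (p : ℤ)) ≠ 0 := by
    rw [coeff_phiZero]; exact one_ne_zero
  obtain ⟨Φ₀, T₀, Ψ₀, hΦ₀, -, -⟩ := ModPkgRed.exists_lifts p (phiInf ℤ p) (phiZero ℤ p) hb0 Φ T Ψ
    hΦ hΦd hΨ hΨd hT ⟨h2, h3, h4, h5, h6, h6'⟩
  letI : Algebra (Polynomial ℤ) (LaurentSeries ℂ) :=
    ((Polynomial.aeval (jqModC ℂ) : Polynomial ℤ →ₐ[ℤ] LaurentSeries ℂ) :
      Polynomial ℤ →+* LaurentSeries ℂ).toAlgebra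
  show IsIntegral (Polynomial ℤ) (qExpand ℂ p (jqModC ℂ))
  have hj : IsIntegral (Polynomial ℤ) (jqModC ℂ) := by
    have : jqModC ℂ = algebraMap (Polynomial ℤ) (LaurentSeries ℂ) X := by
      rw [RingHom.algebraMap_toAlgebra]
      simp
    rw [this]
    exact isIntegral_algebraMap
  refine isIntegral_of_monic_of_coeff (Φ.map (Polynomial.aeval (jqModC ℂ)).toRingHom)
    (hΦ.map _) ?_ _ h2
  intro n
  rw [Polynomial.coeff_map]
  have hcoe : Φ.coeff n = (Φ₀.coeff n).map ModPkgRed.OC.subtype := by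
    rw [← hΦ₀, Polynomial.coeff_map]
    rfl
  show IsIntegral (Polynomial ℤ) (Polynomial.aeval (jqModC ℂ) (Φ.coeff n))
  rw [hcoe, Polynomial.aeval_eq_sum_range]
  refine IsIntegral.sum _ fun m _ => ?_
  rw [Algebra.smul_def]
  refine IsIntegral.mul ?_ (hj.pow m)
  have hc : IsIntegral ℤ (((Φ₀.coeff n).map ModPkgRed.OC.subtype).coeff m) := by
    rw [Polynomial.coeff_map]
    exact ((Φ₀.coeff n).coeff m).2
  obtain ⟨Q, hQm, hQ⟩ := hc
  refine ⟨Q.map (Polynomial.C : ℤ →+* Polynomial ℤ), hQm.map _, ?_⟩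
  rw [Polynomial.eval₂_map]
  have hcomp : (algebraMap (Polynomial ℤ) (LaurentSeries ℂ)).comp
      (Polynomial.C : ℤ →+* Polynomial ℤ) =
      (algebraMap ℂ (LaurentSeries ℂ)).comp (algebraMap ℤ ℂ) := RingHom.ext_int _ _
  rw [hcomp, ← Polynomial.hom_eval₂, hQ, map_zero]

/-- `j(q^p)` is integral over `ℤ[j]` in `ℚ((q))`. -/
theorem isIntegral_jp (p : ℕ) [Fact p.Prime] :
    IsIntegral (Algebra.adjoin ℤ {jq}) (qExpand ℚ p jq) := by
  obtain ⟨P, hPm, hP⟩ := isIntegralElem_jp p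
  have hψ : Function.Injective (coeffMap (algebraMap ℚ ℂ)) :=
    ModPkgRed.coeffMap_injective _ (algebraMap ℚ ℂ).injective
  have hjq : coeffMap (algebraMap ℚ ℂ) jq = jqModC ℂ := coeffMap_jqModC (algebraMap ℚ ℂ)
  have hcomp : (coeffMap (algebraMap ℚ ℂ)).comp
      ((Polynomial.aeval jq : Polynomial ℤ →ₐ[ℤ] LaurentSeries ℚ) :
        Polynomial ℤ →+* LaurentSeries ℚ) =
      ((Polynomial.aeval (jqModC ℂ) : Polynomial ℤ →ₐ[ℤ] LaurentSeries ℂ) :
        Polynomial ℤ →+* LaurentSeries ℂ) := by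
    apply Polynomial.ringHom_ext'
    · exact RingHom.ext_int _ _
    · simp [hjq]
  have h0 : Polynomial.eval₂ ((Polynomial.aeval jq : Polynomial ℤ →ₐ[ℤ] LaurentSeries ℚ) :
      Polynomial ℤ →+* LaurentSeries ℚ) (qExpand ℚ p jq) P = 0 := by
    apply hψ
    rw [map_zero, Polynomial.hom_eval₂, hcomp, coeffMap_qExpand, hjq]
    exact hP
  let g' : Polynomial ℤ →+* Algebra.adjoin ℤ {jq} :=
    ((Polynomial.aeval (⟨jq, Algebra.subset_adjoin rfl⟩ : Algebra.adjoin ℤ {jq}) :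
      Polynomial ℤ →ₐ[ℤ] Algebra.adjoin ℤ {jq}) : Polynomial ℤ →+* Algebra.adjoin ℤ {jq})
  have hg' : (algebraMap (Algebra.adjoin ℤ {jq}) (LaurentSeries ℚ)).comp g' =
      ((Polynomial.aeval jq : Polynomial ℤ →ₐ[ℤ] LaurentSeries ℚ) :
        Polynomial ℤ →+* LaurentSeries ℚ) := by
    apply Polynomial.ringHom_ext'
    · exact RingHom.ext_int _ _
    · simp [g']
  refine ⟨P.map g', hPm.map _, ?_⟩
  rw [Polynomial.eval₂_map, hg']
  exact h0

/-- the prime case, in the shape of the hypothesis of `JTower.isIntegral_jd` -/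
theorem isIntegral_jd_prime (p : ℕ) (hp : p.Prime) :
    IsIntegral (Algebra.adjoin ℤ {jq}) (Defs.jd ℚ p) := by
  haveI : Fact p.Prime := ⟨hp⟩
  rw [Defs.jd_rat]
  exact isIntegral_jp p

/-- **`j(q^d)` is integral over `ℤ[j]`** for every `d ≠ 0`. -/
theorem isIntegral_jd (d : ℕ) (hd : d ≠ 0) :
    IsIntegral (Algebra.adjoin ℤ {jq}) (Defs.jd ℚ d) :=
  JTower.isIntegral_jd (B := ℤ) (A := ℚ) d hd fun p hp _ => isIntegral_jd_prime p hp

end Fermat.Agent.S28.ModPkgJp
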