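import Mathlib
import Fermat.Prelude.Def_ModularCurve_X0ModL
import Fermat.Agent.S28.Defs
import Fermat.Agent.S28.JTower
import Fermat.Agent.S28.EmbCount
import Fermat.Agent.S28.CruxL

/-!
# S28 (M5), assembler, part 3: from the modular-equation data to the independent monomials

* `isIntegral_adjoin_of_ev` : a monic two-variable relation `Φ(a, b) = 0` makes `a` integral over
  `k[b]`.
* `dedekindPsi_le_finrank_of_integral` : the hypotheses `hint`, `hu` of
  `CruxL.dedekindPsi_le_finrank` discharged from integrality of the units over `k[j]`, `k[j(q^p)]`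
  and `a p * b p = const`.
* `exists_monomials_field` : `ψ(N)` monomials in the `j(q^d)`, `d ∣ N`, independent over `k[j]`
  (`k` algebraically closed).
* `indep_descent` : descent of the independence along a field extension `F → k`.
* `exists_monomials_of_integral`, `exists_monomials_of_pkg` : the statement over `ZMod ℓ`.
-/

set_option autoImplicit false

noncomputable section

open ModularCurve HahnSeries
open scoped IntermediateField.algebraAdjoinAdjoin

namespace Fermat.Agent.S28.CharLDeg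

open Fermat.Agent.S28 Fermat.Agent.S28.CruxL Fermat.Agent.S28.SlopeTower

section General

variable (k : Type*) [Field k]

/-- A monic two-variable relation `Φ(a, b) = 0` makes `a` integral over `k[b]`. -/
theorem isIntegral_adjoin_of_ev (a b : LaurentSeries k) (Φ : Polynomial (Polynomial k))
    (hΦ : Φ.Monic) (h : (Φ.map (Polynomial.aeval b).toRingHom).eval a = 0) :
    IsIntegral (Algebra.adjoin k {b}) a := by
  let bS : Algebra.adjoin k {b} := ⟨b, Algebra.subset_adjoin rfl⟩
  let g : Polynomial k →+* Algebra.adjoin k {b} := (Polynomial.aeval (R := k) bS).toRingHom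
  have hg : (algebraMap (Algebra.adjoin k {b}) (LaurentSeries k)).comp g =
      (Polynomial.aeval (R := k) b).toRingHom := by
    refine Polynomial.ringHom_ext (fun c => ?_) ?_
    · simp only [RingHom.comp_apply, g, AlgHom.toRingHom_eq_coe, RingHom.coe_coe,
        Polynomial.aeval_C]
      rfl
    · simp only [RingHom.comp_apply, g, AlgHom.toRingHom_eq_coe, RingHom.coe_coe,
        Polynomial.aeval_X]
      rfl
  refine ⟨Φ.map g, hΦ.map g, ?_⟩
  rw [Polynomial.eval₂_map, hg, ← Polynomial.eval_map]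
  exact h

/-- Constants are integral over `k[j]`. -/
theorem isIntegral_C (c : k) : IsIntegral (Rj k) (HahnSeries.C c : LaurentSeries k) := by
  have h := isIntegral_algebraMap (R := Rj k) (A := LaurentSeries k)
    (x := algebraMap k (Rj k) c)
  have h2 : algebraMap (Rj k) (LaurentSeries k) (algebraMap k (Rj k) c) = HahnSeries.C c := by
    rw [← IsScalarTower.algebraMap_apply, algebraMap_laurentSeries_eq_single, HahnSeries.C_apply]
  rwa [h2] at h

variable {k}

/-- `j(q^d)` is integral over `k[j]` for every `d ∣ N`, from the modular equations at the primes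
dividing `N`. -/
theorem isIntegral_jd_of_pkg {N : ℕ} (hN : 0 < N) {a b : ℕ → LaurentSeries k}
    (hpkg : PkgHyp N (jqModC k) a b) (d : ℕ) (hd : d ∣ N) :
    IsIntegral (Rj k) (Defs.jd k d) := by
  have hd0 : d ≠ 0 := fun h => hN.ne' (by rw [h, zero_dvd_iff] at hd; exact hd)
  refine JTower.isIntegral_jd (B := k) (A := k) d hd0 fun p hp hpd => ?_
  have : NeZero p := ⟨hp.ne_zero⟩
  obtain ⟨-, Φ, T, hmon, -, h2, -⟩ := hpkg p hp (hpd.trans hd)
  rw [Defs.jd_of_neZero]
  exact isIntegral_adjoin_of_ev k _ _ Φ hmon h2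

/-- The step units `(a p)(q^d)` and their inverses are integral over `k[j]`. -/
theorem isIntegral_unit {N : ℕ} (hN : 0 < N) {a b : ℕ → LaurentSeries k}
    (hpkg : PkgHyp N (jqModC k) a b)
    (hab : ∀ p : ℕ, p.Prime → p ∣ N → ∃ c : k, c ≠ 0 ∧ a p * b p = HahnSeries.C c)
    (haint : ∀ p : ℕ, p.Prime → p ∣ N → IsIntegral (Algebra.adjoin k {jqModC k}) (a p))
    (hbint : ∀ (p : ℕ) [NeZero p], p.Prime → p ∣ N →
      IsIntegral (Algebra.adjoin k {qExpand k p (jqModC k)}) (b p))
    (p d : ℕ) [NeZero d] (hp : p.Prime) (hdp : d * p ∣ N) :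
    IsIntegral (Rj k) (qExpand k d (a p)) ∧ IsIntegral (Rj k) (qExpand k d (a p))⁻¹ := by
  have : NeZero p := ⟨hp.ne_zero⟩
  have : NeZero (d * p) := ⟨Nat.mul_ne_zero (NeZero.ne d) hp.ne_zero⟩
  have hpN : p ∣ N := (Dvd.intro_left d rfl).trans hdp
  have hdN : d ∣ N := (Dvd.intro p rfl).trans hdp
  -- `j(q^d)` and `j(q^(d p))` are integral over `k[j]`
  have hjd : IsIntegral (Rj k) (qExpand k d (jqModC k)) := by
    rw [← Defs.jd_of_neZero]
    exact isIntegral_jd_of_pkg hN hpkg d hdN
  have hjdp : IsIntegral (Rj k) (qExpand k d (qExpand k p (jqModC k))) := by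
    rw [qExpand_qExpand, ← Defs.jd_of_neZero]
    exact isIntegral_jd_of_pkg hN hpkg (d * p) hdp
  have h1 : IsIntegral (Rj k) (qExpand k d (a p)) :=
    JTower.isIntegral_of_isIntegral_adjoin (Rj k) _ _ hjd
      (JTower.isIntegral_qExpand (B := k) d (jqModC k) (a p) (haint p hp hpN))
  have h2 : IsIntegral (Rj k) (qExpand k d (b p)) :=
    JTower.isIntegral_of_isIntegral_adjoin (Rj k) _ _ hjdp
      (JTower.isIntegral_qExpand (B := k) d (qExpand k p (jqModC k)) (b p) (hbint p hp hpN))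
  refine ⟨h1, ?_⟩
  obtain ⟨c, hc, habc⟩ := hab p hp hpN
  have h3 : HahnSeries.C c⁻¹ * qExpand k d (b p) * qExpand k d (a p) = 1 := by
    have h4 := congrArg (qExpand k d) habc
    rw [map_mul, qExpand_C] at h4
    rw [mul_assoc, mul_comm (qExpand k d (b p)), h4, ← map_mul, inv_mul_cancel₀ hc, map_one]
  rw [← eq_inv_of_mul_eq_one_left h3]
  exact (isIntegral_C k c⁻¹).mul h2

variable (k)

/-- `ψ(N) ≤ [L : K₀]` from integrality of the units (hypotheses `hint`, `hu` of
`CruxL.dedekindPsi_le_finrank` discharged). -/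
theorem dedekindPsi_le_finrank_of_integral [IsAlgClosed k] (N : ℕ) (hN : 0 < N)
    (a b : ℕ → LaurentSeries k) (hpkg : PkgHyp N (jqModC k) a b)
    (ha : ∀ p : ℕ, p.Prime → p ∣ N → a p ≠ 0 ∧ ((a p).order : ℚ) = p - 1)
    (hb : ∀ p : ℕ, p.Prime → p ∣ N → b p ≠ 0 ∧ ((b p).order : ℚ) = 1 - p)
    (hab : ∀ p : ℕ, p.Prime → p ∣ N → ∃ c : k, c ≠ 0 ∧ a p * b p = HahnSeries.C c)
    (haint : ∀ p : ℕ, p.Prime → p ∣ N → IsIntegral (Algebra.adjoin k {jqModC k}) (a p))
    (hbint : ∀ (p : ℕ) [NeZero p], p.Prime → p ∣ N →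
      IsIntegral (Algebra.adjoin k {qExpand k p (jqModC k)}) (b p)) :
    dedekindPsi N ≤ Module.finrank (K0 k) (LN k N) :=
  CruxL.dedekindPsi_le_finrank k N hN a b hpkg ha hb (isIntegral_jd_of_pkg hN hpkg)
    (fun p d _ hp hdp => isIntegral_unit hN hpkg hab haint hbint p d hp hdp)

/-- `P(j) ∈ K₀ = k(j)`. -/
theorem aeval_mem_K0 (P : Polynomial k) : Polynomial.aeval (jqModC k) P ∈ K0 k :=
  IntermediateField.algebra_adjoin_le_adjoin k _ (Polynomial.aeval_mem_adjoin_singleton k _)

/-- **`ψ(N)` monomials in the `j(q^d)`, `d ∣ N`, independent over `k[j]`** (`k` algebraically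
closed). -/
theorem exists_monomials_field [IsAlgClosed k] (N : ℕ) (hN : 0 < N)
    (a b : ℕ → LaurentSeries k) (hpkg : PkgHyp N (jqModC k) a b)
    (ha : ∀ p : ℕ, p.Prime → p ∣ N → a p ≠ 0 ∧ ((a p).order : ℚ) = p - 1)
    (hb : ∀ p : ℕ, p.Prime → p ∣ N → b p ≠ 0 ∧ ((b p).order : ℚ) = 1 - p)
    (hab : ∀ p : ℕ, p.Prime → p ∣ N → ∃ c : k, c ≠ 0 ∧ a p * b p = HahnSeries.C c)
    (haint : ∀ p : ℕ, p.Prime → p ∣ N → IsIntegral (Algebra.adjoin k {jqModC k}) (a p))
    (hbint : ∀ (p : ℕ) [NeZero p], p.Prime → p ∣ N →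
      IsIntegral (Algebra.adjoin k {qExpand k p (jqModC k)}) (b p)) :
    ∃ m : Fin (dedekindPsi N) → (ℕ →₀ ℕ), (∀ i, ∀ d ∈ (m i).support, d ∣ N) ∧
      ∀ c : Fin (dedekindPsi N) → Polynomial k,
        ∑ i, Polynomial.aeval (jqModC k) (c i) * Defs.mono k (m i) = 0 → ∀ i, c i = 0 := by
  classical
  let x : {d : ℕ // d ∣ N} → LaurentSeries k := fun d => Defs.jd k d.1
  have hx : ∀ i, IsIntegral (K0 k) (x i) := fun i =>
    isIntegral_K0_of_Rj k (isIntegral_jd_of_pkg hN hpkg i.1 i.2)
  have hrange : Set.range x = (fun d => Defs.jd k d) '' {d | d ∣ N} := by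
    ext y
    constructor
    · rintro ⟨d, rfl⟩
      exact ⟨d.1, d.2, rfl⟩
    · rintro ⟨d, hd, rfl⟩
      exact ⟨⟨d, hd⟩, rfl⟩
  have hn : dedekindPsi N ≤
      Module.finrank (K0 k) (IntermediateField.adjoin (K0 k) (Set.range x)) := by
    rw [hrange]
    exact dedekindPsi_le_finrank_of_integral k N hN a b hpkg ha hb hab haint hbint
  obtain ⟨m, hm⟩ := EmbCount.exists_monomials_linearIndependent x hx (dedekindPsi N) hn
  refine ⟨fun i => (m i).mapDomain Subtype.val, fun i d hd => ?_, fun c hc => ?_⟩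
  · have h1 := Finsupp.mapDomain_support hd
    rw [Finset.mem_image] at h1
    obtain ⟨d', -, rfl⟩ := h1
    exact d'.2
  · have hmono : ∀ i, Defs.mono k ((m i).mapDomain Subtype.val) =
        (m i).prod fun d e => x d ^ e := by
      intro i
      rw [Defs.mono, Finsupp.prod_mapDomain_index_inj Subtype.val_injective]
    rw [Fintype.linearIndependent_iff] at hm
    have h2 := hm (fun i => ⟨Polynomial.aeval (jqModC k) (c i), aeval_mem_K0 k (c i)⟩) (by
      rw [← hc]
      refine Finset.sum_congr rfl fun i _ => ?_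
      rw [hmono, IntermediateField.smul_def, smul_eq_mul])
    intro i
    have h3 := congrArg Subtype.val (h2 i)
    exact aeval_jqModC_injective k (h3.trans (map_zero _).symm)

end General

/-! ### Descent along a field extension -/

section Descent

variable {F k : Type*} [Field F] [Field k]

/-- Compatibility of `P ↦ P(j)` with a change of the coefficient field. -/
theorem coeffMap_aeval_jq (f : F →+* k) (P : Polynomial F) :
    coeffMap f (Polynomial.aeval (jqModC F) P) = Polynomial.aeval (jqModC k) (P.map f) := by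
  have hcomp : (coeffMap f).comp (algebraMap F (LaurentSeries F)) =
      (algebraMap k (LaurentSeries k)).comp f := by
    ext c : 1
    simp only [RingHom.comp_apply]
    rw [algebraMap_laurentSeries_eq_single, algebraMap_laurentSeries_eq_single, coeffMap_single]
  rw [Polynomial.aeval_def, Polynomial.aeval_def, Polynomial.hom_eval₂, hcomp,
    Polynomial.eval₂_map, coeffMap_jqModC]

/-- Independence of monomials over `k[j]` descends to a subfield of constants. -/
theorem indep_descent (f : F →+* k) {n : ℕ} (m : Fin n → (ℕ →₀ ℕ))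
    (h : ∀ c : Fin n → Polynomial k,
      ∑ i, Polynomial.aeval (jqModC k) (c i) * Defs.mono k (m i) = 0 → ∀ i, c i = 0) :
    ∀ c : Fin n → Polynomial F,
      ∑ i, Polynomial.aeval (jqModC F) (c i) * Defs.mono F (m i) = 0 → ∀ i, c i = 0 := by
  intro c hc i
  have h1 := h (fun i => (c i).map f) (by
    have h2 := congrArg (coeffMap f) hc
    rw [map_sum, map_zero] at h2
    rw [← h2]
    refine Finset.sum_congr rfl fun i _ => ?_
    rw [map_mul, coeffMap_aeval_jq, Defs.coeffMap_mono]) i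
  exact (Polynomial.map_eq_zero_iff f.injective).mp h1

end Descent

/-! ### The statement over `ZMod ℓ` -/

section Final

variable (N : ℕ) [NeZero N] (ℓ : ℕ) [Fact ℓ.Prime]

/-- **(C), weak-hypothesis form**: `ψ(N)` monomials in the `j(q^d)`, `d ∣ N`, whose reductions are
independent over `𝔽_ℓ[j]`, from modular-equation data over `AlgebraicClosure (ZMod ℓ)`. -/
theorem exists_monomials_of_integral
    (a b : ℕ → LaurentSeries (AlgebraicClosure (ZMod ℓ)))
    (hpkg : PkgHyp N (jqModC (AlgebraicClosure (ZMod ℓ))) a b)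
    (ha : ∀ p : ℕ, p.Prime → p ∣ N → a p ≠ 0 ∧ ((a p).order : ℚ) = p - 1)
    (hb : ∀ p : ℕ, p.Prime → p ∣ N → b p ≠ 0 ∧ ((b p).order : ℚ) = 1 - p)
    (hab : ∀ p : ℕ, p.Prime → p ∣ N →
      ∃ c : AlgebraicClosure (ZMod ℓ), c ≠ 0 ∧ a p * b p = HahnSeries.C c)
    (haint : ∀ p : ℕ, p.Prime → p ∣ N →
      IsIntegral (Algebra.adjoin (AlgebraicClosure (ZMod ℓ))
        {jqModC (AlgebraicClosure (ZMod ℓ))}) (a p))
    (hbint : ∀ (p : ℕ) [NeZero p], p.Prime → p ∣ N →
      IsIntegral (Algebra.adjoin (AlgebraicClosure (ZMod ℓ))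
        {qExpand (AlgebraicClosure (ZMod ℓ)) p (jqModC (AlgebraicClosure (ZMod ℓ)))}) (b p)) :
    ∃ m : Fin (dedekindPsi N) → (ℕ →₀ ℕ), (∀ i, ∀ d ∈ (m i).support, d ∣ N) ∧
      ∀ c : Fin (dedekindPsi N) → Polynomial (ZMod ℓ),
        ∑ i, Polynomial.aeval (jqModC (ZMod ℓ)) (c i) * Defs.mono (ZMod ℓ) (m i) = 0 →
          ∀ i, c i = 0 := by
  obtain ⟨m, hm, hind⟩ := exists_monomials_field (AlgebraicClosure (ZMod ℓ)) N
    (Nat.pos_of_ne_zero (NeZero.ne N)) a b hpkg ha hb hab haint hbint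
  exact ⟨m, hm, indep_descent (algebraMap (ZMod ℓ) (AlgebraicClosure (ZMod ℓ))) m hind⟩

end Final

end Fermat.Agent.S28.CharLDeg
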