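import Mathlib

/-!
# S28 (ModPkg): evaluating two-variable polynomials and ring homomorphisms

For `P : R[X][X]` and `a b` in an `R`-algebra, `(P.map (aeval b).toRingHom).eval a` is
"`P(X := a, Y := b)`".  Naturality of this expression under (semilinear) ring homomorphisms.
-/

namespace Fermat.Agent.S28.ModPkg

open Polynomial

/-- `P(X := a, Y := b)` for a two-variable polynomial `P ∈ R[Y][X]` -/
noncomputable abbrev ev {R S : Type*} [CommRing R] [CommRing S] [Algebra R S] (a b : S)
    (P : R[X][X]) : S :=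
  (P.map (aeval b : R[X] →ₐ[R] S).toRingHom).eval a

/-- semilinear naturality of `P(a, b)` -/
theorem ev_hom {R R' S S' : Type*} [CommRing R] [CommRing R'] [CommRing S] [CommRing S']
    [Algebra R S] [Algebra R' S'] (f : R →+* R') (ψ : S →+* S')
    (hψ : ∀ r : R, ψ (algebraMap R S r) = algebraMap R' S' (f r)) (a b : S) (P : R[X][X]) :
    ψ ((P.map (aeval b : R[X] →ₐ[R] S).toRingHom).eval a) =
      ((P.map (mapRingHom f)).map (aeval (ψ b) : R'[X] →ₐ[R'] S').toRingHom).eval (ψ a) := by
  rw [eval_map, eval_map, hom_eval₂, eval₂_map]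
  congr 1
  refine Polynomial.ringHom_ext (fun r => ?_) ?_
  · simp [hψ]
  · simp

/-- naturality of `P(a, b)` under algebra homomorphisms -/
theorem ev_algHom {R S S' : Type*} [CommRing R] [CommRing S] [CommRing S']
    [Algebra R S] [Algebra R S'] (ψ : S →ₐ[R] S') (a b : S) (P : R[X][X]) :
    ψ ((P.map (aeval b : R[X] →ₐ[R] S).toRingHom).eval a) =
      (P.map (aeval (ψ b) : R[X] →ₐ[R] S').toRingHom).eval (ψ a) := by
  have h := ev_hom (RingHom.id R) ψ.toRingHom (fun r => by simp) a b P
  simpa using h

/-- naturality of `P(a, b)` under ring homomorphisms commuting with the structure maps -/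
theorem ev_ringHom {R S S' : Type*} [CommRing R] [CommRing S] [CommRing S']
    [Algebra R S] [Algebra R S'] (ψ : S →+* S')
    (hψ : ∀ r : R, ψ (algebraMap R S r) = algebraMap R S' r) (a b : S) (P : R[X][X]) :
    ψ ((P.map (aeval b : R[X] →ₐ[R] S).toRingHom).eval a) =
      (P.map (aeval (ψ b) : R[X] →ₐ[R] S').toRingHom).eval (ψ a) := by
  have h := ev_hom (RingHom.id R) ψ (fun r => by simpa using hψ r) a b P
  simpa using h

/-- the coefficients of `P(X, b)` -/
theorem coeff_map_aeval {R S : Type*} [CommRing R] [CommRing S] [Algebra R S] (b : S)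
    (P : R[X][X]) (i : ℕ) :
    (P.map (aeval b : R[X] →ₐ[R] S).toRingHom).coeff i = aeval b (P.coeff i) := by
  rw [coeff_map]
  rfl

end Fermat.Agent.S28.ModPkg
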