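import Mathlib
import Fermat.Prelude.Def_ModularCurve_X0ModL
import Fermat.Agent.S28.CharLDeg
import Fermat.Agent.S28.ModPkgDefs
import Fermat.Agent.S28.ModPkgOrd
import Fermat.Agent.S28.ModPkgEv

/-!
# S28 (M5), assembler, part 4: the independent monomials from the modular package

The modular package at the primes `p ∣ N` (modular polynomial `Φ`, Lagrange resolvent `T`,
characteristic polynomial `Ψ` of the units `φ∞ = ModPkg.phiInf`, `φ₀ = ModPkg.phiZero`) enters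
as ONE explicit hypothesis, in the shape of `ModPkg.exists_complex` over a field `k`.

* `exists_monomials_field_of_modPkg` : over an algebraically closed field `k` in which the
  primes dividing `N` are invertible.
* `exists_monomials_of_modPkg` : the statement over `ZMod ℓ` for `ℓ ∤ N`.
-/

set_option autoImplicit false

noncomputable section

open ModularCurve HahnSeries

namespace Fermat.Agent.S28.CharLDeg

open Fermat.Agent.S28 Fermat.Agent.S28.CruxL Fermat.Agent.S28.SlopeTower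

/-- The statement of the modular package at `p` over `k`, with the units `ModPkg.phiInf k p`,
`ModPkg.phiZero k p`. -/
def ModPkgAt (k : Type*) [Field k] (p : ℕ) [NeZero p] : Prop :=
  ∃ Φ T Ψ : Polynomial (Polynomial k), Φ.Monic ∧ Φ.natDegree = p + 1 ∧ Ψ.Monic ∧
    Ψ.natDegree = p + 1 ∧ T.degree < ((p + 1 : ℕ) : WithBot ℕ) ∧
    ModPkg.ev (qExpand k p (jqModC k)) (jqModC k) Φ = 0 ∧
    ModPkg.ev (jqModC k) (qExpand k p (jqModC k)) Φ = 0 ∧
    ModPkg.phiInf k p * ModPkg.ev (qExpand k p (jqModC k)) (jqModC k) (Polynomial.derivative Φ) =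
      ModPkg.ev (qExpand k p (jqModC k)) (jqModC k) T ∧
    ModPkg.phiZero k p *
        ModPkg.ev (jqModC k) (qExpand k p (jqModC k)) (Polynomial.derivative Φ) =
      ModPkg.ev (jqModC k) (qExpand k p (jqModC k)) T ∧
    ModPkg.ev (ModPkg.phiInf k p) (jqModC k) Ψ = 0 ∧
    ModPkg.ev (ModPkg.phiZero k p) (qExpand k p (jqModC k)) Ψ = 0

/-- The unit `φ∞` at `p`, totalised at `p = 0`. -/
def unitA (k : Type*) [Field k] (p : ℕ) : LaurentSeries k :=
  if h : p = 0 then 0 else @ModPkg.phiInf k _ p ⟨h⟩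

/-- The unit `φ₀` at `p`, totalised at `p = 0`. -/
def unitB (k : Type*) [Field k] (p : ℕ) : LaurentSeries k :=
  if h : p = 0 then 0 else @ModPkg.phiZero k _ p ⟨h⟩

theorem unitA_eq (k : Type*) [Field k] (p : ℕ) [NeZero p] : unitA k p = ModPkg.phiInf k p := by
  rw [unitA, dif_neg (NeZero.ne p)]

theorem unitB_eq (k : Type*) [Field k] (p : ℕ) [NeZero p] : unitB k p = ModPkg.phiZero k p := by
  rw [unitB, dif_neg (NeZero.ne p)]

/-- **`ψ(N)` monomials in the `j(q^d)`, `d ∣ N`, independent over `k[j]`**, from the modular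
package at the primes dividing `N` (`k` algebraically closed, the primes dividing `N` invertible
in `k`). -/
theorem exists_monomials_field_of_modPkg (k : Type*) [Field k] [IsAlgClosed k] (N : ℕ)
    (hN : 0 < N) (hNk : ∀ p : ℕ, p.Prime → p ∣ N → (p : k) ≠ 0)
    (H : ∀ (p : ℕ) [NeZero p], p.Prime → p ∣ N → ModPkgAt k p) :
    ∃ m : Fin (dedekindPsi N) → (ℕ →₀ ℕ), (∀ i, ∀ d ∈ (m i).support, d ∣ N) ∧
      ∀ c : Fin (dedekindPsi N) → Polynomial k,
        ∑ i, Polynomial.aeval (jqModC k) (c i) * Defs.mono k (m i) = 0 → ∀ i, c i = 0 := by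
  refine exists_monomials_field k N hN (unitA k) (unitB k) ?_ ?_ ?_ ?_ ?_ ?_
  · -- `hpkg`
    intro p _ hp hpN
    obtain ⟨Φ, T, Ψ, hΦ, hΦd, -, -, -, h2, h3, h4, h5, -, -⟩ := H p hp hpN
    refine ⟨hNk p hp hpN, Φ, T, hΦ, hΦd, h2, h3, ?_, ?_⟩
    · rw [unitA_eq]; exact h4
    · rw [unitB_eq]; exact h5
  · -- `ha`
    intro p hp hpN
    have : NeZero p := ⟨hp.ne_zero⟩
    rw [unitA_eq]
    exact ⟨ModPkg.phiInf_ne_zero' p k (hNk p hp hpN), ModPkg.order_phiInf' p k (hNk p hp hpN)⟩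
  · -- `hb`
    intro p hp hpN
    have : NeZero p := ⟨hp.ne_zero⟩
    rw [unitB_eq]
    exact ⟨ModPkg.phiZero_ne_zero k p, ModPkg.order_phiZero_cast k p⟩
  · -- `hab`
    intro p hp hpN
    have : NeZero p := ⟨hp.ne_zero⟩
    refine ⟨(p : k) ^ 12, pow_ne_zero 12 (hNk p hp hpN), ?_⟩
    rw [unitA_eq, unitB_eq]
    exact ModPkg.phiInf_mul_phiZero k p
  · -- `haint`
    intro p hp hpN
    have : NeZero p := ⟨hp.ne_zero⟩
    obtain ⟨Φ, T, Ψ, -, -, hΨ, -, -, -, -, -, -, h6, -⟩ := H p hp hpN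
    rw [unitA_eq]
    exact isIntegral_adjoin_of_ev k _ _ Ψ hΨ h6
  · -- `hbint`
    intro p _ hp hpN
    obtain ⟨Φ, T, Ψ, -, -, hΨ, -, -, -, -, -, -, -, h6'⟩ := H p hp hpN
    rw [unitB_eq]
    exact isIntegral_adjoin_of_ev k _ _ Ψ hΨ h6'

/-- In `AlgebraicClosure (ZMod ℓ)` the primes dividing `N` are invertible when `ℓ ∤ N`. -/
theorem natCast_ne_zero_of_not_dvd (N : ℕ) (ℓ : ℕ) [Fact ℓ.Prime] (hℓN : ¬ ℓ ∣ N) (p : ℕ)
    (hp : p.Prime) (hpN : p ∣ N) : (p : AlgebraicClosure (ZMod ℓ)) ≠ 0 := by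
  intro h
  have h1 : ℓ ∣ p := (CharP.cast_eq_zero_iff (AlgebraicClosure (ZMod ℓ)) ℓ p).mp h
  have h2 : ℓ = p := (Nat.prime_dvd_prime_iff_eq (Fact.out : ℓ.Prime) hp).mp h1
  exact hℓN (h2 ▸ hpN)

/-- **(C) from the modular package**: for `ℓ ∤ N`, `ψ(N)` monomials in the `j(q^d)`, `d ∣ N`,
whose reductions are independent over `𝔽_ℓ[j]`. -/
theorem exists_monomials_of_modPkg (N : ℕ) [NeZero N] (ℓ : ℕ) [Fact ℓ.Prime] (hℓN : ¬ ℓ ∣ N)
    (H : ∀ (p : ℕ) [NeZero p], p.Prime → p ∣ N → ModPkgAt (AlgebraicClosure (ZMod ℓ)) p) :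
    ∃ m : Fin (dedekindPsi N) → (ℕ →₀ ℕ), (∀ i, ∀ d ∈ (m i).support, d ∣ N) ∧
      ∀ c : Fin (dedekindPsi N) → Polynomial (ZMod ℓ),
        ∑ i, Polynomial.aeval (jqModC (ZMod ℓ)) (c i) * Defs.mono (ZMod ℓ) (m i) = 0 →
          ∀ i, c i = 0 := by
  obtain ⟨m, hm, hind⟩ := exists_monomials_field_of_modPkg (AlgebraicClosure (ZMod ℓ)) N
    (Nat.pos_of_ne_zero (NeZero.ne N)) (natCast_ne_zero_of_not_dvd N ℓ hℓN) H
  exact ⟨m, hm, indep_descent (algebraMap (ZMod ℓ) (AlgebraicClosure (ZMod ℓ))) m hind⟩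

end Fermat.Agent.S28.CharLDeg
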