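import Mathlib

/-!
# S28, module (M4): the abstract q-expansion principle

`B` is an integrally closed domain inside a field `F`, `π` a prime element of `B`, and `A ⊆ F`
is the integral closure of `B` in `F`.  Given a ring homomorphism `ρ : A → R` ("reduction of
q-expansions") whose restriction to `B` has kernel `π B`, and finitely many elements `e i ∈ A`
which span `F` over the fraction field of `B` and whose reductions are linearly independent over
the image of `B`, the kernel of `ρ` is exactly `π A`.

Everything here is plain commutative algebra over Mathlib.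
-/

set_option autoImplicit false

namespace Fermat.Agent.S28.QExp

open Polynomial

section MinpolySmul

variable {K F : Type*} [Field K] [Field F] [Algebra K F]

/-- The minimal polynomial of a nonzero scalar multiple is the root-scaled minimal polynomial. -/
theorem minpoly_smul_eq {c : K} (hc : c ≠ 0) {y : F} (hy : IsIntegral K y) :
    minpoly K (c • y) = (minpoly K y).scaleRoots c := by
  symm
  refine minpoly.unique K _ ((monic_scaleRoots_iff c).mpr (minpoly.monic hy)) ?_ ?_
  · have h := scaleRoots_aeval_eq_zero (r := c) (minpoly.aeval K y)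
    rwa [← Algebra.smul_def] at h
  · intro q hq hq0
    rw [degree_scaleRoots]
    have h1 : aeval y (q.scaleRoots c⁻¹) = 0 := by
      have h := scaleRoots_aeval_eq_zero (r := c⁻¹) hq0
      rwa [← Algebra.smul_def, smul_smul, inv_mul_cancel₀ hc, one_smul] at h
    calc degree (minpoly K y) ≤ degree (q.scaleRoots c⁻¹) :=
          minpoly.min K y ((monic_scaleRoots_iff _).mpr hq) h1
      _ = degree q := degree_scaleRoots q

end MinpolySmul

section Coprime

variable {B K : Type*} [CommRing B] [IsDomain B] [Field K] [Algebra B K] [IsFractionRing B K]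

/-- If `x b^k` and `x π^k` both lie in `B`, with `π` prime not dividing `b`, then `x ∈ B`. -/
theorem mem_range_of_mul_pow {π b : B} (hπ : Prime π) (hb : ¬ π ∣ b) (k : ℕ) {x : K}
    (h1 : x * algebraMap B K b ^ k ∈ (algebraMap B K).range)
    (h2 : x * algebraMap B K π ^ k ∈ (algebraMap B K).range) :
    x ∈ (algebraMap B K).range := by
  obtain ⟨r, hr⟩ := h1
  obtain ⟨s, hs⟩ := h2
  have hinj : Function.Injective (algebraMap B K) := IsFractionRing.injective B K
  have hrs : s * b ^ k = r * π ^ k := by
    apply hinj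
    rw [map_mul, map_mul, map_pow, map_pow, hr, hs]
    ring
  have hdvd : π ^ k ∣ s := by
    have h3 : π ^ k ∣ s * b ^ k := by
      rw [hrs]
      exact Dvd.intro_left r rfl
    exact Prime.pow_dvd_of_dvd_mul_right hπ k (fun h => hb (hπ.dvd_of_dvd_pow h)) h3
  obtain ⟨t, rfl⟩ := hdvd
  refine ⟨t, ?_⟩
  have hπ0 : algebraMap B K π ^ k ≠ 0 :=
    pow_ne_zero _ (by simpa using (map_ne_zero_iff _ hinj).mpr hπ.ne_zero)
  have : algebraMap B K t * algebraMap B K π ^ k = x * algebraMap B K π ^ k := by
    rw [← hs, map_mul, map_pow]; ring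
  exact mul_right_cancel₀ hπ0 this

end Coprime

section Integral

variable {B F : Type*} [CommRing B] [IsDomain B] [IsIntegrallyClosed B] [Field F] [Algebra B F]
  [FaithfulSMul B F]

/-- **Core lemma.**  `B` integrally closed, `π` prime, `π ∤ b`.  If `b y` and `π y` are integral
over `B` then so is `y`. -/
theorem isIntegral_of_mul {π b : B} (hπ : Prime π) (hb : ¬ π ∣ b) {y : F}
    (h1 : IsIntegral B (b • y)) (h2 : IsIntegral B (π • y)) : IsIntegral B y := by
  let _ := FractionRing.liftAlgebra B F
  have := FractionRing.isScalarTower_liftAlgebra B F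
  have hinj : Function.Injective (algebraMap B (FractionRing B)) :=
    IsFractionRing.injective B (FractionRing B)
  have hπ0 : algebraMap B (FractionRing B) π ≠ 0 := (map_ne_zero_iff _ hinj).mpr hπ.ne_zero
  have hb0 : algebraMap B (FractionRing B) b ≠ 0 :=
    (map_ne_zero_iff _ hinj).mpr (fun h => hb (h ▸ dvd_zero π))
  have hyK : IsIntegral (FractionRing B) y := by
    have h3 : IsIntegral (FractionRing B) (π • y) := h2.tower_top
    have h4 : y = (algebraMap B (FractionRing B) π)⁻¹ • (π • y) := by
      rw [← algebraMap_smul (FractionRing B) π y, smul_smul, inv_mul_cancel₀ hπ0, one_smul]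
    rw [h4]
    exact h3.smul _
  have key : ∀ c : B, algebraMap B (FractionRing B) c ≠ 0 → IsIntegral B (c • y) → ∀ i,
      (minpoly (FractionRing B) y).coeff i *
        algebraMap B (FractionRing B) c ^ ((minpoly (FractionRing B) y).natDegree - i) ∈
        (algebraMap B (FractionRing B)).range := by
    intro c hc hcy i
    have e1 : minpoly (FractionRing B) (c • y) =
        (minpoly B (c • y)).map (algebraMap B (FractionRing B)) :=
      minpoly.isIntegrallyClosed_eq_field_fractions' (FractionRing B) hcy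
    have e2 : minpoly (FractionRing B) (c • y) =
        (minpoly (FractionRing B) y).scaleRoots (algebraMap B (FractionRing B) c) := by
      rw [← algebraMap_smul (FractionRing B) c y]
      exact minpoly_smul_eq hc hyK
    have e3 := congrArg (fun p => p.coeff i) (e2.symm.trans e1)
    simp only [coeff_scaleRoots, coeff_map] at e3
    exact ⟨_, e3.symm⟩
  have hQ : minpoly (FractionRing B) y ∈ lifts (algebraMap B (FractionRing B)) := by
    rw [lifts_iff_coeff_lifts]
    intro i
    exact mem_range_of_mul_pow hπ hb _ (key b hb0 h1 i) (key π hπ0 h2 i)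
  obtain ⟨q, hq, -, hqm⟩ := lifts_and_natDegree_eq_and_monic hQ (minpoly.monic hyK)
  refine ⟨q, hqm, ?_⟩
  have h5 : aeval y (q.map (algebraMap B (FractionRing B))) = 0 := by
    rw [hq]; exact minpoly.aeval _ y
  rwa [aeval_map_algebraMap] at h5

end Integral

section Red

variable {B F R ι : Type*} [CommRing B] [IsDomain B] [Field F] [Algebra B F] [FaithfulSMul B F]
  [CommRing R] [Fintype ι]

/-- Separation for a prime of a noetherian domain: a nonzero element is not divisible by all
powers of `π`. -/
theorem exists_not_pow_dvd_of_noetherian [IsNoetherianRing B] {π : B} (hπ : Prime π) (a : B)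
    (ha : a ≠ 0) : ∃ n : ℕ, ¬ π ^ n ∣ a := by
  obtain ⟨n, hn⟩ := FiniteMultiplicity.of_not_isUnit hπ.not_isUnit ha
  exact ⟨n + 1, hn⟩

variable {π : B} (A : Subring F) (φ : B →+* A) (hφ : ∀ b, (φ b : F) = algebraMap B F b)
  (ρ : A →+* R) (e : ι → A)

omit [IsDomain B] in
include hφ in
/-- Divisibility by every power of `π` of the coefficients of a linear relation. -/
theorem pow_dvd_of_relation (hπ : Prime π) (hB : ∀ b, ρ (φ b) = 0 → π ∣ b)
    (hind : ∀ a : ι → B, ∑ i, ρ (φ (a i)) * ρ (e i) = 0 → ∀ i, ρ (φ (a i)) = 0) (n : ℕ) :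
    ∀ g : ι → B, ∑ i, φ (g i) * e i = 0 → ∀ i, π ^ n ∣ g i := by
  have hφinj : Function.Injective φ := by
    intro b b' h
    have h' : algebraMap B F b = algebraMap B F b' := by rw [← hφ, ← hφ, h]
    exact FaithfulSMul.algebraMap_injective B F h'
  induction n with
  | zero => intro g _ i; simp
  | succ n ih =>
    intro g hg i
    have h1 : ∑ i, ρ (φ (g i)) * ρ (e i) = 0 := by
      have := congrArg ρ hg
      simpa [map_sum, map_mul] using this
    have h2 := fun i => hB _ (hind g h1 i)
    choose g' hg' using h2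
    have h3 : ∑ i, φ (g' i) * e i = 0 := by
      have h4 : φ π * ∑ i, φ (g' i) * e i = 0 := by
        rw [Finset.mul_sum, ← hg]
        refine Finset.sum_congr rfl fun i _ => ?_
        rw [hg' i, map_mul, mul_assoc]
      have hπA : φ π ≠ 0 := fun h => hπ.ne_zero (hφinj (by rw [h, map_zero]))
      exact (mul_eq_zero.mp h4).resolve_left hπA
    rw [hg' i, pow_succ']
    exact mul_dvd_mul_left π (ih g' h3 i)

omit [IsDomain B] in
include hφ in
/-- The `e i` are linearly independent over `B`: independence of the reductions lifts. -/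
theorem linearIndependent_of_red (hπ : Prime π) (hsep : ∀ a : B, a ≠ 0 → ∃ n : ℕ, ¬ π ^ n ∣ a)
    (hB : ∀ b, ρ (φ b) = 0 → π ∣ b)
    (hind : ∀ a : ι → B, ∑ i, ρ (φ (a i)) * ρ (e i) = 0 → ∀ i, ρ (φ (a i)) = 0) :
    LinearIndependent B (fun i => (e i : F)) := by
  rw [Fintype.linearIndependent_iff]
  intro g hg i
  by_contra hne
  obtain ⟨n, hn⟩ := hsep (g i) hne
  refine hn (pow_dvd_of_relation A φ hφ ρ e hπ hB hind n g ?_ i)
  apply Subtype.ext
  rw [Subring.coe_zero, ← hg, AddSubmonoidClass.coe_finsetSum]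
  refine Finset.sum_congr rfl fun i _ => ?_
  rw [Subring.coe_mul, hφ, Algebra.smul_def]

omit [IsDomain B] in
include hφ in
/-- A representation `b x = Σ aᵢ eᵢ` can be normalised so that `π ∤ b`. -/
theorem exists_repr_not_dvd (hπ : Prime π) (hsep : ∀ a : B, a ≠ 0 → ∃ n : ℕ, ¬ π ^ n ∣ a)
    (hρπ : ρ (φ π) = 0) (hB : ∀ b, ρ (φ b) = 0 → π ∣ b)
    (hind : ∀ a : ι → B, ∑ i, ρ (φ (a i)) * ρ (e i) = 0 → ∀ i, ρ (φ (a i)) = 0)
    (x : A) (h : ∃ b : B, b ≠ 0 ∧ ∃ a : ι → B, φ b * x = ∑ i, φ (a i) * e i) :
    ∃ b : B, ¬ π ∣ b ∧ ∃ a : ι → B, φ b * x = ∑ i, φ (a i) * e i := by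
  have hφinj : Function.Injective φ := by
    intro b b' h
    have h' : algebraMap B F b = algebraMap B F b' := by rw [← hφ, ← hφ, h]
    exact FaithfulSMul.algebraMap_injective B F h'
  have hπA : φ π ≠ 0 := fun h => hπ.ne_zero (hφinj (by rw [h, map_zero]))
  obtain ⟨b, hb0, a, hba⟩ := h
  obtain ⟨n, hn⟩ := hsep b hb0
  induction n generalizing b a with
  | zero => exact absurd (by simp) hn
  | succ n ih =>
    by_cases hdvd : π ∣ b
    · obtain ⟨b', rfl⟩ := hdvd
      have h1 : ∑ i, ρ (φ (a i)) * ρ (e i) = 0 := by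
        have := congrArg ρ hba
        rw [map_mul, map_mul, map_mul, hρπ, zero_mul, zero_mul] at this
        simpa [map_sum, map_mul] using this.symm
      have h2 := fun i => hB _ (hind a h1 i)
      choose a' ha' using h2
      have h3 : φ b' * x = ∑ i, φ (a' i) * e i := by
        have h4 : φ π * (φ b' * x) = φ π * ∑ i, φ (a' i) * e i := by
          rw [Finset.mul_sum, ← mul_assoc, ← map_mul, hba]
          refine Finset.sum_congr rfl fun i _ => ?_
          rw [ha' i, map_mul, mul_assoc]
        exact mul_left_cancel₀ hπA h4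
      refine ih b' (fun h0 => hb0 (by rw [h0, mul_zero])) a' h3 ?_
      intro hd
      exact hn (by rw [pow_succ']; exact mul_dvd_mul_left π hd)
    · exact ⟨b, hdvd, a, hba⟩

variable [IsIntegrallyClosed B]

include hφ in
/-- **Abstract q-expansion principle**, spanning hypothesis in raw form.  If `A` is the integral
closure of `B` in `F`, the restriction of `ρ` to `B` has kernel `π B`, every element of `A` has
a `B`-multiple in the span of the `e i`, and the `ρ (e i)` are independent over `ρ (B)`, then
`ker ρ = π A`. -/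
theorem ker_eq_of_span (hπ : Prime π) (hsep : ∀ a : B, a ≠ 0 → ∃ n : ℕ, ¬ π ^ n ∣ a)
    (hA : ∀ x : F, x ∈ A ↔ IsIntegral B x)
    (hρπ : ρ (φ π) = 0) (hB : ∀ b, ρ (φ b) = 0 → π ∣ b)
    (hspan : ∀ x : A, ∃ b : B, b ≠ 0 ∧ ∃ a : ι → B, φ b * x = ∑ i, φ (a i) * e i)
    (hind : ∀ a : ι → B, ∑ i, ρ (φ (a i)) * ρ (e i) = 0 → ∀ i, ρ (φ (a i)) = 0)
    (x : A) (hx : ρ x = 0) : ∃ y : A, x = φ π * y := by
  have hπF : algebraMap B F π ≠ 0 :=
    (map_ne_zero_iff _ (FaithfulSMul.algebraMap_injective B F)).mpr hπ.ne_zero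
  obtain ⟨b, hb, a, hba⟩ := exists_repr_not_dvd A φ hφ ρ e hπ hsep hρπ hB hind x (hspan x)
  have h1 : ∑ i, ρ (φ (a i)) * ρ (e i) = 0 := by
    have := congrArg ρ hba
    rw [map_mul, hx, mul_zero] at this
    simpa [map_sum, map_mul] using this.symm
  have h2 := fun i => hB _ (hind a h1 i)
  choose a' ha' using h2
  have hbx : algebraMap B F b * (x : F) = algebraMap B F π * ∑ i, algebraMap B F (a' i) * (e i : F) := by
    have := congrArg (fun z : A => (z : F)) hba
    simp only [Subring.coe_mul, hφ, AddSubmonoidClass.coe_finsetSum] at this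
    rw [this, Finset.mul_sum]
    refine Finset.sum_congr rfl fun i _ => ?_
    rw [ha' i, map_mul, mul_assoc]
  have hz : IsIntegral B (∑ i, algebraMap B F (a' i) * (e i : F)) :=
    IsIntegral.sum _ fun i _ => isIntegral_algebraMap.mul ((hA _).1 (e i).2)
  have hy : IsIntegral B ((algebraMap B F π)⁻¹ * (x : F)) := by
    refine isIntegral_of_mul hπ hb ?_ ?_
    · have : b • ((algebraMap B F π)⁻¹ * (x : F)) = ∑ i, algebraMap B F (a' i) * (e i : F) := by
        rw [Algebra.smul_def, mul_left_comm, hbx, inv_mul_cancel_left₀ hπF]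
      rw [this]
      exact hz
    · have : π • ((algebraMap B F π)⁻¹ * (x : F)) = x := by
        rw [Algebra.smul_def, mul_inv_cancel_left₀ hπF]
      rw [this]
      exact (hA _).1 x.2
  refine ⟨⟨_, (hA _).2 hy⟩, Subtype.ext ?_⟩
  rw [Subring.coe_mul, hφ, mul_inv_cancel_left₀ hπF]

section FractionField

variable (K : Type*) [Field K] [Algebra B K] [IsFractionRing B K] [Algebra K F]
  [IsScalarTower B K F] [Module.Finite K F]

omit [IsIntegrallyClosed B] in
include hφ in
/-- The spanning hypothesis from a dimension bound: if `[F : Frac B] ≤ #ι` then every element of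
`A` has a nonzero `B`-multiple in the `B`-span of the `e i`. -/
theorem span_of_finrank_le (hπ : Prime π) (hsep : ∀ a : B, a ≠ 0 → ∃ n : ℕ, ¬ π ^ n ∣ a)
    (hB : ∀ b, ρ (φ b) = 0 → π ∣ b)
    (hind : ∀ a : ι → B, ∑ i, ρ (φ (a i)) * ρ (e i) = 0 → ∀ i, ρ (φ (a i)) = 0)
    (hcard : Module.finrank K F ≤ Fintype.card ι) (x : A) :
    ∃ b : B, b ≠ 0 ∧ ∃ a : ι → B, φ b * x = ∑ i, φ (a i) * e i := by
  classical
  have hli : LinearIndependent K (fun i => (e i : F)) :=
    (linearIndependent_of_red A φ hφ ρ e hπ hsep hB hind).localization K (nonZeroDivisors B)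
  have hcard' : Fintype.card ι = Module.finrank K F :=
    le_antisymm hli.fintype_card_le_finrank hcard
  have hspan := hli.span_eq_top_of_card_eq_finrank' hcard'
  have hx : (x : F) ∈ Submodule.span K (Set.range fun i => (e i : F)) := by
    rw [hspan]; trivial
  obtain ⟨c, hc⟩ := (Submodule.mem_span_range_iff_exists_fun K).mp hx
  obtain ⟨b, hb⟩ := IsLocalization.exist_integer_multiples (nonZeroDivisors B) Finset.univ c
  choose a ha using fun i => hb i (Finset.mem_univ i)
  refine ⟨b, nonZeroDivisors.coe_ne_zero b, a, Subtype.ext ?_⟩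
  simp only [Subring.coe_mul, hφ, AddSubmonoidClass.coe_finsetSum]
  rw [← hc, Finset.mul_sum]
  refine Finset.sum_congr rfl fun i _ => ?_
  calc algebraMap B F b * c i • (e i : F)
      = algebraMap K F (algebraMap B K b * c i) * (e i : F) := by
        rw [map_mul, ← IsScalarTower.algebraMap_apply, Algebra.smul_def, mul_assoc]
    _ = algebraMap B F (a i) * (e i : F) := by
        rw [IsScalarTower.algebraMap_apply B K F (a i), ha i, Algebra.smul_def]

include hφ in
/-- **Abstract q-expansion principle.**  `B` an integrally closed domain with fraction field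
`K`, `π` prime in `B` (with `⋂ πⁿ B = 0`), `A` the integral closure of `B` in a finite
extension `F` of `K`, `ρ : A → R` a ring homomorphism with `ρ π = 0` whose restriction to `B`
has kernel `π B`, and `e i ∈ A` at least `[F : K]` elements whose reductions are linearly
independent over `ρ (B)`.  Then `ker ρ = π A`. -/
theorem ker_eq (hπ : Prime π) (hsep : ∀ a : B, a ≠ 0 → ∃ n : ℕ, ¬ π ^ n ∣ a)
    (hA : ∀ x : F, x ∈ A ↔ IsIntegral B x)
    (hρπ : ρ (φ π) = 0) (hB : ∀ b, ρ (φ b) = 0 → π ∣ b)
    (hind : ∀ a : ι → B, ∑ i, ρ (φ (a i)) * ρ (e i) = 0 → ∀ i, ρ (φ (a i)) = 0)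
    (hcard : Module.finrank K F ≤ Fintype.card ι)
    (x : A) (hx : ρ x = 0) : ∃ y : A, x = φ π * y :=
  ker_eq_of_span A φ hφ ρ e hπ hsep hA hρπ hB
    (span_of_finrank_le A φ hφ ρ e K hπ hsep hB hind hcard) hind x hx

end FractionField

end Red

end Fermat.Agent.S28.QExp
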