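import Mathlib
import Fermat.Prelude.Def_ModularCurve_IgusaScheme
import Fermat.Agent.S28.QExp

/-!
# S28, module (M4), instantiation for the frozen charts

The abstract q-expansion principle (`Fermat.Agent.S28.QExp`) is instantiated for the two frozen
charts `chartAlgFin N ℓ` (integral closure of `ℤ_(ℓ)[j]`) and `chartAlgInf N ℓ` (integral closure
of `ℤ_(ℓ)[j⁻¹]`) inside the modular function field `F = ℚ(j(q^d) : d ∣ N)`.
-/

set_option autoImplicit false

namespace Fermat.Agent.S28.ChartQExp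

open Polynomial ModularCurve ModularCurve.IgusaScheme

section Zl

variable (ℓ : ℕ) [Fact ℓ.Prime]

set_option quotPrecheck false in
local notation "ℤℓ" => ↥(GaloisRep.ratLocalizedAt ℓ)

theorem isPrime_span_ell : (Ideal.span {(ℓ : ℤ)}).IsPrime :=
  (Ideal.span_singleton_prime (by exact_mod_cast (Fact.out : ℓ.Prime).ne_zero)).mpr
    (Nat.prime_iff_prime_int.mp Fact.out)

attribute [local instance] isPrime_span_ell

/-- `ℤ_(ℓ)` is the localization of `ℤ` at the prime `(ℓ)`. -/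
theorem isLocalization_ratLocalizedAt :
    IsLocalization.AtPrime ℤℓ (Ideal.span {(ℓ : ℤ)}) where
  map_units y := by
    have hy : ¬ (ℓ : ℤ) ∣ (y : ℤ) := fun h => y.2 (Ideal.mem_span_singleton.mpr h)
    have hcop : Nat.Coprime (y : ℤ).natAbs ℓ := by
      refine Nat.Coprime.symm (((Fact.out : ℓ.Prime).coprime_iff_not_dvd).mpr fun h => hy ?_)
      exact Int.natCast_dvd.mpr h
    have hy0 : ((y : ℤ) : ℚ) ≠ 0 := by
      intro h0
      apply hy
      have : (y : ℤ) = 0 := by exact_mod_cast h0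
      rw [this]; exact dvd_zero _
    have hmem : (((y : ℤ) : ℚ))⁻¹ ∈ GaloisRep.ratLocalizedAt ℓ := by
      show ((((y : ℤ) : ℚ))⁻¹).den.Coprime ℓ
      rw [Rat.inv_intCast_den]
      have : (y : ℤ) ≠ 0 := by exact_mod_cast hy0
      rw [if_neg this]
      exact hcop
    refine IsUnit.of_mul_eq_one ⟨_, hmem⟩ (Subtype.ext ?_)
    show (((algebraMap ℤ ℤℓ (y : ℤ) : ℤℓ) : ℚ)) * (((y : ℤ) : ℚ))⁻¹ = 1
    rw [eq_intCast, Subring.coe_intCast]
    exact mul_inv_cancel₀ hy0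
  surj z := by
    have hden : ((z : ℚ).den : ℤ) ∈ (Ideal.span {(ℓ : ℤ)}).primeCompl := by
      intro h
      have h1 : (ℓ : ℤ) ∣ ((z : ℚ).den : ℤ) := Ideal.mem_span_singleton.mp h
      have h2 : ℓ ∣ (z : ℚ).den := by exact_mod_cast h1
      have h3 : (z : ℚ).den.Coprime ℓ := z.2
      have h4 := Nat.dvd_gcd h2 (dvd_refl ℓ)
      rw [h3] at h4
      exact (Fact.out : ℓ.Prime).one_lt.ne' (Nat.dvd_one.mp h4)
    refine ⟨((z : ℚ).num, ⟨_, hden⟩), Subtype.ext ?_⟩
    show (z : ℚ) * ((algebraMap ℤ ℤℓ ((z : ℚ).den : ℤ) : ℤℓ) : ℚ)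
      = ((algebraMap ℤ ℤℓ (z : ℚ).num : ℤℓ) : ℚ)
    rw [eq_intCast, eq_intCast, Subring.coe_intCast, Subring.coe_intCast]
    push_cast
    exact Rat.mul_den_eq_num _
  exists_of_eq {x y} h := by
    refine ⟨1, ?_⟩
    have h1 : ((algebraMap ℤ ℤℓ x : ℤℓ) : ℚ) = ((algebraMap ℤ ℤℓ y : ℤℓ) : ℚ) := by rw [h]
    rw [eq_intCast, eq_intCast, Subring.coe_intCast, Subring.coe_intCast] at h1
    have : x = y := by exact_mod_cast h1
    rw [this]

attribute [local instance] isLocalization_ratLocalizedAt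

/-- `ℤ_(ℓ)` is a discrete valuation ring. -/
theorem isDiscreteValuationRing_ratLocalizedAt : IsDiscreteValuationRing ℤℓ :=
  IsLocalization.AtPrime.isDiscreteValuationRing_of_dedekind_domain ℤ
    (fun h => by
      have : (ℓ : ℤ) ∈ (⊥ : Ideal ℤ) := h ▸ Ideal.mem_span_singleton_self _
      have h0 : (ℓ : ℤ) = 0 := by simpa using this
      exact (Fact.out : ℓ.Prime).ne_zero (by exact_mod_cast h0)) ℤℓ

end Zl

section Transcendence

/-- A polynomial in `j = q⁻¹ + 744 + ⋯` with coefficients in a subring of `ℚ` vanishes only if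
it is zero (look at the lowest coefficient). -/
theorem eq_zero_of_eval₂_jq {R : Type*} [CommRing R] (f : R →+* ℚ) (hf : Function.Injective f)
    (P : R[X]) (h : P.eval₂ ((HahnSeries.C : ℚ →+* LaurentSeries ℚ).comp f) jq = 0) : P = 0 := by
  by_contra hne
  have h1 : (P.eval₂ ((HahnSeries.C : ℚ →+* LaurentSeries ℚ).comp f) jq).coeff
      (-(P.natDegree : ℤ)) = f P.leadingCoeff := by
    rw [eval₂_eq_sum_range, HahnSeries.coeff_sum, Finset.sum_eq_single P.natDegree]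
    · rw [RingHom.comp_apply, HahnSeries.C_mul_eq_smul, HahnSeries.coeff_smul, coeff_jq_pow_self,
        smul_eq_mul, mul_one]
      rfl
    · intro i hi hine
      have hlt : i < P.natDegree :=
        lt_of_le_of_ne (Nat.lt_succ_iff.mp (Finset.mem_range.mp hi)) hine
      rw [RingHom.comp_apply, HahnSeries.C_mul_eq_smul, HahnSeries.coeff_smul,
        coeff_jq_pow_of_lt (by omega), smul_zero]
    · intro h
      exact absurd (Finset.mem_range.mpr (Nat.lt_succ_self _)) h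
  rw [h, HahnSeries.coeff_zero] at h1
  have h2 : P.leadingCoeff = 0 := hf (by rw [← h1, map_zero])
  exact hne (leadingCoeff_eq_zero.mp h2)

variable (N : ℕ) [NeZero N] (ℓ : ℕ) [Fact ℓ.Prime]

set_option quotPrecheck false in
local notation "ℤℓ" => ↥(GaloisRep.ratLocalizedAt ℓ)

set_option quotPrecheck false in
local notation "F" => ↥(modularFunctionFieldFull N)

omit [Fact ℓ.Prime] in
/-- The q-expansion of a polynomial in `j` with `ℤ_(ℓ)`-coefficients. -/
theorem coe_aeval_jFull (P : ℤℓ[X]) :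
    ((aeval (jFull N) P : F) : LaurentSeries ℚ) =
      P.eval₂ ((HahnSeries.C : ℚ →+* LaurentSeries ℚ).comp (GaloisRep.ratLocalizedAt ℓ).subtype)
        jq := by
  have key : ((modularFunctionFieldFull N).val : F →+* LaurentSeries ℚ).comp
      (aeval (R := ℤℓ) (jFull N)).toRingHom =
      eval₂RingHom ((HahnSeries.C : ℚ →+* LaurentSeries ℚ).comp
        (GaloisRep.ratLocalizedAt ℓ).subtype) jq := by
    refine Polynomial.ringHom_ext (fun a => ?_) ?_
    · have h1 : ((modularFunctionFieldFull N).val : F →+* LaurentSeries ℚ).comp (algebraMap ℚ F)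
          = (HahnSeries.C : ℚ →+* LaurentSeries ℚ) := RingHom.ext_rat _ _
      have h2 := congrFun (congrArg DFunLike.coe h1) (a : ℚ)
      simp only [RingHom.comp_apply, AlgHom.toRingHom_eq_coe, RingHom.coe_coe, aeval_C,
        coe_eval₂RingHom, eval₂_C, Subring.subtype_apply] at h2 ⊢
      exact h2
    · simp only [RingHom.comp_apply, AlgHom.toRingHom_eq_coe, RingHom.coe_coe, aeval_X,
        coe_eval₂RingHom, eval₂_X]
      rfl
  exact congrFun (congrArg DFunLike.coe key) P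

omit [Fact ℓ.Prime] in
/-- `j` is transcendental over `ℤ_(ℓ)`. -/
theorem transcendental_jFull : Transcendental ℤℓ (jFull N) := by
  rw [transcendental_iff]
  intro P hP
  refine eq_zero_of_eval₂_jq (GaloisRep.ratLocalizedAt ℓ).subtype Subtype.val_injective P ?_
  rw [← coe_aeval_jFull N ℓ P, hP]
  rfl

omit [Fact ℓ.Prime] in
/-- `j⁻¹` is transcendental over `ℤ_(ℓ)`. -/
theorem transcendental_jFull_inv : Transcendental ℤℓ (jFull N)⁻¹ := fun h =>
  transcendental_jFull N ℓ (IsAlgebraic.inv_iff.mp h)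

end Transcendence

section PrimeOfRed

/-- If the composite `B → A → T` into a domain has kernel `π B` then `π` is prime. -/
theorem prime_of_red {B A T : Type*} [CommRing B] [CommRing A] [CommRing T] [IsDomain T]
    (φ : B →+* A) (ρ : A →+* T) (π : B) (hπ0 : π ≠ 0) (hρπ : ρ (φ π) = 0)
    (hB : ∀ b, ρ (φ b) = 0 → π ∣ b) : Prime π := by
  refine ⟨hπ0, fun hu => ?_, fun a b hab => ?_⟩
  · have h1 : IsUnit (ρ (φ π)) := (hu.map φ).map ρ
    rw [hρπ] at h1
    exact not_isUnit_zero h1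
  · obtain ⟨c, hc⟩ := hab
    have h1 : ρ (φ a) * ρ (φ b) = 0 := by
      rw [← map_mul, ← map_mul, hc, map_mul, map_mul, hρπ, zero_mul]
    rcases mul_eq_zero.mp h1 with h | h
    · exact Or.inl (hB a h)
    · exact Or.inr (hB b h)

/-- `QExp.ker_eq` with the fraction field given by an explicit ring homomorphism `B → K`. -/
theorem ker_eq_of_toFrac {B F T ι K : Type*} [CommRing B] [IsDomain B] [IsIntegrallyClosed B]
    [Field F] [Algebra B F] [FaithfulSMul B F] [CommRing T] [Fintype ι] [Field K] [Algebra K F]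
    [Module.Finite K F] (toK : B →+* K)
    (hcomp : ∀ b, algebraMap K F (toK b) = algebraMap B F b)
    (hsurj : ∀ z : K, ∃ x y : B, z = toK x / toK y)
    {π : B} (A : Subring F) (φ : B →+* A) (hφ : ∀ b, (φ b : F) = algebraMap B F b)
    (ρ : A →+* T) (e : ι → A) (hπ : Prime π) (hsep : ∀ a : B, a ≠ 0 → ∃ n : ℕ, ¬ π ^ n ∣ a)
    (hA : ∀ x : F, x ∈ A ↔ IsIntegral B x)
    (hρπ : ρ (φ π) = 0) (hB : ∀ b, ρ (φ b) = 0 → π ∣ b)
    (hind : ∀ a : ι → B, ∑ i, ρ (φ (a i)) * ρ (e i) = 0 → ∀ i, ρ (φ (a i)) = 0)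
    (hcard : Module.finrank K F ≤ Fintype.card ι)
    (x : A) (hx : ρ x = 0) : ∃ y : A, x = φ π * y := by
  let _ : Algebra B K := toK.toAlgebra
  have : IsScalarTower B K F := IsScalarTower.of_algebraMap_eq fun b => (hcomp b).symm
  have : FaithfulSMul B K := (faithfulSMul_iff_algebraMap_injective B K).mpr fun a b h =>
    FaithfulSMul.algebraMap_injective B F (by
      rw [← hcomp, ← hcomp]
      exact congrArg _ h)
  have : IsFractionRing B K := IsFractionRing.of_field B K hsurj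
  exact QExp.ker_eq A φ hφ ρ e K hπ hsep hA hρπ hB hind hcard x hx

end PrimeOfRed

section Generic

variable (N : ℕ) [NeZero N] (ℓ : ℕ) [Fact ℓ.Prime]

set_option quotPrecheck false in
local notation "ℤℓ" => ↥(GaloisRep.ratLocalizedAt ℓ)

set_option quotPrecheck false in
local notation "F" => ↥(modularFunctionFieldFull N)

omit [NeZero N] in
/-- `ℤ_(ℓ)[s]` is integrally closed for transcendental `s`. -/
theorem isIntegrallyClosed_adjoin (s : F) (hs : Transcendental ℤℓ s) :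
    IsIntegrallyClosed ↥(Algebra.adjoin ℤℓ ({s} : Set F)) := by
  have := isDiscreteValuationRing_ratLocalizedAt ℓ
  exact IsIntegrallyClosed.of_equiv (algEquivOfTranscendental ℤℓ s hs).toRingEquiv

omit [NeZero N] in
/-- `ℤ_(ℓ)[s]` is noetherian for transcendental `s`. -/
theorem isNoetherianRing_adjoin (s : F) (hs : Transcendental ℤℓ s) :
    IsNoetherianRing ↥(Algebra.adjoin ℤℓ ({s} : Set F)) := by
  have := isDiscreteValuationRing_ratLocalizedAt ℓ
  exact isNoetherianRing_of_ringEquiv _ (algEquivOfTranscendental ℤℓ s hs).toRingEquiv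

omit [NeZero N] [Fact ℓ.Prime] in
/-- Elements of `ℤ_(ℓ)[s]` are polynomials in `s`. -/
theorem exists_aeval_eq (s : F) (b : F) (hb : b ∈ Algebra.adjoin ℤℓ ({s} : Set F)) :
    ∃ P : ℤℓ[X], aeval s P = b := by
  rw [Algebra.adjoin_singleton_eq_range_aeval] at hb
  exact hb

/-- The field of fractions of `ℤ_(ℓ)[s]` inside `F`, as an intermediate field. -/
noncomputable def fracField (s : F) : IntermediateField ℚ F where
  carrier := {z | ∃ x y : F, x ∈ Algebra.adjoin ℤℓ ({s} : Set F) ∧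
    y ∈ Algebra.adjoin ℤℓ ({s} : Set F) ∧ y ≠ 0 ∧ z = x / y}
  mul_mem' := by
    rintro _ _ ⟨x, y, hx, hy, hy0, rfl⟩ ⟨x', y', hx', hy', hy0', rfl⟩
    exact ⟨x * x', y * y', mul_mem hx hx', mul_mem hy hy', mul_ne_zero hy0 hy0',
      by field_simp⟩
  one_mem' := ⟨1, 1, one_mem _, one_mem _, one_ne_zero, by simp⟩
  add_mem' := by
    rintro _ _ ⟨x, y, hx, hy, hy0, rfl⟩ ⟨x', y', hx', hy', hy0', rfl⟩
    exact ⟨x * y' + x' * y, y * y', add_mem (mul_mem hx hy') (mul_mem hx' hy), mul_mem hy hy',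
      mul_ne_zero hy0 hy0', by field_simp⟩
  zero_mem' := ⟨0, 1, zero_mem _, one_mem _, one_ne_zero, by simp⟩
  algebraMap_mem' q := by
    refine ⟨(q.num : F), (q.den : F), intCast_mem _ _, natCast_mem _ _, ?_, ?_⟩
    · exact_mod_cast q.den_ne_zero
    · rw [eq_ratCast]
      exact Rat.cast_def q
  inv_mem' := by
    rintro _ ⟨x, y, hx, hy, hy0, rfl⟩
    by_cases hx0 : x = 0
    · exact ⟨0, 1, zero_mem _, one_mem _, one_ne_zero, by simp [hx0]⟩
    · exact ⟨y, x, hy, hx, hx0, by simp⟩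

omit [NeZero N] [Fact ℓ.Prime] in
/-- Every element of `ℚ(s)` is a quotient of two elements of `ℤ_(ℓ)[s]`. -/
theorem exists_div_of_mem_adjoin (s : F) (z : F) (hz : z ∈ IntermediateField.adjoin ℚ ({s} : Set F)) :
    ∃ x y : F, x ∈ Algebra.adjoin ℤℓ ({s} : Set F) ∧ y ∈ Algebra.adjoin ℤℓ ({s} : Set F) ∧
      y ≠ 0 ∧ z = x / y := by
  have hle : IntermediateField.adjoin ℚ ({s} : Set F) ≤ fracField N ℓ s := by
    rw [IntermediateField.adjoin_simple_le_iff]
    exact ⟨s, 1, Algebra.self_mem_adjoin_singleton _ s, one_mem _, one_ne_zero, by simp⟩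
  exact hle hz

omit [NeZero N] [Fact ℓ.Prime] in
/-- `ℤ_(ℓ)[s] ⊆ ℚ(s)`. -/
theorem adjoin_le_adjoinRat (s : F) (x : F) (hx : x ∈ Algebra.adjoin ℤℓ ({s} : Set F)) :
    x ∈ IntermediateField.adjoin ℚ ({s} : Set F) := by
  induction hx using Algebra.adjoin_induction with
  | mem y hy =>
    rw [Set.mem_singleton_iff.mp hy]
    exact IntermediateField.mem_adjoin_simple_self ℚ s
  | algebraMap a => exact (IntermediateField.adjoin ℚ ({s} : Set F)).algebraMap_mem (a : ℚ)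
  | add y z _ _ hy hz => exact add_mem hy hz
  | mul y z _ _ hy hz => exact mul_mem hy hz

/-- The inclusion `ℤ_(ℓ)[s] → ℚ(s)`. -/
noncomputable def toFrac (s : F) :
    ↥(Algebra.adjoin ℤℓ ({s} : Set F)) →+* ↥(IntermediateField.adjoin ℚ ({s} : Set F)) where
  toFun x := ⟨x.1, adjoin_le_adjoinRat N ℓ s x.1 x.2⟩
  map_one' := rfl
  map_mul' _ _ := rfl
  map_zero' := rfl
  map_add' _ _ := rfl

/-- **q-expansion principle for a chart** `chartAlg N ℓ {s}` with `s` transcendental over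
`ℤ_(ℓ)`.  Let `red` be a ring homomorphism from the chart into a domain with `red ℓ = 0` whose
restriction to `ℤ_(ℓ)[s]` has kernel `ℓ ℤ_(ℓ)[s]` (`hR`), and let `e i` be at least
`[F : ℚ(s)]` elements of the chart whose reductions are linearly independent over the reduction
of `ℤ_(ℓ)[s]` (`hind`).  Then `ker red = ℓ · chartAlg`. -/
theorem ker_red_of_transcendental (s : F) (hs : Transcendental ℤℓ s)
    {T : Type*} [CommRing T] [IsDomain T] (red : ↥(chartAlg N ℓ {s}) →+* T)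
    (hℓ : red (ℓ : ↥(chartAlg N ℓ {s})) = 0)
    (hR : ∀ P : ℤℓ[X],
      red (aeval (⟨s, subset_chartAlg N ℓ _ rfl⟩ : ↥(chartAlg N ℓ {s})) P) = 0 →
        ∀ i, (ℓ : ℤℓ) ∣ P.coeff i)
    {ι : Type*} [Fintype ι] (e : ι → ↥(chartAlg N ℓ {s}))
    (hind : ∀ a : ι → ℤℓ[X],
      ∑ i, red (aeval (⟨s, subset_chartAlg N ℓ _ rfl⟩ : ↥(chartAlg N ℓ {s})) (a i)) * red (e i)
        = 0 →
      ∀ i, red (aeval (⟨s, subset_chartAlg N ℓ _ rfl⟩ : ↥(chartAlg N ℓ {s})) (a i)) = 0)
    [FiniteDimensional ↥(IntermediateField.adjoin ℚ ({s} : Set F)) F]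
    (hcard : Module.finrank ↥(IntermediateField.adjoin ℚ ({s} : Set F)) F ≤ Fintype.card ι)
    (x : ↥(chartAlg N ℓ {s})) (hx : red x = 0) :
    ∃ y : ↥(chartAlg N ℓ {s}), x = (ℓ : ↥(chartAlg N ℓ {s})) * y := by
  classical
  -- the base ring and its structure
  have hIC := isIntegrallyClosed_adjoin N ℓ s hs
  have hNoeth := isNoetherianRing_adjoin N ℓ s hs
  have hsurj : ∀ z : ↥(IntermediateField.adjoin ℚ ({s} : Set F)),
      ∃ a b : ↥(Algebra.adjoin ℤℓ ({s} : Set F)), z = toFrac N ℓ s a / toFrac N ℓ s b := by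
    intro z
    obtain ⟨a, b, ha, hb, -, hz⟩ := exists_div_of_mem_adjoin N ℓ s z.1 z.2
    exact ⟨⟨a, ha⟩, ⟨b, hb⟩, Subtype.ext hz⟩
  -- the chart as a subring, and the comparison maps
  let φ : ↥(Algebra.adjoin ℤℓ ({s} : Set F)) →+* ↥(chartAlg N ℓ {s}).toSubring :=
    { toFun := fun b => ⟨b.1, adjoin_le_chartAlg N ℓ {s} b.2⟩
      map_one' := rfl
      map_mul' := fun _ _ => rfl
      map_zero' := rfl
      map_add' := fun _ _ => rfl }
  let ψ : ↥(chartAlg N ℓ {s}).toSubring →+* ↥(chartAlg N ℓ {s}) :=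
    { toFun := fun b => ⟨b.1, b.2⟩
      map_one' := rfl
      map_mul' := fun _ _ => rfl
      map_zero' := rfl
      map_add' := fun _ _ => rfl }
  have hφ : ∀ b, ((φ b : ↥(chartAlg N ℓ {s}).toSubring) : F) =
      algebraMap ↥(Algebra.adjoin ℤℓ ({s} : Set F)) F b := fun _ => rfl
  have hψφ : ∀ (b : ↥(Algebra.adjoin ℤℓ ({s} : Set F))) (P : ℤℓ[X]), aeval s P = (b : F) →
      ψ (φ b) = aeval (⟨s, subset_chartAlg N ℓ _ rfl⟩ : ↥(chartAlg N ℓ {s})) P := by
    intro b P hP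
    apply Subtype.ext
    rw [aeval_subalgebra_coe]
    exact hP.symm
  have hℓφ : ψ (φ (ℓ : ↥(Algebra.adjoin ℤℓ ({s} : Set F)))) = (ℓ : ↥(chartAlg N ℓ {s})) := by
    rw [map_natCast, map_natCast]
  have hρπ : (red.comp ψ) (φ (ℓ : ↥(Algebra.adjoin ℤℓ ({s} : Set F)))) = 0 := by
    rw [RingHom.comp_apply, hℓφ, hℓ]
  have hB : ∀ b : ↥(Algebra.adjoin ℤℓ ({s} : Set F)), (red.comp ψ) (φ b) = 0 →
      (ℓ : ↥(Algebra.adjoin ℤℓ ({s} : Set F))) ∣ b := by
    intro b hb
    obtain ⟨P, hP⟩ := exists_aeval_eq N ℓ s b.1 b.2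
    rw [RingHom.comp_apply, hψφ b P hP] at hb
    have hdvd : C (ℓ : ℤℓ) ∣ P := (C_dvd_iff_dvd_coeff _ _).mpr (hR P hb)
    obtain ⟨Q, hQ⟩ := hdvd
    refine ⟨⟨aeval s Q, ?_⟩, Subtype.ext ?_⟩
    · rw [Algebra.adjoin_singleton_eq_range_aeval]
      exact ⟨Q, rfl⟩
    · show (b : F) = ((ℓ : ℕ) : F) * aeval s Q
      rw [← hP, hQ, map_mul, aeval_C, map_natCast]
  have hπ0 : (ℓ : ↥(Algebra.adjoin ℤℓ ({s} : Set F))) ≠ 0 := by
    intro h0
    have h1 : ((ℓ : ℕ) : F) = 0 :=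
      congrArg (fun z : ↥(Algebra.adjoin ℤℓ ({s} : Set F)) => (z : F)) h0
    exact (Fact.out : ℓ.Prime).ne_zero (Nat.cast_eq_zero.mp h1)
  have hπ : Prime (ℓ : ↥(Algebra.adjoin ℤℓ ({s} : Set F))) :=
    prime_of_red φ (red.comp ψ) _ hπ0 hρπ hB
  have hsep := QExp.exists_not_pow_dvd_of_noetherian hπ
  have hA : ∀ z : F, z ∈ (chartAlg N ℓ {s}).toSubring ↔
      IsIntegral ↥(Algebra.adjoin ℤℓ ({s} : Set F)) z := fun _ => Iff.rfl
  have hind' : ∀ a : ι → ↥(Algebra.adjoin ℤℓ ({s} : Set F)),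
      ∑ i, (red.comp ψ) (φ (a i)) * (red.comp ψ) ⟨(e i).1, (e i).2⟩ = 0 →
        ∀ i, (red.comp ψ) (φ (a i)) = 0 := by
    intro a ha
    choose P hP using fun i => exists_aeval_eq N ℓ s (a i).1 (a i).2
    have h1 : ∀ i, (red.comp ψ) (φ (a i)) =
        red (aeval (⟨s, subset_chartAlg N ℓ _ rfl⟩ : ↥(chartAlg N ℓ {s})) (P i)) := fun i => by
      rw [RingHom.comp_apply, hψφ (a i) (P i) (hP i)]
    intro i
    rw [h1 i]
    refine hind P ?_ i
    rw [← ha]
    refine Finset.sum_congr rfl fun i _ => ?_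
    rw [h1 i]
    rfl
  obtain ⟨y, hy⟩ := ker_eq_of_toFrac (toFrac N ℓ s) (fun _ => rfl) hsurj
    (chartAlg N ℓ {s}).toSubring φ hφ (red.comp ψ)
    (fun i => ⟨(e i).1, (e i).2⟩) hπ hsep hA hρπ hB hind' hcard ⟨x.1, x.2⟩ hx
  refine ⟨ψ y, ?_⟩
  have h2 := congrArg ψ hy
  rw [map_mul, hℓφ] at h2
  exact h2

end Generic

section Charts

variable (N : ℕ) [NeZero N] (ℓ : ℕ) [Fact ℓ.Prime]

set_option quotPrecheck false in
local notation "ℤℓ" => ↥(GaloisRep.ratLocalizedAt ℓ)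

set_option quotPrecheck false in
local notation "F" => ↥(modularFunctionFieldFull N)

/-- `ℚ(j⁻¹) = ℚ(j)`. -/
theorem adjoin_inv_eq :
    IntermediateField.adjoin ℚ ({(jFull N)⁻¹} : Set F) =
      IntermediateField.adjoin ℚ ({jFull N} : Set F) := by
  apply le_antisymm
  · rw [IntermediateField.adjoin_simple_le_iff]
    exact inv_mem (IntermediateField.mem_adjoin_simple_self ℚ _)
  · rw [IntermediateField.adjoin_simple_le_iff]
    have h := inv_mem (IntermediateField.mem_adjoin_simple_self ℚ (jFull N)⁻¹)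
    rwa [inv_inv] at h

/-- **q-expansion principle for the finite chart** `chartAlgFin N ℓ` (integral closure of
`ℤ_(ℓ)[j]`): the kernel of a reduction map `red` is `ℓ · chartAlgFin`, provided `red` has
kernel `ℓ` on `ℤ_(ℓ)[j]` (`hR`) and there are at least `[F : ℚ(j)]` elements of the chart whose
reductions are linearly independent over the reduction of `ℤ_(ℓ)[j]` (`hind`, `hcard`).
The conclusion is exactly the hypothesis `hker` of `TensorRed.isDomain_tensor_of_red`. -/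
theorem ker_red_fin {T : Type*} [CommRing T] [IsDomain T] (red : ↥(chartAlgFin N ℓ) →+* T)
    (hℓ : red (ℓ : ↥(chartAlgFin N ℓ)) = 0)
    (hR : ∀ P : ℤℓ[X], red (aeval (jChartFin N ℓ) P) = 0 → ∀ i, (ℓ : ℤℓ) ∣ P.coeff i)
    {ι : Type*} [Fintype ι] (e : ι → ↥(chartAlgFin N ℓ))
    (hind : ∀ a : ι → ℤℓ[X], ∑ i, red (aeval (jChartFin N ℓ) (a i)) * red (e i) = 0 →
      ∀ i, red (aeval (jChartFin N ℓ) (a i)) = 0)
    [FiniteDimensional ↥(IntermediateField.adjoin ℚ ({jFull N} : Set F)) F]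
    (hcard : Module.finrank ↥(IntermediateField.adjoin ℚ ({jFull N} : Set F)) F
      ≤ Fintype.card ι) :
    ∀ x : ↥(chartAlgFin N ℓ), red x = 0 →
      ∃ y : ↥(chartAlgFin N ℓ), x = (ℓ : ↥(chartAlgFin N ℓ)) * y :=
  fun x hx => ker_red_of_transcendental N ℓ (jFull N) (transcendental_jFull N ℓ) red hℓ hR e
    hind hcard x hx

/-- **q-expansion principle for the chart at infinity** `chartAlgInf N ℓ` (integral closure of
`ℤ_(ℓ)[j⁻¹]`); same statement as `ker_red_fin` with `j⁻¹` in place of `j` (the degree bound is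
still over `ℚ(j) = ℚ(j⁻¹)`). -/
theorem ker_red_inf {T : Type*} [CommRing T] [IsDomain T] (red : ↥(chartAlgInf N ℓ) →+* T)
    (hℓ : red (ℓ : ↥(chartAlgInf N ℓ)) = 0)
    (hR : ∀ P : ℤℓ[X], red (aeval (jInvChartInf N ℓ) P) = 0 → ∀ i, (ℓ : ℤℓ) ∣ P.coeff i)
    {ι : Type*} [Fintype ι] (e : ι → ↥(chartAlgInf N ℓ))
    (hind : ∀ a : ι → ℤℓ[X], ∑ i, red (aeval (jInvChartInf N ℓ) (a i)) * red (e i) = 0 →
      ∀ i, red (aeval (jInvChartInf N ℓ) (a i)) = 0)
    [hfd : FiniteDimensional ↥(IntermediateField.adjoin ℚ ({jFull N} : Set F)) F]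
    (hcard : Module.finrank ↥(IntermediateField.adjoin ℚ ({jFull N} : Set F)) F
      ≤ Fintype.card ι) :
    ∀ x : ↥(chartAlgInf N ℓ), red x = 0 →
      ∃ y : ↥(chartAlgInf N ℓ), x = (ℓ : ↥(chartAlgInf N ℓ)) * y := by
  have hfd' : FiniteDimensional ↥(IntermediateField.adjoin ℚ ({(jFull N)⁻¹} : Set F)) F := by
    rw [adjoin_inv_eq N]
    exact hfd
  have hcard' : Module.finrank ↥(IntermediateField.adjoin ℚ ({(jFull N)⁻¹} : Set F)) F
      ≤ Fintype.card ι := by
    rw [adjoin_inv_eq N]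
    exact hcard
  exact fun x hx => ker_red_of_transcendental N ℓ (jFull N)⁻¹ (transcendental_jFull_inv N ℓ) red
    hℓ hR e hind hcard' x hx

end Charts

end Fermat.Agent.S28.ChartQExp
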