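import Mathlib
import Fermat.Prelude.Def_ModularCurve_IgusaScheme
import Fermat.Agent.S28.ChartQExp
import Fermat.Agent.S28.ChartKer
import Fermat.Agent.S28.TranscJ

/-!
# S28, module (E): the spanning hypothesis of `ChartKer.chart_ker_red`

For `x₀ ∈ {j, j⁻¹}`, a family `m` of elements of the chart `chartAlg N ℓ {x₀}` whose reductions
are linearly independent over the reduction of `ℤ_(ℓ)[x₀]` is linearly independent over
`ℤ_(ℓ)[x₀]` (divide a relation by `ℓ` as long as possible), hence over `ℚ(j)`; if the family has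
at least `[F : ℚ(j)]` members it spans `F` over `ℚ(j)`, and clearing denominators gives the
hypothesis `hspan` of `ChartKer.chart_ker_red`.
-/

set_option autoImplicit false

namespace Fermat.Agent.S28.ChartSpan

open Polynomial ModularCurve ModularCurve.IgusaScheme

section Abstract

variable {B F T ι : Type*} [CommRing B] [Field F] [Algebra B F] [FaithfulSMul B F]
  [CommRing T] [Fintype ι]
  {π : B} (A : Subring F) (φ : B →+* A) (hφ : ∀ b, (φ b : F) = algebraMap B F b)
  (ρ : A →+* T) (e : ι → A)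

include hφ in
/-- Divisibility by every power of `π` of the coefficients of a linear relation. -/
theorem pow_dvd_of_relation (hπ0 : π ≠ 0) (hB : ∀ b, ρ (φ b) = 0 → π ∣ b)
    (hind : ∀ a : ι → B, ∑ i, ρ (φ (a i)) * ρ (e i) = 0 → ∀ i, ρ (φ (a i)) = 0) (n : ℕ) :
    ∀ g : ι → B, ∑ i, φ (g i) * e i = 0 → ∀ i, π ^ n ∣ g i := by
  have hφinj : Function.Injective φ := by
    intro b b' h
    have h' : algebraMap B F b = algebraMap B F b' := by rw [← hφ, ← hφ, h]
    exact FaithfulSMul.algebraMap_injective B F h'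
  induction n with
  | zero => intro g _ i; simp
  | succ n ih =>
    intro g hg i
    have h1 : ∑ i, ρ (φ (g i)) * ρ (e i) = 0 := by
      have := congrArg ρ hg
      simpa [map_sum, map_mul] using this
    have h2 := fun i => hB _ (hind g h1 i)
    choose g' hg' using h2
    have h3 : ∑ i, φ (g' i) * e i = 0 := by
      have h4 : φ π * ∑ i, φ (g' i) * e i = 0 := by
        rw [Finset.mul_sum, ← hg]
        refine Finset.sum_congr rfl fun i _ => ?_
        rw [hg' i, map_mul, mul_assoc]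
      have hπA : φ π ≠ 0 := fun h => hπ0 (hφinj (by rw [h, map_zero]))
      exact (mul_eq_zero.mp h4).resolve_left hπA
    rw [hg' i, pow_succ']
    exact mul_dvd_mul_left π (ih g' h3 i)

include hφ in
/-- The `e i` are linearly independent over `B`: independence of the reductions lifts. -/
theorem linearIndependent_of_red (hπ0 : π ≠ 0) (hsep : ∀ a : B, a ≠ 0 → ∃ n : ℕ, ¬ π ^ n ∣ a)
    (hB : ∀ b, ρ (φ b) = 0 → π ∣ b)
    (hind : ∀ a : ι → B, ∑ i, ρ (φ (a i)) * ρ (e i) = 0 → ∀ i, ρ (φ (a i)) = 0) :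
    LinearIndependent B (fun i => (e i : F)) := by
  rw [Fintype.linearIndependent_iff]
  intro g hg i
  by_contra hne
  obtain ⟨n, hn⟩ := hsep (g i) hne
  refine hn (pow_dvd_of_relation A φ hφ ρ e hπ0 hB hind n g ?_ i)
  apply Subtype.ext
  rw [Subring.coe_zero, ← hg, AddSubmonoidClass.coe_finsetSum]
  refine Finset.sum_congr rfl fun i _ => ?_
  rw [Subring.coe_mul, hφ, Algebra.smul_def]

include hφ in
/-- If the fraction field `K` of `B` (given by an explicit ring homomorphism `toK : B → K`)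
satisfies `[F : K] ≤ #ι`, every element of `A` has a nonzero `B`-multiple in the `B`-span of the
`e i`. -/
theorem span_of_toFrac [IsDomain B] {K : Type*} [Field K] [Algebra K F] [Module.Finite K F]
    (toK : B →+* K) (hcomp : ∀ b, algebraMap K F (toK b) = algebraMap B F b)
    (hsurj : ∀ z : K, ∃ x y : B, z = toK x / toK y)
    (hπ0 : π ≠ 0) (hsep : ∀ a : B, a ≠ 0 → ∃ n : ℕ, ¬ π ^ n ∣ a)
    (hB : ∀ b, ρ (φ b) = 0 → π ∣ b)
    (hind : ∀ a : ι → B, ∑ i, ρ (φ (a i)) * ρ (e i) = 0 → ∀ i, ρ (φ (a i)) = 0)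
    (hcard : Module.finrank K F ≤ Fintype.card ι) (x : A) :
    ∃ b : B, b ≠ 0 ∧ ∃ a : ι → B, φ b * x = ∑ i, φ (a i) * e i := by
  classical
  let _ : Algebra B K := toK.toAlgebra
  have : IsScalarTower B K F := IsScalarTower.of_algebraMap_eq fun b => (hcomp b).symm
  have : FaithfulSMul B K := (faithfulSMul_iff_algebraMap_injective B K).mpr fun a b h =>
    FaithfulSMul.algebraMap_injective B F (by
      rw [← hcomp, ← hcomp]
      exact congrArg _ h)
  have : IsFractionRing B K := IsFractionRing.of_field B K hsurj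
  have hli : LinearIndependent K (fun i => (e i : F)) :=
    (linearIndependent_of_red A φ hφ ρ e hπ0 hsep hB hind).localization K (nonZeroDivisors B)
  have hcard' : Fintype.card ι = Module.finrank K F :=
    le_antisymm hli.fintype_card_le_finrank hcard
  have hspan := hli.span_eq_top_of_card_eq_finrank' hcard'
  have hx : (x : F) ∈ Submodule.span K (Set.range fun i => (e i : F)) := by
    rw [hspan]; trivial
  obtain ⟨c, hc⟩ := (Submodule.mem_span_range_iff_exists_fun K).mp hx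
  obtain ⟨b, hb⟩ := IsLocalization.exist_integer_multiples (nonZeroDivisors B) Finset.univ c
  choose a ha using fun i => hb i (Finset.mem_univ i)
  refine ⟨b, nonZeroDivisors.coe_ne_zero b, a, Subtype.ext ?_⟩
  simp only [Subring.coe_mul, hφ, AddSubmonoidClass.coe_finsetSum]
  rw [← hc, Finset.mul_sum]
  refine Finset.sum_congr rfl fun i _ => ?_
  calc algebraMap B F b * c i • (e i : F)
      = algebraMap K F (algebraMap B K b * c i) * (e i : F) := by
        rw [map_mul, ← IsScalarTower.algebraMap_apply, Algebra.smul_def, mul_assoc]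
    _ = algebraMap B F (a i) * (e i : F) := by
        rw [IsScalarTower.algebraMap_apply B K F (a i), ha i, Algebra.smul_def]

end Abstract

section Chart

variable (N : ℕ) [NeZero N] (ℓ : ℕ) [Fact ℓ.Prime]

set_option quotPrecheck false in
local notation "ℤℓ" => ↥(GaloisRep.ratLocalizedAt ℓ)

set_option quotPrecheck false in
local notation "F" => ↥(modularFunctionFieldFull N)

/-- The spanning hypothesis of `ChartKer.chart_ker_red` for a chart `chartAlg N ℓ {x₀}` with
`x₀` transcendental over `ℤ_(ℓ)`, from the independence of the reductions (`hR`, `hind`) and the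
degree bound `[F : ℚ(x₀)] ≤ n`. -/
theorem hspan_of_transcendental (x₀ : F) (hx₀ : Transcendental ℤℓ x₀)
    {T : Type*} [CommRing T] (red : chartAlg N ℓ {x₀} →+* T)
    (hR : ∀ P : ℤℓ[X], red (ChartKer.polyChart N ℓ x₀ P) = 0 → C (ℓ : ℤℓ) ∣ P)
    {n : ℕ} (m : Fin n → chartAlg N ℓ {x₀})
    (hind : ∀ cs : Fin n → ℤℓ[X],
      ∑ i, red (ChartKer.polyChart N ℓ x₀ (cs i)) * red (m i) = 0 →
        ∀ i, red (ChartKer.polyChart N ℓ x₀ (cs i)) = 0)
    [FiniteDimensional ↥(IntermediateField.adjoin ℚ ({x₀} : Set F)) F]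
    (hcard : Module.finrank ↥(IntermediateField.adjoin ℚ ({x₀} : Set F)) F ≤ n)
    (x : chartAlg N ℓ {x₀}) :
    ∃ (c : ℤℓ[X]) (cs : Fin n → ℤℓ[X]), c ≠ 0 ∧
      ChartKer.polyChart N ℓ x₀ c * x = ∑ i, ChartKer.polyChart N ℓ x₀ (cs i) * m i := by
  classical
  let _ : Algebra ℤℓ[X] F := ChartKer.polyAlgebra N ℓ x₀
  have hinj : Function.Injective (algebraMap ℤℓ[X] F) := transcendental_iff_injective.mp hx₀
  have : FaithfulSMul ℤℓ[X] F := (faithfulSMul_iff_algebraMap_injective _ _).mpr hinj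
  -- the chart as a subring, and the comparison maps
  let ψ : ↥(chartAlg N ℓ {x₀}).toSubring →+* ↥(chartAlg N ℓ {x₀}) :=
    { toFun := fun b => ⟨b.1, b.2⟩
      map_one' := rfl
      map_mul' := fun _ _ => rfl
      map_zero' := rfl
      map_add' := fun _ _ => rfl }
  let ψ' : ↥(chartAlg N ℓ {x₀}) →+* ↥(chartAlg N ℓ {x₀}).toSubring :=
    { toFun := fun b => ⟨b.1, b.2⟩
      map_one' := rfl
      map_mul' := fun _ _ => rfl
      map_zero' := rfl
      map_add' := fun _ _ => rfl }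
  have hψ : ∀ z, ψ (ψ' z) = z := fun _ => rfl
  let toK : ℤℓ[X] →+* ↥(IntermediateField.adjoin ℚ ({x₀} : Set F)) :=
    (ChartQExp.toFrac N ℓ x₀).comp
      ((Polynomial.aeval x₀).codRestrict (Algebra.adjoin ℤℓ ({x₀} : Set F)) fun _ =>
        Polynomial.aeval_mem_adjoin_singleton ℤℓ x₀).toRingHom
  have hsurj : ∀ z : ↥(IntermediateField.adjoin ℚ ({x₀} : Set F)),
      ∃ a b : ℤℓ[X], z = toK a / toK b := by
    intro z
    obtain ⟨a, b, ha, hb, -, hz⟩ := ChartQExp.exists_div_of_mem_adjoin N ℓ x₀ z.1 z.2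
    obtain ⟨P, hP⟩ := ChartQExp.exists_aeval_eq N ℓ x₀ a ha
    obtain ⟨Q, hQ⟩ := ChartQExp.exists_aeval_eq N ℓ x₀ b hb
    refine ⟨P, Q, Subtype.ext ?_⟩
    rw [hz, ← hP, ← hQ]
    rfl
  have hπ0 : (C (ℓ : ℤℓ) : ℤℓ[X]) ≠ 0 := by
    rw [Ne, C_eq_zero]
    intro h
    have h1 : ((ℓ : ℕ) : ℚ) = 0 := congrArg (Subtype.val : ℤℓ → ℚ) h
    exact (Fact.out : ℓ.Prime).ne_zero (Nat.cast_eq_zero.mp h1)
  obtain ⟨c, hc0, cs, h⟩ := span_of_toFrac (chartAlg N ℓ {x₀}).toSubring
    (ψ'.comp (ChartKer.polyChart N ℓ x₀)) (fun _ => rfl) (red.comp ψ) (fun i => ψ' (m i))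
    toK (fun _ => rfl) hsurj hπ0 (fun a ha => ChartKer.exists_not_C_pow_dvd ℓ a ha)
    (fun b hb => hR b hb) (fun a ha => hind a ha) (by rw [Fintype.card_fin]; exact hcard) (ψ' x)
  refine ⟨c, cs, hc0, ?_⟩
  have h1 := congrArg ψ h
  rw [map_mul, map_sum] at h1
  rw [← hψ x, ← hψ (ChartKer.polyChart N ℓ x₀ c)]
  refine h1.trans (Finset.sum_congr rfl fun i _ => ?_)
  rw [map_mul]
  rfl

/-- **(E), rank hypotheses explicit.**  The hypothesis `hspan` of `ChartKer.chart_ker_red` for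
the two one-generator charts `x₀ ∈ {j, j⁻¹}`, given `[F : ℚ(j)] ≤ n`. -/
theorem hspan_of_hind_of_rank (x₀ : F) (hx₀ : x₀ = jFull N ∨ x₀ = (jFull N)⁻¹)
    {T : Type*} [CommRing T] (red : chartAlg N ℓ {x₀} →+* T)
    (hR : ∀ P : ℤℓ[X], red (ChartKer.polyChart N ℓ x₀ P) = 0 → C (ℓ : ℤℓ) ∣ P)
    {n : ℕ} (m : Fin n → chartAlg N ℓ {x₀})
    (hind : ∀ cs : Fin n → ℤℓ[X],
      ∑ i, red (ChartKer.polyChart N ℓ x₀ (cs i)) * red (m i) = 0 →
        ∀ i, red (ChartKer.polyChart N ℓ x₀ (cs i)) = 0)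
    [hfd : FiniteDimensional ↥(IntermediateField.adjoin ℚ ({jFull N} : Set F)) F]
    (hcard : Module.finrank ↥(IntermediateField.adjoin ℚ ({jFull N} : Set F)) F ≤ n) :
    ∀ x : chartAlg N ℓ {x₀}, ∃ (c : ℤℓ[X]) (cs : Fin n → ℤℓ[X]), c ≠ 0 ∧
      ChartKer.polyChart N ℓ x₀ c * x = ∑ i, ChartKer.polyChart N ℓ x₀ (cs i) * m i := by
  rcases hx₀ with rfl | rfl
  · exact fun x => hspan_of_transcendental N ℓ (jFull N) (TranscJ.transcendental_jFull N ℓ) red hR
      m hind hcard x
  · have hfd' : FiniteDimensional ↥(IntermediateField.adjoin ℚ ({(jFull N)⁻¹} : Set F)) F := by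
      rw [ChartQExp.adjoin_inv_eq N]
      exact hfd
    have hcard' : Module.finrank ↥(IntermediateField.adjoin ℚ ({(jFull N)⁻¹} : Set F)) F ≤ n := by
      rw [ChartQExp.adjoin_inv_eq N]
      exact hcard
    exact fun x => hspan_of_transcendental N ℓ (jFull N)⁻¹
      (TranscJ.transcendental_jFull_inv N ℓ) red hR m hind hcard' x

end Chart

end Fermat.Agent.S28.ChartSpan
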