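import Mathlib
import Fermat.Prelude.Def_ModularCurve_X0ModL
import Fermat.Agent.S28.PolyInt

/-!
# S28: the substitution `t ↦ ζ t` on Laurent series

* `twist ζ : LaurentSeries R →+* LaurentSeries R`, `f(t) ↦ f(ζ t)`, for a unit `ζ` of any
  commutative ring `R`; `twist_coeff`, `twist_C`, `twist_qExpand` (`ζ ^ p = 1` fixes series in
  `t ^ p`), compatibility with `Polynomial.aeval` and with two-variable evaluation
  `(P.map (aeval b).toRingHom).eval a`; the same for `ModularCurve.qExpand`.
* coefficients: `twist_mem_coeffSubring`, `qExpand_mem_coeffSubring_iff`.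
-/

set_option autoImplicit false

noncomputable section

namespace Fermat.Agent.S28.Twist

open HahnSeries ModularCurve Fermat.Agent.S28.PolyInt

variable {R : Type*} [CommRing R]

/-! ### The twist -/

/-- The underlying function of the twist `f(t) ↦ f(ζ t)`. -/
def twistFun (ζ : Rˣ) (f : LaurentSeries R) : LaurentSeries R where
  coeff n := ((ζ ^ n : Rˣ) : R) * f.coeff n
  isPWO_support' := f.isPWO_support.mono (fun n hn => by
    simp only [Function.mem_support, ne_eq] at hn
    exact fun h => hn (by rw [h, mul_zero]))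

theorem twistFun_coeff (ζ : Rˣ) (f : LaurentSeries R) (n : ℤ) :
    (twistFun ζ f).coeff n = ((ζ ^ n : Rˣ) : R) * f.coeff n := rfl

theorem support_twistFun (ζ : Rˣ) (f : LaurentSeries R) :
    (twistFun ζ f).support = f.support := by
  ext n
  rw [HahnSeries.mem_support, HahnSeries.mem_support, twistFun_coeff]
  exact ⟨fun h hn => h (by rw [hn, mul_zero]), fun h hn => h ((Units.mul_right_eq_zero _).mp hn)⟩

/-- The ring automorphism `f(t) ↦ f(ζ t)` of `R((t))`, as a ring homomorphism. -/
def twist (ζ : Rˣ) : LaurentSeries R →+* LaurentSeries R where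
  toFun := twistFun ζ
  map_one' := by
    ext n
    rw [twistFun_coeff, HahnSeries.coeff_one]
    split_ifs with h
    · subst h; simp
    · simp
  map_mul' x y := by
    ext n
    rw [twistFun_coeff, HahnSeries.coeff_mul, HahnSeries.coeff_mul, Finset.mul_sum]
    have hset : Finset.antidiagonal (twistFun ζ x).isPWO_support (twistFun ζ y).isPWO_support n
        = Finset.antidiagonal x.isPWO_support y.isPWO_support n := by
      ext ij
      simp only [Finset.mem_antidiagonal, support_twistFun]
    rw [hset]
    refine Finset.sum_congr rfl fun ij hij => ?_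
    have hn : ij.1 + ij.2 = n := (Finset.mem_antidiagonal.mp hij).2.2
    rw [twistFun_coeff, twistFun_coeff, ← hn, zpow_add, Units.val_mul]
    ring
  map_zero' := by
    ext n
    simp [twistFun_coeff]
  map_add' x y := by
    ext n
    simp [twistFun_coeff, mul_add]

theorem twist_coeff (ζ : Rˣ) (f : LaurentSeries R) (n : ℤ) :
    (twist ζ f).coeff n = ((ζ ^ n : Rˣ) : R) * f.coeff n := rfl

theorem twist_single (ζ : Rˣ) (n : ℤ) (c : R) :
    twist ζ (HahnSeries.single n c) = HahnSeries.single n (((ζ ^ n : Rˣ) : R) * c) := by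
  ext m
  rw [twist_coeff]
  rcases eq_or_ne m n with rfl | hm
  · rw [HahnSeries.coeff_single_same, HahnSeries.coeff_single_same]
  · rw [HahnSeries.coeff_single_of_ne hm, HahnSeries.coeff_single_of_ne hm, mul_zero]

theorem twist_C (ζ : Rˣ) (c : R) : twist ζ (HahnSeries.C c) = HahnSeries.C c := by
  rw [HahnSeries.C_apply, twist_single]
  simp

theorem twist_algebraMap (ζ : Rˣ) (c : R) :
    twist ζ (algebraMap R (LaurentSeries R) c) = algebraMap R (LaurentSeries R) c := by
  rw [algebraMap_eq_single, twist_single]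
  simp

theorem twist_one (f : LaurentSeries R) : twist (1 : Rˣ) f = f := by
  ext n
  rw [twist_coeff]
  simp

theorem twist_twist (ζ ξ : Rˣ) (f : LaurentSeries R) :
    twist ζ (twist ξ f) = twist (ζ * ξ) f := by
  ext n
  rw [twist_coeff, twist_coeff, twist_coeff, mul_zpow, Units.val_mul, mul_assoc]

theorem twist_pow (ζ : Rˣ) (i : ℕ) (f : LaurentSeries R) :
    (twist ζ)^[i] f = twist (ζ ^ i) f := by
  induction i with
  | zero => simp [twist_one]
  | succ i ih => rw [Function.iterate_succ_apply', ih, twist_twist, pow_succ']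

theorem twist_injective (ζ : Rˣ) : Function.Injective (twist ζ : LaurentSeries R → _) := by
  intro f g h
  have := congrArg (twist ζ⁻¹) h
  rwa [twist_twist, twist_twist, inv_mul_cancel, twist_one, twist_one] at this

/-- A `p`-th root of unity fixes every series in `t ^ p`. -/
theorem twist_qExpand (ζ : Rˣ) (p : ℕ) [NeZero p] (hζ : ζ ^ p = 1) (f : LaurentSeries R) :
    twist ζ (qExpand R p f) = qExpand R p f := by
  ext n
  rw [twist_coeff]
  by_cases hdvd : (p : ℤ) ∣ n
  · obtain ⟨k, rfl⟩ := hdvd
    rw [zpow_mul, zpow_natCast, hζ, one_zpow, Units.val_one, one_mul]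
  · rw [qExpand_coeff_of_not_dvd p f hdvd, mul_zero]

/-- Twisting `f(t^p)` by `ζ` is `(twist (ζ ^ p) f)(t^p)`. -/
theorem twist_qExpand_general (ζ : Rˣ) (p : ℕ) [NeZero p] (f : LaurentSeries R) :
    twist ζ (qExpand R p f) = qExpand R p (twist (ζ ^ p) f) := by
  ext n
  rw [twist_coeff]
  by_cases hdvd : (p : ℤ) ∣ n
  · obtain ⟨k, rfl⟩ := hdvd
    rw [qExpand_coeff_mul, qExpand_coeff_mul, twist_coeff, zpow_mul, zpow_natCast]
  · rw [qExpand_coeff_of_not_dvd p f hdvd, qExpand_coeff_of_not_dvd p _ hdvd, mul_zero]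

/-! ### Compatibility with polynomial evaluation -/

theorem qExpand_algebraMap (p : ℕ) [NeZero p] (c : R) :
    qExpand R p (algebraMap R (LaurentSeries R) c) = algebraMap R (LaurentSeries R) c := by
  rw [algebraMap_eq_single, qExpand_single, mul_zero]

/-- A ring endomorphism of `R((t))` fixing the constants commutes with `aeval`. -/
theorem map_aeval_of_algebraMap (φ : LaurentSeries R →+* LaurentSeries R)
    (hφ : ∀ c : R, φ (algebraMap R (LaurentSeries R) c) = algebraMap R (LaurentSeries R) c)
    (b : LaurentSeries R) (P : Polynomial R) :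
    φ (Polynomial.aeval b P) = Polynomial.aeval (φ b) P := by
  rw [Polynomial.aeval_def, Polynomial.aeval_def, Polynomial.hom_eval₂]
  congr 1
  exact RingHom.ext hφ

theorem comp_aeval_of_algebraMap (φ : LaurentSeries R →+* LaurentSeries R)
    (hφ : ∀ c : R, φ (algebraMap R (LaurentSeries R) c) = algebraMap R (LaurentSeries R) c)
    (b : LaurentSeries R) :
    φ.comp (Polynomial.aeval (R := R) b).toRingHom =
      (Polynomial.aeval (R := R) (φ b)).toRingHom :=
  RingHom.ext fun P => map_aeval_of_algebraMap φ hφ b P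

/-- A ring endomorphism of `R((t))` fixing the constants commutes with two-variable evaluation
`P(X := a, Y := b)`. -/
theorem map_ev_of_algebraMap (φ : LaurentSeries R →+* LaurentSeries R)
    (hφ : ∀ c : R, φ (algebraMap R (LaurentSeries R) c) = algebraMap R (LaurentSeries R) c)
    (a b : LaurentSeries R) (P : Polynomial (Polynomial R)) :
    φ ((P.map (Polynomial.aeval b).toRingHom).eval a) =
      (P.map (Polynomial.aeval (φ b)).toRingHom).eval (φ a) := by
  rw [Polynomial.eval_map, Polynomial.hom_eval₂, Polynomial.eval_map,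
    comp_aeval_of_algebraMap φ hφ]

theorem twist_aeval (ζ : Rˣ) (b : LaurentSeries R) (P : Polynomial R) :
    twist ζ (Polynomial.aeval b P) = Polynomial.aeval (twist ζ b) P :=
  map_aeval_of_algebraMap (twist ζ) (twist_algebraMap ζ) b P

theorem qExpand_aeval (p : ℕ) [NeZero p] (b : LaurentSeries R) (P : Polynomial R) :
    qExpand R p (Polynomial.aeval b P) = Polynomial.aeval (qExpand R p b) P :=
  map_aeval_of_algebraMap (qExpand R p) (qExpand_algebraMap p) b P

/-- `twist ζ (P(a, b)) = P(twist ζ a, twist ζ b)`. -/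
theorem twist_ev (ζ : Rˣ) (a b : LaurentSeries R) (P : Polynomial (Polynomial R)) :
    twist ζ ((P.map (Polynomial.aeval b).toRingHom).eval a) =
      (P.map (Polynomial.aeval (twist ζ b)).toRingHom).eval (twist ζ a) :=
  map_ev_of_algebraMap (twist ζ) (twist_algebraMap ζ) a b P

/-- `(P(a, b))(t^p) = P(a(t^p), b(t^p))`. -/
theorem qExpand_ev (p : ℕ) [NeZero p] (a b : LaurentSeries R) (P : Polynomial (Polynomial R)) :
    qExpand R p ((P.map (Polynomial.aeval b).toRingHom).eval a) =
      (P.map (Polynomial.aeval (qExpand R p b)).toRingHom).eval (qExpand R p a) :=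
  map_ev_of_algebraMap (qExpand R p) (qExpand_algebraMap p) a b P

/-- The `X`-coefficients of `P(X, b)` under a constant-fixing endomorphism. -/
theorem map_map_aeval_of_algebraMap (φ : LaurentSeries R →+* LaurentSeries R)
    (hφ : ∀ c : R, φ (algebraMap R (LaurentSeries R) c) = algebraMap R (LaurentSeries R) c)
    (b : LaurentSeries R) (P : Polynomial (Polynomial R)) :
    (P.map (Polynomial.aeval b).toRingHom).map φ = P.map (Polynomial.aeval (φ b)).toRingHom := by
  rw [Polynomial.map_map, comp_aeval_of_algebraMap φ hφ]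

theorem map_twist_map_aeval (ζ : Rˣ) (b : LaurentSeries R) (P : Polynomial (Polynomial R)) :
    (P.map (Polynomial.aeval b).toRingHom).map (twist ζ) =
      P.map (Polynomial.aeval (twist ζ b)).toRingHom :=
  map_map_aeval_of_algebraMap (twist ζ) (twist_algebraMap ζ) b P

theorem map_qExpand_map_aeval (p : ℕ) [NeZero p] (b : LaurentSeries R)
    (P : Polynomial (Polynomial R)) :
    (P.map (Polynomial.aeval b).toRingHom).map (qExpand R p) =
      P.map (Polynomial.aeval (qExpand R p b)).toRingHom :=
  map_map_aeval_of_algebraMap (qExpand R p) (qExpand_algebraMap p) b P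

/-! ### Coefficients in a subring -/

/-- The coefficients of `twist ζ f` lie in `O` if those of `f` do and `ζ, ζ⁻¹ ∈ O`. -/
theorem twist_mem_coeffSubring (O : Subring R) (ζ : Rˣ) (hζ : (ζ : R) ∈ O)
    (hζ' : ((ζ⁻¹ : Rˣ) : R) ∈ O) {f : LaurentSeries R} (hf : f ∈ coeffSubring O) :
    twist ζ f ∈ coeffSubring O := by
  rw [mem_coeffSubring] at hf ⊢
  intro n
  rw [twist_coeff]
  refine O.mul_mem ?_ (hf n)
  obtain ⟨m, rfl | rfl⟩ := n.eq_nat_or_neg
  · rw [zpow_natCast, Units.val_pow_eq_pow_val]
    exact pow_mem hζ m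
  · rw [zpow_neg, zpow_natCast, ← inv_pow, Units.val_pow_eq_pow_val]
    exact pow_mem hζ' m

/-- A root of unity and its inverse lie in any subring containing it. -/
theorem twist_mem_coeffSubring_of_pow_eq_one (O : Subring R) (ζ : Rˣ) (hζ : (ζ : R) ∈ O)
    {p : ℕ} (hp : 0 < p) (h1 : ζ ^ p = 1) {f : LaurentSeries R} (hf : f ∈ coeffSubring O) :
    twist ζ f ∈ coeffSubring O := by
  refine twist_mem_coeffSubring O ζ hζ ?_ hf
  have hinv : ζ⁻¹ = ζ ^ (p - 1) := by
    rw [inv_eq_iff_mul_eq_one, ← pow_succ', Nat.sub_add_cancel hp, h1]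
  rw [hinv, Units.val_pow_eq_pow_val]
  exact pow_mem hζ _

/-- The coefficients of `f(t^p)` lie in `O` iff those of `f` do. -/
theorem qExpand_mem_coeffSubring_iff (O : Subring R) (p : ℕ) [NeZero p] (f : LaurentSeries R) :
    qExpand R p f ∈ coeffSubring O ↔ f ∈ coeffSubring O := by
  rw [mem_coeffSubring, mem_coeffSubring]
  constructor
  · intro h k
    have := h ((p : ℤ) * k)
    rwa [qExpand_coeff_mul] at this
  · intro h n
    by_cases hdvd : (p : ℤ) ∣ n
    · obtain ⟨k, rfl⟩ := hdvd
      rw [qExpand_coeff_mul]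
      exact h k
    · rw [qExpand_coeff_of_not_dvd p f hdvd]
      exact O.zero_mem

/-! ### Base change -/

/-- `coeffMap` intertwines the twists by `ζ` and by its image. -/
theorem coeffMap_twist {S : Type*} [CommRing S] (f : R →+* S) (ζ : Rˣ) (x : LaurentSeries R) :
    coeffMap f (twist ζ x) = twist (Units.map (f : R →* S) ζ) (coeffMap f x) := by
  ext n
  rw [coeffMap_coeff, twist_coeff, twist_coeff, coeffMap_coeff, map_mul, ← map_zpow]
  rfl

end Fermat.Agent.S28.Twist
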