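import Mathlib
import Fermat.Prelude.Def_ModularCurve_X0ModL
import Fermat.Agent.S28.PolyInt
import Fermat.Agent.S28.Twist

/-!
# S28: Laurent series with coefficients in a subring -- closure lemmas

On top of `PolyInt.coeffSubring O` (Laurent series over `A` with all coefficients in the
subring `O`):

* range description: `f ∈ coeffSubring O ↔ f = coeffMap O.subtype y`, injectivity of
  `coeffMap O.subtype`;
* closure: `single`, `C`, `algebraMap`, `ofPowerSeries`, integer series, `jqModC`, coefficients
  of `∏ (X - C root)` and of a Lagrange resolvent, `aeval`;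
* leading-term induction for `J = t^{-m} + …` (`0 < m`), in particular `J = j(t^d)`:
  `P(X, J)` with coefficients in `O((t))` forces `P ∈ O[Y][X]`;
* naturality of two-variable evaluation under `coeffMap`, transfer of identities `A ⊇ O → B`;
* inverses of series with leading coefficient `1`;
* `intSubring`: the algebraic integers of `ℂ` as a `Subring`.
-/

set_option autoImplicit false

noncomputable section

namespace Fermat.Agent.S28.CoeffRing

open HahnSeries ModularCurve Fermat.Agent.S28 Fermat.Agent.S28.PolyInt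

section Subring

variable {A : Type*} [CommRing A]

theorem coeffMap_mem_coeffSubring (O : Subring A) (y : LaurentSeries O) :
    coeffMap O.subtype y ∈ coeffSubring O := by
  rw [mem_coeffSubring]
  intro k
  simp

/-- A series with coefficients in `O` comes from `O((t))`. -/
theorem exists_coeffMap_eq {O : Subring A} {x : LaurentSeries A} (h : x ∈ coeffSubring O) :
    ∃ y : LaurentSeries O, coeffMap O.subtype y = x := by
  rw [mem_coeffSubring] at h
  refine ⟨⟨fun n => ⟨x.coeff n, h n⟩, ?_⟩, ?_⟩
  · refine x.isPWO_support.mono ?_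
    intro n hn
    simp only [Function.mem_support, ne_eq] at hn ⊢
    intro h0
    apply hn
    ext
    simpa using h0
  · ext n
    simp

theorem mem_coeffSubring_iff_exists {O : Subring A} {x : LaurentSeries A} :
    x ∈ coeffSubring O ↔ ∃ y : LaurentSeries O, coeffMap O.subtype y = x :=
  ⟨exists_coeffMap_eq, fun ⟨y, hy⟩ => hy ▸ coeffMap_mem_coeffSubring O y⟩

theorem coeffMap_subtype_injective (O : Subring A) :
    Function.Injective (coeffMap O.subtype) := by
  intro x y h
  ext n
  have := congrArg (fun z => z.coeff n) h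
  simpa using this

theorem single_mem_coeffSubring (O : Subring A) (n : ℤ) {a : A} (ha : a ∈ O) :
    HahnSeries.single n a ∈ coeffSubring O := by
  rw [mem_coeffSubring]
  intro m
  rcases eq_or_ne m n with rfl | hm
  · simpa using ha
  · rw [HahnSeries.coeff_single_of_ne hm]
    exact O.zero_mem

theorem C_mem_coeffSubring (O : Subring A) {a : A} (ha : a ∈ O) :
    (HahnSeries.C a : LaurentSeries A) ∈ coeffSubring O := by
  rw [HahnSeries.C_apply]
  exact single_mem_coeffSubring O 0 ha

theorem algebraMap_mem_coeffSubring (O : Subring A) {a : A} (ha : a ∈ O) :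
    algebraMap A (LaurentSeries A) a ∈ coeffSubring O := by
  rw [algebraMap_eq_single]
  exact single_mem_coeffSubring O 0 ha

theorem ofPowerSeries_mem_coeffSubring (O : Subring A) (f : PowerSeries A)
    (hf : ∀ n, PowerSeries.coeff n f ∈ O) :
    HahnSeries.ofPowerSeries ℤ A f ∈ coeffSubring O := by
  rw [mem_coeffSubring]
  intro k
  rcases le_or_gt 0 k with hk | hk
  · lift k to ℕ using hk
    rw [HahnSeries.ofPowerSeries_apply_coeff]
    exact hf k
  · rw [ofPowerSeries_coeff_of_neg _ hk]
    exact O.zero_mem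

/-- The image of an integer series has coefficients in every subring. -/
theorem coeffMap_intCast_mem_coeffSubring (O : Subring A) (x : LaurentSeries ℤ) :
    coeffMap (Int.castRingHom A) x ∈ coeffSubring O := by
  rw [mem_coeffSubring]
  intro k
  rw [coeffMap_coeff]
  exact intCast_mem O _

theorem jqModC_mem_coeffSubring (O : Subring A) : jqModC A ∈ coeffSubring O :=
  mem_coeffSubring.mpr (coeff_jqModC_mem A O)

theorem qExpand_mem_coeffSubring (O : Subring A) (d : ℕ) [NeZero d] {x : LaurentSeries A}
    (hx : x ∈ coeffSubring O) : qExpand A d x ∈ coeffSubring O :=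
  (Twist.qExpand_mem_coeffSubring_iff O d x).mpr hx

/-- A product `∏ (X - C (f α))` of linear factors with roots in a subring has coefficients in
the subring. -/
theorem coeff_prod_X_sub_C_mem {B : Type*} [CommRing B] (S : Subring B) {ι : Type*}
    (s : Finset ι) (f : ι → B) (hf : ∀ α ∈ s, f α ∈ S) (i : ℕ) :
    (∏ α ∈ s, (Polynomial.X - Polynomial.C (f α))).coeff i ∈ S := by
  classical
  have h : (∏ α ∈ s, (Polynomial.X - Polynomial.C (f α))) =
      (∏ α ∈ s.attach, (Polynomial.X - Polynomial.C (⟨f α.1, hf α.1 α.2⟩ : S))).map S.subtype := by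
    rw [Polynomial.map_prod, ← Finset.prod_attach s]
    refine Finset.prod_congr rfl fun α _ => ?_
    simp
  rw [h, Polynomial.coeff_map]
  exact Subtype.prop _

/-- A Lagrange resolvent `∑ i, C (u i) * ∏_{j ≠ i} (X - C (ρ j))` with `u i, ρ j` in a subring
has coefficients in the subring. -/
theorem coeff_resolvent_mem {B : Type*} [CommRing B] (S : Subring B) {ι : Type*} [Fintype ι]
    [DecidableEq ι] (ρ u : ι → B) (hρ : ∀ i, ρ i ∈ S) (hu : ∀ i, u i ∈ S) (n : ℕ) :
    (∑ i, Polynomial.C (u i) *
      ∏ j ∈ Finset.univ.erase i, (Polynomial.X - Polynomial.C (ρ j))).coeff n ∈ S := by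
  rw [Polynomial.finsetSum_coeff]
  refine Subring.sum_mem _ fun i _ => ?_
  rw [Polynomial.coeff_C_mul]
  exact S.mul_mem (hu i) (coeff_prod_X_sub_C_mem S _ ρ (fun j _ => hρ j) n)

end Subring

section Leading

variable {A : Type*} [CommRing A]

/-- The structure map `A → A((q))` used by `Polynomial.aeval` is the constant map. -/
theorem algebraMap_eq_C : algebraMap A (LaurentSeries A) = HahnSeries.C := by
  ext a : 1
  have h1 : algebraMap A (PowerSeries A) a = PowerSeries.C a := by simp
  rw [HahnSeries.algebraMap_apply', h1, HahnSeries.ofPowerSeries_C]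

theorem aeval_eq_eval₂_C (J : LaurentSeries A) (R : Polynomial A) :
    Polynomial.aeval J R = Polynomial.eval₂ HahnSeries.C J R := by
  rw [Polynomial.aeval_def, algebraMap_eq_C]

theorem coeff_aeval (J : LaurentSeries A) (R : Polynomial A) (n : ℤ) :
    (Polynomial.aeval J R).coeff n =
      ∑ i ∈ Finset.range (R.natDegree + 1), R.coeff i * (J ^ i).coeff n := by
  rw [Polynomial.aeval_eq_sum_range, HahnSeries.coeff_sum]
  refine Finset.sum_congr rfl fun i _ => ?_
  rw [Algebra.smul_def, coeff_algebraMap_mul]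

/-- `R(J)` has coefficients in `O` when `R` and `J` do. -/
theorem aeval_mem_coeffSubring (O : Subring A) {J : LaurentSeries A} (hJ : J ∈ coeffSubring O)
    (R : Polynomial A) (hR : ∀ i, R.coeff i ∈ O) :
    Polynomial.aeval J R ∈ coeffSubring O := by
  rw [Polynomial.aeval_eq_sum_range]
  refine Subring.sum_mem _ fun i _ => ?_
  rw [Algebra.smul_def]
  exact Subring.mul_mem _ (algebraMap_mem_coeffSubring O (hR i)) (pow_mem hJ i)

/-- A Laurent series vanishing below `-m` is `q^{-m}` times a power series. -/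
theorem eq_single_mul_ofPowerSeries (J : LaurentSeries A) (m : ℤ)
    (hJlt : ∀ n : ℤ, n < -m → J.coeff n = 0) :
    J = HahnSeries.single (-m) (1 : A) *
      HahnSeries.ofPowerSeries ℤ A (PowerSeries.mk fun n : ℕ => J.coeff ((n : ℤ) - m)) := by
  ext n
  have hn : n = (n + m) + (-m) := by ring
  conv_rhs => rw [hn, HahnSeries.coeff_single_mul_add, one_mul]
  rcases le_or_gt 0 (n + m) with h | h
  · obtain ⟨k, hk⟩ := Int.eq_ofNat_of_zero_le h
    rw [hk, HahnSeries.ofPowerSeries_apply_coeff, PowerSeries.coeff_mk]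
    congr 1
    omega
  · rw [ofPowerSeries_coeff_of_neg _ h]
    exact hJlt n (by omega)

theorem pow_eq_single_mul_ofPowerSeries (J : LaurentSeries A) (m : ℤ)
    (hJlt : ∀ n : ℤ, n < -m → J.coeff n = 0) (k : ℕ) :
    J ^ k = HahnSeries.single (-(m * k)) (1 : A) *
      HahnSeries.ofPowerSeries ℤ A ((PowerSeries.mk fun n : ℕ => J.coeff ((n : ℤ) - m)) ^ k) := by
  conv_lhs => rw [eq_single_mul_ofPowerSeries J m hJlt]
  rw [mul_pow, HahnSeries.single_pow, one_pow, ← map_pow]
  congr 2
  simp [mul_comm]

/-- Coefficients of `J ^ k` below `-(m k)` vanish. -/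
theorem coeff_pow_of_lt_ord (J : LaurentSeries A) (m : ℤ)
    (hJlt : ∀ n : ℤ, n < -m → J.coeff n = 0) (k : ℕ) {n : ℤ} (hn : n < -(m * k)) :
    (J ^ k).coeff n = 0 := by
  rw [pow_eq_single_mul_ofPowerSeries J m hJlt k]
  have h : n = (n + m * k) + (-(m * k)) := by ring
  rw [h, HahnSeries.coeff_single_mul_add, one_mul]
  exact ofPowerSeries_coeff_of_neg _ (by omega)

/-- The coefficient of `q^{-(m k)}` in `J ^ k` is `1` when `J = q^{-m} + ...`. -/
theorem coeff_pow_self_ord (J : LaurentSeries A) (m : ℤ) (hJ1 : J.coeff (-m) = 1)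
    (hJlt : ∀ n : ℤ, n < -m → J.coeff n = 0) (k : ℕ) :
    (J ^ k).coeff (-(m * k)) = 1 := by
  rw [pow_eq_single_mul_ofPowerSeries J m hJlt k]
  have h := HahnSeries.coeff_single_mul_add (r := (1 : A))
    (x := HahnSeries.ofPowerSeries ℤ A
      ((PowerSeries.mk fun n : ℕ => J.coeff ((n : ℤ) - m)) ^ k)) (a := ((0 : ℕ) : ℤ))
    (b := -(m * k))
  rw [Nat.cast_zero, zero_add] at h
  rw [h, one_mul]
  have h0 : (0 : ℤ) = ((0 : ℕ) : ℤ) := rfl
  rw [h0, HahnSeries.ofPowerSeries_apply_coeff,
    PowerSeries.coeff_zero_eq_constantCoeff_apply, map_pow,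
    ← PowerSeries.coeff_zero_eq_constantCoeff_apply, PowerSeries.coeff_mk]
  simp [hJ1]

/-- The coefficient of `q^{-(m · deg R)}` in `R(J)` is the leading coefficient of `R`. -/
theorem coeff_aeval_neg_natDegree (J : LaurentSeries A) (m : ℤ) (hm : 0 < m)
    (hJ1 : J.coeff (-m) = 1) (hJlt : ∀ n : ℤ, n < -m → J.coeff n = 0) (R : Polynomial A) :
    (Polynomial.aeval J R).coeff (-(m * R.natDegree)) = R.leadingCoeff := by
  rw [coeff_aeval, Finset.sum_eq_single R.natDegree]
  · rw [coeff_pow_self_ord J m hJ1 hJlt, mul_one]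
    rfl
  · intro k hk hne
    rw [coeff_pow_of_lt_ord J m hJlt k, mul_zero]
    have hk' : k < R.natDegree :=
      lt_of_le_of_ne (Nat.lt_succ_iff.mp (Finset.mem_range.mp hk)) hne
    have : (k : ℤ) < R.natDegree := by exact_mod_cast hk'
    nlinarith
  · intro h
    simp at h

/-- `R ↦ R(J)` is injective when `J = q^{-m} + ...`, `0 < m`. -/
theorem eq_zero_of_aeval_eq_zero_ord (J : LaurentSeries A) (m : ℤ) (hm : 0 < m)
    (hJ1 : J.coeff (-m) = 1) (hJlt : ∀ n : ℤ, n < -m → J.coeff n = 0) (R : Polynomial A)
    (h : Polynomial.aeval J R = 0) : R = 0 := by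
  have := coeff_aeval_neg_natDegree J m hm hJ1 hJlt R
  rw [h] at this
  exact Polynomial.leadingCoeff_eq_zero.mp (by simpa using this.symm)

theorem aeval_injective_ord (J : LaurentSeries A) (m : ℤ) (hm : 0 < m)
    (hJ1 : J.coeff (-m) = 1) (hJlt : ∀ n : ℤ, n < -m → J.coeff n = 0) :
    Function.Injective (Polynomial.aeval (R := A) J) := by
  rw [injective_iff_map_eq_zero]
  exact eq_zero_of_aeval_eq_zero_ord J m hm hJ1 hJlt

/-- **(I1)**: if `J = q^{-m} + ...` (`0 < m`) has coefficients in the subring `O` and `R(J)` has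
coefficients in `O`, then all coefficients of `R` are in `O`. -/
theorem coeff_mem_of_aeval_ord (O : Subring A) (J : LaurentSeries A) (m : ℤ) (hm : 0 < m)
    (hJ : ∀ n, J.coeff n ∈ O) (hJ1 : J.coeff (-m) = 1)
    (hJlt : ∀ n : ℤ, n < -m → J.coeff n = 0)
    (R : Polynomial A) (h : ∀ n, (Polynomial.aeval J R).coeff n ∈ O) (i : ℕ) :
    R.coeff i ∈ O := by
  induction hc : R.support.card using Nat.strong_induction_on generalizing R i with
  | _ c ih =>
    by_cases hR : R = 0
    · subst hR
      simp
    · have ha : R.leadingCoeff ∈ O := by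
        rw [← coeff_aeval_neg_natDegree J m hm hJ1 hJlt R]
        exact h _
      have hJk : J ^ R.natDegree ∈ coeffSubring O := pow_mem (mem_coeffSubring.mpr hJ) _
      have h' : ∀ n, (Polynomial.aeval J R.eraseLead).coeff n ∈ O := by
        intro n
        have e : Polynomial.aeval J R.eraseLead =
            Polynomial.aeval J R -
              algebraMap A (LaurentSeries A) R.leadingCoeff * J ^ R.natDegree := by
          have e1 := congrArg (Polynomial.aeval J)
            (Polynomial.eraseLead_add_monomial_natDegree_leadingCoeff R)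
          rw [map_add, Polynomial.aeval_monomial] at e1
          rw [← e1]
          ring
        rw [e, HahnSeries.coeff_sub, coeff_algebraMap_mul]
        exact O.sub_mem (h n) (O.mul_mem ha (mem_coeffSubring.mp hJk n))
      have hlt : R.eraseLead.support.card < c := by
        rw [← hc]
        exact Polynomial.eraseLead_support_card_lt hR
      have := ih _ hlt R.eraseLead h' i rfl
      rw [← Polynomial.eraseLead_add_monomial_natDegree_leadingCoeff R, Polynomial.coeff_add,
        Polynomial.coeff_monomial]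
      refine O.add_mem this ?_
      split_ifs
      · exact ha
      · exact O.zero_mem

/-- **(I1b)**, lift form. -/
theorem exists_map_eq_of_aeval_ord (O : Subring A) (J : LaurentSeries A) (m : ℤ) (hm : 0 < m)
    (hJ : ∀ n, J.coeff n ∈ O) (hJ1 : J.coeff (-m) = 1)
    (hJlt : ∀ n : ℤ, n < -m → J.coeff n = 0)
    (R : Polynomial A) (h : Polynomial.aeval J R ∈ coeffSubring O) :
    ∃ R' : Polynomial O, R'.map O.subtype = R := by
  rw [← Polynomial.mem_lifts, Polynomial.lifts_iff_coeff_lifts]
  intro i
  exact ⟨⟨_, coeff_mem_of_aeval_ord O J m hm hJ hJ1 hJlt R (mem_coeffSubring.mp h) i⟩, rfl⟩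

/-- **(I1c)**, two-variable form: if `P(X, J)` has all `X`-coefficients with coefficients in `O`,
then `P` has coefficients in `O`. -/
theorem exists_map_eq_of_map_aeval_ord (O : Subring A) (J : LaurentSeries A) (m : ℤ) (hm : 0 < m)
    (hJ : ∀ n, J.coeff n ∈ O) (hJ1 : J.coeff (-m) = 1)
    (hJlt : ∀ n : ℤ, n < -m → J.coeff n = 0)
    (P : Polynomial (Polynomial A))
    (h : ∀ i, (P.map (Polynomial.aeval J).toRingHom).coeff i ∈ coeffSubring O) :
    ∃ P' : Polynomial (Polynomial O), P'.map (Polynomial.mapRingHom O.subtype) = P := by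
  rw [← Polynomial.mem_lifts, Polynomial.lifts_iff_coeff_lifts]
  intro i
  have hi := h i
  rw [Polynomial.coeff_map] at hi
  obtain ⟨R', hR'⟩ := exists_map_eq_of_aeval_ord O J m hm hJ hJ1 hJlt (P.coeff i) hi
  exact ⟨R', hR'⟩

end Leading

section JInstances

variable (A : Type*) [CommRing A]

theorem coeff_qExpand_jqModC_neg (d : ℕ) [NeZero d] :
    (qExpand A d (jqModC A)).coeff (-(d : ℤ)) = 1 := by
  have h : -(d : ℤ) = (d : ℤ) * (-1) := by ring
  rw [h, qExpand_coeff_mul, coeff_jqModC_neg_one]

theorem coeff_qExpand_jqModC_of_lt (d : ℕ) [NeZero d] {n : ℤ} (hn : n < -(d : ℤ)) :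
    (qExpand A d (jqModC A)).coeff n = 0 := by
  by_cases hdvd : (d : ℤ) ∣ n
  · obtain ⟨k, rfl⟩ := hdvd
    rw [qExpand_coeff_mul]
    apply coeff_jqModC_of_lt
    have hd : (0 : ℤ) < d := by exact_mod_cast Nat.pos_of_ne_zero (NeZero.ne d)
    nlinarith
  · exact qExpand_coeff_of_not_dvd d _ hdvd

theorem qExpand_jqModC_mem_coeffSubring (O : Subring A) (d : ℕ) [NeZero d] :
    qExpand A d (jqModC A) ∈ coeffSubring O :=
  qExpand_mem_coeffSubring O d (jqModC_mem_coeffSubring O)

variable {A}

/-- `R ↦ R(j(q^d))` is injective. -/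
theorem aeval_qExpand_jqModC_injective (d : ℕ) [NeZero d] :
    Function.Injective (Polynomial.aeval (R := A) (qExpand A d (jqModC A))) :=
  aeval_injective_ord _ d (by exact_mod_cast Nat.pos_of_ne_zero (NeZero.ne d))
    (coeff_qExpand_jqModC_neg A d) (fun _ hn => coeff_qExpand_jqModC_of_lt A d hn)

/-- (I1) for `J = j(q^d)`. -/
theorem coeff_mem_of_aeval_qExpand_jqModC (O : Subring A) (d : ℕ) [NeZero d] (R : Polynomial A)
    (h : Polynomial.aeval (qExpand A d (jqModC A)) R ∈ coeffSubring O) (i : ℕ) :
    R.coeff i ∈ O :=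
  coeff_mem_of_aeval_ord O _ d (by exact_mod_cast Nat.pos_of_ne_zero (NeZero.ne d))
    (mem_coeffSubring.mp (qExpand_jqModC_mem_coeffSubring A O d))
    (coeff_qExpand_jqModC_neg A d) (fun _ hn => coeff_qExpand_jqModC_of_lt A d hn) R
    (mem_coeffSubring.mp h) i

/-- (I1b) for `J = j(q^d)`. -/
theorem exists_map_eq_of_aeval_qExpand_jqModC (O : Subring A) (d : ℕ) [NeZero d]
    (R : Polynomial A) (h : Polynomial.aeval (qExpand A d (jqModC A)) R ∈ coeffSubring O) :
    ∃ R' : Polynomial O, R'.map O.subtype = R :=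
  exists_map_eq_of_aeval_ord O _ d (by exact_mod_cast Nat.pos_of_ne_zero (NeZero.ne d))
    (mem_coeffSubring.mp (qExpand_jqModC_mem_coeffSubring A O d))
    (coeff_qExpand_jqModC_neg A d) (fun _ hn => coeff_qExpand_jqModC_of_lt A d hn) R h

/-- (I1c) for `J = j(q^d)`: a two-variable polynomial `P` such that `P(X, j(q^d))` has all its
`X`-coefficients in `O((q))` has coefficients in `O`. -/
theorem exists_map_eq_of_map_aeval_qExpand_jqModC (O : Subring A) (d : ℕ) [NeZero d]
    (P : Polynomial (Polynomial A))
    (h : ∀ i, (P.map (Polynomial.aeval (qExpand A d (jqModC A))).toRingHom).coeff i ∈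
      coeffSubring O) :
    ∃ P' : Polynomial (Polynomial O), P'.map (Polynomial.mapRingHom O.subtype) = P :=
  exists_map_eq_of_map_aeval_ord O _ d (by exact_mod_cast Nat.pos_of_ne_zero (NeZero.ne d))
    (mem_coeffSubring.mp (qExpand_jqModC_mem_coeffSubring A O d))
    (coeff_qExpand_jqModC_neg A d) (fun _ hn => coeff_qExpand_jqModC_of_lt A d hn) P h

/-- A lift along an injective map of a monic polynomial is monic of the same degree. -/
theorem monic_natDegree_of_map_subtype (O : Subring A) (P : Polynomial (Polynomial A))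
    (P' : Polynomial (Polynomial O)) (h : P'.map (Polynomial.mapRingHom O.subtype) = P) :
    (P.Monic → P'.Monic) ∧ P'.natDegree = P.natDegree := by
  have hinj : Function.Injective (Polynomial.mapRingHom O.subtype) :=
    Polynomial.map_injective _ Subtype.val_injective
  refine ⟨fun hP => ?_, ?_⟩
  · exact Polynomial.monic_of_injective hinj (h ▸ hP)
  · rw [← h, Polynomial.natDegree_map_eq_of_injective hinj]

end JInstances

section Lifts

variable {A : Type*} [CommRing A]

/-- If `P(X, j(t^d)) = ∏ (X - C (ρ i))` with all `ρ i ∈ O((t))`, then `P ∈ O[Y][X]`. -/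
theorem exists_map_eq_of_eq_prod (O : Subring A) (d : ℕ) [NeZero d]
    (P : Polynomial (Polynomial A)) {ι : Type*} (s : Finset ι) (ρ : ι → LaurentSeries A)
    (hρ : ∀ i ∈ s, ρ i ∈ coeffSubring O)
    (h : P.map (Polynomial.aeval (qExpand A d (jqModC A))).toRingHom =
      ∏ i ∈ s, (Polynomial.X - Polynomial.C (ρ i))) :
    ∃ P' : Polynomial (Polynomial O), P'.map (Polynomial.mapRingHom O.subtype) = P := by
  refine exists_map_eq_of_map_aeval_qExpand_jqModC O d P fun i => ?_
  rw [h]
  exact coeff_prod_X_sub_C_mem (coeffSubring O) s ρ hρ i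

/-- If `T(X, j(t^d))` is a Lagrange resolvent `∑ i, C (u i) * ∏_{j ≠ i} (X - C (ρ j))` with all
`ρ i, u i ∈ O((t))`, then `T ∈ O[Y][X]`. -/
theorem exists_map_eq_of_eq_resolvent (O : Subring A) (d : ℕ) [NeZero d]
    (T : Polynomial (Polynomial A)) {ι : Type*} [Fintype ι] [DecidableEq ι]
    (ρ u : ι → LaurentSeries A) (hρ : ∀ i, ρ i ∈ coeffSubring O) (hu : ∀ i, u i ∈ coeffSubring O)
    (h : T.map (Polynomial.aeval (qExpand A d (jqModC A))).toRingHom =
      ∑ i, Polynomial.C (u i) *
        ∏ j ∈ Finset.univ.erase i, (Polynomial.X - Polynomial.C (ρ j))) :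
    ∃ T' : Polynomial (Polynomial O), T'.map (Polynomial.mapRingHom O.subtype) = T := by
  refine exists_map_eq_of_map_aeval_qExpand_jqModC O d T fun i => ?_
  rw [h]
  exact coeff_resolvent_mem (coeffSubring O) ρ u hρ hu i

end Lifts

section Naturality

variable {A B : Type*} [CommRing A] [CommRing B]

theorem coeffMap_algebraMap_apply (f : A →+* B) (a : A) :
    coeffMap f (algebraMap A (LaurentSeries A) a) = algebraMap B (LaurentSeries B) (f a) := by
  rw [algebraMap_eq_single, algebraMap_eq_single, coeffMap_single]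

theorem coeffMap_comp_aeval (f : A →+* B) (b : LaurentSeries A) :
    (coeffMap f).comp (Polynomial.aeval b).toRingHom =
      ((Polynomial.aeval (coeffMap f b)).toRingHom).comp (Polynomial.mapRingHom f) := by
  refine Polynomial.ringHom_ext (fun a => ?_) ?_
  · simp [coeffMap_algebraMap_apply]
  · simp

/-- `coeffMap` commutes with one-variable evaluation. -/
theorem coeffMap_aeval (f : A →+* B) (b : LaurentSeries A) (R : Polynomial A) :
    coeffMap f (Polynomial.aeval b R) = Polynomial.aeval (coeffMap f b) (R.map f) :=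
  congrArg (fun φ : Polynomial A →+* LaurentSeries B => φ R) (coeffMap_comp_aeval f b)

/-- **(I3)**: `coeffMap` commutes with two-variable evaluation `P(X := a, Y := b)`. -/
theorem coeffMap_eval_map_aeval (f : A →+* B) (a b : LaurentSeries A)
    (P : Polynomial (Polynomial A)) :
    coeffMap f ((P.map (Polynomial.aeval b).toRingHom).eval a) =
      ((P.map (Polynomial.mapRingHom f)).map (Polynomial.aeval (coeffMap f b)).toRingHom).eval
        (coeffMap f a) := by
  rw [Polynomial.eval_map, Polynomial.hom_eval₂, Polynomial.map_map, Polynomial.eval_map,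
    coeffMap_comp_aeval]

/-- Transfer of a two-variable identity from `A` to `B` when all the data is defined over a
subring `O` of `A` and `σ : O →+* B`. -/
theorem eval_map_aeval_transfer (O : Subring A) (σ : O →+* B) (P' : Polynomial (Polynomial O))
    (a' b' c' : LaurentSeries O)
    (h : ((P'.map (Polynomial.mapRingHom O.subtype)).map
        (Polynomial.aeval (coeffMap O.subtype b')).toRingHom).eval (coeffMap O.subtype a') =
      coeffMap O.subtype c') :
    ((P'.map (Polynomial.mapRingHom σ)).map
        (Polynomial.aeval (coeffMap σ b')).toRingHom).eval (coeffMap σ a') = coeffMap σ c' := by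
  rw [← coeffMap_eval_map_aeval] at h ⊢
  rw [coeffMap_subtype_injective O h]

end Naturality

section Units

variable {A : Type*} [CommRing A]

/-- A Laurent series with leading coefficient `1` (at `q^{n₀}`) is a unit, and its inverse has
leading coefficient `1` at `q^{-n₀}`. -/
theorem exists_mul_eq_one (y : LaurentSeries A) (n₀ : ℤ) (hy1 : y.coeff n₀ = 1)
    (hylt : ∀ n : ℤ, n < n₀ → y.coeff n = 0) :
    ∃ z : LaurentSeries A, y * z = 1 ∧ z.coeff (-n₀) = 1 ∧ ∀ n : ℤ, n < -n₀ → z.coeff n = 0 := by
  have hy := eq_single_mul_ofPowerSeries y (-n₀) (by simpa using hylt)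
  set u : PowerSeries A := PowerSeries.mk fun n : ℕ => y.coeff ((n : ℤ) - -n₀) with hu
  have hu0 : PowerSeries.constantCoeff u = 1 := by
    rw [← PowerSeries.coeff_zero_eq_constantCoeff_apply, hu, PowerSeries.coeff_mk]
    simpa using hy1
  have hunit : IsUnit u := by
    rw [PowerSeries.isUnit_iff_constantCoeff, hu0]
    exact isUnit_one
  obtain ⟨v, hv⟩ := hunit.exists_right_inv
  have hv0 : PowerSeries.constantCoeff v = 1 := by
    have := congrArg PowerSeries.constantCoeff hv
    rw [map_mul, hu0, one_mul, map_one] at this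
    exact this
  refine ⟨HahnSeries.single (-n₀) (1 : A) * HahnSeries.ofPowerSeries ℤ A v, ?_, ?_, ?_⟩
  · rw [hy, neg_neg]
    calc HahnSeries.single n₀ (1 : A) * HahnSeries.ofPowerSeries ℤ A u *
          (HahnSeries.single (-n₀) (1 : A) * HahnSeries.ofPowerSeries ℤ A v)
        = (HahnSeries.single n₀ (1 : A) * HahnSeries.single (-n₀) (1 : A)) *
            HahnSeries.ofPowerSeries ℤ A (u * v) := by
          rw [map_mul]
          ring
      _ = 1 := by
          rw [hv, (HahnSeries.ofPowerSeries ℤ A).map_one, mul_one, HahnSeries.single_mul_single,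
            add_neg_cancel, mul_one]
          rfl
  · have h := HahnSeries.coeff_single_mul_add (r := (1 : A))
      (x := HahnSeries.ofPowerSeries ℤ A v) (a := ((0 : ℕ) : ℤ)) (b := -n₀)
    rw [Nat.cast_zero, zero_add] at h
    rw [h, one_mul]
    have h0 : (0 : ℤ) = ((0 : ℕ) : ℤ) := rfl
    rw [h0, HahnSeries.ofPowerSeries_apply_coeff, PowerSeries.coeff_zero_eq_constantCoeff_apply,
      hv0]
  · intro n hn
    have h : n = (n + n₀) + (-n₀) := by ring
    rw [h, HahnSeries.coeff_single_mul_add, one_mul]
    exact ofPowerSeries_coeff_of_neg _ (by omega)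

/-- A Laurent series with coefficients in the subring `O` and leading coefficient `1` has an
inverse with coefficients in `O`. -/
theorem exists_mem_coeffSubring_mul_eq_one (O : Subring A) (y : LaurentSeries A) (n₀ : ℤ)
    (hy : y ∈ coeffSubring O) (hy1 : y.coeff n₀ = 1) (hylt : ∀ n : ℤ, n < n₀ → y.coeff n = 0) :
    ∃ z ∈ coeffSubring O, y * z = 1 := by
  obtain ⟨y', rfl⟩ := exists_coeffMap_eq hy
  have h1 : y'.coeff n₀ = 1 := by
    apply Subtype.val_injective
    simpa using hy1
  have hlt : ∀ n : ℤ, n < n₀ → y'.coeff n = 0 := by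
    intro n hn
    apply Subtype.val_injective
    simpa using hylt n hn
  obtain ⟨z', hz', -, -⟩ := exists_mul_eq_one y' n₀ h1 hlt
  refine ⟨coeffMap O.subtype z', coeffMap_mem_coeffSubring O z', ?_⟩
  rw [← map_mul, hz', map_one]

/-- Over a field: the inverse of a Laurent series with coefficients in `O` and leading
coefficient `1` has coefficients in `O`. -/
theorem inv_mem_coeffSubring {K : Type*} [Field K] (O : Subring K) (y : LaurentSeries K)
    (n₀ : ℤ) (hy : y ∈ coeffSubring O) (hy1 : y.coeff n₀ = 1)
    (hylt : ∀ n : ℤ, n < n₀ → y.coeff n = 0) : y⁻¹ ∈ coeffSubring O := by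
  obtain ⟨z, hz, hyz⟩ := exists_mem_coeffSubring_mul_eq_one O y n₀ hy hy1 hylt
  rwa [← eq_inv_of_mul_eq_one_right hyz]

/-- Over a field: a quotient `x / y` of Laurent series with coefficients in `O`, the denominator
having leading coefficient `1`, has coefficients in `O`. -/
theorem div_mem_coeffSubring {K : Type*} [Field K] (O : Subring K) (x y : LaurentSeries K)
    (n₀ : ℤ) (hx : x ∈ coeffSubring O) (hy : y ∈ coeffSubring O) (hy1 : y.coeff n₀ = 1)
    (hylt : ∀ n : ℤ, n < n₀ → y.coeff n = 0) : x / y ∈ coeffSubring O := by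
  rw [div_eq_mul_inv]
  exact Subring.mul_mem _ hx (inv_mem_coeffSubring O y n₀ hy hy1 hylt)

/-- `coeffMap σ` sends an inverse pair to an inverse pair: with `y * z = 1` upstairs and a field
downstairs, `coeffMap σ (x * z) = coeffMap σ x / coeffMap σ y`. -/
theorem coeffMap_mul_eq_div {K : Type*} [Field K] (σ : A →+* K) (x y z : LaurentSeries A)
    (h : y * z = 1) : coeffMap σ (x * z) = coeffMap σ x / coeffMap σ y := by
  have h1 : coeffMap σ y * coeffMap σ z = 1 := by rw [← map_mul, h, map_one]
  rw [map_mul, eq_inv_of_mul_eq_one_right h1, div_eq_mul_inv]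

end Units

section AlgInt

/-- The subring of algebraic integers of `ℂ`, as a `Subring` (to be used as the `O` of
`coeffSubring` / `coeff_mem_of_aeval`). -/
def intSubring : Subring ℂ := (integralClosure ℤ ℂ).toSubring

theorem mem_intSubring {x : ℂ} : x ∈ intSubring ↔ IsIntegral ℤ x := Iff.rfl

theorem intCast_mem_intSubring (n : ℤ) : (n : ℂ) ∈ intSubring := intCast_mem intSubring n

theorem natCast_mem_intSubring (n : ℕ) : (n : ℂ) ∈ intSubring := natCast_mem intSubring n

/-- Roots of unity are algebraic integers. -/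
theorem mem_intSubring_of_pow_eq_one {x : ℂ} {n : ℕ} (hn : 0 < n) (h : x ^ n = 1) :
    x ∈ intSubring := by
  rw [mem_intSubring]
  refine IsIntegral.of_pow hn ?_
  rw [h]
  exact isIntegral_one

/-- **(I2)**, `Subring` form: a ring homomorphism from the algebraic integers to any
algebraically closed field. -/
theorem exists_ringHom_intSubring (k : Type*) [Field k] [IsAlgClosed k] :
    Nonempty (intSubring →+* k) :=
  PolyInt.exists_ringHom_integralClosure k

/-- The `q`-expansion `j ∈ ℂ((q))` is the image of `j ∈ O((q))`, `O` the algebraic integers (and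
`coeffMap σ (jqModC O) = jqModC k` for every `σ : O →+* k` by `ModularCurve.coeffMap_jqModC`). -/
theorem coeffMap_subtype_jqModC_intSubring :
    coeffMap intSubring.subtype (jqModC intSubring) = jqModC ℂ :=
  coeffMap_jqModC _

end AlgInt

end Fermat.Agent.S28.CoeffRing
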