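import Mathlib
import Fermat.Prelude.Def_ModularCurve_IgusaScheme
import Fermat.Agent.S28.ChartSpan
import Fermat.Agent.S28.RankQ

/-!
# S28, module (E): `hspan` of `ChartKer.chart_ker_red`, final form

`ChartSpan.hspan_of_hind_of_rank` with the degree bound `[F : ℚ(j)] ≤ ψ(N)` discharged by
`RankQ.finiteDimensional_Kj` / `RankQ.finrank_Kj_le`.
-/

set_option autoImplicit false

namespace Fermat.Agent.S28.HSpan

open Polynomial ModularCurve ModularCurve.IgusaScheme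

variable (N : ℕ) [NeZero N] (ℓ : ℕ) [Fact ℓ.Prime]

set_option quotPrecheck false in
local notation "ℤℓ" => ↥(GaloisRep.ratLocalizedAt ℓ)

set_option quotPrecheck false in
local notation "F" => ↥(modularFunctionFieldFull N)

/-- **(E)** the spanning hypothesis `hspan` of `ChartKer.chart_ker_red`, for both one-generator
charts `x₀ ∈ {j, j⁻¹}`: `ψ(N)` elements of the chart whose reductions are independent over the
reduction of `ℤ_(ℓ)[x₀]` span `F` over `ℚ(j)`, with denominators in `ℤ_(ℓ)[x₀]`. -/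
theorem hspan_of_hind (x₀ : F) (hx₀ : x₀ = jFull N ∨ x₀ = (jFull N)⁻¹)
    {T : Type*} [CommRing T] [IsDomain T] (red : chartAlg N ℓ {x₀} →+* T)
    (hR : ∀ P : ℤℓ[X], red (ChartKer.polyChart N ℓ x₀ P) = 0 → C (ℓ : ℤℓ) ∣ P)
    (m : Fin (dedekindPsi N) → chartAlg N ℓ {x₀})
    (hind : ∀ cs : Fin (dedekindPsi N) → ℤℓ[X],
      ∑ i, red (ChartKer.polyChart N ℓ x₀ (cs i)) * red (m i) = 0 →
        ∀ i, red (ChartKer.polyChart N ℓ x₀ (cs i)) = 0) :
    ∀ x : chartAlg N ℓ {x₀}, ∃ (c : ℤℓ[X]) (cs : Fin (dedekindPsi N) → ℤℓ[X]), c ≠ 0 ∧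
      ChartKer.polyChart N ℓ x₀ c * x = ∑ i, ChartKer.polyChart N ℓ x₀ (cs i) * m i :=
  haveI := RankQ.finiteDimensional_Kj N
  ChartSpan.hspan_of_hind_of_rank N ℓ x₀ hx₀ red hR m hind (RankQ.finrank_Kj_le N)

end Fermat.Agent.S28.HSpan
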