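import Fermat.Agent.S24.NormAn
import Fermat.Agent.S20.Cosets

/-!
# S28 (ModPkg, analytic part): resolvents of `SL(2,ℤ)`-stable families

For `Γ₀(N)`-invariant holomorphic functions `J`, `φ` on the upper half plane all of whose
translates have moderate growth at `i∞`, the polynomials

* `Φ = ∏ (X - J ∘ g)`, `Ψ = ∏ (X - φ ∘ g)` (products over `SL(2,ℤ)/Γ₀(N)`), and
* the Lagrange resolvent `T = ∑ (φ ∘ g) ∏_{g' ≠ g} (X - J ∘ g')`

have coefficients in `ℂ[j]`, and `φ(g z) Φ'(J(g z), j(z)) = T(J(g z), j(z))` for every `g`.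
-/

open UpperHalfPlane ModularForm Filter Matrix CongruenceSubgroup
open scoped MatrixGroups ModularForm Manifold Topology Real

namespace Fermat.Agent.S28.ModPkgAn

open Fermat.Agent.S20 Fermat.Agent.S24 Fermat.Agent.S24.NormAn
open Polynomial

/-! ### the resolvent at the level of `Hol` -/

theorem exists_resolvent_eq_map {ι : Type*} [Fintype ι] [DecidableEq ι] (f u : ι → Hol)
    (hf : ∀ i, f i ∈ modSub) (hu : ∀ i, u i ∈ modSub)
    (hperm : ∀ g : SL(2, ℤ), ∃ σ : Equiv.Perm ι,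
      ∀ i, transl g (f i) = f (σ i) ∧ transl g (u i) = u (σ i)) :
    ∃ T : (ℂ[X])[X], T.degree < (Fintype.card ι : WithBot ℕ) ∧
      T.map (aeval jH).toRingHom = ∑ i, C (u i) * ∏ j ∈ Finset.univ.erase i, (X - C (f j)) := by
  set Q : Hol[X] := ∑ i, C (u i) * ∏ j ∈ Finset.univ.erase i, (X - C (f j)) with hQ
  have hdeg : Q.degree < (Fintype.card ι : WithBot ℕ) := by
    refine (degree_sum_le _ _).trans_lt ?_
    rw [Finset.sup_lt_iff (WithBot.bot_lt_coe _)]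
    intro i _
    have h1 : (C (u i) * ∏ j ∈ Finset.univ.erase i, (X - C (f j))).degree ≤
        (∏ j ∈ Finset.univ.erase i, (X - C (f j))).degree := by
      refine (degree_mul_le _ _).trans ?_
      calc (C (u i)).degree + (∏ j ∈ Finset.univ.erase i, (X - C (f j))).degree
          ≤ 0 + (∏ j ∈ Finset.univ.erase i, (X - C (f j))).degree :=
            add_le_add_left degree_C_le _
        _ = _ := zero_add _
    have h2 : (∏ j ∈ Finset.univ.erase i, (X - C (f j))).degree ≤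
        ((Finset.univ.erase i).card : WithBot ℕ) := by
      refine degree_le_natDegree.trans ?_
      rw [natDegree_finsetProd_X_sub_C_eq_card]
    have h3 : (Finset.univ.erase i).card < Fintype.card ι := by
      rw [Finset.card_erase_of_mem (Finset.mem_univ i), Finset.card_univ]
      exact Nat.sub_lt (Fintype.card_pos_iff.mpr ⟨i⟩) one_pos
    exact (h1.trans h2).trans_lt (by exact_mod_cast h3)
  have hinv : ∀ g : SL(2, ℤ), Q.map (transl g).toRingHom = Q := by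
    intro g
    obtain ⟨σ, hσ⟩ := hperm g
    rw [hQ, Polynomial.map_sum]
    have key : ∀ i, (C (u i) * ∏ j ∈ Finset.univ.erase i, (X - C (f j)) : Hol[X]).map
        (transl g).toRingHom =
        C (u (σ i)) * ∏ j ∈ Finset.univ.erase (σ i), (X - C (f j)) := by
      intro i
      rw [Polynomial.map_mul, map_C, Polynomial.map_prod]
      congr 1
      · congr 1
        exact (hσ i).2
      · refine Finset.prod_equiv σ (fun j => by simp) (fun j _ => ?_)
        rw [Polynomial.map_sub, map_X, map_C]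
        congr 2
        exact (hσ j).1
    simp only [key]
    exact Equiv.sum_comp σ (fun i => C (u i) * ∏ j ∈ Finset.univ.erase i, (X - C (f j)))
  have hcoeff_inv : ∀ (n : ℕ) (g : SL(2, ℤ)), transl g (Q.coeff n) = Q.coeff n := by
    intro n g
    have := congrArg (fun p : Hol[X] => p.coeff n) (hinv g)
    simpa [coeff_map] using this
  have hcoeff_mod : ∀ n : ℕ, Q.coeff n ∈ modSub := by
    have hQl : Q ∈ lifts modSub.val.toRingHom := by
      rw [hQ]
      refine Subsemiring.sum_mem _ fun i _ => ?_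
      refine Subsemiring.mul_mem _ (C_mem_lifts modSub.val.toRingHom ⟨u i, hu i⟩) ?_
      refine Subsemiring.prod_mem _ fun j _ => ?_
      have e : (X - C (f j) : Hol[X]) = X + C (-(f j)) :=
        (sub_eq_add_neg _ _).trans (congrArg (fun t => X + t) C_neg.symm)
      rw [e]
      refine Subsemiring.add_mem _ (X_mem_lifts _) ?_
      exact C_mem_lifts modSub.val.toRingHom ⟨-(f j), neg_mem (hf j)⟩
    intro n
    obtain ⟨r, hr⟩ := (lifts_iff_coeff_lifts Q).mp hQl n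
    rw [← hr]
    exact r.2
  have hl : Q ∈ lifts (aeval jH : ℂ[X] →ₐ[ℂ] Hol).toRingHom := by
    rw [lifts_iff_coeff_lifts]
    intro n
    obtain ⟨p, hp⟩ := exists_aeval_jH_eq (hcoeff_mod n) (hcoeff_inv n)
    exact ⟨p, hp⟩
  obtain ⟨T, hT, hTdeg⟩ := exists_degree_eq_of_mem_lifts hl
  exact ⟨T, by rw [hTdeg]; exact hdeg, hT⟩

/-- function-level form of the resolvent -/
theorem exists_resolvent {ι : Type*} [Fintype ι] [DecidableEq ι] (f u : ι → ℍ → ℂ)
    (hf : ∀ i, MDiff (f i)) (hu : ∀ i, MDiff (u i))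
    (hfmod : ∀ i, Moderate (f i)) (humod : ∀ i, Moderate (u i))
    (hperm : ∀ g : SL(2, ℤ), ∃ σ : Equiv.Perm ι,
      ∀ i z, f i (g • z) = f (σ i) z ∧ u i (g • z) = u (σ i) z) :
    ∃ T : (ℂ[X])[X], T.degree < (Fintype.card ι : WithBot ℕ) ∧
      ∀ z, T.map (evalRingHom (jFun z)) =
        ∑ i, C (u i z) * ∏ j ∈ Finset.univ.erase i, (X - C (f j z)) := by
  obtain ⟨T, hdeg, hmap⟩ := exists_resolvent_eq_map (fun i => (⟨f i, hf i⟩ : Hol))
    (fun i => (⟨u i, hu i⟩ : Hol)) (fun i => hfmod i) (fun i => humod i)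
    (fun g => by
      obtain ⟨σ, hσ⟩ := hperm g
      exact ⟨σ, fun i => ⟨Hol.ext fun z => (hσ i z).1, Hol.ext fun z => (hσ i z).2⟩⟩)
  refine ⟨T, hdeg, fun z => ?_⟩
  have h := congrArg (Polynomial.map (evalAt z).toRingHom) hmap
  rw [Polynomial.map_map, evalAt_comp_aeval_jH, Polynomial.map_sum] at h
  rw [h]
  refine Finset.sum_congr rfl fun i _ => ?_
  rw [Polynomial.map_mul, map_C, Polynomial.map_prod]
  congr 1
  refine Finset.prod_congr rfl fun j _ => ?_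
  rw [Polynomial.map_sub, map_X, map_C]
  rfl

/-! ### conjugate families -/

/-- the conjugates `z ↦ f (g⁻¹ z)` of a `Γ₀(N)`-invariant function, indexed by the cosets
`g Γ₀(N)` -/
noncomputable def conjFn (N : ℕ) (f : ℍ → ℂ) (hf : ∀ g ∈ Gamma0 N, ∀ z, f (g • z) = f z)
    (q : SL(2, ℤ) ⧸ Gamma0 N) : ℍ → ℂ :=
  Quotient.liftOn' q (fun g z => f (g⁻¹ • z)) (by
    intro g g' h
    rw [QuotientGroup.leftRel_apply] at h
    funext z
    have e : g⁻¹ • z = (g⁻¹ * g') • (g'⁻¹ • z) := by rw [mul_smul, smul_inv_smul]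
    show f (g⁻¹ • z) = f (g'⁻¹ • z)
    rw [e, hf _ h])

theorem conjFn_mk (N : ℕ) (f : ℍ → ℂ) (hf : ∀ g ∈ Gamma0 N, ∀ z, f (g • z) = f z)
    (g : SL(2, ℤ)) (z : ℍ) :
    conjFn N f hf (g : SL(2, ℤ) ⧸ Gamma0 N) z = f (g⁻¹ • z) := rfl

theorem conjFn_smul (N : ℕ) (f : ℍ → ℂ) (hf : ∀ g ∈ Gamma0 N, ∀ z, f (g • z) = f z)
    (h : SL(2, ℤ)) (q : SL(2, ℤ) ⧸ Gamma0 N) (z : ℍ) :
    conjFn N f hf q (h • z) = conjFn N f hf (h⁻¹ • q) z := by
  induction q using QuotientGroup.induction_on with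
  | _ g =>
    rw [MulAction.Quotient.smul_mk, conjFn_mk, conjFn_mk, smul_eq_mul, _root_.mul_inv_rev,
      inv_inv, mul_smul]

theorem mdiff_conjFn (N : ℕ) (f : ℍ → ℂ) (hf : ∀ g ∈ Gamma0 N, ∀ z, f (g • z) = f z)
    (hmd : MDiff f) (q : SL(2, ℤ) ⧸ Gamma0 N) : MDiff (conjFn N f hf q) := by
  induction q using QuotientGroup.induction_on with
  | _ g => exact (transl g⁻¹ (⟨f, hmd⟩ : Hol)).2

theorem moderate_conjFn (N : ℕ) (f : ℍ → ℂ) (hf : ∀ g ∈ Gamma0 N, ∀ z, f (g • z) = f z)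
    (hmod : ∀ g : SL(2, ℤ), Moderate (fun z => f (g • z))) (q : SL(2, ℤ) ⧸ Gamma0 N) :
    Moderate (conjFn N f hf q) := by
  induction q using QuotientGroup.induction_on with
  | _ g => exact hmod g⁻¹

/-! ### the package -/

/-- **The analytic package.** For `Γ₀(N)`-invariant holomorphic `J`, `φ` with all translates of
moderate growth there are `Φ, T, Ψ ∈ ℂ[Y][X]`, `Φ` and `Ψ` monic of degree `[SL(2,ℤ) : Γ₀(N)]`,
`deg T` smaller, with `Φ(J(g z), j(z)) = 0`, `Ψ(φ(g z), j(z)) = 0` and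
`φ(g z) Φ'(J(g z), j(z)) = T(J(g z), j(z))` for all `g ∈ SL(2,ℤ)`. -/
theorem exists_pkg (N : ℕ) [NeZero N] (J φ : ℍ → ℂ) (hJ : MDiff J) (hφ : MDiff φ)
    (hJinv : ∀ g ∈ Gamma0 N, ∀ z, J (g • z) = J z)
    (hφinv : ∀ g ∈ Gamma0 N, ∀ z, φ (g • z) = φ z)
    (hJmod : ∀ g : SL(2, ℤ), Moderate (fun z => J (g • z)))
    (hφmod : ∀ g : SL(2, ℤ), Moderate (fun z => φ (g • z))) :
    ∃ Φ T Ψ : (ℂ[X])[X], Φ.Monic ∧ Φ.natDegree = Nat.card (SL(2, ℤ) ⧸ Gamma0 N) ∧
      Ψ.Monic ∧ Ψ.natDegree = Nat.card (SL(2, ℤ) ⧸ Gamma0 N) ∧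
      T.degree < (Nat.card (SL(2, ℤ) ⧸ Gamma0 N) : WithBot ℕ) ∧
      ∀ (g : SL(2, ℤ)) (z : ℍ),
        (Φ.map (evalRingHom (jFun z))).eval (J (g • z)) = 0 ∧
        (Ψ.map (evalRingHom (jFun z))).eval (φ (g • z)) = 0 ∧
        φ (g • z) * ((derivative Φ).map (evalRingHom (jFun z))).eval (J (g • z)) =
          (T.map (evalRingHom (jFun z))).eval (J (g • z)) := by
  classical
  let _ : Fintype (SL(2, ℤ) ⧸ Gamma0 N) := Subgroup.fintypeQuotientOfFiniteIndex
  have hpermJ : ∀ g : SL(2, ℤ), ∃ σ : Equiv.Perm (SL(2, ℤ) ⧸ Gamma0 N),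
      ∀ q z, conjFn N J hJinv q (g • z) = conjFn N J hJinv (σ q) z :=
    fun g => ⟨MulAction.toPerm g⁻¹, fun q z => conjFn_smul N J hJinv g q z⟩
  have hpermφ : ∀ g : SL(2, ℤ), ∃ σ : Equiv.Perm (SL(2, ℤ) ⧸ Gamma0 N),
      ∀ q z, conjFn N φ hφinv q (g • z) = conjFn N φ hφinv (σ q) z :=
    fun g => ⟨MulAction.toPerm g⁻¹, fun q z => conjFn_smul N φ hφinv g q z⟩
  obtain ⟨Φ, hΦm, hΦd, hΦ⟩ := exists_monic_prod_eq (conjFn N J hJinv)
    (mdiff_conjFn N J hJinv hJ) (moderate_conjFn N J hJinv hJmod) hpermJ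
  obtain ⟨Ψ, hΨm, hΨd, hΨ⟩ := exists_monic_prod_eq (conjFn N φ hφinv)
    (mdiff_conjFn N φ hφinv hφ) (moderate_conjFn N φ hφinv hφmod) hpermφ
  obtain ⟨T, hTd, hT⟩ := exists_resolvent (conjFn N J hJinv) (conjFn N φ hφinv)
    (mdiff_conjFn N J hJinv hJ) (mdiff_conjFn N φ hφinv hφ)
    (moderate_conjFn N J hJinv hJmod) (moderate_conjFn N φ hφinv hφmod)
    (fun g => ⟨MulAction.toPerm g⁻¹, fun q z =>
      ⟨conjFn_smul N J hJinv g q z, conjFn_smul N φ hφinv g q z⟩⟩)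
  refine ⟨Φ, T, Ψ, hΦm, by rw [hΦd, Nat.card_eq_fintype_card], hΨm,
    by rw [hΨd, Nat.card_eq_fintype_card], by rw [Nat.card_eq_fintype_card]; exact hTd,
    fun g z => ?_⟩
  set q₀ : SL(2, ℤ) ⧸ Gamma0 N := ((g⁻¹ : SL(2, ℤ)) : SL(2, ℤ) ⧸ Gamma0 N) with hq₀
  have eJ : conjFn N J hJinv q₀ z = J (g • z) := by rw [hq₀, conjFn_mk, inv_inv]
  have eφ : conjFn N φ hφinv q₀ z = φ (g • z) := by rw [hq₀, conjFn_mk, inv_inv]
  refine ⟨?_, ?_, ?_⟩
  · rw [hΦ z, eval_prod]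
    refine Finset.prod_eq_zero (Finset.mem_univ q₀) ?_
    rw [eval_sub, eval_X, eval_C, eJ, sub_self]
  · rw [hΨ z, eval_prod]
    refine Finset.prod_eq_zero (Finset.mem_univ q₀) ?_
    rw [eval_sub, eval_X, eval_C, eφ, sub_self]
  · rw [hT z, ← derivative_map, hΦ z, derivative_prod_finset, eval_finsetSum, eval_finsetSum,
      Finset.sum_eq_single q₀, Finset.sum_eq_single q₀]
    · rw [derivative_sub, derivative_X, derivative_C, sub_zero, mul_one, eval_mul, eval_C, eφ]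
    · intro q _ hq
      rw [eval_mul, eval_prod]
      refine mul_eq_zero_of_right _ (Finset.prod_eq_zero (Finset.mem_erase.mpr ⟨hq.symm, Finset.mem_univ q₀⟩) ?_)
      rw [eval_sub, eval_X, eval_C, eJ, sub_self]
    · intro h; exact absurd (Finset.mem_univ q₀) h
    · intro q _ hq
      rw [eval_mul, eval_prod]
      refine mul_eq_zero_of_left (Finset.prod_eq_zero (Finset.mem_erase.mpr ⟨hq.symm, Finset.mem_univ q₀⟩) ?_) _
      rw [eval_sub, eval_X, eval_C, eJ, sub_self]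
    · intro h; exact absurd (Finset.mem_univ q₀) h

/-! ### prime level -/

theorem dedekindPsi_prime (p : ℕ) (hp : p.Prime) : ModularCurve.dedekindPsi p = p + 1 := by
  rw [ModularCurve.dedekindPsi, hp.divisors, Finset.sum_filter, Finset.sum_pair hp.one_lt.ne,
    if_pos squarefree_one, if_pos hp.squarefree, Nat.div_one, Nat.div_self hp.pos]

theorem card_quotient_prime (p : ℕ) (hp : p.Prime) :
    Nat.card (SL(2, ℤ) ⧸ Gamma0 p) = p + 1 := by
  have : NeZero p := ⟨hp.ne_zero⟩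
  rw [Fermat.Agent.S20.Cosets.card_quotient_eq, dedekindPsi_prime p hp]

/-- **The analytic package at a prime `p`**, with `J(z) = j(pz)` and a unit `φ` whose translate
by `S` is `Δ(z/p)/Δ(z)`; the identities at the coset of `S` are rewritten at the point `pz`. -/
theorem exists_pkg_prime (p : ℕ) (hp : p.Prime) (φ : ℍ → ℂ) (hφ : MDiff φ)
    (hφinv : ∀ g ∈ Gamma0 p, ∀ z, φ (g • z) = φ z)
    (hφmod : ∀ g : SL(2, ℤ), Moderate (fun z => φ (g • z)))
    (hφS : ∀ z : ℍ, φ (ModularGroup.S • z) = Dl (ofComplex ((z : ℂ) / p)) / Dl z)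
    (hJS : ∀ z : ℍ, jFun (ofComplex ((p : ℂ) * ((ModularGroup.S • z : ℍ) : ℂ))) =
      jFun (ofComplex ((z : ℂ) / p))) :
    ∃ Φ T Ψ : (ℂ[X])[X], Φ.Monic ∧ Φ.natDegree = p + 1 ∧ Ψ.Monic ∧ Ψ.natDegree = p + 1 ∧
      T.degree < ((p + 1 : ℕ) : WithBot ℕ) ∧
      ∀ z : ℍ,
        (Φ.map (evalRingHom (jFun z))).eval (jFun (ofComplex ((p : ℂ) * (z : ℂ)))) = 0 ∧
        (Φ.map (evalRingHom (jFun (ofComplex ((p : ℂ) * (z : ℂ)))))).eval (jFun z) = 0 ∧
        φ z * ((derivative Φ).map (evalRingHom (jFun z))).eval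
            (jFun (ofComplex ((p : ℂ) * (z : ℂ)))) =
          (T.map (evalRingHom (jFun z))).eval (jFun (ofComplex ((p : ℂ) * (z : ℂ)))) ∧
        (Dl z / Dl (ofComplex ((p : ℂ) * (z : ℂ)))) *
            ((derivative Φ).map (evalRingHom (jFun (ofComplex ((p : ℂ) * (z : ℂ)))))).eval
              (jFun z) =
          (T.map (evalRingHom (jFun (ofComplex ((p : ℂ) * (z : ℂ)))))).eval (jFun z) ∧
        (Ψ.map (evalRingHom (jFun z))).eval (φ z) = 0 ∧
        (Ψ.map (evalRingHom (jFun (ofComplex ((p : ℂ) * (z : ℂ)))))).eval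
          (Dl z / Dl (ofComplex ((p : ℂ) * (z : ℂ)))) = 0 := by
  have : NeZero p := ⟨hp.ne_zero⟩
  obtain ⟨Φ, T, Ψ, hΦm, hΦd, hΨm, hΨd, hTd, h⟩ := exists_pkg p
    (fun z : ℍ => jFun (ofComplex ((p : ℂ) * (z : ℂ)))) φ
    (by
      have := mdiff_affJ (a := p) (d := 1) hp.pos one_pos 0
      have e : affJ p 1 0 = fun z : ℍ => jFun (ofComplex ((p : ℂ) * (z : ℂ))) :=
        funext fun z => affJ_one_zero p z
      rwa [e] at this) hφ
    (fun g hg z => jFun_scale_smul_of_mem p hp.pos g hg z) hφinv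
    (fun g => moderate_jFun_scale_smul p hp.pos g) hφmod
  rw [card_quotient_prime p hp] at hΦd hΨd hTd
  refine ⟨Φ, T, Ψ, hΦm, hΦd, hΨm, hΨd, hTd, fun z => ?_⟩
  have h1 := h 1 z
  simp only [one_smul] at h1
  set s : ℍ := ofComplex ((p : ℂ) * (z : ℂ)) with hs
  have hsz : ((s : ℍ) : ℂ) / p = z := by
    have him : 0 < ((p : ℂ) * (z : ℂ)).im := by
      simp only [Complex.mul_im, Complex.natCast_re, Complex.natCast_im, zero_mul, add_zero]
      exact mul_pos (Nat.cast_pos.mpr hp.pos) z.im_pos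
    rw [hs, ofComplex_apply_of_im_pos him]
    have hp0 : (p : ℂ) ≠ 0 := by exact_mod_cast hp.ne_zero
    show (p : ℂ) * (z : ℂ) / p = z
    field_simp
  have h2 := h ModularGroup.S s
  simp only [hJS s, hφS s, hsz, ofComplex_apply] at h2
  exact ⟨h1.1, h2.1, h1.2.2, h2.2.2, h1.2.1, h2.2.1⟩

end Fermat.Agent.S28.ModPkgAn
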