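import Fermat.Agent.S24.Bridge.JScaled
import Fermat.Agent.S28.ModPkgEv
import Fermat.Agent.S28.ModPkgAn

/-!
# S28 (ModPkg): from identities of functions on the upper half plane to identities in `ℂ((q))`
-/

open UpperHalfPlane ModularForm Filter Matrix CongruenceSubgroup
open scoped MatrixGroups ModularForm Manifold Topology Real

namespace Fermat.Agent.S28.ModPkg

open Fermat.Agent.S20 Fermat.Agent.S24 Fermat.Agent.S24.Bridge
open Polynomial

/-- evaluation at a point of the upper half plane, on the algebra `meroInf 1` -/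
noncomputable def ptHom (z : ℍ) : meroInf 1 →ₐ[ℂ] ℂ :=
  (Pi.evalAlgHom ℂ (fun _ : ℍ => ℂ) z).comp (meroInf 1).val

theorem ptHom_apply (z : ℍ) (f : meroInf 1) : ptHom z f = (f : ℍ → ℂ) z := rfl

/-- the Laurent expansion of `z ↦ P(A z, B z)` is `P(laurent A, laurent B)` -/
theorem laurent_ev {A B : ℍ → ℂ} (hA : IsMeroInf 1 A) (hB : IsMeroInf 1 B) (P : ℂ[X][X]) :
    IsMeroInf 1 (fun z => (P.map (evalRingHom (B z))).eval (A z)) ∧
    laurent 1 (fun z => (P.map (evalRingHom (B z))).eval (A z)) =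
      (P.map (aeval (laurent 1 B) : ℂ[X] →ₐ[ℂ] LaurentSeries ℂ).toRingHom).eval
        (laurent 1 A) := by
  set Am : meroInf 1 := ⟨A, hA⟩ with hAm
  set Bm : meroInf 1 := ⟨B, hB⟩ with hBm
  set E : meroInf 1 := (P.map (aeval Bm : ℂ[X] →ₐ[ℂ] meroInf 1).toRingHom).eval Am with hE
  have hEfun : (E : ℍ → ℂ) = fun z => (P.map (evalRingHom (B z))).eval (A z) := by
    funext z
    have h := ev_algHom (ptHom z) Am Bm P
    rw [← coe_aeval_eq_evalRingHom]
    exact h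
  refine ⟨hEfun ▸ E.2, ?_⟩
  have h2 := ev_algHom (laurentHom 1) Am Bm P
  rw [← hEfun]
  exact h2

theorem laurent_zero : laurent 1 (fun _ : ℍ => (0 : ℂ)) = 0 := by
  rw [laurent_const]; simp

/-- **The formal package over `ℂ`.**  With `j = j(q)`, `jp = j(q^p)`, `a` the expansion of the
unit `φ` and `b` the expansion of `Δ(z)/Δ(pz)`. -/
theorem exists_formal (p : ℕ) (hp : p.Prime) [NeZero p] (φ : ℍ → ℂ) (hφ : MDiff φ)
    (hφinv : ∀ g ∈ Gamma0 p, ∀ z, φ (g • z) = φ z)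
    (hφmod : ∀ g : SL(2, ℤ), NormAn.Moderate (fun z => φ (g • z)))
    (hφS : ∀ z : ℍ, φ (ModularGroup.S • z) = Dl (ofComplex ((z : ℂ) / p)) / Dl z)
    (hJS : ∀ z : ℍ, jFun (ofComplex ((p : ℂ) * ((ModularGroup.S • z : ℍ) : ℂ))) =
      jFun (ofComplex ((z : ℂ) / p)))
    (hφM : IsMeroInf 1 φ)
    (hφ0M : IsMeroInf 1 (fun z : ℍ => Dl z / Dl (ofComplex ((p : ℂ) * (z : ℂ))))) :
    ∃ Φ T Ψ : (ℂ[X])[X], Φ.Monic ∧ Φ.natDegree = p + 1 ∧ Ψ.Monic ∧ Ψ.natDegree = p + 1 ∧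
      T.degree < ((p + 1 : ℕ) : WithBot ℕ) ∧
      ev (ModularCurve.qExpand ℂ p (ModularCurve.jqModC ℂ)) (ModularCurve.jqModC ℂ) Φ = 0 ∧
      ev (ModularCurve.jqModC ℂ) (ModularCurve.qExpand ℂ p (ModularCurve.jqModC ℂ)) Φ = 0 ∧
      laurent 1 φ * ev (ModularCurve.qExpand ℂ p (ModularCurve.jqModC ℂ))
          (ModularCurve.jqModC ℂ) (derivative Φ) =
        ev (ModularCurve.qExpand ℂ p (ModularCurve.jqModC ℂ)) (ModularCurve.jqModC ℂ) T ∧
      laurent 1 (fun z : ℍ => Dl z / Dl (ofComplex ((p : ℂ) * (z : ℂ)))) *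
          ev (ModularCurve.jqModC ℂ) (ModularCurve.qExpand ℂ p (ModularCurve.jqModC ℂ))
            (derivative Φ) =
        ev (ModularCurve.jqModC ℂ) (ModularCurve.qExpand ℂ p (ModularCurve.jqModC ℂ)) T ∧
      ev (laurent 1 φ) (ModularCurve.jqModC ℂ) Ψ = 0 ∧
      ev (laurent 1 (fun z : ℍ => Dl z / Dl (ofComplex ((p : ℂ) * (z : ℂ)))))
        (ModularCurve.qExpand ℂ p (ModularCurve.jqModC ℂ)) Ψ = 0 := by
  obtain ⟨Φ, T, Ψ, hΦm, hΦd, hΨm, hΨd, hTd, h⟩ :=
    ModPkgAn.exists_pkg_prime p hp φ hφ hφinv hφmod hφS hJS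
  refine ⟨Φ, T, Ψ, hΦm, hΦd, hΨm, hΨd, hTd, ?_⟩
  set s : ℍ → ℍ := fun z => ofComplex ((p : ℂ) * (z : ℂ)) with hsdef
  have hs : ∀ z, (s z : ℂ) = p * z := fun z => coe_ofComplex_natCast_mul hp.pos z
  have jM : IsMeroInf 1 jFun := isMeroInf_jFun
  have jsM : IsMeroInf 1 (fun z => jFun (s z)) := isMeroInf_jFun_scale hp.ne_zero hs
  have lj : laurent 1 jFun = ModularCurve.jqModC ℂ := laurent_jFun.trans coeffMap_jq
  have ljs : laurent 1 (fun z => jFun (s z)) =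
      ModularCurve.qExpand ℂ p (ModularCurve.jqModC ℂ) := by
    rw [laurent_scale isMeroInf_jFun hs, lj]
  -- the six identities
  have e2 := (laurent_ev jsM jM Φ).2
  have e3 := (laurent_ev jM jsM Φ).2
  have e4d := laurent_ev jsM jM (derivative Φ)
  have e4t := (laurent_ev jsM jM T).2
  have e5d := laurent_ev jM jsM (derivative Φ)
  have e5t := (laurent_ev jM jsM T).2
  have e6a := (laurent_ev hφM jM Ψ).2
  have e6b := (laurent_ev hφ0M jsM Ψ).2
  rw [lj, ljs] at e2 e3 e4t e5t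
  rw [lj] at e6a
  rw [ljs] at e6b
  have f2 : (fun z => (Φ.map (evalRingHom (jFun z))).eval (jFun (s z))) = fun _ => (0 : ℂ) :=
    funext fun z => (h z).1
  have f3 : (fun z => (Φ.map (evalRingHom (jFun (s z)))).eval (jFun z)) = fun _ => (0 : ℂ) :=
    funext fun z => (h z).2.1
  have f4 : φ * (fun z => ((derivative Φ).map (evalRingHom (jFun z))).eval (jFun (s z))) =
      fun z => (T.map (evalRingHom (jFun z))).eval (jFun (s z)) :=
    funext fun z => (h z).2.2.1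
  have f5 : (fun z : ℍ => Dl z / Dl (ofComplex ((p : ℂ) * (z : ℂ)))) *
      (fun z => ((derivative Φ).map (evalRingHom (jFun (s z)))).eval (jFun z)) =
      fun z => (T.map (evalRingHom (jFun (s z)))).eval (jFun z) :=
    funext fun z => (h z).2.2.2.1
  have f6a : (fun z => (Ψ.map (evalRingHom (jFun z))).eval (φ z)) = fun _ => (0 : ℂ) :=
    funext fun z => (h z).2.2.2.2.1
  have f6b : (fun z => (Ψ.map (evalRingHom (jFun (s z)))).eval
      (Dl z / Dl (ofComplex ((p : ℂ) * (z : ℂ))))) = fun _ => (0 : ℂ) :=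
    funext fun z => (h z).2.2.2.2.2
  refine ⟨?_, ?_, ?_, ?_, ?_, ?_⟩
  · rw [f2, laurent_zero] at e2
    exact e2.symm
  · rw [f3, laurent_zero] at e3
    exact e3.symm
  · have h4 := laurent_mul hφM e4d.1
    rw [f4, e4t, e4d.2, lj, ljs] at h4
    exact h4.symm
  · have h5 := laurent_mul hφ0M e5d.1
    rw [f5, e5t, e5d.2, lj, ljs] at h5
    exact h5.symm
  · rw [f6a, laurent_zero] at e6a
    exact e6a.symm
  · rw [f6b, laurent_zero] at e6b
    exact e6b.symm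

end Fermat.Agent.S28.ModPkg
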