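import Fermat.Agent.S28.ModPkgEv
import Fermat.Agent.S28.PolyInt
import Fermat.Prelude.Def_ModularCurve_X0ModL

/-!
# S28 (ModPkg): from a monic equation with algebraic-integer coefficients to integrality over `ℤ[j]`

If `Φ₀ ∈ O[Y][X]` is monic, `O ⊆ ℂ` a subring of algebraic integers, and `Φ₀(j(q^p), j(q)) = 0`
in `ℂ((q))`, then `j(q^p)` is a root of a monic polynomial of `ℤ[Y][X]` evaluated at `Y = j`, in
`ℚ((q))`; in particular it is integral over `ℤ[j]`.
-/

namespace Fermat.Agent.S28.ModPkg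

open Polynomial ModularCurve

section Abstract

/-- a root of a monic polynomial whose coefficients are integral is integral
(ring homomorphism form) -/
theorem isIntegralElem_of_monic {R S L : Type*} [CommRing R] [CommRing S] [CommRing L]
    (f₀ : R →+* L) (f₁ : S →+* L) (hf₁ : ∀ s, f₀.IsIntegralElem (f₁ s)) (Q : S[X])
    (hQ : Q.Monic) (x : L) (hx : eval₂ f₁ x Q = 0) : f₀.IsIntegralElem x := by
  letI : Algebra R L := f₀.toAlgebra
  let g₁ : S →+* integralClosure R L := f₁.codRestrict (integralClosure R L) hf₁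
  have hcomp : (algebraMap (integralClosure R L) L).comp g₁ = f₁ := RingHom.ext fun s => rfl
  have hxB : IsIntegral (integralClosure R L) x := by
    refine ⟨Q.map g₁, hQ.map g₁, ?_⟩
    rw [eval₂_map, hcomp]
    exact hx
  exact isIntegral_trans x hxB

variable {L : Type*} [CommRing L] [Algebra ℤ L]

/-- integrality over `ℤ[y]` from a monic polynomial of `ℤ[Y][X]` at `Y = y`
(for an arbitrary `ℤ`-algebra instance on `L`) -/
theorem isIntegral_adjoin_of_monic (y x : L) (P : ℤ[X][X]) (hP : P.Monic)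
    (h : (P.map (aeval y : ℤ[X] →ₐ[ℤ] L).toRingHom).eval x = 0) :
    IsIntegral (Algebra.adjoin ℤ {y}) x := by
  let π : ℤ[X] →+* Algebra.adjoin ℤ {y} :=
    (aeval (⟨y, Algebra.subset_adjoin (Set.mem_singleton y)⟩ : Algebra.adjoin ℤ {y}) :
      ℤ[X] →ₐ[ℤ] Algebra.adjoin ℤ {y}).toRingHom
  have hcomp : (algebraMap (Algebra.adjoin ℤ {y}) L).comp π =
      (aeval y : ℤ[X] →ₐ[ℤ] L).toRingHom := by
    refine Polynomial.ringHom_ext (fun r => ?_) ?_
    · simp [π]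
    · simp [π]
  refine ⟨P.map π, hP.map π, ?_⟩
  rw [eval₂_map, hcomp, ← eval_map]
  exact h

end Abstract

section Complex

variable (O : Subring ℂ) (hO : ∀ x ∈ O, IsIntegral ℤ x)

include hO in
/-- values at `y` of polynomials with algebraic-integer coefficients are integral over `ℤ[y]` -/
theorem isIntegralElem_aeval_map (y : LaurentSeries ℂ) (g : Polynomial O) :
    (aeval y : ℤ[X] →ₐ[ℤ] LaurentSeries ℂ).toRingHom.IsIntegralElem
      ((aeval y : ℂ[X] →ₐ[ℂ] LaurentSeries ℂ).toRingHom (g.map O.subtype)) := by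
  induction g using Polynomial.induction_on' with
  | add f g hf hg =>
    rw [Polynomial.map_add, map_add]
    exact RingHom.IsIntegralElem.add _ hf hg
  | monomial n a =>
    rw [map_monomial, ← C_mul_X_pow_eq_monomial, map_mul, map_pow]
    refine RingHom.IsIntegralElem.mul _ ?_ ?_
    · obtain ⟨m, hm, hm0⟩ := hO _ a.2
      refine ⟨m.map (C : ℤ →+* ℤ[X]), hm.map _, ?_⟩
      have h3 := congrArg (algebraMap ℂ (LaurentSeries ℂ)) hm0
      rw [Polynomial.hom_eval₂, map_zero] at h3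
      rw [eval₂_map]
      have e1 : (aeval y : ℂ[X] →ₐ[ℂ] LaurentSeries ℂ).toRingHom (C (O.subtype a)) =
          algebraMap ℂ (LaurentSeries ℂ) (O.subtype a) := by simp
      rw [e1, ← h3]
      congr 1
      exact RingHom.ext_int _ _
    · have e2 : (aeval y : ℂ[X] →ₐ[ℂ] LaurentSeries ℂ).toRingHom X ^ n =
          (aeval y : ℤ[X] →ₐ[ℤ] LaurentSeries ℂ).toRingHom (X ^ n) := by simp
      rw [e2]
      exact RingHom.isIntegralElem_map _

include hO in
/-- a root `x` of `Φ₀(X, y)`, `Φ₀ ∈ O[Y][X]` monic, is a root of a monic polynomial of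
`ℤ[Y][X]` at `Y = y` -/
theorem exists_monic_int_of_lift (x y : LaurentSeries ℂ) (Φ₀ : Polynomial (Polynomial O))
    (hΦ₀ : Φ₀.Monic) (h : ev x y (Φ₀.map (Polynomial.mapRingHom O.subtype)) = 0) :
    ∃ P : ℤ[X][X], P.Monic ∧
      (P.map (aeval y : ℤ[X] →ₐ[ℤ] LaurentSeries ℂ).toRingHom).eval x = 0 := by
  obtain ⟨P, hPm, hP⟩ := isIntegralElem_of_monic
    (aeval y : ℤ[X] →ₐ[ℤ] LaurentSeries ℂ).toRingHom
    ((aeval y : ℂ[X] →ₐ[ℂ] LaurentSeries ℂ).toRingHom.comp (Polynomial.mapRingHom O.subtype))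
    (fun g => isIntegralElem_aeval_map O hO y g) Φ₀ hΦ₀ x
    (by
      rw [← eval_map, ← Polynomial.map_map]
      exact h)
  exact ⟨P, hPm, by rw [eval_map]; exact hP⟩

end Complex

section Descent

theorem coeffMap_injective {R S : Type*} [CommRing R] [CommRing S] (f : R →+* S)
    (hf : Function.Injective f) : Function.Injective (coeffMap f) := by
  intro x y h
  ext n
  have := congrArg (fun z => z.coeff n) h
  simp only [coeffMap_coeff] at this
  exact hf this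

/-- **Integral modular equation.** From a monic `Φ₀ ∈ O[Y][X]` over a ring `O ⊆ ℂ` of algebraic
integers with `Φ₀(j(q^p), j(q)) = 0` in `ℂ((q))`: a monic `P ∈ ℤ[Y][X]` with
`P(j(q^p), j(q)) = 0` in `ℚ((q))`. -/
theorem exists_int_of_lift (p : ℕ) [NeZero p] (O : Subring ℂ) (hO : ∀ x ∈ O, IsIntegral ℤ x)
    (Φ₀ : Polynomial (Polynomial O)) (hΦ₀ : Φ₀.Monic)
    (h : ev (qExpand ℂ p (jqModC ℂ)) (jqModC ℂ) (Φ₀.map (Polynomial.mapRingHom O.subtype)) = 0) :
    ∃ P : ℤ[X][X], P.Monic ∧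
      (P.map (aeval jq : ℤ[X] →ₐ[ℤ] LaurentSeries ℚ).toRingHom).eval (qExpand ℚ p jq) = 0 := by
  obtain ⟨P, hPm, hP⟩ := exists_monic_int_of_lift O hO _ _ Φ₀ hΦ₀ h
  refine ⟨P, hPm, ?_⟩
  have hc : coeffMap (algebraMap ℚ ℂ) jq = jqModC ℂ := by
    rw [← jqModC_rat]
    exact coeffMap_jqModC (algebraMap ℚ ℂ)
  apply coeffMap_injective (algebraMap ℚ ℂ) (algebraMap ℚ ℂ).injective
  rw [eval_map] at hP
  rw [map_zero, eval_map]
  have key := Polynomial.hom_eval₂ P (aeval jq : ℤ[X] →ₐ[ℤ] LaurentSeries ℚ).toRingHom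
    (coeffMap (algebraMap ℚ ℂ)) (qExpand ℚ p jq)
  rw [key, coeffMap_qExpand, hc, ← hP]
  congr 1
  refine Polynomial.ringHom_ext (fun r => ?_) ?_
  · simp
  · simp [hc]

/-- `j(q^p)` is integral over `ℤ[j]` -/
theorem isIntegral_jp_of_lift (p : ℕ) [NeZero p] (O : Subring ℂ)
    (hO : ∀ x ∈ O, IsIntegral ℤ x) (Φ₀ : Polynomial (Polynomial O)) (hΦ₀ : Φ₀.Monic)
    (h : ev (qExpand ℂ p (jqModC ℂ)) (jqModC ℂ) (Φ₀.map (Polynomial.mapRingHom O.subtype)) = 0) :
    IsIntegral (Algebra.adjoin ℤ {jq}) (qExpand ℚ p jq) := by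
  obtain ⟨P, hPm, hP⟩ := exists_int_of_lift p O hO Φ₀ hΦ₀ h
  exact isIntegral_adjoin_of_monic _ _ P hPm hP

/-- coefficient form: `Φ ∈ ℂ[Y][X]` monic with `Φ(j(q^p), j(q)) = 0` whose coefficient
polynomials have `q`-expansions `c_i(j)` with coefficients in `O`. -/
theorem isIntegral_jp_of_coeff (p : ℕ) [NeZero p] (O : Subring ℂ)
    (hO : ∀ x ∈ O, IsIntegral ℤ x) (Φ : (ℂ[X])[X]) (hΦ : Φ.Monic)
    (hc : ∀ (i : ℕ) (n : ℤ), (aeval (jqModC ℂ) (Φ.coeff i)).coeff n ∈ O)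
    (h : ev (qExpand ℂ p (jqModC ℂ)) (jqModC ℂ) Φ = 0) :
    IsIntegral (Algebra.adjoin ℤ {jq}) (qExpand ℚ p jq) := by
  have hl : Φ ∈ lifts (Polynomial.mapRingHom O.subtype) := by
    rw [lifts_iff_coeff_lifts]
    intro i
    obtain ⟨R', hR'⟩ := PolyInt.exists_map_eq_of_aeval_jq O (Φ.coeff i) (hc i)
    exact ⟨R', hR'⟩
  obtain ⟨Φ₀, hΦ₀, -, hΦ₀m⟩ := lifts_and_degree_eq_and_monic hl hΦ
  exact isIntegral_jp_of_lift p O hO Φ₀ hΦ₀m (by rw [hΦ₀]; exact h)

end Descent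

end Fermat.Agent.S28.ModPkg
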