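import Mathlib
import Fermat.Prelude.Def_ModularCurve_IgusaScheme
import Fermat.Prelude.Def_ModularCurve_X0ModL
import Fermat.Agent.S28.Gauss
import Fermat.Agent.S28.Defs

/-!
# S28: the reduction maps of the three charts (names + the API the final assembly uses)

`redS N ℓ hS : chartAlg N ℓ S →+* LaurentSeries (ZMod ℓ)` is `Gauss.redChart` for the residue map
`Gauss.resZ ℓ : ℤ_(ℓ) → 𝔽_ℓ`; `redFin`, `redInf`, `redMid` are the three instances.

* `redS_of_int`     : an element whose `q`-expansion is the image of an integral series `f` reduces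
                      to `f mod ℓ`;
* `redS_chartIncl`  : compatibility with the chart inclusions;
* `redS_algebraMap`, `redS_natCast_self`, `dvd_of_resZ_eq_zero`;
* `redFin_jChartFin`, `redInf_jInvChartInf`, `redMid_j`, `redMid_jInv`.
-/

set_option autoImplicit false

namespace Fermat.Agent.S28.Red

open ModularCurve ModularCurve.IgusaScheme Fermat.Agent.S28

noncomputable section

variable (N : ℕ) [NeZero N] (ℓ : ℕ) [Fact ℓ.Prime]

/-- reduction mod `ℓ` of a chart of the Igusa model. -/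
abbrev redS {S : Set ↥(modularFunctionFieldFull N)} (hS : S ⊆ {jFull N, (jFull N)⁻¹}) :
    ↥(chartAlg N ℓ S) →+* LaurentSeries (ZMod ℓ) :=
  Gauss.redChart ℓ (Gauss.resZ ℓ) N (Gauss.resZ_ellZ ℓ) hS

/-- reduction of the finite chart. -/
abbrev redFin : ↥(chartAlgFin N ℓ) →+* LaurentSeries (ZMod ℓ) := redS N ℓ (sFin_subset N)

/-- reduction of the chart at infinity. -/
abbrev redInf : ↥(chartAlgInf N ℓ) →+* LaurentSeries (ZMod ℓ) := redS N ℓ (sInf_subset N)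

/-- reduction of the middle chart. -/
abbrev redMid : ↥(chartAlgMid N ℓ) →+* LaurentSeries (ZMod ℓ) := redS N ℓ subset_rfl

variable {N ℓ}

/-- the key computation rule: integral `q`-expansions reduce coefficientwise. -/
theorem redS_of_int {S : Set ↥(modularFunctionFieldFull N)} (hS : S ⊆ {jFull N, (jFull N)⁻¹})
    (x : ↥(chartAlg N ℓ S)) (f : LaurentSeries ℤ)
    (h : ((x : ↥(modularFunctionFieldFull N)) : LaurentSeries ℚ) =
      coeffMap (Int.castRingHom ℚ) f) :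
    redS N ℓ hS x = coeffMap (Int.castRingHom (ZMod ℓ)) f := by
  have h' : ((x : ↥(modularFunctionFieldFull N)) : LaurentSeries ℚ) =
      Gauss.incl ℓ (coeffMap (Int.castRingHom (Gauss.Zl ℓ)) f) := by
    rw [h, Gauss.incl, coeffMap_coeffMap]
    exact coeffMap_congr (RingHom.ext_int _ _) f
  rw [redS, Gauss.redChart_of_incl ℓ _ N _ hS x _ h', Gauss.rho, coeffMap_coeffMap]
  exact coeffMap_congr (RingHom.ext_int _ _) f

theorem redS_chartIncl {S S' : Set ↥(modularFunctionFieldFull N)} (h : S ⊆ S')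
    (hS' : S' ⊆ {jFull N, (jFull N)⁻¹}) (x : ↥(chartAlg N ℓ S)) :
    redS N ℓ hS' (chartIncl N ℓ h x) = redS N ℓ (h.trans hS') x := by
  have h1 : Gauss.chartToGauss ℓ N hS' (chartIncl N ℓ h x) =
      Gauss.chartToGauss ℓ N (h.trans hS') x := by
    apply Subtype.ext
    rw [Gauss.coe_chartToGauss, Gauss.coe_chartToGauss, coe_chartIncl]
  show Gauss.red ℓ (Gauss.resZ ℓ) (Gauss.resZ_ellZ ℓ) (Gauss.chartToGauss ℓ N hS' (chartIncl N ℓ h x))
    = Gauss.red ℓ (Gauss.resZ ℓ) (Gauss.resZ_ellZ ℓ) (Gauss.chartToGauss ℓ N (h.trans hS') x)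
  rw [h1]

theorem redMid_inclFin (x : ↥(chartAlgFin N ℓ)) :
    redMid N ℓ (inclFin N ℓ x) = redFin N ℓ x :=
  redS_chartIncl (sFin_subset N) subset_rfl x

theorem redMid_inclInf (x : ↥(chartAlgInf N ℓ)) :
    redMid N ℓ (inclInf N ℓ x) = redInf N ℓ x :=
  redS_chartIncl (sInf_subset N) subset_rfl x

theorem redS_algebraMap {S : Set ↥(modularFunctionFieldFull N)}
    (hS : S ⊆ {jFull N, (jFull N)⁻¹}) (c : ↥(GaloisRep.ratLocalizedAt ℓ)) :
    redS N ℓ hS (algebraMap ↥(GaloisRep.ratLocalizedAt ℓ) ↥(chartAlg N ℓ S) c) =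
      HahnSeries.C (Gauss.resZ ℓ c) :=
  Gauss.redChart_algebraMap ℓ (Gauss.resZ ℓ) N (Gauss.resZ_ellZ ℓ) hS c

theorem redS_natCast_self {S : Set ↥(modularFunctionFieldFull N)}
    (hS : S ⊆ {jFull N, (jFull N)⁻¹}) : redS N ℓ hS (ℓ : ↥(chartAlg N ℓ S)) = 0 := by
  rw [map_natCast, ← map_natCast (HahnSeries.C : ZMod ℓ →+* LaurentSeries (ZMod ℓ)) ℓ,
    ZMod.natCast_self, map_zero]

theorem redS_algebraMap_natCast_self {S : Set ↥(modularFunctionFieldFull N)}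
    (hS : S ⊆ {jFull N, (jFull N)⁻¹}) :
    redS N ℓ hS (algebraMap ↥(GaloisRep.ratLocalizedAt ℓ) ↥(chartAlg N ℓ S)
      (ℓ : ↥(GaloisRep.ratLocalizedAt ℓ))) = 0 := by
  rw [map_natCast]
  exact redS_natCast_self hS

/-- the kernel of the residue map is `(ℓ)`. -/
theorem dvd_of_resZ_eq_zero (a : ↥(GaloisRep.ratLocalizedAt ℓ)) (h : Gauss.resZ ℓ a = 0) :
    (ℓ : ↥(GaloisRep.ratLocalizedAt ℓ)) ∣ a :=
  ⟨Gauss.divEll ℓ a, (Gauss.ellZ_mul_divEll_of_map_eq_zero (Gauss.resZ ℓ) a h).symm⟩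

theorem coe_jFull_eq : ((jFull N : ↥(modularFunctionFieldFull N)) : LaurentSeries ℚ) =
    coeffMap (Int.castRingHom ℚ) (jqModC ℤ) := by
  rw [coeffMap_jqModC]
  rfl

theorem coe_jFull_inv_eq : (((jFull N)⁻¹ : ↥(modularFunctionFieldFull N)) : LaurentSeries ℚ) =
    coeffMap (Int.castRingHom ℚ) (Defs.jqInv ℤ) := by
  rw [Defs.coeffMap_jqInv, Defs.jqInv_rat]
  rfl

/-- an element of a chart whose value is `j` reduces to `j̄`. -/
theorem redS_of_coe_eq_jFull {S : Set ↥(modularFunctionFieldFull N)}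
    (hS : S ⊆ {jFull N, (jFull N)⁻¹}) (x : ↥(chartAlg N ℓ S))
    (h : (x : ↥(modularFunctionFieldFull N)) = jFull N) : redS N ℓ hS x = jqModC (ZMod ℓ) := by
  rw [redS_of_int hS x (jqModC ℤ) (by rw [h, coe_jFull_eq]), coeffMap_jqModC]

/-- an element of a chart whose value is `j⁻¹` reduces to `j̄⁻¹`. -/
theorem redS_of_coe_eq_jFull_inv {S : Set ↥(modularFunctionFieldFull N)}
    (hS : S ⊆ {jFull N, (jFull N)⁻¹}) (x : ↥(chartAlg N ℓ S))
    (h : (x : ↥(modularFunctionFieldFull N)) = (jFull N)⁻¹) :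
    redS N ℓ hS x = Defs.jqInv (ZMod ℓ) := by
  rw [redS_of_int hS x (Defs.jqInv ℤ) (by rw [h, coe_jFull_inv_eq]), Defs.coeffMap_jqInv]

theorem redFin_jChartFin : redFin N ℓ (jChartFin N ℓ) = jqModC (ZMod ℓ) :=
  redS_of_coe_eq_jFull _ _ rfl

theorem redInf_jInvChartInf : redInf N ℓ (jInvChartInf N ℓ) = Defs.jqInv (ZMod ℓ) :=
  redS_of_coe_eq_jFull_inv _ _ rfl

/-- an element of a chart whose `q`-expansion is the monomial `mono ℚ m` reduces to
`mono (ZMod ℓ) m`. -/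
theorem redS_of_coe_eq_mono {S : Set ↥(modularFunctionFieldFull N)}
    (hS : S ⊆ {jFull N, (jFull N)⁻¹}) (x : ↥(chartAlg N ℓ S)) (m : ℕ →₀ ℕ)
    (h : ((x : ↥(modularFunctionFieldFull N)) : LaurentSeries ℚ) = Defs.mono ℚ m) :
    redS N ℓ hS x = Defs.mono (ZMod ℓ) m := by
  rw [redS_of_int hS x (Defs.mono ℤ m) (by rw [h, Defs.coeffMap_mono]), Defs.coeffMap_mono]

/-- an element of a chart whose `q`-expansion is `j⁻ᴹ · mono ℚ m` reduces to
`j̄⁻ᴹ · mono (ZMod ℓ) m`. -/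
theorem redS_of_coe_eq_jqInv_pow_mul_mono {S : Set ↥(modularFunctionFieldFull N)}
    (hS : S ⊆ {jFull N, (jFull N)⁻¹}) (x : ↥(chartAlg N ℓ S)) (M : ℕ) (m : ℕ →₀ ℕ)
    (h : ((x : ↥(modularFunctionFieldFull N)) : LaurentSeries ℚ) =
      Defs.jqInv ℚ ^ M * Defs.mono ℚ m) :
    redS N ℓ hS x = Defs.jqInv (ZMod ℓ) ^ M * Defs.mono (ZMod ℓ) m := by
  rw [redS_of_int hS x (Defs.jqInv ℤ ^ M * Defs.mono ℤ m)
    (by rw [h, map_mul, map_pow, Defs.coeffMap_mono, Defs.coeffMap_jqInv]),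
    map_mul, map_pow, Defs.coeffMap_mono, Defs.coeffMap_jqInv]

end

end Fermat.Agent.S28.Red
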