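import Mathlib

/-!
# S28: polynomials with prescribed roots and Lagrange resolvents

`L` a commutative domain, `ι` a finite index type, `ρ : ι → L` injective.

* `eq_prod_of_roots` : a monic `F` of degree `#ι` vanishing at all `ρ i` is `∏ (X - C (ρ i))`.
* `eval_derivative_prod` : `(∏ (X - C (ρ j)))'(ρ i) = ∏_{j ≠ i} (ρ i - ρ j)`.
* `eq_lagrange` : `H` of degree `< #ι` with `H(ρ i) = u i * ∏_{j ≠ i} (ρ i - ρ j)` is the Lagrange
  resolvent `∑ i, C (u i) * ∏_{j ≠ i} (X - C (ρ j))`.
-/

set_option autoImplicit false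

namespace Fermat.Agent.S28.RootsLagrange

open Polynomial

variable {L : Type*} [CommRing L] {ι : Type*} [Fintype ι]

/-- The product `∏ (X - C (ρ i))` is monic. -/
theorem monic_prod (ρ : ι → L) : (∏ i, (X - C (ρ i))).Monic :=
  monic_prod_of_monic _ _ fun i _ => monic_X_sub_C (ρ i)

/-- The product `∏ (X - C (ρ i))` has degree `#ι`. -/
theorem natDegree_prod [Nontrivial L] (ρ : ι → L) :
    (∏ i, (X - C (ρ i))).natDegree = Fintype.card ι := by
  rw [natDegree_prod_of_monic _ _ fun i _ => monic_X_sub_C (ρ i)]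
  simp

variable [DecidableEq ι]

/-- Evaluation of the `i`-th Lagrange numerator `∏_{j ≠ i} (X - C (ρ j))` at `ρ i'`, `i' ≠ i`. -/
theorem eval_prod_erase_of_ne (ρ : ι → L) {i i' : ι} (h : i' ≠ i) :
    (∏ j ∈ Finset.univ.erase i, (X - C (ρ j))).eval (ρ i') = 0 := by
  rw [eval_prod]
  refine Finset.prod_eq_zero (Finset.mem_erase.mpr ⟨h, Finset.mem_univ i'⟩) ?_
  simp

theorem eval_prod_erase_self (ρ : ι → L) (i : ι) :
    (∏ j ∈ Finset.univ.erase i, (X - C (ρ j))).eval (ρ i) =
      ∏ j ∈ Finset.univ.erase i, (ρ i - ρ j) := by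
  rw [eval_prod]
  refine Finset.prod_congr rfl fun j _ => ?_
  simp

/-- Evaluation of the Lagrange resolvent `∑ i, C (u i) * ∏_{j ≠ i} (X - C (ρ j))` at `ρ i`. -/
theorem eval_resolvent (ρ u : ι → L) (i : ι) :
    (∑ i', C (u i') * ∏ j ∈ Finset.univ.erase i', (X - C (ρ j))).eval (ρ i) =
      u i * ∏ j ∈ Finset.univ.erase i, (ρ i - ρ j) := by
  rw [eval_finsetSum, Finset.sum_eq_single i]
  · rw [eval_mul, eval_C, eval_prod_erase_self]
  · intro i' _ hne
    rw [eval_mul, eval_prod_erase_of_ne ρ (Ne.symm hne), mul_zero]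
  · intro h
    exact absurd (Finset.mem_univ i) h

/-- `(∏ (X - C (ρ j)))'(ρ i) = ∏_{j ≠ i} (ρ i - ρ j)`. -/
theorem eval_derivative_prod (ρ : ι → L) (i : ι) :
    (derivative (∏ j, (X - C (ρ j)))).eval (ρ i) = ∏ j ∈ Finset.univ.erase i, (ρ i - ρ j) := by
  rw [derivative_prod_finset, eval_finsetSum, Finset.sum_eq_single i]
  · rw [eval_mul, eval_prod_erase_self]
    simp
  · intro i' _ hne
    rw [eval_mul, eval_prod_erase_of_ne ρ (Ne.symm hne), zero_mul]
  · intro h
    exact absurd (Finset.mem_univ i) h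

/-- The derivative of `∏ (X - C (ρ j))` is the resolvent with all `u i = 1`. -/
theorem derivative_prod_eq (ρ : ι → L) :
    derivative (∏ j, (X - C (ρ j))) = ∑ i, ∏ j ∈ Finset.univ.erase i, (X - C (ρ j)) := by
  rw [derivative_prod_finset]
  refine Finset.sum_congr rfl fun i _ => ?_
  simp

/-- The Lagrange resolvent has degree `< #ι`. -/
theorem degree_resolvent_lt [Nontrivial L] (ρ u : ι → L) :
    (∑ i, C (u i) * ∏ j ∈ Finset.univ.erase i, (X - C (ρ j))).degree < Fintype.card ι := by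
  refine lt_of_le_of_lt (degree_sum_le _ _) ?_
  rw [Finset.sup_lt_iff (by exact WithBot.bot_lt_coe _)]
  intro i _
  have hC : (C (u i) * ∏ j ∈ Finset.univ.erase i, (X - C (ρ j))).degree ≤
      (∏ j ∈ Finset.univ.erase i, (X - C (ρ j))).degree := by
    refine (degree_mul_le _ _).trans ?_
    calc (C (u i)).degree + (∏ j ∈ Finset.univ.erase i, (X - C (ρ j))).degree
        ≤ 0 + (∏ j ∈ Finset.univ.erase i, (X - C (ρ j))).degree :=
          add_le_add_left degree_C_le _
      _ = _ := zero_add _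
  refine lt_of_le_of_lt hC ?_
  have hm : (∏ j ∈ Finset.univ.erase i, (X - C (ρ j))).Monic :=
    monic_prod_of_monic _ _ fun j _ => monic_X_sub_C (ρ j)
  rw [degree_eq_natDegree hm.ne_zero,
    natDegree_prod_of_monic _ _ fun j _ => monic_X_sub_C (ρ j)]
  simp only [natDegree_X_sub_C, Finset.sum_const, smul_eq_mul, mul_one]
  rw [Finset.card_erase_of_mem (Finset.mem_univ i), Finset.card_univ]
  have hpos : 0 < Fintype.card ι := Fintype.card_pos_iff.mpr ⟨i⟩
  exact_mod_cast Nat.sub_lt hpos one_pos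

variable [IsDomain L]

omit [DecidableEq ι] in
/-- A monic polynomial of degree `#ι` vanishing at the `#ι` distinct points `ρ i` is
`∏ (X - C (ρ i))`. -/
theorem eq_prod_of_roots (F : Polynomial L) (hF : F.Monic) (ρ : ι → L)
    (hinj : Function.Injective ρ) (hcard : F.natDegree = Fintype.card ι)
    (hroot : ∀ i, F.eval (ρ i) = 0) : F = ∏ i, (X - C (ρ i)) := by
  have hG : (∏ i, (X - C (ρ i))).Monic := monic_prod ρ
  have hGd : (∏ i, (X - C (ρ i))).natDegree = Fintype.card ι := natDegree_prod ρ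
  by_contra hne
  have hsub : F - ∏ i, (X - C (ρ i)) ≠ 0 := sub_ne_zero.mpr hne
  have hdeg : (F - ∏ i, (X - C (ρ i))).degree < F.degree :=
    degree_sub_lt_left (by rw [degree_eq_natDegree hF.ne_zero, degree_eq_natDegree hG.ne_zero,
      hcard, hGd]) hF.ne_zero (by rw [hF.leadingCoeff, hG.leadingCoeff])
  have hnat : (F - ∏ i, (X - C (ρ i))).natDegree < Fintype.card ι := by
    rw [← hcard]
    exact natDegree_lt_natDegree hsub hdeg
  refine hsub (eq_zero_of_natDegree_lt_card_of_eval_eq_zero _ hinj (fun i => ?_) hnat)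
  rw [eval_sub, hroot i, eval_prod, Finset.prod_eq_zero (Finset.mem_univ i) (by simp), sub_zero]

/-- Lagrange interpolation in resolvent form: a polynomial `H` of degree `< #ι` with
`H(ρ i) = u i * ∏_{j ≠ i} (ρ i - ρ j)` is `∑ i, C (u i) * ∏_{j ≠ i} (X - C (ρ j))`. -/
theorem eq_lagrange (H : Polynomial L) (ρ u : ι → L) (hinj : Function.Injective ρ)
    (hdeg : H.degree < Fintype.card ι)
    (h : ∀ i, H.eval (ρ i) = u i * ∏ j ∈ Finset.univ.erase i, (ρ i - ρ j)) :
    H = ∑ i, C (u i) * ∏ j ∈ Finset.univ.erase i, (X - C (ρ j)) := by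
  have hcard : (Fintype.card ι : WithBot ℕ) = ((Finset.univ : Finset ι).card : WithBot ℕ) := by
    rw [Finset.card_univ]
  refine eq_of_degrees_lt_of_eval_index_eq (s := Finset.univ) (v := ρ) hinj.injOn
    (by rw [← hcard]; exact hdeg) (by rw [← hcard]; exact degree_resolvent_lt ρ u) ?_
  intro i _
  rw [h i, eval_resolvent]

/-- The values `u i` are determined by a degree-`< #ι` polynomial `T` through
`u i * F'(ρ i) = T(ρ i)`, `F = ∏ (X - C (ρ j))`: then `T` is the Lagrange resolvent of `u`. -/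
theorem eq_lagrange_of_derivative (T : Polynomial L) (ρ u : ι → L) (hinj : Function.Injective ρ)
    (hdeg : T.degree < Fintype.card ι)
    (h : ∀ i, u i * (derivative (∏ j, (X - C (ρ j)))).eval (ρ i) = T.eval (ρ i)) :
    T = ∑ i, C (u i) * ∏ j ∈ Finset.univ.erase i, (X - C (ρ j)) :=
  eq_lagrange T ρ u hinj hdeg fun i => by rw [← h i, eval_derivative_prod]

/-- For distinct roots, the derivative of `∏ (X - C (ρ j))` does not vanish at any `ρ i`. -/
theorem eval_derivative_prod_ne_zero (ρ : ι → L) (hinj : Function.Injective ρ) (i : ι) :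
    (derivative (∏ j, (X - C (ρ j)))).eval (ρ i) ≠ 0 := by
  rw [eval_derivative_prod, Finset.prod_ne_zero_iff]
  intro j hj
  exact sub_ne_zero.mpr fun h => (Finset.mem_erase.mp hj).1 (hinj h).symm

end Fermat.Agent.S28.RootsLagrange
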